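import Fermat.Agent.BAD.H28_NodeRad2

/-!
# S15 / DESC, leaf COORD (helper67): coordinates at the nodes of a semistable Deuring datum

`S` an `SSD` (two components, nodes), `s` a node, `ϖ` a constant of the maximal ideal (a
uniformizer of the field of definition), `F0` a subfield of `F` (the functions fixed by the
inertia group).

A **coordinate** at `s` of thickness `n` is a function `x` such that
* `x` is a unit for `V₁`, and `red₁ x` has a simple zero at `s₁`;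
* `x` has no zero and no pole reducing to `s`;
* `x / ϖ ^ n` is a unit for `V₂`, and `red₂ (x / ϖ ^ n)` has a simple pole at `s₂`.

`exists_coord`: if
* (START) `x₀ ∈ F0 ∩ V₁ ∩ V₂`, `red₁ x₀` has a simple zero at `s₁`, `red₂ x₀ = 0`, no pole of `x₀`
  reduces to `s`;
* (LIFT) every `ψ ∈ F₂` regular at `s₂` is `red₂ g` with `g ∈ F0 ∩ V₁ ∩ V₂` without pole reducing
  to `s`;
* (DISC) `f ∈ F0 ∩ V₂`, `red₂ f = 0` implies `f / ϖ ∈ V₂` (`ϖ` is a uniformizer of `V₂ ∩ F0`);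
* (UNIT) `U` is a unit for `V₁` without zero or pole reducing to `s`, `a = ord_{s₁} (red₁ U) > 0`,
  and `U / ϖ ^ w` is a unit for `V₂`;
then there is a coordinate `x ∈ F0` at `s`, of thickness `n ≥ 1` with `n * a = w`.

Proof: `x ↦ x - ϖ ^ n g` (`g` a lift of `red₂ (x / ϖ ^ n)`) raises `n`; `n a ≤ w` by `glue`
applied to `x ^ a / U`; conservation at the node (`DIn`) shows that `x` is zero-free as soon as
`red₂ (x / ϖ ^ n)` has a pole at `s₂`.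
-/

set_option autoImplicit false
set_option linter.style.haveILetI false

noncomputable section

open AlgebraicCurve

attribute [local instance] Classical.propDecidable

namespace Fermat.Agent.S15.Desc.H67

open Fermat.Agent.RED.H17 Fermat.Agent.RED Fermat.Agent.BAD

variable {K F k F₁ F₂ : Type*} [Field K] [Field F] [Algebra K F] [Field k] [Field F₁]
  [Algebra k F₁] [Field F₂] [Algebra k F₂] (S : SSD K F k F₁ F₂)

/-- No pole of `f` reduces to the node `s`. -/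
def PoleFree (s : Place k F₁ × Place k F₂) (f : F) : Prop :=
  ∀ P : Place K F, S.c₁.r P = some s.1 → 0 ≤ P.ord f

/-- No zero and no pole of `f` reduces to the node `s`. -/
def ZeroFree (s : Place k F₁ × Place k F₂) (f : F) : Prop :=
  ∀ P : Place K F, S.c₁.r P = some s.1 → P.ord f = 0

variable {S}

theorem ZeroFree.poleFree {s : Place k F₁ × Place k F₂} {f : F} (h : ZeroFree S s f) :
    PoleFree S s f := fun P hP => (h P hP).ge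

theorem PoleFree.mul {s : Place k F₁ × Place k F₂} {f g : F} (hf : PoleFree S s f)
    (hg : PoleFree S s g) : PoleFree S s (f * g) := by
  intro P hP
  rcases eq_or_ne f 0 with rfl | hf0
  · simp
  rcases eq_or_ne g 0 with rfl | hg0
  · simp
  rw [P.ord_mul hf0 hg0]
  have := hf P hP
  have := hg P hP
  omega

theorem PoleFree.pow {s : Place k F₁ × Place k F₂} {f : F} (hf : PoleFree S s f) (n : ℕ) :
    PoleFree S s (f ^ n) := by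
  intro P hP
  rw [ord_pow]
  have := hf P hP
  positivity

theorem PoleFree.sub {s : Place k F₁ × Place k F₂} {f g : F} (hf : PoleFree S s f)
    (hg : PoleFree S s g) : PoleFree S s (f - g) := by
  intro P hP
  exact ((regAt_of_ord_nonneg (hf P hP)).sub (regAt_of_ord_nonneg (hg P hP))).ord_nonneg

theorem poleFree_const (s : Place k F₁ × Place k F₂) (c : K) :
    PoleFree S s (algebraMap K F c) :=
  fun P _ => (regAt_algebraMap P c).ord_nonneg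

theorem ZeroFree.inv {s : Place k F₁ × Place k F₂} {f : F} (h : ZeroFree S s f) :
    ZeroFree S s f⁻¹ := by
  intro P hP
  rw [P.ord_inv, h P hP, neg_zero]

/-- **Gluing with a vanishing second reduction**: if `h ∈ V₁ ∩ 𝔪_{V₂}` has no pole reducing to the
node `s`, then `red₁ h` vanishes at `s₁`. -/
theorem vanAt₁_of_rd₂_eq_zero {s : Place k F₁ × Place k F₂} (hs : s ∈ S.nodes) {h : F}
    (h₁ : h ∈ S.c₁.V) (h₂ : h ∈ S.c₂.V) (h0 : S.c₂.rd h = 0) (hpf : PoleFree S s h) :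
    VanAt s.1 (S.c₁.rd h) := by
  obtain ⟨a, ha1, ha2⟩ := S.glue s hs h h₁ h₂ hpf
  rw [← S.c₁.rd_of_mem h₁] at ha1
  rw [← S.c₂.rd_of_mem h₂, h0, zero_sub, ← map_neg] at ha2
  have ha : a = 0 := by
    by_contra hne
    exact not_vanAt_algebraMap s.2 (neg_ne_zero.mpr hne) ha2
  rw [ha, map_zero, sub_zero] at ha1
  exact ha1

/-- The constant `ϖ ^ d`, `d ≥ 1`, lies in the maximal ideal of `V₂`. -/
theorem rd₂_pow_unif {c₀ : K} (h₁ : algebraMap K F c₀ ∈ S.c₁.V)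
    (h0 : S.c₁.rd (algebraMap K F c₀) = 0) {d : ℕ} (hd : 0 < d) :
    algebraMap K F c₀ ^ d ∈ S.c₂.V ∧ S.c₂.rd (algebraMap K F c₀ ^ d) = 0 := by
  obtain ⟨h₂, h20⟩ := S.rd₂_const_zero h₁ h0
  refine ⟨S.c₂.V.pow_mem h₂ d, ?_⟩
  rw [S.c₂.rd_pow h₂, h20, zero_pow hd.ne']

theorem rd₁_pow_unif {c₀ : K} (h₁ : algebraMap K F c₀ ∈ S.c₁.V)
    (h0 : S.c₁.rd (algebraMap K F c₀) = 0) {d : ℕ} (hd : 0 < d) :
    algebraMap K F c₀ ^ d ∈ S.c₁.V ∧ S.c₁.rd (algebraMap K F c₀ ^ d) = 0 := by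
  refine ⟨S.c₁.V.pow_mem h₁ d, ?_⟩
  rw [S.c₁.rd_pow h₁, h0, zero_pow hd.ne']

/-- The invariant of the construction: `x` is a unit for `V₁` with a simple zero of `red₁ x` at
`s₁`, no pole of `x` reduces to `s`, and `x ∈ ϖ ^ n V₂`, `n ≥ 1`. -/
structure PreCoord (S : SSD K F k F₁ F₂) (s : Place k F₁ × Place k F₂) (c₀ : K) (x : F)
    (n : ℕ) : Prop where
  gu : S.c₁.IsGU x
  ord₁ : s.1.ord (S.c₁.rd x) = 1
  pf : PoleFree S s x
  pos : 0 < n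
  mem₂ : x / algebraMap K F c₀ ^ n ∈ S.c₂.V

/-- `x` is a **coordinate** at the node `s`, of thickness `n` (with respect to the uniformizer
`ϖ = c₀`). -/
structure IsCoordAt (S : SSD K F k F₁ F₂) (s : Place k F₁ × Place k F₂) (c₀ : K) (x : F)
    (n : ℕ) : Prop where
  gu : S.c₁.IsGU x
  ord₁ : s.1.ord (S.c₁.rd x) = 1
  zf : ZeroFree S s x
  pos : 0 < n
  gu₂ : S.c₂.IsGU (x / algebraMap K F c₀ ^ n)
  ord₂ : s.2.ord (S.c₂.rd (x / algebraMap K F c₀ ^ n)) = -1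

theorem IsCoordAt.preCoord {s : Place k F₁ × Place k F₂} {c₀ : K} {x : F} {n : ℕ}
    (h : IsCoordAt S s c₀ x n) : PreCoord S s c₀ x n :=
  ⟨h.gu, h.ord₁, h.zf.poleFree, h.pos, h.gu₂.1⟩

section Main

variable {s : Place k F₁ × Place k F₂} {c₀ : K}

/-- **BOUND**: `n a ≤ w`. -/
theorem PreCoord.bound (hs : s ∈ S.nodes) (hc₀ : c₀ ≠ 0)
    (hϖ₁ : algebraMap K F c₀ ∈ S.c₁.V) (hϖ0 : S.c₁.rd (algebraMap K F c₀) = 0)
    {U : F} (hU : S.c₁.IsGU U) (hUzf : ZeroFree S s U) {w : ℕ}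
    (hU₂ : S.c₂.IsGU (U / algebraMap K F c₀ ^ w)) {a : ℕ}
    (ha : s.1.ord (S.c₁.rd U) = a)
    {x : F} {n : ℕ} (hx : PreCoord S s c₀ x n) : n * a ≤ w := by
  by_contra hlt
  rw [not_le] at hlt
  set ϖ : F := algebraMap K F c₀ with hϖ
  have hϖne : ϖ ≠ 0 := (map_ne_zero_iff _ (algebraMap K F).injective).mpr hc₀
  set h : F := x ^ a / U with hh
  have hgu : S.c₁.IsGU h := (hx.gu.pow a).div hU
  have hrd : S.c₁.rd h = S.c₁.rd x ^ a / S.c₁.rd U := by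
    rw [hh, (hx.gu.pow a).rd_div hU, S.c₁.rd_pow hx.gu.1]
  have hord : s.1.ord (S.c₁.rd h) = 0 := by
    rw [hrd, ord_div _ (pow_ne_zero _ hx.gu.2) hU.2, ord_pow, hx.ord₁, ha]
    ring
  obtain ⟨d, hd⟩ : ∃ d : ℕ, n * a = w + (d + 1) := ⟨n * a - w - 1, by omega⟩
  have hfac : h = ϖ ^ (d + 1) * ((x / ϖ ^ n) ^ a * (U / ϖ ^ w)⁻¹) := by
    have hUne : U ≠ 0 := hU.ne_zero
    rw [hh, div_pow, ← pow_mul, hd, pow_add]
    field_simp
    ring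
  obtain ⟨hp₂, hp0⟩ := rd₂_pow_unif (S := S) hϖ₁ hϖ0 (Nat.succ_pos d)
  have hAB : (x / ϖ ^ n) ^ a * (U / ϖ ^ w)⁻¹ ∈ S.c₂.V :=
    S.c₂.V.mul_mem _ _ (S.c₂.V.pow_mem hx.mem₂ a) hU₂.inv_mem
  have h₂ : h ∈ S.c₂.V := by
    rw [hfac]
    exact S.c₂.V.mul_mem _ _ hp₂ hAB
  have h20 : S.c₂.rd h = 0 := by
    rw [hfac, S.c₂.rd_mul hp₂ hAB, hp0, zero_mul]
  have hpf : PoleFree S s h := by
    rw [hh, div_eq_mul_inv]
    exact (hx.pf.pow a).mul hUzf.inv.poleFree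
  have hvan := vanAt₁_of_rd₂_eq_zero hs hgu.1 h₂ h20 hpf
  have := hvan.ord_pos hgu.2
  omega

/-- **Thickness**: for a coordinate, `n a = w`. -/
theorem IsCoordAt.thickness (hs : s ∈ S.nodes) (hc₀ : c₀ ≠ 0)
    (hϖ₁ : algebraMap K F c₀ ∈ S.c₁.V) (hϖ0 : S.c₁.rd (algebraMap K F c₀) = 0)
    {U : F} (hU : S.c₁.IsGU U) (hUzf : ZeroFree S s U) {w : ℕ}
    (hU₂ : S.c₂.IsGU (U / algebraMap K F c₀ ^ w)) {a : ℕ}
    (ha : s.1.ord (S.c₁.rd U) = a)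
    {x : F} {n : ℕ} (hx : IsCoordAt S s c₀ x n) : n * a = w := by
  refine le_antisymm (hx.preCoord.bound hs hc₀ hϖ₁ hϖ0 hU hUzf hU₂ ha) ?_
  by_contra hlt
  rw [not_le] at hlt
  set ϖ : F := algebraMap K F c₀ with hϖ
  have hϖne : ϖ ≠ 0 := (map_ne_zero_iff _ (algebraMap K F).injective).mpr hc₀
  set h : F := U / x ^ a with hh
  have hgu : S.c₁.IsGU h := hU.div (hx.gu.pow a)
  have hrd : S.c₁.rd h = S.c₁.rd U / S.c₁.rd x ^ a := by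
    rw [hh, hU.rd_div (hx.gu.pow a), S.c₁.rd_pow hx.gu.1]
  have hord : s.1.ord (S.c₁.rd h) = 0 := by
    rw [hrd, ord_div _ hU.2 (pow_ne_zero _ hx.gu.2), ord_pow, hx.ord₁, ha]
    ring
  obtain ⟨d, hd⟩ : ∃ d : ℕ, w = n * a + (d + 1) := ⟨w - n * a - 1, by omega⟩
  have hxne : x ≠ 0 := hx.gu.ne_zero
  have hfac : h = ϖ ^ (d + 1) * ((U / ϖ ^ w) * ((x / ϖ ^ n) ^ a)⁻¹) := by
    rw [hh, div_pow, ← pow_mul, hd, pow_add]
    field_simp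
    ring
  obtain ⟨hp₂, hp0⟩ := rd₂_pow_unif (S := S) hϖ₁ hϖ0 (Nat.succ_pos d)
  have hAB : (U / ϖ ^ w) * ((x / ϖ ^ n) ^ a)⁻¹ ∈ S.c₂.V :=
    S.c₂.V.mul_mem _ _ hU₂.1 (hx.gu₂.pow a).inv_mem
  have h₂ : h ∈ S.c₂.V := by
    rw [hfac]
    exact S.c₂.V.mul_mem _ _ hp₂ hAB
  have h20 : S.c₂.rd h = 0 := by
    rw [hfac, S.c₂.rd_mul hp₂ hAB, hp0, zero_mul]
  have hpf : PoleFree S s h := by
    intro P hPs
    rw [hh, ord_div _ hU.ne_zero (pow_ne_zero _ hxne), ord_pow, hUzf P hPs, hx.zf P hPs]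
    simp
  have hvan := vanAt₁_of_rd₂_eq_zero hs hgu.1 h₂ h20 hpf
  have := hvan.ord_pos hgu.2
  omega

/-- **STEP**: either `x` is a coordinate of thickness `n`, or there is `x'` in `ϖ ^ (n+1) V₂`. -/
theorem PreCoord.step (hs : s ∈ S.nodes) (hP : HasPrincipalDivisors K F)
    (hϖ₁ : algebraMap K F c₀ ∈ S.c₁.V) (hϖ0 : S.c₁.rd (algebraMap K F c₀) = 0)
    (F0 : Subfield F) (hϖF : algebraMap K F c₀ ∈ F0)
    (hlift : ∀ ψ : F₂, 0 ≤ s.2.ord ψ →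
      ∃ g ∈ F0, g ∈ S.c₁.V ∧ g ∈ S.c₂.V ∧ S.c₂.rd g = ψ ∧ PoleFree S s g)
    (hdisc : ∀ f ∈ F0, f ∈ S.c₂.V → S.c₂.rd f = 0 → f / algebraMap K F c₀ ∈ S.c₂.V)
    {x : F} {n : ℕ} (hxF : x ∈ F0) (hx : PreCoord S s c₀ x n) :
    IsCoordAt S s c₀ x n ∨ ∃ x' ∈ F0, PreCoord S s c₀ x' (n + 1) := by
  set ϖ : F := algebraMap K F c₀ with hϖ
  set u₂ : F := x / ϖ ^ n with hu₂
  have hu₂F : u₂ ∈ F0 := F0.div_mem hxF (F0.pow_mem hϖF n)
  by_cases h0 : S.c₂.rd u₂ = 0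
  · right
    refine ⟨x, hxF, hx.gu, hx.ord₁, hx.pf, Nat.succ_pos n, ?_⟩
    have := hdisc u₂ hu₂F hx.mem₂ h0
    rwa [hu₂, div_div, ← pow_succ] at this
  · have hgu₂ : S.c₂.IsGU u₂ := ⟨hx.mem₂, h0⟩
    have hsum := S.sum_node hP hs hx.gu hgu₂ ⟨(c₀ ^ n)⁻¹, by
      rw [hu₂, hϖ, map_inv₀, map_pow, div_eq_inv_mul]⟩
    have hnn : ∀ P ∈ (dv hP x).support,
        0 ≤ (if S.c₁.r P = some s.1 then P.ord x else 0) := by
      intro P _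
      split_ifs with hPs
      · exact hx.pf P hPs
      · exact le_rfl
    have hge := Finset.sum_nonneg hnn
    rw [← hsum, hx.ord₁] at hge
    rcases (show s.2.ord (S.c₂.rd u₂) = -1 ∨ 0 ≤ s.2.ord (S.c₂.rd u₂) by omega) with h1 | h1
    · left
      refine ⟨hx.gu, hx.ord₁, ?_, hx.pos, hgu₂, h1⟩
      intro P hPs
      rw [hx.ord₁, h1] at hsum
      by_cases hmem : P ∈ (dv hP x).support
      · have := eq_zero_of_sum_eq_zero _ _ hnn (by rw [← hsum]; norm_num) hmem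
        rwa [if_pos hPs] at this
      · rw [Finsupp.notMem_support_iff, dv_apply] at hmem
        exact hmem
    · right
      obtain ⟨g, hgF, hg₁, hg₂, hgrd, hgpf⟩ := hlift _ h1
      obtain ⟨hp₁, hp0⟩ := rd₁_pow_unif (S := S) hϖ₁ hϖ0 hx.pos
      have hpg₁ : ϖ ^ n * g ∈ S.c₁.V := S.c₁.V.mul_mem _ _ hp₁ hg₁
      have hpg0 : S.c₁.rd (ϖ ^ n * g) = 0 := by
        rw [S.c₁.rd_mul hp₁ hg₁, hp0, zero_mul]
      have hx'₁ : x - ϖ ^ n * g ∈ S.c₁.V := S.c₁.V.sub_mem hx.gu.1 hpg₁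
      have hrd' : S.c₁.rd (x - ϖ ^ n * g) = S.c₁.rd x := by
        rw [S.c₁.rd_sub hx.gu.1 hpg₁, hpg0, sub_zero]
      have hϖne : ϖ ^ n ≠ 0 := by
        intro h
        rw [h, zero_mul] at hpg0
        have hxn := hx.mem₂
        have h2 := hgu₂.ne_zero
        rw [hu₂, h, div_zero] at h2
        exact h2 rfl
      refine ⟨x - ϖ ^ n * g, F0.sub_mem hxF (F0.mul_mem (F0.pow_mem hϖF n) hgF),
        ⟨hx'₁, by rw [hrd']; exact hx.gu.2⟩, by rw [hrd']; exact hx.ord₁, ?_, Nat.succ_pos n, ?_⟩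
      · refine hx.pf.sub (PoleFree.mul ?_ hgpf)
        rw [hϖ, ← map_pow]
        exact poleFree_const s _
      · have he : (x - ϖ ^ n * g) / ϖ ^ n = u₂ - g := by
          rw [hu₂]
          field_simp
        have hm : u₂ - g ∈ S.c₂.V := S.c₂.V.sub_mem hx.mem₂ hg₂
        have hr : S.c₂.rd (u₂ - g) = 0 := by
          rw [S.c₂.rd_sub hx.mem₂ hg₂, hgrd, sub_self]
        have := hdisc (u₂ - g) (F0.sub_mem hu₂F hgF) hm hr
        rwa [← he, div_div, ← pow_succ] at this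

/-- **COORD**: existence of a coordinate in `F0` at the node `s`, with `n a = w`. -/
theorem exists_coord (hs : s ∈ S.nodes) (hP : HasPrincipalDivisors K F) (hc₀ : c₀ ≠ 0)
    (hϖ₁ : algebraMap K F c₀ ∈ S.c₁.V) (hϖ0 : S.c₁.rd (algebraMap K F c₀) = 0)
    (F0 : Subfield F) (hϖF : algebraMap K F c₀ ∈ F0)
    (hlift : ∀ ψ : F₂, 0 ≤ s.2.ord ψ →
      ∃ g ∈ F0, g ∈ S.c₁.V ∧ g ∈ S.c₂.V ∧ S.c₂.rd g = ψ ∧ PoleFree S s g)
    (hdisc : ∀ f ∈ F0, f ∈ S.c₂.V → S.c₂.rd f = 0 → f / algebraMap K F c₀ ∈ S.c₂.V)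
    {U : F} (hU : S.c₁.IsGU U) (hUzf : ZeroFree S s U) {w : ℕ}
    (hU₂ : S.c₂.IsGU (U / algebraMap K F c₀ ^ w)) {a : ℕ} (ha0 : 0 < a)
    (ha : s.1.ord (S.c₁.rd U) = a)
    {x₀ : F} (hx₀F : x₀ ∈ F0) (hx₀₁ : x₀ ∈ S.c₁.V) (hx₀o : s.1.ord (S.c₁.rd x₀) = 1)
    (hx₀₂ : x₀ ∈ S.c₂.V) (hx₀r : S.c₂.rd x₀ = 0) (hx₀pf : PoleFree S s x₀) :
    ∃ x ∈ F0, ∃ n : ℕ, IsCoordAt S s c₀ x n ∧ n * a = w := by
  have key : ∀ m : ℕ, ∀ (x : F) (n : ℕ), x ∈ F0 → PreCoord S s c₀ x n → w < n + m →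
      ∃ x ∈ F0, ∃ n : ℕ, IsCoordAt S s c₀ x n := by
    intro m
    induction m with
    | zero =>
      intro x n _ hx hlt
      have hb := hx.bound hs hc₀ hϖ₁ hϖ0 hU hUzf hU₂ ha
      have : n ≤ n * a := Nat.le_mul_of_pos_right n ha0
      omega
    | succ m ih =>
      intro x n hxF hx hlt
      rcases hx.step hs hP hϖ₁ hϖ0 F0 hϖF hlift hdisc hxF with h | ⟨x', hx'F, hx'⟩
      · exact ⟨x, hxF, n, h⟩
      · exact ih x' (n + 1) hx'F hx' (by omega)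
  have hgu₀ : S.c₁.IsGU x₀ := by
    refine ⟨hx₀₁, fun h => ?_⟩
    rw [h, Place.ord_zero] at hx₀o
    exact zero_ne_one hx₀o
  have h1 : PreCoord S s c₀ x₀ 1 := by
    refine ⟨hgu₀, hx₀o, hx₀pf, Nat.one_pos, ?_⟩
    rw [pow_one]
    exact hdisc x₀ hx₀F hx₀₂ hx₀r
  obtain ⟨x, hxF, n, hx⟩ := key w x₀ 1 hx₀F h1 (by omega)
  exact ⟨x, hxF, n, hx, hx.thickness hs hc₀ hϖ₁ hϖ0 hU hUzf hU₂ ha⟩

/-- A coordinate in the sense of this file is an annulus coordinate in the sense of helper28's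
`SSD.IsAnnCoord`, of thickness `c₀ ^ n`. -/
theorem IsCoordAt.isAnnCoord {x : F} {n : ℕ} (h : IsCoordAt S s c₀ x n) :
    S.IsAnnCoord s x (c₀ ^ n) := by
  have hinv : algebraMap K F (c₀ ^ n) / x = (x / algebraMap K F c₀ ^ n)⁻¹ := by
    rw [inv_div, map_pow]
  refine ⟨h.gu, h.ord₁, ?_, ?_, h.zf⟩
  · rw [hinv]
    exact h.gu₂.inv
  · rw [hinv, h.gu₂.rd_inv, Place.ord_inv, h.ord₂]
    rfl

/-- **COORD**, in helper28's form. -/
theorem exists_isAnnCoord (hs : s ∈ S.nodes) (hP : HasPrincipalDivisors K F) (hc₀ : c₀ ≠ 0)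
    (hϖ₁ : algebraMap K F c₀ ∈ S.c₁.V) (hϖ0 : S.c₁.rd (algebraMap K F c₀) = 0)
    (F0 : Subfield F) (hϖF : algebraMap K F c₀ ∈ F0)
    (hlift : ∀ ψ : F₂, 0 ≤ s.2.ord ψ →
      ∃ g ∈ F0, g ∈ S.c₁.V ∧ g ∈ S.c₂.V ∧ S.c₂.rd g = ψ ∧ PoleFree S s g)
    (hdisc : ∀ f ∈ F0, f ∈ S.c₂.V → S.c₂.rd f = 0 → f / algebraMap K F c₀ ∈ S.c₂.V)
    {U : F} (hU : S.c₁.IsGU U) (hUzf : ZeroFree S s U) {w : ℕ}
    (hU₂ : S.c₂.IsGU (U / algebraMap K F c₀ ^ w)) {a : ℕ} (ha0 : 0 < a)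
    (ha : s.1.ord (S.c₁.rd U) = a)
    {x₀ : F} (hx₀F : x₀ ∈ F0) (hx₀₁ : x₀ ∈ S.c₁.V) (hx₀o : s.1.ord (S.c₁.rd x₀) = 1)
    (hx₀₂ : x₀ ∈ S.c₂.V) (hx₀r : S.c₂.rd x₀ = 0) (hx₀pf : PoleFree S s x₀) :
    ∃ t ∈ F0, ∃ n : ℕ, 0 < n ∧ S.IsAnnCoord s t (c₀ ^ n) ∧ n * a = w := by
  obtain ⟨x, hxF, n, hx, hn⟩ := exists_coord hs hP hc₀ hϖ₁ hϖ0 F0 hϖF hlift hdisc hU hUzf hU₂
    ha0 ha hx₀F hx₀₁ hx₀o hx₀₂ hx₀r hx₀pf
  exact ⟨x, hxF, n, hx.pos, hx.isAnnCoord, hn⟩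

end Main

end Fermat.Agent.S15.Desc.H67
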