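/-
S15 / DESC, package GLOB (helper97), part 1: Hilbert 90 for the absolute Galois group of `ℚ`.

* `finite_quot_fixingSubgroup` : the fixer of a finite extension has finite index in `Gal(ℚ̄/ℚ)`.
* `hilbert90_GQ` : a crossed homomorphism `z : Gal(ℚ̄/ℚ) → ℚ̄ˣ` which is trivial on the pointwise
  fixer of a finite set is a coboundary: `σ γ = z σ * γ`.
* `kummer_class` : if moreover `z σ ^ r = 1` for all `σ`, then `γ ^ r` is rational.
* `kummer_class_unique` : two such `γ` for the same `z` differ by a nonzero rational number.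
-/
import Fermat.Agent.Lib.LocalKummer.Resolvent

set_option autoImplicit false

namespace Fermat.Agent.S15.Desc.H97

local notation "Qbar" => AlgebraicClosure ℚ
local notation "GQ" => (AlgebraicClosure ℚ ≃ₐ[ℚ] AlgebraicClosure ℚ)

theorem qbar_isAlgebraic : Algebra.IsAlgebraic ℚ (AlgebraicClosure ℚ) :=
  AlgebraicClosure.isAlgebraic ℚ

attribute [local instance] qbar_isAlgebraic

theorem qbar_isAlgClosure : IsAlgClosure ℚ (AlgebraicClosure ℚ) :=
  ⟨inferInstance, inferInstance⟩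

attribute [local instance] qbar_isAlgClosure

theorem qbar_isGalois : IsGalois ℚ (AlgebraicClosure ℚ) := inferInstance

attribute [local instance] qbar_isGalois

/-- The fixer of a finite extension has finite index. -/
theorem finite_quot_fixingSubgroup (F : IntermediateField ℚ Qbar) [FiniteDimensional ℚ F] :
    Finite (GQ ⧸ F.fixingSubgroup) := by
  let f : GQ → (F →ₐ[ℚ] Qbar) := fun s => ((s : Qbar ≃ₐ[ℚ] Qbar) : Qbar →ₐ[ℚ] Qbar).comp F.val
  have hf : ∀ s t : GQ, f s = f t → s⁻¹ * t ∈ F.fixingSubgroup := by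
    intro s t hst
    rw [IntermediateField.mem_fixingSubgroup_iff]
    intro x hx
    have h1 : s x = t x := congrArg (fun φ : F →ₐ[ℚ] Qbar => φ ⟨x, hx⟩) hst
    show s⁻¹ (t x) = x
    rw [← h1]
    exact s.symm_apply_apply x
  have hf' : ∀ s t : GQ, s⁻¹ * t ∈ F.fixingSubgroup → f s = f t := by
    intro s t hst
    rw [IntermediateField.mem_fixingSubgroup_iff] at hst
    apply AlgHom.ext
    intro x
    have h2 : s⁻¹ (t x) = x := hst x x.2
    have h3 := congrArg s h2
    show s x = t x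
    rw [← h3]
    exact s.apply_symm_apply (t x)
  let fbar : GQ ⧸ F.fixingSubgroup → (F →ₐ[ℚ] Qbar) :=
    Quotient.lift f (fun s t hst => hf' s t (QuotientGroup.leftRel_apply.1 hst))
  have hinj : Function.Injective fbar := by
    intro x y hxy
    induction x using QuotientGroup.induction_on with
    | H s =>
      induction y using QuotientGroup.induction_on with
      | H t => exact QuotientGroup.eq.2 (hf s t hxy)
  exact Finite.of_injective fbar hinj

/-- **Hilbert 90** for `Gal(ℚ̄/ℚ)`: an open crossed homomorphism to `ℚ̄ˣ` is a coboundary. -/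
theorem hilbert90_GQ (z : GQ → Qbar) (hz : ∀ σ τ : GQ, z (σ * τ) = z σ * σ (z τ))
    (hz0 : ∀ σ, z σ ≠ 0)
    (hopen : ∃ S : Finset Qbar, ∀ σ : GQ, (∀ x ∈ S, σ x = x) → z σ = 1) :
    ∃ γ : Qbar, γ ≠ 0 ∧ ∀ σ : GQ, σ γ = z σ * γ := by
  classical
  obtain ⟨S, hS⟩ := hopen
  let F : IntermediateField ℚ Qbar := IntermediateField.adjoin ℚ (S : Set Qbar)
  have hFD : FiniteDimensional ℚ F :=
    IntermediateField.finiteDimensional_adjoin (fun x _ => Algebra.IsIntegral.isIntegral x)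
  have hfin := finite_quot_fixingSubgroup F
  have hU : ∀ u ∈ F.fixingSubgroup, z u = 1 := by
    intro u hu
    rw [IntermediateField.mem_fixingSubgroup_iff] at hu
    exact hS u (fun x hx => hu x (IntermediateField.subset_adjoin ℚ _ hx))
  obtain ⟨γ, hγ0, hγ⟩ := Fermat.Agent.Lib.LocalKummer.exists_hilbert90 (G := GQ) (Ω := Qbar)
    (F := F) z (fun g h => hz g h) hz0 F.fixingSubgroup hU
    ((F.val : F →ₐ[ℚ] Qbar) : F →* Qbar)
    (fun g hg => by
      rw [IntermediateField.mem_fixingSubgroup_iff]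
      intro x hx
      exact hg ⟨x, hx⟩)
    (fun u hu x => by
      rw [IntermediateField.mem_fixingSubgroup_iff] at hu
      exact hu x x.2)
  exact ⟨γ, hγ0, fun σ => hγ σ⟩

/-- **Kummer class** of an open crossed homomorphism with values in `μ_r`. -/
theorem kummer_class (r : ℕ) (z : GQ → Qbar) (hz : ∀ σ τ : GQ, z (σ * τ) = z σ * σ (z τ))
    (hzr : ∀ σ, z σ ^ r = 1) (hr : r ≠ 0)
    (hopen : ∃ S : Finset Qbar, ∀ σ : GQ, (∀ x ∈ S, σ x = x) → z σ = 1) :
    ∃ (a : ℚ) (γ : Qbar), a ≠ 0 ∧ γ ^ r = algebraMap ℚ Qbar a ∧ ∀ σ : GQ, σ γ = z σ * γ := by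
  have hz0 : ∀ σ, z σ ≠ 0 := by
    intro σ h0
    have := hzr σ
    rw [h0, zero_pow hr] at this
    exact zero_ne_one this
  obtain ⟨γ, hγ0, hγ⟩ := hilbert90_GQ z hz hz0 hopen
  have hfix : ∀ σ : GQ, σ (γ ^ r) = γ ^ r := by
    intro σ
    rw [map_pow, hγ σ, mul_pow, hzr σ, one_mul]
  obtain ⟨a, ha⟩ := (InfiniteGalois.mem_range_algebraMap_iff_fixed (γ ^ r)).2 hfix
  refine ⟨a, γ, ?_, ha.symm, hγ⟩
  rintro rfl
  rw [map_zero] at ha
  exact pow_ne_zero _ hγ0 ha.symm

/-- Two solutions of `σ γ = z σ * γ` differ by a rational factor. -/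
theorem kummer_class_unique (z : GQ → Qbar) {γ γ' : Qbar} (hγ0 : γ ≠ 0)
    (hγ : ∀ σ : GQ, σ γ = z σ * γ) (hγ' : ∀ σ : GQ, σ γ' = z σ * γ') :
    ∃ c : ℚ, γ' = algebraMap ℚ Qbar c * γ := by
  have hfix : ∀ σ : GQ, σ (γ' / γ) = γ' / γ := by
    intro σ
    rw [map_div₀, hγ σ, hγ' σ]
    by_cases h0 : z σ = 0
    · have := hγ σ
      rw [h0, zero_mul] at this
      exact absurd ((map_eq_zero σ).1 this) hγ0
    · field_simp
  obtain ⟨c, hc⟩ := (InfiniteGalois.mem_range_algebraMap_iff_fixed (γ' / γ)).2 hfix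
  refine ⟨c, ?_⟩
  rw [hc]
  field_simp

end Fermat.Agent.S15.Desc.H97
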