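/-
S15 / DESC, package GLOB (helper97), part 3: tame inertia is cyclic.

`tame_cyclic` : let `Ψ : Gal(ℚ̄/ℚ) → T` be an open homomorphism to a group of exponent `n` prime to
`p`.  Then the image under `Ψ` of the inertia group of a valuation subring `A` over `p` is cyclic:
there is `σ₀ ∈ I_A` with `Ψ σ ∈ ⟨Ψ σ₀⟩` for every `σ ∈ I_A`.

Route: finite level `L` (normal closure of the field of definition), `𝓞 L` with the action of
`Gal(L/ℚ)`, the tame character of helper9 (`S56/H9_TameChar.lean`); wild elements have `p`-power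
order.
-/
import Fermat.Agent.S15.Desc.H97_GlobH90
import Fermat.Agent.Lib.Minkowski
import Fermat.Agent.Lib.InertiaBridge
import Fermat.Agent.S56.H9_TameChar

set_option autoImplicit false

open scoped Pointwise NumberField

namespace Fermat.Agent.S15.Desc.H97

open Fermat.Agent.Lib.Minkowski (primeBelow mem_primeBelow primeBelow_isPrime
  natCast_mem_primeBelow val_algebraMap_le_one liftStmt)
open Fermat.Agent.S56.H9 (wild exists_generator_mod_wild smul_eq_of_mem_wild_of_coprime)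

local notation "Qbar" => AlgebraicClosure ℚ
local notation "GQ" => (AlgebraicClosure ℚ ≃ₐ[ℚ] AlgebraicClosure ℚ)

attribute [local instance] qbar_isAlgebraic qbar_isAlgClosure qbar_isGalois

section finite_level

variable (L : IntermediateField ℚ Qbar)

/-- `Gal(L/ℚ)` acts faithfully on `𝓞 L`. -/
theorem eq_one_of_smul_int [FiniteDimensional ℚ L] (w : L ≃ₐ[ℚ] L)
    (h : ∀ x : 𝓞 L, w • x = x) : w = 1 := by
  have hNF : NumberField L := ⟨⟩
  apply AlgEquiv.ext
  intro y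
  obtain ⟨a, b, hb, rfl⟩ := IsFractionRing.div_surjective (A := 𝓞 L) y
  have ha := congrArg (fun z : 𝓞 L => (z : L)) (h a)
  have hb' := congrArg (fun z : 𝓞 L => (z : L)) (h b)
  have e1 : w (algebraMap (𝓞 L) L a) = algebraMap (𝓞 L) L a := ha
  have e2 : w (algebraMap (𝓞 L) L b) = algebraMap (𝓞 L) L b := hb'
  rw [map_div₀, e1, e2]
  rfl

variable [Normal ℚ L]

/-- The restriction of an inertia element lies in the inertia group at finite level. -/
theorem res_mem_inertia (A : ValuationSubring Qbar) (σ : GQ) (hσ : σ ∈ A.inertiaSubgroupIn ℚ) :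
    AlgEquiv.restrictNormalHom L σ ∈ (primeBelow L A).inertia (L ≃ₐ[ℚ] L) := by
  intro b
  show (AlgEquiv.restrictNormalHom L σ) • b - b ∈ primeBelow L A
  rw [mem_primeBelow, map_sub]
  have h2 : algebraMap (𝓞 L) Qbar ((AlgEquiv.restrictNormalHom L σ) • b)
      = σ (algebraMap (𝓞 L) Qbar b) := by
    show (((AlgEquiv.restrictNormalHom L σ) (b : L) : L) : Qbar) = σ ((b : L) : Qbar)
    exact AlgEquiv.restrictNormal_commutes σ L (b : L)
  rw [h2]
  exact ((Fermat.Agent.Lib.InertiaBridge.mem_inertiaSubgroupIn_iff_forall A σ).1 hσ).2 _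
    ((A.valuation_le_one_iff _).1 (val_algebraMap_le_one L A b))

/-- Inertia elements at finite level lift to inertia elements of `Gal(ℚ̄/ℚ)`. -/
theorem lift_inertia (p : ℕ) (hp : p.Prime) (A : ValuationSubring Qbar)
    (hA : A.LiesOverPrime p) (τ : L ≃ₐ[ℚ] L)
    (hτ : τ ∈ (primeBelow L A).inertia (L ≃ₐ[ℚ] L)) :
    ∃ σ ∈ A.inertiaSubgroupIn ℚ, AlgEquiv.restrictNormalHom L σ = τ := by
  obtain ⟨σ₀, hσ₀⟩ := AlgEquiv.restrictNormalHom_surjective (F := ℚ) (K₁ := L) Qbar τ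
  have hcomm : ∀ x : L, ((τ x : L) : Qbar) = σ₀ (x : Qbar) := by
    intro x
    rw [← hσ₀]
    exact AlgEquiv.restrictNormal_commutes σ₀ L x
  have key : ∀ x : Qbar, x ∈ L → IsIntegral ℤ x → σ₀ x - x ∈ A.nonunits := by
    intro x hxL hxint
    have hxint' : IsIntegral ℤ (⟨x, hxL⟩ : L) := by
      rw [← isIntegral_algebraMap_iff (FaithfulSMul.algebraMap_injective L Qbar)]
      exact hxint
    let b : 𝓞 L := ⟨⟨x, hxL⟩, hxint'⟩
    have h1 : τ • b - b ∈ primeBelow L A := hτ b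
    rw [mem_primeBelow, map_sub] at h1
    have h2 : algebraMap (𝓞 L) Qbar (τ • b) = σ₀ x := by
      have h3 : algebraMap (𝓞 L) Qbar (τ • b) = ((τ (⟨x, hxL⟩ : L) : L) : Qbar) := rfl
      rw [h3, hcomm]
    have h4 : algebraMap (𝓞 L) Qbar b = x := rfl
    rw [h2, h4] at h1
    exact A.mem_nonunits_iff.mpr h1
  obtain ⟨σ, hσ, hσeq⟩ := liftStmt p hp A hA L σ₀ key
  refine ⟨σ, hσ, ?_⟩
  apply AlgEquiv.ext
  intro x
  apply Subtype.ext
  rw [hcomm, ← hσeq x x.2]
  exact AlgEquiv.restrictNormal_commutes σ L x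

omit [Normal ℚ L] in
/-- Wild elements have `p`-power order. -/
theorem wild_pow_eq_one [FiniteDimensional ℚ L] (p : ℕ) (hp : p.Prime) (A : ValuationSubring Qbar)
    (hA : A.LiesOverPrime p) (w : L ≃ₐ[ℚ] L)
    (hw : w ∈ wild (primeBelow L A) (L ≃ₐ[ℚ] L)) : ∃ a : ℕ, w ^ (p ^ a) = 1 := by
  have hNF : NumberField L := ⟨⟩
  have hprime := primeBelow_isPrime L A
  have hm0 : orderOf w ≠ 0 := (orderOf_pos w).ne'
  obtain ⟨a, m', hm', hm⟩ := Nat.exists_eq_pow_mul_and_not_dvd hm0 p hp.ne_one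
  refine ⟨a, ?_⟩
  have hw' : w ^ (p ^ a) ∈ wild (primeBelow L A) (L ≃ₐ[ℚ] L) := pow_mem hw _
  have hcop : m'.Coprime p := (Nat.Coprime.symm ((Nat.Prime.coprime_iff_not_dvd hp).2 hm'))
  have hpow : (w ^ (p ^ a)) ^ m' = 1 := by
    rw [← pow_mul, ← hm, pow_orderOf_eq_one]
  apply eq_one_of_smul_int L
  intro x
  exact smul_eq_of_mem_wild_of_coprime (primeBelow L A) hprime.ne_top
    (natCast_mem_primeBelow L A p hA) hw' hcop (fun y => by rw [hpow, one_smul]) x

omit [Normal ℚ L] in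
/-- Tame inertia at finite level is cyclic modulo elements of `p`-power order. -/
theorem tame_cyclic_finite [FiniteDimensional ℚ L] (p : ℕ) (hp : p.Prime) (A : ValuationSubring Qbar)
    (hA : A.LiesOverPrime p) :
    ∃ τ₀ ∈ (primeBelow L A).inertia (L ≃ₐ[ℚ] L),
      ∀ τ ∈ (primeBelow L A).inertia (L ≃ₐ[ℚ] L), ∃ k a : ℕ, ((τ₀ ^ k)⁻¹ * τ) ^ (p ^ a) = 1 := by
  have hNF : NumberField L := ⟨⟩
  have hprime := primeBelow_isPrime L A
  have hbot : primeBelow L A ≠ ⊥ := by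
    intro h
    have h1 : (p : 𝓞 L) ∈ primeBelow L A := natCast_mem_primeBelow L A p hA
    rw [h, Ideal.mem_bot] at h1
    exact hp.ne_zero (by exact_mod_cast h1)
  obtain ⟨τ₀, hτ₀, hgen⟩ := exists_generator_mod_wild hbot
    ((primeBelow L A).inertia (L ≃ₐ[ℚ] L)) le_rfl
  refine ⟨τ₀, hτ₀, fun τ hτ => ?_⟩
  obtain ⟨k, hk⟩ := hgen τ hτ
  obtain ⟨a, ha⟩ := wild_pow_eq_one L p hp A hA _ hk
  exact ⟨k, a, ha⟩

end finite_level

/-- **Tame inertia is cyclic**: the image of inertia at `p` under an open homomorphism to a group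
of exponent prime to `p` is cyclic. -/
theorem tame_cyclic (p : ℕ) (hp : p.Prime) (A : ValuationSubring Qbar) (hA : A.LiesOverPrime p)
    {T : Type*} [Group T] (Ψ : GQ →* T)
    (hopen : ∃ S : Finset Qbar, ∀ σ : GQ, (∀ x ∈ S, σ x = x) → Ψ σ = 1)
    (n : ℕ) (hn : n.Coprime p) (hT : ∀ σ, Ψ σ ^ n = 1) :
    ∃ σ₀ ∈ A.inertiaSubgroupIn ℚ, ∀ σ ∈ A.inertiaSubgroupIn ℚ, ∃ k : ℕ, Ψ σ = Ψ σ₀ ^ k := by
  classical
  obtain ⟨S, hS⟩ := hopen
  let F : IntermediateField ℚ Qbar := IntermediateField.adjoin ℚ (S : Set Qbar)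
  have hFD : FiniteDimensional ℚ F :=
    IntermediateField.finiteDimensional_adjoin (fun x _ => Algebra.IsIntegral.isIntegral x)
  let L : IntermediateField ℚ Qbar := IntermediateField.normalClosure ℚ F Qbar
  have hLn : Normal ℚ L := normalClosure.normal ℚ F Qbar
  have hLfd : FiniteDimensional ℚ L := normalClosure.is_finiteDimensional ℚ F Qbar
  have hFL : F ≤ L := IntermediateField.le_normalClosure F
  have hker : ∀ σ : GQ, AlgEquiv.restrictNormalHom L σ = 1 → Ψ σ = 1 := by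
    intro σ hσ
    apply hS
    intro x hx
    have hxL : x ∈ L := hFL (IntermediateField.subset_adjoin ℚ _ hx)
    have h1 := AlgEquiv.restrictNormal_commutes σ L ⟨x, hxL⟩
    have h2 : AlgEquiv.restrictNormal σ L = 1 := hσ
    rw [h2] at h1
    exact h1.symm
  obtain ⟨τ₀, hτ₀, hgen⟩ := tame_cyclic_finite L p hp A hA
  obtain ⟨σ₀, hσ₀, hres₀⟩ := lift_inertia L p hp A hA τ₀ hτ₀
  refine ⟨σ₀, hσ₀, fun σ hσ => ?_⟩
  obtain ⟨k, a, hka⟩ := hgen _ (res_mem_inertia L A σ hσ)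
  refine ⟨k, ?_⟩
  set u : GQ := (σ₀ ^ k)⁻¹ * σ with hu
  have hresu : AlgEquiv.restrictNormalHom L (u ^ (p ^ a)) = 1 := by
    rw [map_pow, hu, map_mul, map_inv, map_pow, hres₀]
    exact hka
  have h1 : Ψ u ^ (p ^ a) = 1 := by
    rw [← map_pow]
    exact hker _ hresu
  have h2 : Ψ u ^ n = 1 := hT u
  have h3 : orderOf (Ψ u) ∣ Nat.gcd (p ^ a) n :=
    Nat.dvd_gcd (orderOf_dvd_of_pow_eq_one h1) (orderOf_dvd_of_pow_eq_one h2)
  have h4 : Nat.gcd (p ^ a) n = 1 := Nat.Coprime.pow_left a (Nat.Coprime.symm hn)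
  rw [h4, Nat.dvd_one, orderOf_eq_one_iff] at h3
  have h5 : Ψ σ = Ψ (σ₀ ^ k) * Ψ u := by
    rw [← map_mul, hu, mul_inv_cancel_left]
  rw [h5, h3, mul_one, map_pow]

end Fermat.Agent.S15.Desc.H97
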