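/-
S15 / DESC, package GLOB (helper97), part 4: additive characters of `Gal(ℚ̄/ℚ)` with values in
`ZMod r`.

* `unram_all_of_some` : a character to a commutative group which is trivial on the inertia group
  of SOME valuation subring over `ℓ` is trivial on the inertia group of EVERY one.
* `glob_etale_trunc` (G1) : an open additive character unramified everywhere is zero.
* `glob_etale` (G2) : two open additive characters `G_ℚ → ZMod r` unramified outside `p ≠ r` are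
  linearly dependent over `ZMod r`.
-/
import Fermat.Agent.S15.Desc.H97_GlobTame
import Fermat.Agent.Lib.InertiaConj

set_option autoImplicit false

namespace Fermat.Agent.S15.Desc.H97

local notation "Qbar" => AlgebraicClosure ℚ
local notation "GQ" => (AlgebraicClosure ℚ ≃ₐ[ℚ] AlgebraicClosure ℚ)

/-- Triviality on inertia does not depend on the valuation subring over `ℓ` (commutative
target). -/
theorem unram_all_of_some {T : Type*} [CommGroup T] (χ : GQ →* T) (ℓ : ℕ) (hℓ : ℓ.Prime)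
    (A A' : ValuationSubring Qbar) (hA : A.LiesOverPrime ℓ) (hA' : A'.LiesOverPrime ℓ)
    (h : ∀ σ ∈ A.inertiaSubgroupIn ℚ, χ σ = 1) : ∀ σ ∈ A'.inertiaSubgroupIn ℚ, χ σ = 1 := by
  obtain ⟨g, hg⟩ := Fermat.Agent.Lib.InertiaConj.exists_conj_mem_inertia ℓ hℓ A A' hA hA'
  intro σ hσ
  have h1 := h _ ((hg σ).1 hσ)
  rw [map_mul, map_mul, map_inv, mul_comm, ← mul_assoc, mul_inv_cancel, one_mul] at h1
  exact h1

/-- The multiplicative character attached to an additive one. -/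
def toMulChar {r : ℕ} (ψ : GQ → ZMod r) (hψ : ∀ σ τ, ψ (σ * τ) = ψ σ + ψ τ) :
    GQ →* Multiplicative (ZMod r) where
  toFun σ := Multiplicative.ofAdd (ψ σ)
  map_one' := by
    have h := hψ 1 1
    rw [mul_one] at h
    have h0 : ψ 1 = 0 := by
      have := add_left_cancel (a := ψ 1) (b := ψ 1) (c := 0) (by rw [add_zero]; exact h.symm)
      exact this
    rw [h0]
    rfl
  map_mul' σ τ := by
    rw [hψ]
    rfl

lemma toMulChar_eq_one_iff {r : ℕ} (ψ : GQ → ZMod r) (hψ : ∀ σ τ, ψ (σ * τ) = ψ σ + ψ τ)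
    (σ : GQ) : toMulChar ψ hψ σ = 1 ↔ ψ σ = 0 := Iff.rfl

/-- **(G1)** an open additive character of `Gal(ℚ̄/ℚ)` which is unramified everywhere is zero. -/
theorem glob_etale_trunc {r : ℕ} (ψ : GQ → ZMod r) (hψ : ∀ σ τ, ψ (σ * τ) = ψ σ + ψ τ)
    (hopen : ∃ S : Finset Qbar, ∀ σ : GQ, (∀ x ∈ S, σ x = x) → ψ σ = 0)
    (hunr : ∀ ℓ : ℕ, ℓ.Prime → ∃ A : ValuationSubring Qbar,
      A.LiesOverPrime ℓ ∧ ∀ σ ∈ A.inertiaSubgroupIn ℚ, ψ σ = 0) :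
    ∀ σ, ψ σ = 0 := by
  intro σ
  have := Fermat.Agent.Lib.Minkowski.hom_eq_one_of_unramified_everywhere (toMulChar ψ hψ)
    hopen hunr σ
  exact this

/-- **(G2)** two open additive characters `Gal(ℚ̄/ℚ) → ZMod r` unramified outside `p ≠ r` are
linearly dependent. -/
theorem glob_etale {p r : ℕ} (hp : p.Prime) (hr : r.Prime) (hpr : p ≠ r)
    (ψ₁ ψ₂ : GQ → ZMod r)
    (h₁ : ∀ σ τ, ψ₁ (σ * τ) = ψ₁ σ + ψ₁ τ) (h₂ : ∀ σ τ, ψ₂ (σ * τ) = ψ₂ σ + ψ₂ τ)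
    (hopen₁ : ∃ S : Finset Qbar, ∀ σ : GQ, (∀ x ∈ S, σ x = x) → ψ₁ σ = 0)
    (hopen₂ : ∃ S : Finset Qbar, ∀ σ : GQ, (∀ x ∈ S, σ x = x) → ψ₂ σ = 0)
    (hunr₁ : ∀ ℓ : ℕ, ℓ.Prime → ℓ ≠ p → ∃ A : ValuationSubring Qbar,
      A.LiesOverPrime ℓ ∧ ∀ σ ∈ A.inertiaSubgroupIn ℚ, ψ₁ σ = 0)
    (hunr₂ : ∀ ℓ : ℕ, ℓ.Prime → ℓ ≠ p → ∃ A : ValuationSubring Qbar,
      A.LiesOverPrime ℓ ∧ ∀ σ ∈ A.inertiaSubgroupIn ℚ, ψ₂ σ = 0) :
    ∃ c₁ c₂ : ZMod r, (c₁ ≠ 0 ∨ c₂ ≠ 0) ∧ ∀ σ, c₁ * ψ₁ σ + c₂ * ψ₂ σ = 0 := by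
  classical
  have hfact : Fact r.Prime := ⟨hr⟩
  obtain ⟨S₁, hS₁⟩ := hopen₁
  obtain ⟨S₂, hS₂⟩ := hopen₂
  obtain ⟨A, hA⟩ := Fermat.Agent.Lib.FrobExists.exists_liesOverPrime p hp
  -- the pair of characters
  let Ψ : GQ →* Multiplicative (ZMod r) × Multiplicative (ZMod r) :=
    (toMulChar ψ₁ h₁).prod (toMulChar ψ₂ h₂)
  have hΨopen : ∃ S : Finset Qbar, ∀ σ : GQ, (∀ x ∈ S, σ x = x) → Ψ σ = 1 := by
    refine ⟨S₁ ∪ S₂, fun σ hσ => ?_⟩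
    have e1 : ψ₁ σ = 0 := hS₁ σ (fun x hx => hσ x (Finset.mem_union_left _ hx))
    have e2 : ψ₂ σ = 0 := hS₂ σ (fun x hx => hσ x (Finset.mem_union_right _ hx))
    exact Prod.ext ((toMulChar_eq_one_iff ψ₁ h₁ σ).2 e1) ((toMulChar_eq_one_iff ψ₂ h₂ σ).2 e2)
  have hexp : ∀ σ, Ψ σ ^ r = 1 := by
    intro σ
    apply Prod.ext
    · show Multiplicative.ofAdd (ψ₁ σ) ^ r = 1
      rw [← ofAdd_nsmul, nsmul_eq_mul, CharP.cast_eq_zero, zero_mul]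
      rfl
    · show Multiplicative.ofAdd (ψ₂ σ) ^ r = 1
      rw [← ofAdd_nsmul, nsmul_eq_mul, CharP.cast_eq_zero, zero_mul]
      rfl
  have hcop : r.Coprime p := (Nat.coprime_primes hr hp).2 (Ne.symm hpr)
  obtain ⟨σ₀, hσ₀, hgen⟩ := tame_cyclic p hp A hA Ψ hΨopen r hcop hexp
  have hgen' : ∀ σ ∈ A.inertiaSubgroupIn ℚ, ∃ k : ℕ, ψ₁ σ = k * ψ₁ σ₀ ∧ ψ₂ σ = k * ψ₂ σ₀ := by
    intro σ hσ
    obtain ⟨k, hk⟩ := hgen σ hσ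
    refine ⟨k, ?_, ?_⟩
    · have := congrArg Prod.fst hk
      have e : Multiplicative.ofAdd (ψ₁ σ) = Multiplicative.ofAdd (ψ₁ σ₀) ^ k := this
      rw [← ofAdd_nsmul, nsmul_eq_mul] at e
      exact Multiplicative.ofAdd.injective e
    · have := congrArg Prod.snd hk
      have e : Multiplicative.ofAdd (ψ₂ σ) = Multiplicative.ofAdd (ψ₂ σ₀) ^ k := this
      rw [← ofAdd_nsmul, nsmul_eq_mul] at e
      exact Multiplicative.ofAdd.injective e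
  -- the coefficients
  obtain ⟨c₁, c₂, hc, hc0⟩ : ∃ c₁ c₂ : ZMod r, (c₁ ≠ 0 ∨ c₂ ≠ 0) ∧
      c₁ * ψ₁ σ₀ + c₂ * ψ₂ σ₀ = 0 := by
    by_cases hx : ψ₁ σ₀ = 0
    · exact ⟨1, 0, Or.inl one_ne_zero, by rw [hx]; ring⟩
    · exact ⟨ψ₂ σ₀, -ψ₁ σ₀, Or.inr (neg_ne_zero.2 hx), by ring⟩
  refine ⟨c₁, c₂, hc, ?_⟩
  -- the combination is unramified everywhere
  let χ : GQ → ZMod r := fun σ => c₁ * ψ₁ σ + c₂ * ψ₂ σ
  have hχ : ∀ σ τ, χ (σ * τ) = χ σ + χ τ := by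
    intro σ τ
    show c₁ * ψ₁ (σ * τ) + c₂ * ψ₂ (σ * τ) = (c₁ * ψ₁ σ + c₂ * ψ₂ σ) + (c₁ * ψ₁ τ + c₂ * ψ₂ τ)
    rw [h₁, h₂]
    ring
  refine glob_etale_trunc χ hχ ?_ ?_
  · refine ⟨S₁ ∪ S₂, fun σ hσ => ?_⟩
    have e1 : ψ₁ σ = 0 := hS₁ σ (fun x hx => hσ x (Finset.mem_union_left _ hx))
    have e2 : ψ₂ σ = 0 := hS₂ σ (fun x hx => hσ x (Finset.mem_union_right _ hx))
    show c₁ * ψ₁ σ + c₂ * ψ₂ σ = 0
    rw [e1, e2]
    ring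
  · intro ℓ hℓ
    by_cases hℓp : ℓ = p
    · subst hℓp
      refine ⟨A, hA, fun σ hσ => ?_⟩
      obtain ⟨k, hk1, hk2⟩ := hgen' σ hσ
      show c₁ * ψ₁ σ + c₂ * ψ₂ σ = 0
      rw [hk1, hk2]
      linear_combination (k : ZMod r) * hc0
    · obtain ⟨A₁, hA₁, hu₁⟩ := hunr₁ ℓ hℓ hℓp
      obtain ⟨A₂, hA₂, hu₂⟩ := hunr₂ ℓ hℓ hℓp
      refine ⟨A₁, hA₁, fun σ hσ => ?_⟩
      have e1 : ψ₁ σ = 0 := hu₁ σ hσ
      have e2 : ψ₂ σ = 0 :=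
        (toMulChar_eq_one_iff ψ₂ h₂ σ).1
          (unram_all_of_some (toMulChar ψ₂ h₂) ℓ hℓ A₂ A₁ hA₂ hA₁
            (fun τ hτ => (toMulChar_eq_one_iff ψ₂ h₂ τ).2 (hu₂ τ hτ)) σ hσ)
      show c₁ * ψ₁ σ + c₂ * ψ₂ σ = 0
      rw [e1, e2]
      ring

end Fermat.Agent.S15.Desc.H97
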