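/-
S15 / DESC, package GLOB (helper97), part 5: arithmetic of `ℚˣ / (ℚˣ)^r`.

* `nat_eq_pow_of_dvd_padicValNat` : a positive integer all of whose valuations are divisible by `r`
  is an `r`-th power.
* `rat_eq_pow_of_dvd_padicValRat` : the same for nonzero rational numbers, `r` odd.
* `exists_comb_dvd` : two integers have a nontrivial combination divisible by the prime `r`.
-/
import Mathlib

set_option autoImplicit false

namespace Fermat.Agent.S15.Desc.H97

theorem nat_eq_pow_of_dvd_padicValNat {r n : ℕ} (hn : n ≠ 0)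
    (h : ∀ l : ℕ, l.Prime → r ∣ padicValNat l n) : ∃ m : ℕ, n = m ^ r := by
  classical
  let f : ℕ →₀ ℕ := n.factorization.mapRange (fun e => e / r) (Nat.zero_div r)
  have hfsupp : ∀ l ∈ f.support, l.Prime := by
    intro l hl
    have h1 : l ∈ n.factorization.support := Finsupp.support_mapRange hl
    exact Nat.prime_of_mem_primeFactors (by simpa using h1)
  have hfac : (f.prod (· ^ ·)).factorization = f := Nat.prod_pow_factorization_eq_self hfsupp
  have hm0 : f.prod (· ^ ·) ≠ 0 := by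
    rw [Finsupp.prod_ne_zero_iff]
    intro l hl
    exact pow_ne_zero _ (hfsupp l hl).ne_zero
  refine ⟨f.prod (· ^ ·), ?_⟩
  apply Nat.eq_of_factorization_eq hn (pow_ne_zero _ hm0)
  intro l
  rw [Nat.factorization_pow, hfac]
  show n.factorization l = r * (n.factorization l / r)
  by_cases hl : l.Prime
  · have hdvd : r ∣ n.factorization l := by
      rw [Nat.factorization_def n hl]
      exact h l hl
    rw [Nat.mul_div_cancel' hdvd]
  · rw [Nat.factorization_eq_zero_of_not_prime n hl, Nat.zero_div, mul_zero]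

theorem rat_eq_pow_of_dvd_padicValRat {r : ℕ} (hr : Odd r) (a : ℚ) (ha : a ≠ 0)
    (h : ∀ l : ℕ, l.Prime → (r : ℤ) ∣ padicValRat l a) : ∃ c : ℚ, a = c ^ r := by
  have hr0 : 0 < r := hr.pos
  have hnum : a.num ≠ 0 := Rat.num_ne_zero.2 ha
  have hden : a.den ≠ 0 := a.den_ne_zero
  have hcop : Nat.Coprime a.num.natAbs a.den := a.reduced
  have hdef : ∀ l : ℕ, padicValRat l a =
      (padicValNat l a.num.natAbs : ℤ) - (padicValNat l a.den : ℤ) := fun l => rfl
  have hboth : ∀ l : ℕ, l.Prime → r ∣ padicValNat l a.num.natAbs ∧ r ∣ padicValNat l a.den := by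
    intro l hl
    have hl' := h l hl
    rw [hdef] at hl'
    by_cases hd : l ∣ a.den
    · have hn : ¬ l ∣ a.num.natAbs := by
        intro hn
        have := Nat.dvd_gcd hn hd
        rw [hcop.gcd_eq_one] at this
        exact hl.one_lt.ne' (Nat.dvd_one.1 this)
      have h0 : padicValNat l a.num.natAbs = 0 := padicValNat.eq_zero_of_not_dvd hn
      rw [h0] at hl' ⊢
      refine ⟨dvd_zero _, ?_⟩
      have : (r : ℤ) ∣ (padicValNat l a.den : ℤ) := by
        have := (dvd_neg (a := (r : ℤ))).2 hl'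
        simpa using this
      exact Int.natCast_dvd_natCast.1 this
    · have h0 : padicValNat l a.den = 0 := padicValNat.eq_zero_of_not_dvd hd
      rw [h0] at hl' ⊢
      refine ⟨?_, dvd_zero _⟩
      have : (r : ℤ) ∣ (padicValNat l a.num.natAbs : ℤ) := by simpa using hl'
      exact Int.natCast_dvd_natCast.1 this
  obtain ⟨m, hm⟩ := nat_eq_pow_of_dvd_padicValNat (Int.natAbs_ne_zero.2 hnum)
    (fun l hl => (hboth l hl).1)
  obtain ⟨d, hd⟩ := nat_eq_pow_of_dvd_padicValNat hden (fun l hl => (hboth l hl).2)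
  have hd0 : (d : ℚ) ≠ 0 := by
    intro h0
    have : d = 0 := by exact_mod_cast h0
    rw [this, zero_pow hr0.ne'] at hd
    exact hden hd
  have hdq : (a.den : ℚ) = (d : ℚ) ^ r := by exact_mod_cast hd
  have ha' : a = (a.num : ℚ) / (a.den : ℚ) := (Rat.num_div_den a).symm
  rcases Int.natAbs_eq a.num with hs | hs
  · refine ⟨(m : ℚ) / d, ?_⟩
    have hnq : (a.num : ℚ) = (m : ℚ) ^ r := by
      have e1 : (a.num : ℚ) = ((a.num.natAbs : ℤ) : ℚ) := congrArg (fun z : ℤ => (z : ℚ)) hs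
      rw [e1, hm]
      push_cast
      rfl
    rw [div_pow, ← hnq, ← hdq]
    exact ha'
  · refine ⟨-(m : ℚ) / d, ?_⟩
    have hnq : (a.num : ℚ) = -((m : ℚ) ^ r) := by
      have e1 : (a.num : ℚ) = ((-(a.num.natAbs : ℤ) : ℤ) : ℚ) :=
        congrArg (fun z : ℤ => (z : ℚ)) hs
      rw [e1, hm]
      push_cast
      rfl
    rw [div_pow, Odd.neg_pow hr, ← hnq, ← hdq]
    exact ha'

/-- Two integers have a nontrivial combination (with coefficients in `[0, r)`) divisible by the
prime `r`. -/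
theorem exists_comb_dvd {r : ℕ} (hr : r.Prime) (k₁ k₂ : ℤ) :
    ∃ c₁ c₂ : ℕ, (¬ r ∣ c₁ ∨ ¬ r ∣ c₂) ∧ (r : ℤ) ∣ c₁ * k₁ + c₂ * k₂ := by
  have hfact : Fact r.Prime := ⟨hr⟩
  by_cases h1 : (r : ℤ) ∣ k₁
  · refine ⟨1, 0, Or.inl ?_, ?_⟩
    · intro h
      exact hr.one_lt.ne' (Nat.dvd_one.1 h)
    · simpa using h1
  · -- `c₁ = k₂ mod r`, `c₂ = -k₁ mod r`
    refine ⟨((k₂ : ZMod r)).val, ((-k₁ : ℤ) : ZMod r).val, Or.inr ?_, ?_⟩
    · intro h
      have h0 : (((-k₁ : ℤ) : ZMod r).val : ZMod r) = 0 := (ZMod.natCast_eq_zero_iff _ _).2 h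
      rw [ZMod.natCast_val, ZMod.cast_id', id_eq] at h0
      have : (r : ℤ) ∣ -k₁ := (ZMod.intCast_zmod_eq_zero_iff_dvd _ _).1 h0
      exact h1 ((dvd_neg).1 this)
    · rw [← ZMod.intCast_zmod_eq_zero_iff_dvd]
      push_cast
      simp only [ZMod.natCast_val, ZMod.cast_id', id_eq]
      ring

end Fermat.Agent.S15.Desc.H97
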