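/-
S15 / DESC, package GLOB (helper97), part 2: valuations of Kummer classes.

* `valuation_ratCast_eq_zpow` : for `A` over `ℓ` and `a ∈ ℚˣ`, `|a|_A = |ℓ|_A ^ v_ℓ(a)`.
* `zpow_valuation_injective` : `k ↦ |ℓ|_A ^ k` is injective.
* `kummer_val` : if `γ ^ r = a ∈ ℚˣ`, `ℓ ≠ r` and the inertia group of `A` (over `ℓ`) fixes `γ`,
  then `r ∣ v_ℓ(a)`.
-/
import Fermat.Agent.S15.Desc.H97_GlobH90
import Fermat.Agent.Lib.UnramVal
import Fermat.Agent.S52.H97_GalCore
import Fermat.Agent.S05.H15_Val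

set_option autoImplicit false

namespace Fermat.Agent.S15.Desc.H97

local notation "Qbar" => AlgebraicClosure ℚ
local notation "GQ" => (AlgebraicClosure ℚ ≃ₐ[ℚ] AlgebraicClosure ℚ)

section val

variable (A : ValuationSubring Qbar) {ℓ : ℕ} (hℓ : ℓ.Prime) (hA : A.LiesOverPrime ℓ)

include hA in
lemma valuation_prime_lt_one : A.valuation (ℓ : Qbar) < 1 :=
  A.mem_nonunits_iff.1 hA

include hℓ in
lemma valuation_prime_ne_zero : A.valuation (ℓ : Qbar) ≠ 0 :=
  (Valuation.ne_zero_iff _).2 (by exact_mod_cast hℓ.ne_zero)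

include hℓ hA

lemma valuation_natCast_eq_pow (n : ℕ) (hn : n ≠ 0) :
    A.valuation (n : Qbar) = A.valuation (ℓ : Qbar) ^ (padicValNat ℓ n) := by
  have h1 := Nat.ordProj_mul_ordCompl_eq_self n ℓ
  have h2 : ¬ ℓ ∣ n / ℓ ^ n.factorization ℓ := Nat.not_dvd_ordCompl hℓ hn
  have h3 : n.factorization ℓ = padicValNat ℓ n := Nat.factorization_def n hℓ
  rw [h3] at h1 h2
  obtain ⟨m, hm⟩ : ∃ m : ℕ, m = n / ℓ ^ padicValNat ℓ n := ⟨_, rfl⟩
  rw [← hm] at h1 h2
  have h4 : A.valuation (m : Qbar) = 1 := by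
    have := Fermat.Agent.S05.H15.valuation_intCast_eq_one_of_not_dvd (A := A) hℓ hA
      (n := (m : ℤ)) (fun h => h2 (Int.natCast_dvd_natCast.1 h))
    simpa using this
  calc A.valuation (n : Qbar)
      = A.valuation (((ℓ ^ padicValNat ℓ n * m : ℕ)) : Qbar) := by
        rw [h1]
    _ = A.valuation (ℓ : Qbar) ^ (padicValNat ℓ n) := by
        rw [Nat.cast_mul, map_mul, h4, mul_one, Nat.cast_pow, map_pow]

lemma valuation_intCast_eq_pow (n : ℤ) (hn : n ≠ 0) :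
    A.valuation (n : Qbar) = A.valuation (ℓ : Qbar) ^ (padicValInt ℓ n) := by
  have h1 : A.valuation (n : Qbar) = A.valuation ((n.natAbs : ℕ) : Qbar) := by
    rcases Int.natAbs_eq n with h | h
    · conv_lhs => rw [h]
      simp
    · conv_lhs => rw [h]
      simp
  rw [h1, valuation_natCast_eq_pow A hℓ hA n.natAbs (Int.natAbs_ne_zero.2 hn)]
  rfl

/-- `|a|_A = |ℓ|_A ^ v_ℓ(a)` for a nonzero rational number `a`. -/
theorem valuation_ratCast_eq_zpow (a : ℚ) (ha : a ≠ 0) :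
    A.valuation (algebraMap ℚ Qbar a) = A.valuation (ℓ : Qbar) ^ (padicValRat ℓ a) := by
  have hnum : a.num ≠ 0 := Rat.num_ne_zero.2 ha
  have hden : a.den ≠ 0 := a.den_ne_zero
  have e : algebraMap ℚ Qbar a = (a.num : Qbar) / (a.den : Qbar) := by
    conv_lhs => rw [← Rat.num_div_den a]
    rw [map_div₀]
    simp
  rw [e, map_div₀, valuation_intCast_eq_pow A hℓ hA a.num hnum,
    valuation_natCast_eq_pow A hℓ hA a.den hden]
  have hdef : padicValRat ℓ a = (padicValInt ℓ a.num : ℤ) - (padicValNat ℓ a.den : ℤ) := rfl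
  rw [hdef, zpow_sub₀ (valuation_prime_ne_zero A hℓ), zpow_natCast, zpow_natCast]

/-- `k ↦ |ℓ|_A ^ k` is injective. -/
theorem zpow_valuation_injective {m n : ℤ}
    (h : A.valuation (ℓ : Qbar) ^ m = A.valuation (ℓ : Qbar) ^ n) : m = n := by
  have h0 : 0 < A.valuation (ℓ : Qbar) :=
    lt_of_le_of_ne zero_le (Ne.symm (valuation_prime_ne_zero A hℓ))
  exact (zpow_right_strictAnti₀ h0 (valuation_prime_lt_one A hA)).injective h

/-- **Kummer valuation**: if inertia at `ℓ ≠ r` fixes an `r`-th root `γ` of `a ∈ ℚˣ`, then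
`r ∣ v_ℓ(a)`. -/
theorem kummer_val {r : ℕ} (hr : r.Prime) (hℓr : ℓ ≠ r) (a : ℚ) (ha : a ≠ 0) (γ : Qbar)
    (hγ : γ ^ r = algebraMap ℚ Qbar a)
    (hfix : ∀ σ ∈ A.inertiaSubgroupIn ℚ, σ γ = γ) : (r : ℤ) ∣ padicValRat ℓ a := by
  have hγ0 : γ ≠ 0 := by
    rintro rfl
    rw [zero_pow hr.ne_zero] at hγ
    exact ha ((map_eq_zero (algebraMap ℚ Qbar)).1 hγ.symm)
  -- the set of conjugates
  set S : Set Qbar := {x | x ^ r = algebraMap ℚ Qbar a} with hS
  have hSfin : S.Finite := by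
    have hne : (Polynomial.X ^ r - Polynomial.C (algebraMap ℚ Qbar a) : Polynomial Qbar) ≠ 0 :=
      Polynomial.X_pow_sub_C_ne_zero hr.pos _
    refine Set.Finite.subset (Polynomial.finite_setOfPred_isRoot hne) ?_
    intro x hx
    have hx' : x ^ r = algebraMap ℚ Qbar a := hx
    show Polynomial.IsRoot _ x
    simp [hx']
  have hstab : ∀ σ : GQ, ∀ x ∈ S, σ x ∈ S := by
    intro σ x hx
    have hx' : x ^ r = algebraMap ℚ Qbar a := hx
    show (σ x) ^ r = algebraMap ℚ Qbar a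
    rw [← map_pow, hx', AlgEquiv.commutes]
  have hcop : r.Coprime ℓ := (Nat.coprime_primes hr hℓ).2 (Ne.symm hℓr)
  have hfixS : ∀ σ ∈ A.inertiaSubgroupIn ℚ, ∀ x ∈ S, σ x = x := by
    intro σ hσ x hx
    have hx' : x ^ r = algebraMap ℚ Qbar a := hx
    have hζ : (x / γ) ^ r = 1 := by
      rw [div_pow, hx', hγ]
      exact div_self ((map_ne_zero (algebraMap ℚ Qbar)).2 ha)
    have h1 : σ (x / γ) = x / γ :=
      Fermat.Agent.S52.H97.inertia_fixes_root A hA hℓ.ne_one σ hσ hcop hζ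
    have h2 : x = (x / γ) * γ := by field_simp
    rw [h2, map_mul, h1, hfix σ hσ]
  obtain ⟨k, hk⟩ := Fermat.Agent.Lib.UnramVal.valuation_eq_zpow_of_finite ℓ hℓ A hA S hSfin
    hstab hfixS γ hγ hγ0
  have h3 : A.valuation (algebraMap ℚ Qbar a) = A.valuation (ℓ : Qbar) ^ (k * r) := by
    rw [← hγ, map_pow, hk, zpow_mul, zpow_natCast]
  rw [valuation_ratCast_eq_zpow A hℓ hA a ha] at h3
  have h4 := zpow_valuation_injective A hℓ hA h3
  exact ⟨k, by rw [h4]; ring⟩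

end val

end Fermat.Agent.S15.Desc.H97
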