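/-
S15 / DESC, package GLOB (helper97), part 6: crossed homomorphisms `Gal(ℚ̄/ℚ) → μ_r`, `r` odd.

A crossed homomorphism `z : Gal(ℚ̄/ℚ) → ℚ̄ˣ` (`z (σ τ) = z σ * σ (z τ)`) with `z σ ^ r = 1`, trivial
on the fixer of a finite set, has a Kummer class `a ∈ ℚˣ/(ℚˣ)^r` (`kummer_class`).  The local
condition at `r` is an input here (it is the output of LOC-r-B): `r ∣ v_r(a)` for every
representative `a` of the class.

* `glob_mu_trunc` (G3) : unramified outside `r`, unit class at `r`  ⇒  `z` is the coboundary of a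
  root of unity.
* `glob_mu_full` (G4) : two such classes, unramified outside `{r, p}`, unit at `r`  ⇒  a
  nontrivial combination `z₁ ^ c₁ * z₂ ^ c₂` is the coboundary of a root of unity.
-/
import Fermat.Agent.S15.Desc.H97_GlobVal
import Fermat.Agent.S15.Desc.H97_GlobArith

set_option autoImplicit false

namespace Fermat.Agent.S15.Desc.H97

local notation "Qbar" => AlgebraicClosure ℚ
local notation "GQ" => (AlgebraicClosure ℚ ≃ₐ[ℚ] AlgebraicClosure ℚ)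

/-- The local condition at `r` on the Kummer class of `z` ("unit class at `r`"). -/
def UnitClassAt (r : ℕ) (z : GQ → Qbar) : Prop :=
  ∀ (a : ℚ) (γ : Qbar), a ≠ 0 → γ ^ r = algebraMap ℚ Qbar a → (∀ σ : GQ, σ γ = z σ * γ) →
    (r : ℤ) ∣ padicValRat r a

/-- Unramified at `ℓ`: trivial on the inertia group of some valuation subring over `ℓ`. -/
def UnramAt (ℓ : ℕ) (z : GQ → Qbar) : Prop :=
  ∃ A : ValuationSubring Qbar, A.LiesOverPrime ℓ ∧ ∀ σ ∈ A.inertiaSubgroupIn ℚ, z σ = 1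

/-- Valuations of the Kummer class at the unramified primes. -/
theorem dvd_padicValRat_of_unramAt {r ℓ : ℕ} (hr : r.Prime) (hℓ : ℓ.Prime) (hℓr : ℓ ≠ r)
    (z : GQ → Qbar) (hunr : UnramAt ℓ z) (a : ℚ) (ha : a ≠ 0) (γ : Qbar)
    (hγ : γ ^ r = algebraMap ℚ Qbar a) (hzγ : ∀ σ : GQ, σ γ = z σ * γ) :
    (r : ℤ) ∣ padicValRat ℓ a := by
  obtain ⟨A, hA, hz⟩ := hunr
  refine kummer_val A hℓ hA hr hℓr a ha γ hγ (fun σ hσ => ?_)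
  rw [hzγ σ, hz σ hσ, one_mul]

/-- A root of unity from an `r`-th root of an `r`-th power. -/
theorem coboundary_of_pow {r : ℕ} (z : GQ → Qbar) (γ : Qbar) (c : ℚ) (hc : c ≠ 0)
    (hγ : γ ^ r = algebraMap ℚ Qbar (c ^ r)) (hzγ : ∀ σ : GQ, σ γ = z σ * γ) :
    ∃ ζ : Qbar, ζ ^ r = 1 ∧ ∀ σ : GQ, σ ζ = z σ * ζ := by
  have hc' : algebraMap ℚ Qbar c ≠ 0 := (map_ne_zero _).2 hc
  refine ⟨γ / algebraMap ℚ Qbar c, ?_, fun σ => ?_⟩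
  · rw [div_pow, hγ, map_pow]
    exact div_self (pow_ne_zero _ hc')
  · rw [map_div₀, hzγ σ, AlgEquiv.commutes, mul_div_assoc]

/-- **(G3)** a `μ_r`-valued open crossed homomorphism (`r` odd) which is unramified outside `r`
and has unit class at `r` is the coboundary of a root of unity. -/
theorem glob_mu_trunc {r : ℕ} (hr : r.Prime) (hr2 : r ≠ 2) (z : GQ → Qbar)
    (hz : ∀ σ τ : GQ, z (σ * τ) = z σ * σ (z τ)) (hzr : ∀ σ, z σ ^ r = 1)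
    (hopen : ∃ S : Finset Qbar, ∀ σ : GQ, (∀ x ∈ S, σ x = x) → z σ = 1)
    (hunr : ∀ ℓ : ℕ, ℓ.Prime → ℓ ≠ r → UnramAt ℓ z) (hloc : UnitClassAt r z) :
    ∃ ζ : Qbar, ζ ^ r = 1 ∧ ∀ σ : GQ, σ ζ = z σ * ζ := by
  obtain ⟨a, γ, ha, hγ, hzγ⟩ := kummer_class r z hz hzr hr.ne_zero hopen
  have hall : ∀ ℓ : ℕ, ℓ.Prime → (r : ℤ) ∣ padicValRat ℓ a := by
    intro ℓ hℓ
    by_cases hℓr : ℓ = r
    · subst hℓr
      exact hloc a γ ha hγ hzγ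
    · exact dvd_padicValRat_of_unramAt hr hℓ hℓr z (hunr ℓ hℓ hℓr) a ha γ hγ hzγ
  have hodd : Odd r := hr.odd_of_ne_two hr2
  obtain ⟨c, hc⟩ := rat_eq_pow_of_dvd_padicValRat hodd a ha hall
  have hc0 : c ≠ 0 := by
    rintro rfl
    rw [zero_pow hr.ne_zero] at hc
    exact ha hc
  exact coboundary_of_pow z γ c hc0 (by rw [hγ, hc]) hzγ

/-- **(G4)** two `μ_r`-valued open crossed homomorphisms (`r` odd) which are unramified outside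
`{r, p}` and have unit class at `r`: a nontrivial combination is the coboundary of a root of
unity. -/
theorem glob_mu_full {p r : ℕ} (hp : p.Prime) (hr : r.Prime) (hr2 : r ≠ 2) (z₁ z₂ : GQ → Qbar)
    (hz₁ : ∀ σ τ : GQ, z₁ (σ * τ) = z₁ σ * σ (z₁ τ)) (hzr₁ : ∀ σ, z₁ σ ^ r = 1)
    (hz₂ : ∀ σ τ : GQ, z₂ (σ * τ) = z₂ σ * σ (z₂ τ)) (hzr₂ : ∀ σ, z₂ σ ^ r = 1)
    (hopen₁ : ∃ S : Finset Qbar, ∀ σ : GQ, (∀ x ∈ S, σ x = x) → z₁ σ = 1)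
    (hopen₂ : ∃ S : Finset Qbar, ∀ σ : GQ, (∀ x ∈ S, σ x = x) → z₂ σ = 1)
    (hunr₁ : ∀ ℓ : ℕ, ℓ.Prime → ℓ ≠ r → ℓ ≠ p → UnramAt ℓ z₁)
    (hunr₂ : ∀ ℓ : ℕ, ℓ.Prime → ℓ ≠ r → ℓ ≠ p → UnramAt ℓ z₂)
    (hloc₁ : UnitClassAt r z₁) (hloc₂ : UnitClassAt r z₂) :
    ∃ (c₁ c₂ : ℕ) (ζ : Qbar), (¬ r ∣ c₁ ∨ ¬ r ∣ c₂) ∧ ζ ^ r = 1 ∧
      ∀ σ : GQ, σ ζ = z₁ σ ^ c₁ * z₂ σ ^ c₂ * ζ := by
  obtain ⟨a₁, γ₁, ha₁, hγ₁, hzγ₁⟩ := kummer_class r z₁ hz₁ hzr₁ hr.ne_zero hopen₁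
  obtain ⟨a₂, γ₂, ha₂, hγ₂, hzγ₂⟩ := kummer_class r z₂ hz₂ hzr₂ hr.ne_zero hopen₂
  obtain ⟨c₁, c₂, hc, hdvd⟩ := exists_comb_dvd hr (padicValRat p a₁) (padicValRat p a₂)
  set a : ℚ := a₁ ^ c₁ * a₂ ^ c₂ with ha
  have ha0 : a ≠ 0 := mul_ne_zero (pow_ne_zero _ ha₁) (pow_ne_zero _ ha₂)
  have hval : ∀ ℓ : ℕ, ℓ.Prime →
      padicValRat ℓ a = c₁ * padicValRat ℓ a₁ + c₂ * padicValRat ℓ a₂ := by
    intro ℓ hℓ
    have hfact : Fact ℓ.Prime := ⟨hℓ⟩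
    rw [ha, padicValRat.mul (pow_ne_zero _ ha₁) (pow_ne_zero _ ha₂), padicValRat.pow a₁,
      padicValRat.pow a₂]
  have hall : ∀ ℓ : ℕ, ℓ.Prime → (r : ℤ) ∣ padicValRat ℓ a := by
    intro ℓ hℓ
    rw [hval ℓ hℓ]
    by_cases hℓp : ℓ = p
    · subst hℓp
      exact hdvd
    · have h1 : (r : ℤ) ∣ padicValRat ℓ a₁ := by
        by_cases hℓr : ℓ = r
        · subst hℓr
          exact hloc₁ a₁ γ₁ ha₁ hγ₁ hzγ₁
        · exact dvd_padicValRat_of_unramAt hr hℓ hℓr z₁ (hunr₁ ℓ hℓ hℓr hℓp) a₁ ha₁ γ₁ hγ₁ hzγ₁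
      have h2 : (r : ℤ) ∣ padicValRat ℓ a₂ := by
        by_cases hℓr : ℓ = r
        · subst hℓr
          exact hloc₂ a₂ γ₂ ha₂ hγ₂ hzγ₂
        · exact dvd_padicValRat_of_unramAt hr hℓ hℓr z₂ (hunr₂ ℓ hℓ hℓr hℓp) a₂ ha₂ γ₂ hγ₂ hzγ₂
      exact dvd_add (Dvd.dvd.mul_left h1 _) (Dvd.dvd.mul_left h2 _)
  have hodd : Odd r := hr.odd_of_ne_two hr2
  obtain ⟨c, hcr⟩ := rat_eq_pow_of_dvd_padicValRat hodd a ha0 hall
  have hc0 : c ≠ 0 := by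
    rintro rfl
    rw [zero_pow hr.ne_zero] at hcr
    exact ha0 hcr
  obtain ⟨ζ, hζ, hzζ⟩ := coboundary_of_pow (fun σ => z₁ σ ^ c₁ * z₂ σ ^ c₂)
    (γ₁ ^ c₁ * γ₂ ^ c₂) c hc0
    (by
      rw [← hcr, ha, map_mul, map_pow, map_pow, ← hγ₁, ← hγ₂]
      ring)
    (fun σ => by
      show σ (γ₁ ^ c₁ * γ₂ ^ c₂) = z₁ σ ^ c₁ * z₂ σ ^ c₂ * (γ₁ ^ c₁ * γ₂ ^ c₂)
      rw [map_mul, map_pow, map_pow, hzγ₁ σ, hzγ₂ σ]
      ring)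
  exact ⟨c₁, c₂, ζ, hc, hζ, hzζ⟩

end Fermat.Agent.S15.Desc.H97
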