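import Fermat.Agent.S15.Desc.H69_LinAlg
import Fermat.Agent.S15.Desc.H97_GlobEtale
import Fermat.Agent.S15.Desc.H97_GlobMu

/-!
# S15 / DESC: the base cases of the dévissage over `ℚ` (package BASE; helper69)

`G = Gal(ℚ̄/ℚ)`, `K = 𝔽_r` (`r` an odd prime), `p ≠ r` a prime.  `I ℓ` is the inertia group of a
chosen place `A ℓ` over `ℓ`, `𝔅` a family of subgroups of `G` ("bounded at `r`") satisfying
`IsBddFamily`:

* every member of `𝔅` is open;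
* (CC0) an additive character vanishing on a member of `𝔅` is unramified at `r`;
* (KUM) a `μ_r`-valued crossed homomorphism vanishing on a member of `𝔅` has unit class at `r`.

Results (from helper97's package GLOB):

* `base_one` : good cocycles of a line with trivial character, unramified outside `{p, r}`:
  dimension `≤ dim L^(p)`.
* `base_chi` : good cocycles of a line with the cyclotomic character: dimension `≤ dim L^(p) + 1`.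
-/

set_option autoImplicit false

namespace Fermat.Agent.S15.Desc

open Module

local notation "Qbar" => AlgebraicClosure ℚ
local notation "GQ" => (AlgebraicClosure ℚ ≃ₐ[ℚ] AlgebraicClosure ℚ)

/-- Requirements on the family `𝔅` of subgroups of `Gal(ℚ̄/ℚ)` "bounded at `r`"
(`Ar` = the chosen place over `r`). -/
structure IsBddFamily (r : ℕ) (Ar : ValuationSubring Qbar) (𝔅 : Set (Subgroup GQ)) : Prop where
  isOpen : ∀ H ∈ 𝔅, ∃ S : Finset Qbar, ∀ σ : GQ, (∀ x ∈ S, σ x = x) → σ ∈ H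
  cc0 : ∀ u : GQ → ZMod r, (∀ σ τ, u (σ * τ) = u σ + u τ) → (∃ H ∈ 𝔅, ∀ σ ∈ H, u σ = 0) →
    ∀ σ ∈ Ar.inertiaSubgroupIn ℚ, u σ = 0
  kum : ∀ z : GQ → Qbar, (∀ σ τ, z (σ * τ) = z σ * σ (z τ)) → (∀ σ, z σ ^ r = 1) →
    (∃ H ∈ 𝔅, ∀ σ ∈ H, z σ = 1) → H97.UnitClassAt r z

section Roots

variable {r : ℕ} [Fact r.Prime] {ζ₀ : Qbar}

theorem zpow_val_add (hζ : ζ₀ ^ r = 1) (a b : ZMod r) :
    ζ₀ ^ (a + b).val = ζ₀ ^ a.val * ζ₀ ^ b.val := by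
  rw [ZMod.val_add, ← pow_eq_pow_mod _ hζ, pow_add]

theorem zpow_val_mul (hζ : ζ₀ ^ r = 1) (a b : ZMod r) :
    ζ₀ ^ (a * b).val = (ζ₀ ^ b.val) ^ a.val := by
  rw [ZMod.val_mul, ← pow_eq_pow_mod _ hζ, ← pow_mul, mul_comm]

theorem zpow_val_natCast (hζ : ζ₀ ^ r = 1) (n : ℕ) :
    ζ₀ ^ ((n : ZMod r)).val = ζ₀ ^ n := by
  rw [ZMod.val_natCast, ← pow_eq_pow_mod _ hζ]

theorem zpow_val_injective (hζ : IsPrimitiveRoot ζ₀ r) {a b : ZMod r}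
    (h : ζ₀ ^ a.val = ζ₀ ^ b.val) : a = b :=
  ZMod.val_injective r (hζ.pow_inj (ZMod.val_lt a) (ZMod.val_lt b) h)

theorem zpow_val_eq_one_iff (hζ : IsPrimitiveRoot ζ₀ r) {a : ZMod r} :
    ζ₀ ^ a.val = 1 ↔ a = 0 := by
  constructor
  · intro h
    refine zpow_val_injective hζ ?_
    rw [h, ZMod.val_zero, pow_zero]
  · rintro rfl
    rw [ZMod.val_zero, pow_zero]

end Roots

section Base

variable {r : ℕ} [hr : Fact r.Prime] {p : ℕ}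
variable {A : ℕ → ValuationSubring Qbar}
variable {𝔅 : Set (Subgroup GQ)}

/-- **BASE, trivial character.** -/
theorem base_one (hp : p.Prime) (hpr : p ≠ r)
    (hA : ∀ ℓ : ℕ, ℓ.Prime → (A ℓ).LiesOverPrime ℓ) (h𝔅 : IsBddFamily r (A r) 𝔅)
    (Lloc : ℕ → Submodule (ZMod r) (ZMod r))
    (hL : ∀ ℓ : ℕ, ℓ.Prime → ℓ ≠ p → ℓ ≠ r → Lloc ℓ = ⊥) :
    DimLE (ZMod r) (ZgoodLine (fun ℓ => (A ℓ).inertiaSubgroupIn ℚ) 𝔅 (fun _ => (1 : ZMod r)) Lloc)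
      (finrank (ZMod r) (Lloc p)) := by
  intro T hT hfin
  -- properties of the elements of `T`
  have hadd : ∀ u ∈ T, ∀ σ τ : GQ, u (σ * τ) = u σ + u τ := by
    intro u hu σ τ
    have := (hT hu).1 σ τ
    rwa [one_mul] at this
  have hopen : ∀ u ∈ T, ∃ S : Finset Qbar, ∀ σ : GQ, (∀ x ∈ S, σ x = x) → u σ = 0 := by
    intro u hu
    obtain ⟨H, hH, hvan⟩ := (hT hu).2.2
    obtain ⟨S, hS⟩ := h𝔅.isOpen H hH
    exact ⟨S, fun σ hσ => hvan σ (hS σ hσ)⟩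
  have hunr : ∀ u ∈ T, ∀ ℓ : ℕ, ℓ.Prime → ℓ ≠ p → ∃ B : ValuationSubring Qbar,
      B.LiesOverPrime ℓ ∧ ∀ σ ∈ B.inertiaSubgroupIn ℚ, u σ = 0 := by
    intro u hu ℓ hℓ hℓp
    refine ⟨A ℓ, hA ℓ hℓ, fun σ hσ => ?_⟩
    by_cases hℓr : ℓ = r
    · subst hℓr
      exact h𝔅.cc0 u (hadd u hu) (hT hu).2.2 σ hσ
    · have h1 := (hT hu).2.1 ℓ σ hσ
      rw [hL ℓ hℓ hℓp hℓr, Submodule.mem_bot] at h1
      exact h1
  by_cases hLp : Lloc p = ⊥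
  · -- unramified everywhere
    have hzero : ∀ u ∈ T, u = 0 := by
      intro u hu
      funext σ
      refine H97.glob_etale_trunc u (hadd u hu) (hopen u hu) (fun ℓ hℓ => ?_) σ
      by_cases hℓp : ℓ = p
      · subst hℓp
        refine ⟨A ℓ, hA ℓ hℓ, fun σ hσ => ?_⟩
        have h1 := (hT hu).2.1 ℓ σ hσ
        rw [hLp, Submodule.mem_bot] at h1
        exact h1
      · exact hunr u hu ℓ hℓ hℓp
    have : T = ⊥ := by
      rw [eq_bot_iff]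
      intro x hx
      rw [Submodule.mem_bot]
      exact hzero x hx
    subst this
    simp
  · have h1 : 1 ≤ finrank (ZMod r) (Lloc p) := by
      rw [Nat.one_le_iff_ne_zero]
      intro h0
      exact hLp (Submodule.finrank_eq_zero.mp h0)
    refine le_trans (finrank_le_one_of_pairwise_dep T ?_) h1
    intro u₁ hu₁ u₂ hu₂
    obtain ⟨c₁, c₂, hc, hcomb⟩ := H97.glob_etale hp hr.out hpr u₁ u₂ (hadd u₁ hu₁) (hadd u₂ hu₂)
      (hopen u₁ hu₁) (hopen u₂ hu₂) (hunr u₁ hu₁) (hunr u₂ hu₂)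
    refine ⟨c₁, c₂, hc, ?_⟩
    funext σ
    exact hcomb σ

/-- The `μ_r`-valued crossed homomorphism attached to a `χ`-cocycle with values in `𝔽_r`. -/
noncomputable def zOf (ζ₀ : Qbar) (u : GQ → ZMod r) : GQ → Qbar := fun σ => ζ₀ ^ (u σ).val

theorem zOf_crossed {ζ₀ : Qbar} (hζ : ζ₀ ^ r = 1) {χ : GQ → ZMod r}
    (hχ : ∀ σ : GQ, σ ζ₀ = ζ₀ ^ (χ σ).val) {u : GQ → ZMod r}
    (hu : ∀ σ τ, u (σ * τ) = u σ + χ σ * u τ) (σ τ : GQ) :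
    zOf ζ₀ u (σ * τ) = zOf ζ₀ u σ * σ (zOf ζ₀ u τ) := by
  unfold zOf
  rw [hu, zpow_val_add hζ, zpow_val_mul hζ, map_pow, hχ σ, ← pow_mul, ← pow_mul,
    mul_comm (u τ).val]

omit hr in
theorem zOf_pow {ζ₀ : Qbar} (hζ : ζ₀ ^ r = 1) (u : GQ → ZMod r) (σ : GQ) :
    zOf ζ₀ u σ ^ r = 1 := by
  unfold zOf
  rw [← pow_mul, mul_comm, pow_mul, hζ, one_pow]

/-- If `z_u` is the coboundary of a root of unity, `u` is a multiple of `χ - 1`. -/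
theorem eq_smul_of_coboundary {ζ₀ : Qbar} (hζ : IsPrimitiveRoot ζ₀ r) {χ : GQ → ZMod r}
    (hχ : ∀ σ : GQ, σ ζ₀ = ζ₀ ^ (χ σ).val) (w : GQ → ZMod r) (ζ : Qbar) (hζr : ζ ^ r = 1)
    (h : ∀ σ : GQ, σ ζ = ζ₀ ^ (w σ).val * ζ) :
    ∃ j : ZMod r, ∀ σ, w σ = j * (χ σ - 1) := by
  have hr0 : r ≠ 0 := hr.out.ne_zero
  have : NeZero r := ⟨hr0⟩
  obtain ⟨i, -, hi⟩ := hζ.eq_pow_of_pow_eq_one hζr
  refine ⟨(i : ZMod r), fun σ => ?_⟩
  have h1 := h σ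
  rw [← hi, map_pow, hχ σ] at h1
  -- ζ₀ ^ ((χ σ).val * i) = ζ₀ ^ (w σ).val * ζ₀ ^ i
  have h2 : ζ₀ ^ ((χ σ * (i : ZMod r))).val = ζ₀ ^ (w σ + (i : ZMod r)).val := by
    rw [zpow_val_add hζ.pow_eq_one, zpow_val_mul hζ.pow_eq_one, zpow_val_natCast hζ.pow_eq_one,
      ← pow_mul, mul_comm]
    rw [← pow_mul] at h1
    exact h1
  have h3 := zpow_val_injective hζ h2
  have h4 : w σ = χ σ * (i : ZMod r) - (i : ZMod r) := by
    rw [h3]; ring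
  rw [h4]; ring

/-- **BASE, cyclotomic character.** -/
theorem base_chi (hp : p.Prime) (hr2 : r ≠ 2)
    (hA : ∀ ℓ : ℕ, ℓ.Prime → (A ℓ).LiesOverPrime ℓ)
    (h𝔅 : IsBddFamily r (A r) 𝔅)
    {ζ₀ : Qbar} (hζ : IsPrimitiveRoot ζ₀ r) {χ : GQ → ZMod r}
    (hχ : ∀ σ : GQ, σ ζ₀ = ζ₀ ^ (χ σ).val)
    (Lloc : ℕ → Submodule (ZMod r) (ZMod r))
    (hL : ∀ ℓ : ℕ, ℓ.Prime → ℓ ≠ p → ℓ ≠ r → Lloc ℓ = ⊥) :
    DimLE (ZMod r) (ZgoodLine (fun ℓ => (A ℓ).inertiaSubgroupIn ℚ) 𝔅 χ Lloc)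
      (finrank (ZMod r) (Lloc p) + 1) := by
  intro T hT hfin
  have hζ1 : ζ₀ ^ r = 1 := hζ.pow_eq_one
  have hcr : ∀ u ∈ T, ∀ σ τ : GQ, zOf ζ₀ u (σ * τ) = zOf ζ₀ u σ * σ (zOf ζ₀ u τ) :=
    fun u hu => zOf_crossed hζ1 hχ (hT hu).1
  have hopen : ∀ u ∈ T, ∃ S : Finset Qbar, ∀ σ : GQ, (∀ x ∈ S, σ x = x) → zOf ζ₀ u σ = 1 := by
    intro u hu
    obtain ⟨H, hH, hvan⟩ := (hT hu).2.2
    obtain ⟨S, hS⟩ := h𝔅.isOpen H hH
    refine ⟨S, fun σ hσ => ?_⟩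
    show ζ₀ ^ (u σ).val = 1
    rw [hvan σ (hS σ hσ), ZMod.val_zero, pow_zero]
  have hunit : ∀ u ∈ T, H97.UnitClassAt r (zOf ζ₀ u) := by
    intro u hu
    refine h𝔅.kum _ (hcr u hu) (zOf_pow hζ1 u) ?_
    obtain ⟨H, hH, hvan⟩ := (hT hu).2.2
    refine ⟨H, hH, fun σ hσ => ?_⟩
    show ζ₀ ^ (u σ).val = 1
    rw [hvan σ hσ, ZMod.val_zero, pow_zero]
  have hunr : ∀ u ∈ T, ∀ ℓ : ℕ, ℓ.Prime → ℓ ≠ r → ℓ ≠ p → H97.UnramAt ℓ (zOf ζ₀ u) := by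
    intro u hu ℓ hℓ hℓr hℓp
    refine ⟨A ℓ, hA ℓ hℓ, fun σ hσ => ?_⟩
    have h1 := (hT hu).2.1 ℓ σ hσ
    rw [hL ℓ hℓ hℓp hℓr, Submodule.mem_bot] at h1
    show ζ₀ ^ (u σ).val = 1
    rw [h1, ZMod.val_zero, pow_zero]
  -- the coboundary
  set u₀ : GQ → ZMod r := fun σ => χ σ - 1 with hu₀
  by_cases hLp : Lloc p = ⊥
  · -- unramified outside `r`: every element is a multiple of `u₀`
    have hmul : ∀ u ∈ T, ∃ j : ZMod r, u = j • u₀ := by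
      intro u hu
      obtain ⟨ζ, hζr, hcob⟩ := H97.glob_mu_trunc hr.out hr2 (zOf ζ₀ u) (hcr u hu)
        (zOf_pow hζ1 u) (hopen u hu) (fun ℓ hℓ hℓr => by
          by_cases hℓp : ℓ = p
          · subst hℓp
            refine ⟨A ℓ, hA ℓ hℓ, fun σ hσ => ?_⟩
            have h1 := (hT hu).2.1 ℓ σ hσ
            rw [hLp, Submodule.mem_bot] at h1
            show ζ₀ ^ (u σ).val = 1
            rw [h1, ZMod.val_zero, pow_zero]
          · exact hunr u hu ℓ hℓ hℓr hℓp) (hunit u hu)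
      obtain ⟨j, hj⟩ := eq_smul_of_coboundary hζ hχ u ζ hζr hcob
      exact ⟨j, funext fun σ => hj σ⟩
    have h1 : finrank (ZMod r) T ≤ 1 := by
      refine finrank_le_one_of_pairwise_dep T ?_
      intro u₁ hu₁ u₂ hu₂
      obtain ⟨j₁, rfl⟩ := hmul u₁ hu₁
      obtain ⟨j₂, rfl⟩ := hmul u₂ hu₂
      by_cases hj : j₁ = 0 ∧ j₂ = 0
      · refine ⟨1, 0, Or.inl one_ne_zero, ?_⟩
        rw [hj.1, zero_smul, smul_zero, zero_smul, add_zero]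
      · refine ⟨j₂, -j₁, ?_, ?_⟩
        · by_contra hcon
          simp only [not_or, not_not, neg_eq_zero] at hcon
          exact hj ⟨hcon.2, hcon.1⟩
        · rw [smul_smul, smul_smul, mul_comm j₂ j₁, neg_mul, neg_smul, add_neg_cancel]
    omega
  · have h1 : 1 ≤ finrank (ZMod r) (Lloc p) := by
      rw [Nat.one_le_iff_ne_zero]
      intro h0
      exact hLp (Submodule.finrank_eq_zero.mp h0)
    have h2 : finrank (ZMod r) T ≤ 2 := by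
      refine finrank_le_two_of_pairwise_dep_mod T u₀ ?_
      intro u₁ hu₁ u₂ hu₂
      obtain ⟨c₁, c₂, ζ, hc, hζr, hcob⟩ := H97.glob_mu_full hp hr.out hr2 (zOf ζ₀ u₁) (zOf ζ₀ u₂)
        (hcr u₁ hu₁) (zOf_pow hζ1 u₁) (hcr u₂ hu₂) (zOf_pow hζ1 u₂) (hopen u₁ hu₁) (hopen u₂ hu₂)
        (hunr u₁ hu₁) (hunr u₂ hu₂) (hunit u₁ hu₁) (hunit u₂ hu₂)
      -- the combination `w = c₁ u₁ + c₂ u₂`
      set w : GQ → ZMod r := fun σ => (c₁ : ZMod r) * u₁ σ + (c₂ : ZMod r) * u₂ σ with hw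
      have hwz : ∀ σ : GQ, σ ζ = ζ₀ ^ (w σ).val * ζ := by
        intro σ
        rw [hcob σ]
        congr 1
        show (ζ₀ ^ (u₁ σ).val) ^ c₁ * (ζ₀ ^ (u₂ σ).val) ^ c₂ = _
        rw [hw]
        simp only
        rw [zpow_val_add hζ1, zpow_val_mul hζ1, zpow_val_mul hζ1, ZMod.val_natCast,
          ZMod.val_natCast, ← pow_mul, ← pow_mul, ← pow_mul, ← pow_mul]
        have e1 : ζ₀ ^ ((u₁ σ).val * (c₁ % r)) = ζ₀ ^ ((u₁ σ).val * c₁) := by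
          rw [pow_mul, pow_mul, ← pow_eq_pow_mod c₁ (by rw [← pow_mul, mul_comm, pow_mul, hζ1,
            one_pow])]
        have e2 : ζ₀ ^ ((u₂ σ).val * (c₂ % r)) = ζ₀ ^ ((u₂ σ).val * c₂) := by
          rw [pow_mul, pow_mul, ← pow_eq_pow_mod c₂ (by rw [← pow_mul, mul_comm, pow_mul, hζ1,
            one_pow])]
        rw [e1, e2]
      obtain ⟨j, hj⟩ := eq_smul_of_coboundary hζ hχ w ζ hζr hwz
      refine ⟨(c₁ : ZMod r), (c₂ : ZMod r), j, ?_, ?_⟩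
      · rcases hc with hc | hc
        · left
          intro h0
          exact hc ((ZMod.natCast_eq_zero_iff c₁ r).mp h0)
        · right
          intro h0
          exact hc ((ZMod.natCast_eq_zero_iff c₂ r).mp h0)
      · funext σ
        exact hj σ
    omega

end Base

end Fermat.Agent.S15.Desc
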