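/-
S15 / DESC, local theory at the descent prime `r` (helper63): BASE for the elementary bounded
family of `NOTES/plan/S15_LOCr.md` §1.

`A` a valuation subring of `ℚ̄` over the odd prime `r`, `I` its inertia group,
`U = unrUnits A` the `A`-units fixed by `I`, `unrRoots r A` the `r`-th roots of elements of `U`.

* `bddFin r A`  : open subgroups `H` of `G_ℚ` containing `I ∩ Fix(T)` for a finite set `T` of
  `r`-th roots of unramified units;
* `isBddFamily_bddFin : IsBddFamily r A (bddFin r A)` (package BASE of `H69_Base.lean`):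
  - (CC0) an additive character vanishing on a member of the family is unramified at `r`;
  - (KUM) a `μ_r`-valued crossed homomorphism vanishing on a member has unit class at `r`.
-/
import Fermat.Agent.S15.Desc.H69_Base
import Fermat.Agent.R.H6_UnrFix
import Fermat.Agent.S05.H37_Inertia

set_option autoImplicit false

noncomputable section

namespace Fermat.Agent.S15.Desc.H63

local notation "Qbar" => AlgebraicClosure ℚ
local notation "GQ" => (AlgebraicClosure ℚ ≃ₐ[ℚ] AlgebraicClosure ℚ)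

open Fermat.Agent.S05.H37

/-! ### Definitions -/

/-- The units of `A` fixed by the inertia group. -/
def unrUnits (A : ValuationSubring Qbar) : Set Qbar :=
  {x | A.valuation x = 1 ∧ ∀ σ ∈ A.inertiaSubgroupIn ℚ, σ x = x}

/-- The `r`-th roots of the unramified units. -/
def unrRoots (r : ℕ) (A : ValuationSubring Qbar) : Set Qbar := {β | β ^ r ∈ unrUnits A}

/-- The bounded family, finite form: open subgroups containing `I ∩ Fix(T)` for a finite set `T`
of `r`-th roots of unramified units. -/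
def bddFin (r : ℕ) (A : ValuationSubring Qbar) : Set (Subgroup GQ) :=
  {H | (∃ S : Finset Qbar, ∀ σ : GQ, (∀ x ∈ S, σ x = x) → σ ∈ H) ∧
    ∃ T : Finset Qbar, (∀ β ∈ T, β ∈ unrRoots r A) ∧
      ∀ σ ∈ A.inertiaSubgroupIn ℚ, (∀ β ∈ T, σ β = β) → σ ∈ H}

/-- The bounded family of `S15_LOCr.md` §1: open subgroups containing
`I' = I ∩ Fix(unrRoots r A)`. -/
def bddElem (r : ℕ) (A : ValuationSubring Qbar) : Set (Subgroup GQ) :=
  {H | (∃ S : Finset Qbar, ∀ σ : GQ, (∀ x ∈ S, σ x = x) → σ ∈ H) ∧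
    ∀ σ ∈ A.inertiaSubgroupIn ℚ, (∀ β ∈ unrRoots r A, σ β = β) → σ ∈ H}

theorem bddFin_subset_bddElem (r : ℕ) (A : ValuationSubring Qbar) :
    bddFin r A ⊆ bddElem r A := by
  rintro H ⟨hS, T, hT, hH⟩
  exact ⟨hS, fun σ hσ hfix => hH σ hσ fun β hβ => hfix β (hT β hβ)⟩

/-! ### Unramified units and their roots -/

section units

variable {A : ValuationSubring Qbar} {r : ℕ}

theorem unrUnits_ne_zero {x : Qbar} (hx : x ∈ unrUnits A) : x ≠ 0 := by
  rintro rfl
  have := hx.1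
  rw [map_zero] at this
  exact zero_ne_one this

theorem one_mem_unrUnits : (1 : Qbar) ∈ unrUnits A :=
  ⟨map_one _, fun σ _ => map_one σ⟩

theorem mul_mem_unrUnits {x y : Qbar} (hx : x ∈ unrUnits A) (hy : y ∈ unrUnits A) :
    x * y ∈ unrUnits A :=
  ⟨by rw [map_mul, hx.1, hy.1, one_mul], fun σ hσ => by rw [map_mul, hx.2 σ hσ, hy.2 σ hσ]⟩

theorem pow_mem_unrUnits {x : Qbar} (hx : x ∈ unrUnits A) (n : ℕ) : x ^ n ∈ unrUnits A :=
  ⟨by rw [map_pow, hx.1, one_pow], fun σ hσ => by rw [map_pow, hx.2 σ hσ]⟩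

theorem prod_mem_unrUnits {ι : Type*} (s : Finset ι) (f : ι → Qbar)
    (h : ∀ i ∈ s, f i ∈ unrUnits A) : ∏ i ∈ s, f i ∈ unrUnits A := by
  classical
  induction s using Finset.induction_on with
  | empty => rw [Finset.prod_empty]; exact one_mem_unrUnits
  | insert i s hi ih =>
    rw [Finset.prod_insert hi]
    exact mul_mem_unrUnits (h i (Finset.mem_insert_self i s))
      (ih fun j hj => h j (Finset.mem_insert_of_mem hj))

theorem unrRoots_ne_zero (hr : r ≠ 0) {β : Qbar} (hβ : β ∈ unrRoots r A) : β ≠ 0 := by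
  rintro rfl
  have h : (0 : Qbar) ^ r ∈ unrUnits A := hβ
  rw [zero_pow hr] at h
  exact unrUnits_ne_zero h rfl

/-- The inertia group maps `unrRoots` to itself. -/
theorem apply_mem_unrRoots {β : Qbar} (hβ : β ∈ unrRoots r A) {σ : GQ}
    (hσ : σ ∈ A.inertiaSubgroupIn ℚ) : σ β ∈ unrRoots r A := by
  have h : β ^ r ∈ unrUnits A := hβ
  show (σ β) ^ r ∈ unrUnits A
  rw [← map_pow, h.2 σ hσ]
  exact h

/-- `σ β / β` is an `r`-th root of unity. -/
theorem apply_div_pow (hr : r ≠ 0) {β : Qbar} (hβ : β ∈ unrRoots r A) {σ : GQ}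
    (hσ : σ ∈ A.inertiaSubgroupIn ℚ) : (σ β / β) ^ r = 1 := by
  have h : β ^ r ∈ unrUnits A := hβ
  rw [div_pow, ← map_pow, h.2 σ hσ]
  exact div_self (pow_ne_zero _ (unrRoots_ne_zero hr hβ))

end units

/-! ### Roots of unity -/

section roots

variable {r : ℕ} [NeZero r] {ζ : Qbar} (hζ : IsPrimitiveRoot ζ r)

/-- The cyclotomic character modulo `r`. -/
def chi : GQ →* (ZMod r)ˣ := hζ.autToPow ℚ

theorem chi_spec (σ : GQ) : σ ζ = ζ ^ ((chi hζ σ : (ZMod r)ˣ) : ZMod r).val :=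
  (hζ.autToPow_spec ℚ σ).symm

/-- The action on all `r`-th roots of unity. -/
theorem apply_root (σ : GQ) {w : Qbar} (hw : w ^ r = 1) :
    σ w = w ^ ((chi hζ σ : (ZMod r)ˣ) : ZMod r).val := by
  obtain ⟨i, -, rfl⟩ := hζ.eq_pow_of_pow_eq_one hw
  rw [map_pow, chi_spec hζ σ, ← pow_mul, ← pow_mul, mul_comm]

include hζ in
/-- An automorphism fixing `ζ` fixes all `r`-th roots of unity. -/
theorem apply_root_of_fix {σ : GQ} (hσ : σ ζ = ζ) {w : Qbar} (hw : w ^ r = 1) : σ w = w := by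
  obtain ⟨i, -, rfl⟩ := hζ.eq_pow_of_pow_eq_one hw
  rw [map_pow, hσ]

theorem chi_eq_one_iff (σ : GQ) : chi hζ σ = 1 ↔ σ ζ = ζ := by
  constructor
  · intro h
    rw [chi_spec hζ σ, h, Units.val_one]
    rcases Nat.lt_or_ge 1 r with h1 | h1
    · have : Fact (1 < r) := ⟨h1⟩
      rw [ZMod.val_one, pow_one]
    · have hr1 : r = 1 := le_antisymm h1 (Nat.pos_of_ne_zero (NeZero.ne r))
      subst hr1
      have := hζ.pow_eq_one
      rw [pow_one] at this
      rw [this, one_pow]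
  · intro h
    have h1 := chi_spec hζ σ
    rw [h] at h1
    have h2 : ζ ^ ((chi hζ σ : (ZMod r)ˣ) : ZMod r).val = ζ ^ 1 := by rw [pow_one]; exact h1.symm
    rcases Nat.lt_or_ge 1 r with hr1 | hr1
    · have h3 := hζ.pow_inj (ZMod.val_lt _) hr1 h2
      apply Units.ext
      rw [Units.val_one]
      have : ((((chi hζ σ : (ZMod r)ˣ) : ZMod r).val : ℕ) : ZMod r) = ((1 : ℕ) : ZMod r) := by
        rw [h3]
      rwa [ZMod.natCast_zmod_val, Nat.cast_one] at this
    · have hr1' : r = 1 := le_antisymm hr1 (Nat.pos_of_ne_zero (NeZero.ne r))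
      subst hr1'
      exact Subsingleton.elim _ _

end roots

/-! ### The cyclotomic character is ramified at `r` -/

section ram

variable (A : ValuationSubring Qbar)

theorem val_root_eq_one {w : Qbar} {n : ℕ} (hn : n ≠ 0) (hw : w ^ n = 1) :
    A.valuation w = 1 := by
  have h : A.valuation w ^ n = 1 := by rw [← map_pow, hw, map_one]
  rcases lt_trichotomy (A.valuation w) 1 with h1 | h1 | h1
  · exact absurd h (pow_lt_one₀ zero_le h1 hn).ne
  · exact h1
  · exact absurd h (one_lt_pow₀ h1 hn).ne'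

theorem val_one_sub_pow_le {w : Qbar} (hw : A.valuation w ≤ 1) (k : ℕ) :
    A.valuation (1 - w ^ k) ≤ A.valuation (1 - w) := by
  rw [← mul_neg_geom_sum w k, map_mul]
  have h1 : A.valuation (∑ i ∈ Finset.range k, w ^ i) ≤ 1 := by
    apply Valuation.map_sum_le
    intro i _
    rw [map_pow]
    exact pow_le_one₀ zero_le hw
  calc A.valuation (1 - w) * A.valuation (∑ i ∈ Finset.range k, w ^ i)
      ≤ A.valuation (1 - w) * 1 := mul_le_mul_right h1 _
    _ = A.valuation (1 - w) := mul_one _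

variable {r : ℕ} (hr : r.Prime) {ζ : Qbar} (hζ : IsPrimitiveRoot ζ r)

include hr hζ in
/-- `|1 - ζ|^(r-1) = |r|`. -/
theorem val_one_sub_zeta_pow : A.valuation (1 - ζ) ^ (r - 1) = A.valuation (r : Qbar) := by
  obtain ⟨n, rfl⟩ : ∃ n, r = n + 1 := ⟨r - 1, (Nat.succ_pred_eq_of_pos hr.pos).symm⟩
  have hprod := hζ.prod_one_sub_pow_eq_order
  have hζ1 : A.valuation ζ = 1 := val_root_eq_one A hr.ne_zero hζ.pow_eq_one
  have hfac : ∀ k ∈ Finset.range n, A.valuation (1 - ζ ^ (k + 1)) = A.valuation (1 - ζ) := by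
    intro k hk
    rw [Finset.mem_range] at hk
    apply le_antisymm (val_one_sub_pow_le A hζ1.le (k + 1))
    have hcop : (k + 1).Coprime (n + 1) := by
      rw [Nat.coprime_comm]
      exact (Nat.Prime.coprime_iff_not_dvd hr).mpr
        (fun h => absurd (Nat.le_of_dvd (Nat.succ_pos k) h) (by omega))
    obtain ⟨m, -, hm⟩ := Nat.exists_mul_mod_eq_one_of_coprime hcop hr.one_lt
    have hpow : (ζ ^ (k + 1)) ^ m = ζ := by
      rw [← pow_mul, ← Nat.mod_add_div ((k + 1) * m) (n + 1), hm, pow_add, pow_one, pow_mul,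
        hζ.pow_eq_one, one_pow, mul_one]
    have h1 : A.valuation (ζ ^ (k + 1)) ≤ 1 := by rw [map_pow, hζ1, one_pow]
    have h2 := val_one_sub_pow_le A h1 m
    rwa [hpow] at h2
  have h3 : A.valuation (∏ k ∈ Finset.range n, (1 - ζ ^ (k + 1))) = A.valuation (1 - ζ) ^ n := by
    rw [map_prod, Finset.prod_congr rfl hfac, Finset.prod_const, Finset.card_range]
  rw [Nat.add_sub_cancel, ← h3, hprod]
  push_cast
  rfl

include hr hζ in
/-- The inertia group at `r` acts non-trivially on the `r`-th roots of unity, `r` odd. -/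
theorem exists_inertia_apply_ne (hr2 : r ≠ 2) (hA : A.LiesOverPrime r) :
    ∃ τ ∈ A.inertiaSubgroupIn ℚ, τ ζ ≠ ζ := by
  by_contra hcon
  simp only [not_exists, not_and, not_not] at hcon
  have hζ1 : ζ ≠ 1 := hζ.ne_one hr.one_lt
  have hx0 : (1 : Qbar) - ζ ≠ 0 := sub_ne_zero.mpr (Ne.symm hζ1)
  have hfix : ∀ σ ∈ A.inertiaSubgroupIn ℚ, σ (1 - ζ) = 1 - ζ := by
    intro σ hσ
    rw [map_sub, map_one, hcon σ hσ]
  obtain ⟨k, hk⟩ := Fermat.Agent.R.H6.stmt_UnrFix r hr A hA (1 - ζ) hx0 hfix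
  have h1 := val_one_sub_zeta_pow A hr hζ
  rw [hk, ← zpow_natCast, ← zpow_mul] at h1
  have h2 : A.valuation (r : Qbar) ^ (k * ((r - 1 : ℕ) : ℤ)) = A.valuation (r : Qbar) ^ (1 : ℤ) := by
    rw [h1, zpow_one]
  have h3 := H97.zpow_valuation_injective A hr hA h2
  have hr3 : 3 ≤ r := by
    have := hr.two_le
    omega
  have h4 : ((r - 1 : ℕ) : ℤ) ∣ 1 := ⟨k, by rw [mul_comm]; exact h3.symm⟩
  have h5 := Int.le_of_dvd one_pos h4
  have h6 : (2 : ℤ) ≤ ((r - 1 : ℕ) : ℤ) := by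
    have : 2 ≤ r - 1 := by omega
    exact_mod_cast this
  omega

end ram

/-! ### (CC0) -/

section cc0

variable (A : ValuationSubring Qbar) {r : ℕ}

/-- Additive functions on `G_ℚ`. -/
theorem add_fun_one {u : GQ → ZMod r} (hu : ∀ σ τ, u (σ * τ) = u σ + u τ) : u 1 = 0 := by
  have h := hu 1 1
  rw [one_mul] at h
  exact left_eq_add.mp h

theorem add_fun_inv {u : GQ → ZMod r} (hu : ∀ σ τ, u (σ * τ) = u σ + u τ) (σ : GQ) :
    u σ⁻¹ = -u σ := by
  have h := hu σ σ⁻¹
  rw [mul_inv_cancel, add_fun_one hu] at h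
  exact eq_neg_of_add_eq_zero_right h.symm

theorem add_fun_pow {u : GQ → ZMod r} (hu : ∀ σ τ, u (σ * τ) = u σ + u τ) (σ : GQ) (n : ℕ) :
    u (σ ^ n) = n * u σ := by
  induction n with
  | zero => rw [pow_zero, add_fun_one hu, Nat.cast_zero, zero_mul]
  | succ n ih => rw [pow_succ, hu, ih]; push_cast; ring

/-- Powers of an automorphism fixing the roots of unity, on a root of an unramified unit. -/
theorem pow_apply_of_fix {σ : GQ} {β w : Qbar} (hβ : σ β = w * β) (hw : σ w = w) (n : ℕ) :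
    (σ ^ n) β = w ^ n * β := by
  induction n with
  | zero => rw [pow_zero, pow_zero, one_mul]; rfl
  | succ n ih =>
    rw [pow_succ', AlgEquiv.mul_apply, ih, map_mul, map_pow, hw, hβ, pow_succ]
    ring

variable [Fact r.Prime] {ζ : Qbar} (hζ : IsPrimitiveRoot ζ r)

include hζ in
/-- The commutator identity `τ σ τ⁻¹ = σ^m` on roots of unramified units, for `σ` fixing `ζ` and
`τ ζ = ζ^m`. -/
theorem conj_apply {σ τ : GQ} (hσ : σ ∈ A.inertiaSubgroupIn ℚ) (hτ : τ ∈ A.inertiaSubgroupIn ℚ)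
    (hσζ : σ ζ = ζ) {β : Qbar} (hβ : β ∈ unrRoots r A) :
    (τ * σ * τ⁻¹) β = (σ ^ ((chi hζ τ : (ZMod r)ˣ) : ZMod r).val) β := by
  have hr0 : r ≠ 0 := (Fact.out : r.Prime).ne_zero
  have hβ0 : β ≠ 0 := unrRoots_ne_zero hr0 hβ
  set w := σ β / β with hw
  have hwr : w ^ r = 1 := apply_div_pow hr0 hβ hσ
  have hσβ : σ β = w * β := by rw [hw]; field_simp
  have hσw : σ w = w := apply_root_of_fix hζ hσζ hwr
  -- `β' = τ⁻¹ β = w₀ β`
  have hτi : τ⁻¹ ∈ A.inertiaSubgroupIn ℚ := inv_mem hτ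
  set w₀ := τ⁻¹ β / β with hw₀
  have hw₀r : w₀ ^ r = 1 := apply_div_pow hr0 hβ hτi
  have hτβ : τ⁻¹ β = w₀ * β := by rw [hw₀]; field_simp
  have hσw₀ : σ w₀ = w₀ := apply_root_of_fix hζ hσζ hw₀r
  have h1 : σ (τ⁻¹ β) = w * τ⁻¹ β := by
    rw [hτβ, map_mul, hσw₀, hσβ]
    ring
  have h2 : τ (τ⁻¹ β) = β := by
    change (τ * τ⁻¹) β = β
    rw [mul_inv_cancel]
    rfl
  rw [AlgEquiv.mul_apply, AlgEquiv.mul_apply, h1, map_mul, h2, apply_root hζ τ hwr,
    pow_apply_of_fix hσβ hσw]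

/-- **(CC0)** for the elementary family: an additive character of `G_ℚ` vanishing on
`I' = I ∩ Fix(unrRoots)` vanishes on the inertia group `I` (`r` odd). -/
theorem cc0_of_vanish (hr2 : r ≠ 2) (hA : A.LiesOverPrime r)
    (u : GQ → ZMod r) (hu : ∀ σ τ, u (σ * τ) = u σ + u τ)
    (hvan : ∀ σ ∈ A.inertiaSubgroupIn ℚ, (∀ β ∈ unrRoots r A, σ β = β) → u σ = 0) :
    ∀ σ ∈ A.inertiaSubgroupIn ℚ, u σ = 0 := by
  have hr : r.Prime := Fact.out
  have : NeZero r := ⟨hr.ne_zero⟩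
  obtain ⟨ζ, hζ⟩ := HasEnoughRootsOfUnity.exists_primitiveRoot Qbar r
  obtain ⟨τ, hτ, hτζ⟩ := exists_inertia_apply_ne A hr hζ hr2 hA
  set m := ((chi hζ τ : (ZMod r)ˣ) : ZMod r).val with hm
  have hm1 : (1 : ZMod r) - (m : ZMod r) ≠ 0 := by
    rw [hm, ZMod.natCast_zmod_val, sub_ne_zero]
    intro h
    apply hτζ
    rw [← chi_eq_one_iff hζ]
    exact Units.ext h.symm
  -- Step A: automorphisms fixing `ζ`
  have hA' : ∀ σ ∈ A.inertiaSubgroupIn ℚ, σ ζ = ζ → u σ = 0 := by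
    intro σ hσ hσζ
    have hc : τ * σ * τ⁻¹ * (σ ^ m)⁻¹ ∈ A.inertiaSubgroupIn ℚ :=
      mul_mem (mul_mem (mul_mem hτ hσ) (inv_mem hτ)) (inv_mem (pow_mem hσ m))
    have hfix : ∀ β ∈ unrRoots r A, (τ * σ * τ⁻¹ * (σ ^ m)⁻¹) β = β := by
      intro β hβ
      have hβ₁ : (σ ^ m)⁻¹ β ∈ unrRoots r A := apply_mem_unrRoots hβ (inv_mem (pow_mem hσ m))
      have h1 := conj_apply A hζ hσ hτ hσζ hβ₁
      rw [AlgEquiv.mul_apply, h1]
      change ((σ ^ m) * (σ ^ m)⁻¹) β = β
      rw [mul_inv_cancel]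
      rfl
    have h0 := hvan _ hc hfix
    rw [hu, hu, hu, add_fun_inv hu, add_fun_inv hu, add_fun_pow hu] at h0
    have h2 : (1 - (m : ZMod r)) * u σ = 0 := by linear_combination h0
    rcases mul_eq_zero.mp h2 with h3 | h3
    · exact absurd h3 hm1
    · exact h3
  -- Step B: the general case
  intro σ hσ
  have h1 : (σ ^ (r - 1)) ζ = ζ := by
    rw [← chi_eq_one_iff hζ, map_pow]
    exact ZMod.units_pow_card_sub_one_eq_one r _
  have h2 := hA' _ (pow_mem hσ (r - 1)) h1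
  rw [add_fun_pow hu] at h2
  have h3 : ((r - 1 : ℕ) : ZMod r) = -1 := by
    rw [Nat.cast_sub hr.one_le, ZMod.natCast_self, Nat.cast_one, zero_sub]
  rw [h3, neg_one_mul, neg_eq_zero] at h2
  exact h2

end cc0

/-! ### Linear algebra: characters vanishing on a common kernel -/

section comb

variable {G : Type*} [Group G] {r : ℕ}

theorem addChar_one {u : G → ZMod r} (hu : ∀ σ τ, u (σ * τ) = u σ + u τ) : u 1 = 0 := by
  have h := hu 1 1
  rw [one_mul] at h
  exact left_eq_add.mp h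

theorem addChar_inv {u : G → ZMod r} (hu : ∀ σ τ, u (σ * τ) = u σ + u τ) (σ : G) :
    u σ⁻¹ = -u σ := by
  have h := hu σ σ⁻¹
  rw [mul_inv_cancel, addChar_one hu] at h
  exact eq_neg_of_add_eq_zero_right h.symm

theorem addChar_pow {u : G → ZMod r} (hu : ∀ σ τ, u (σ * τ) = u σ + u τ) (σ : G) (n : ℕ) :
    u (σ ^ n) = n * u σ := by
  induction n with
  | zero => rw [pow_zero, addChar_one hu, Nat.cast_zero, zero_mul]
  | succ n ih => rw [pow_succ, hu, ih]; push_cast; ring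

/-- If an additive character `k` vanishes on the common kernel (inside a subgroup `P`) of finitely
many additive characters `κ i`, it is a linear combination of them on `P`. -/
theorem exists_comb [Fact r.Prime] {ι : Type*} [DecidableEq ι] (κ : ι → G → ZMod r)
    (hκ : ∀ i σ τ, κ i (σ * τ) = κ i σ + κ i τ) (T : Finset ι) :
    ∀ (P : Subgroup G) (k : G → ZMod r), (∀ σ τ, k (σ * τ) = k σ + k τ) →
      (∀ σ ∈ P, (∀ i ∈ T, κ i σ = 0) → k σ = 0) →
      ∃ c : ι → ZMod r, ∀ σ ∈ P, k σ = ∑ i ∈ T, c i * κ i σ := by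
  induction T using Finset.induction_on with
  | empty =>
    intro P k _ h
    refine ⟨fun _ => 0, fun σ hσ => ?_⟩
    rw [Finset.sum_empty]
    exact h σ hσ (fun i hi => absurd hi (Finset.notMem_empty i))
  | insert i₀ T hi₀ ih =>
    intro P k hk h
    -- the kernel of `κ i₀` inside `P`
    let P₀ : Subgroup G :=
      { carrier := {σ | σ ∈ P ∧ κ i₀ σ = 0}
        mul_mem' := fun {a b} ha hb => ⟨P.mul_mem ha.1 hb.1, by rw [hκ, ha.2, hb.2, add_zero]⟩
        one_mem' := ⟨P.one_mem, addChar_one (hκ i₀)⟩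
        inv_mem' := fun {a} ha => ⟨P.inv_mem ha.1, by rw [addChar_inv (hκ i₀), ha.2, neg_zero]⟩ }
    obtain ⟨c', hc'⟩ := ih P₀ k hk (fun σ hσ hT => h σ hσ.1 (fun i hi => by
      rcases Finset.mem_insert.mp hi with rfl | hi'
      · exact hσ.2
      · exact hT i hi'))
    -- the difference
    set k' : G → ZMod r := fun σ => k σ - ∑ i ∈ T, c' i * κ i σ with hk'
    have hk'add : ∀ σ τ, k' (σ * τ) = k' σ + k' τ := by
      intro σ τ
      simp only [hk', hk, hκ, mul_add, Finset.sum_add_distrib]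
      ring
    have hk'0 : ∀ σ ∈ P₀, k' σ = 0 := by
      intro σ hσ
      simp only [hk']
      rw [hc' σ hσ, sub_self]
    have hupd : ∀ (c₀ : ZMod r) (σ : G),
        ∑ i ∈ insert i₀ T, Function.update c' i₀ c₀ i * κ i σ =
          c₀ * κ i₀ σ + ∑ i ∈ T, c' i * κ i σ := by
      intro c₀ σ
      rw [Finset.sum_insert hi₀, Function.update_self]
      congr 1
      refine Finset.sum_congr rfl fun i hi => ?_
      have hne : i ≠ i₀ := by
        rintro rfl
        exact hi₀ hi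
      rw [Function.update_of_ne hne]
    by_cases hall : ∀ σ ∈ P, κ i₀ σ = 0
    · refine ⟨Function.update c' i₀ 0, fun σ hσ => ?_⟩
      rw [hupd, zero_mul, zero_add]
      have := hk'0 σ ⟨hσ, hall σ hσ⟩
      simp only [hk'] at this
      exact sub_eq_zero.mp this
    · simp only [not_forall] at hall
      obtain ⟨σ₀, hσ₀, ht⟩ := hall
      set t := κ i₀ σ₀ with htdef
      refine ⟨Function.update c' i₀ (k' σ₀ / t), fun σ hσ => ?_⟩
      rw [hupd]
      set j := (κ i₀ σ / t).val with hj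
      have hjc : (j : ZMod r) = κ i₀ σ / t := by
        rw [hj]
        have : NeZero r := ⟨(Fact.out : r.Prime).ne_zero⟩
        exact ZMod.natCast_zmod_val _
      have hmem : σ * (σ₀ ^ j)⁻¹ ∈ P₀ := by
        refine ⟨P.mul_mem hσ (P.inv_mem (P.pow_mem hσ₀ j)), ?_⟩
        rw [hκ, addChar_inv (hκ i₀), addChar_pow (hκ i₀), hjc, ← htdef, div_mul_cancel₀ _ ht,
          add_neg_cancel]
      have h1 := hk'0 _ hmem
      rw [hk'add, addChar_inv hk'add, addChar_pow hk'add, hjc] at h1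
      have h2 : k' σ = k' σ₀ / t * κ i₀ σ := by
        have h3 : k' σ = κ i₀ σ / t * k' σ₀ := by linear_combination h1
        rw [h3]
        field_simp
      simp only [hk'] at h2
      rw [← h2]
      ring

end comb

/-! ### Exponents of roots of unity -/

section rootExp

variable {r : ℕ} [Fact r.Prime] {ζ : Qbar} (hζ : IsPrimitiveRoot ζ r)

/-- The exponent `e` with `w = ζ^e` of an `r`-th root of unity (junk value `0` otherwise). -/
def rootExp (w : Qbar) : ZMod r :=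
  haveI : NeZero r := ⟨(Fact.out : r.Prime).ne_zero⟩
  if h : w ^ r = 1 then ((hζ.eq_pow_of_pow_eq_one h).choose : ZMod r) else 0

theorem rootExp_spec {w : Qbar} (hw : w ^ r = 1) : ζ ^ (rootExp hζ w).val = w := by
  have : NeZero r := ⟨(Fact.out : r.Prime).ne_zero⟩
  unfold rootExp
  rw [dif_pos hw]
  have h := (hζ.eq_pow_of_pow_eq_one hw).choose_spec
  rw [zpow_val_natCast hζ.pow_eq_one]
  exact h.2

theorem rootExp_mul {w w' : Qbar} (hw : w ^ r = 1) (hw' : w' ^ r = 1) :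
    rootExp hζ (w * w') = rootExp hζ w + rootExp hζ w' := by
  apply zpow_val_injective hζ
  rw [rootExp_spec hζ (by rw [mul_pow, hw, hw', one_mul]), zpow_val_add hζ.pow_eq_one,
    rootExp_spec hζ hw, rootExp_spec hζ hw']

theorem rootExp_one : rootExp hζ (1 : Qbar) = 0 := by
  have h := rootExp_spec hζ (one_pow r : (1 : Qbar) ^ r = 1)
  exact (zpow_val_eq_one_iff hζ).mp h

theorem eq_one_of_rootExp_eq_zero {w : Qbar} (hw : w ^ r = 1) (h : rootExp hζ w = 0) : w = 1 := by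
  have h1 := rootExp_spec hζ hw
  rw [h, ZMod.val_zero, pow_zero] at h1
  exact h1.symm

include hζ in
/-- `ζ ^ (Σ a_i b_i) = ∏ (ζ ^ b_i) ^ a_i`. -/
theorem zpow_val_sum {ι : Type*} (T : Finset ι) (a b : ι → ZMod r) :
    ζ ^ (∑ i ∈ T, a i * b i).val = ∏ i ∈ T, (ζ ^ (b i).val) ^ (a i).val := by
  classical
  induction T using Finset.induction_on with
  | empty => rw [Finset.sum_empty, Finset.prod_empty, ZMod.val_zero, pow_zero]
  | insert i T hi ih =>
    rw [Finset.sum_insert hi, Finset.prod_insert hi, zpow_val_add hζ.pow_eq_one,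
      zpow_val_mul hζ.pow_eq_one, ih]

end rootExp

/-! ### (KUM) -/

section kum

variable (A : ValuationSubring Qbar) {r : ℕ}

theorem val_eq_one_of_pow {x : Qbar} {n : ℕ} (hn : n ≠ 0) (h : A.valuation (x ^ n) = 1) :
    A.valuation x = 1 := by
  rw [map_pow] at h
  rcases lt_trichotomy (A.valuation x) 1 with h1 | h1 | h1
  · exact absurd h (pow_lt_one₀ zero_le h1 hn).ne
  · exact h1
  · exact absurd h (one_lt_pow₀ h1 hn).ne'

theorem val_unrRoots (hr : r ≠ 0) {β : Qbar} (hβ : β ∈ unrRoots r A) : A.valuation β = 1 :=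
  val_eq_one_of_pow A hr (show A.valuation (β ^ r) = 1 from hβ.1)

variable [Fact r.Prime]

/-- **Kummer core**: if every element of the inertia group at `r` fixing finitely many `r`-th
roots of unramified units fixes the `r`-th root `γ` of `a ∈ ℚˣ`, then `r ∣ v_r(a)`. -/
theorem kummer_unit_class (hA : A.LiesOverPrime r) (T : Finset Qbar)
    (hT : ∀ β ∈ T, β ∈ unrRoots r A) (a : ℚ) (ha : a ≠ 0) (γ : Qbar)
    (hγ : γ ^ r = algebraMap ℚ Qbar a)
    (hfix : ∀ σ ∈ A.inertiaSubgroupIn ℚ, (∀ β ∈ T, σ β = β) → σ γ = γ) :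
    (r : ℤ) ∣ padicValRat r a := by
  classical
  have hr : r.Prime := Fact.out
  have hr0 : r ≠ 0 := hr.ne_zero
  have : NeZero r := ⟨hr0⟩
  have := H97.qbar_isAlgebraic
  obtain ⟨ζ, hζ⟩ := HasEnoughRootsOfUnity.exists_primitiveRoot Qbar r
  set I := A.inertiaSubgroupIn ℚ with hI
  set I₁ : Subgroup GQ := I ⊓ (chi hζ).ker with hI₁
  have ha' : algebraMap ℚ Qbar a ≠ 0 := (map_ne_zero (algebraMap ℚ Qbar)).2 ha
  have hγ0 : γ ≠ 0 := by
    rintro rfl
    rw [zero_pow hr0] at hγ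
    exact ha' hγ.symm
  have hγr : ∀ σ : GQ, (σ γ / γ) ^ r = 1 := by
    intro σ
    rw [div_pow, ← map_pow, hγ, AlgEquiv.commutes]
    exact div_self ha'
  -- elements of `I₁` fix the roots of unity
  have hfixζ : ∀ σ ∈ I₁, ∀ w : Qbar, w ^ r = 1 → σ w = w := fun σ hσ w hw =>
    apply_root_of_fix hζ ((chi_eq_one_iff hζ σ).mp (MonoidHom.mem_ker.mp hσ.2)) hw
  -- additivity of the Kummer exponents on `I₁`
  have hadd : ∀ x : Qbar, x ≠ 0 → (∀ σ ∈ I, (σ x / x) ^ r = 1) → ∀ σ τ : ↥I₁,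
      rootExp hζ (((σ * τ : ↥I₁) : GQ) x / x) =
        rootExp hζ ((σ : GQ) x / x) + rootExp hζ ((τ : GQ) x / x) := by
    intro x hx0 hx σ τ
    have h1 := hx τ τ.2.1
    have h2 := hx σ σ.2.1
    rw [← rootExp_mul hζ h2 h1]
    congr 1
    have h3 : (σ : GQ) ((τ : GQ) x / x) = (τ : GQ) x / x := hfixζ σ σ.2 _ h1
    calc ((σ * τ : ↥I₁) : GQ) x / x = (σ : GQ) ((τ : GQ) x) / x := rfl
      _ = (σ : GQ) (((τ : GQ) x / x) * x) / x := by rw [div_mul_cancel₀ _ hx0]
      _ = ((τ : GQ) x / x) * (σ : GQ) x / x := by rw [map_mul, h3]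
      _ = (σ : GQ) x / x * ((τ : GQ) x / x) := by ring
  -- the characters
  set κ : Qbar → ↥I₁ → ZMod r := fun β σ =>
    if β ∈ T then rootExp hζ ((σ : GQ) β / β) else 0 with hκdef
  set k : ↥I₁ → ZMod r := fun σ => rootExp hζ ((σ : GQ) γ / γ) with hkdef
  have hκ : ∀ (β : Qbar) (σ τ : ↥I₁), κ β (σ * τ) = κ β σ + κ β τ := by
    intro β σ τ
    simp only [hκdef]
    split_ifs with hβ
    · exact hadd β (unrRoots_ne_zero hr0 (hT β hβ))
        (fun ρ hρ => apply_div_pow hr0 (hT β hβ) hρ) σ τ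
    · rw [add_zero]
  have hk : ∀ σ τ : ↥I₁, k (σ * τ) = k σ + k τ :=
    hadd γ hγ0 (fun ρ _ => hγr ρ)
  obtain ⟨c, hc⟩ := exists_comb κ hκ T ⊤ k hk (by
    intro σ _ hσ
    have h1 : ∀ β ∈ T, (σ : GQ) β = β := by
      intro β hβ
      have h2 := hσ β hβ
      simp only [hκdef, if_pos hβ] at h2
      have h3 := eq_one_of_rootExp_eq_zero hζ (apply_div_pow hr0 (hT β hβ) σ.2.1) h2
      rw [div_eq_one_iff_eq (unrRoots_ne_zero hr0 (hT β hβ))] at h3
      exact h3
    have h4 := hfix σ σ.2.1 h1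
    simp only [hkdef]
    rw [h4, div_self hγ0]
    exact rootExp_one hζ)
  -- the corrected root
  set βstar : Qbar := ∏ β ∈ T, β ^ (c β).val with hβstar
  have hβstar0 : βstar ≠ 0 :=
    Finset.prod_ne_zero_iff.mpr fun β hβ => pow_ne_zero _ (unrRoots_ne_zero hr0 (hT β hβ))
  have hβstarv : A.valuation βstar = 1 := by
    rw [hβstar, map_prod]
    apply Finset.prod_eq_one
    intro β hβ
    rw [map_pow, val_unrRoots A hr0 (hT β hβ), one_pow]
  set δ : Qbar := γ / βstar with hδ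
  have hδ0 : δ ≠ 0 := div_ne_zero hγ0 hβstar0
  have hδv : A.valuation δ = A.valuation γ := by
    rw [hδ, map_div₀, hβstarv, div_one]
  have hδfix : ∀ σ ∈ I₁, σ δ = δ := by
    intro σ hσ
    have h1 := hc ⟨σ, hσ⟩ (Subgroup.mem_top _)
    have h2 : ∑ β ∈ T, c β * κ β ⟨σ, hσ⟩ = ∑ β ∈ T, c β * rootExp hζ (σ β / β) := by
      refine Finset.sum_congr rfl fun β hβ => ?_
      simp only [hκdef, if_pos hβ]
    rw [h2] at h1
    simp only [hkdef] at h1
    set W : Qbar := ∏ β ∈ T, (σ β / β) ^ (c β).val with hW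
    have hW0 : W ≠ 0 := by
      refine Finset.prod_ne_zero_iff.mpr fun β hβ => pow_ne_zero _ ?_
      have hβ0 := unrRoots_ne_zero hr0 (hT β hβ)
      exact div_ne_zero ((map_ne_zero σ).mpr hβ0) hβ0
    have h3 : σ γ / γ = W := by
      rw [← rootExp_spec hζ (hγr σ), h1, zpow_val_sum hζ T]
      refine Finset.prod_congr rfl fun β hβ => ?_
      rw [rootExp_spec hζ (apply_div_pow hr0 (hT β hβ) hσ.1)]
    have h4 : σ βstar = W * βstar := by
      rw [hβstar, hW, map_prod, ← Finset.prod_mul_distrib]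
      refine Finset.prod_congr rfl fun β hβ => ?_
      rw [map_pow, ← mul_pow, div_mul_cancel₀ _ (unrRoots_ne_zero hr0 (hT β hβ))]
    have h5 : σ γ = W * γ := by
      rw [← h3, div_mul_cancel₀ _ hγ0]
    rw [hδ, map_div₀, h4, h5, mul_div_mul_left _ _ hW0]
  -- representatives of the image of the cyclotomic character on inertia
  set C : Subgroup (ZMod r)ˣ := Subgroup.map (chi hζ) I with hC
  have hrep : ∀ e : ↥C, ∃ τ ∈ I, chi hζ τ = e := fun e => Subgroup.mem_map.mp e.2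
  choose rep hrepI hrepχ using hrep
  letI : Fintype ↥C := Fintype.ofFinite _
  set η : Qbar := ∏ e : ↥C, rep e δ with hη
  have hη0 : η ≠ 0 := Finset.prod_ne_zero_iff.mpr fun e _ => (map_ne_zero (rep e)).mpr hδ0
  have hηv : A.valuation η = A.valuation γ ^ Fintype.card ↥C := by
    rw [hη, map_prod]
    have h1 : ∀ e ∈ (Finset.univ : Finset ↥C), A.valuation (rep e δ) = A.valuation γ := by
      intro e _
      rw [(inertia_facts A (hrepI e)).1 δ, hδv]
    rw [Finset.prod_congr rfl h1, Finset.prod_const, Finset.card_univ]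
  have hηfix : ∀ τ ∈ I, τ η = η := by
    intro τ hτ
    have hτC : chi hζ τ ∈ C := Subgroup.mem_map.mpr ⟨τ, hτ, rfl⟩
    have h1 : ∀ e : ↥C, τ (rep e δ) = rep (⟨chi hζ τ, hτC⟩ * e) δ := by
      intro e
      set e' : ↥C := ⟨chi hζ τ, hτC⟩ * e with he'
      have hg : (rep e')⁻¹ * τ * rep e ∈ I₁ := by
        rw [hI₁]
        refine Subgroup.mem_inf.mpr
          ⟨I.mul_mem (I.mul_mem (I.inv_mem (hrepI e')) hτ) (hrepI e), ?_⟩
        rw [MonoidHom.mem_ker, map_mul, map_mul, map_inv, hrepχ e', hrepχ e, he']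
        simp only [Subgroup.coe_mul]
        rw [mul_assoc, inv_mul_cancel]
      have h2 := hδfix _ hg
      have h3 : (rep e') (((rep e')⁻¹ * τ * rep e) δ) = τ (rep e δ) := by
        change ((rep e') * ((rep e')⁻¹ * τ * rep e)) δ = (τ * rep e) δ
        rw [← mul_assoc, ← mul_assoc, mul_inv_cancel, one_mul]
      rw [← h3, h2]
    rw [hη, map_prod, Finset.prod_congr rfl (fun e _ => h1 e)]
    exact Equiv.prod_comp (Equiv.mulLeft (⟨chi hζ τ, hτC⟩ : ↥C)) (fun e => rep e δ)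
  -- the valuation of `η`
  obtain ⟨m, hm⟩ := Fermat.Agent.R.H6.stmt_UnrFix r hr A hA η hη0 hηfix
  set N := Fintype.card ↥C with hN
  have hN1 : 0 < N := Fintype.card_pos
  have hN2 : N < r := by
    have h1 : N ≤ Fintype.card (ZMod r)ˣ := Fintype.card_subtype_le _
    rw [ZMod.card_units] at h1
    have := hr.one_le
    omega
  have hav := H97.valuation_ratCast_eq_zpow A hr hA a ha
  have h1 : A.valuation γ ^ r = A.valuation (r : Qbar) ^ (padicValRat r a) := by
    rw [← map_pow, hγ, hav]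
  have h2 : A.valuation γ ^ N = A.valuation (r : Qbar) ^ m := by
    rw [← hηv, hm]
  have h3 : A.valuation (r : Qbar) ^ (padicValRat r a * (N : ℤ)) =
      A.valuation (r : Qbar) ^ (m * (r : ℤ)) := by
    rw [zpow_mul, zpow_mul, ← h1, ← h2, zpow_natCast, zpow_natCast, ← pow_mul, ← pow_mul,
      mul_comm]
  have h4 := H97.zpow_valuation_injective A hr hA h3
  have hprime : Prime (r : ℤ) := Nat.prime_iff_prime_int.mp hr
  have h5 : (r : ℤ) ∣ padicValRat r a * (N : ℤ) := ⟨m, by rw [h4]; ring⟩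
  rcases hprime.dvd_or_dvd h5 with h6 | h6
  · exact h6
  · exfalso
    have h7 : (r : ℤ) ≤ N := Int.le_of_dvd (by exact_mod_cast hN1) h6
    have h8 : (N : ℤ) < r := by exact_mod_cast hN2
    omega

end kum

/-! ### BASE for the finite form of the elementary family -/

section base

variable (A : ValuationSubring Qbar) {r : ℕ} [Fact r.Prime]

/-- **BASE for `bddFin`.**  The finite form of the elementary bounded family satisfies the
requirements `IsBddFamily` of `H69_Base.lean` (`r` an odd prime, `A` a place over `r`). -/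
theorem isBddFamily_bddFin (hr2 : r ≠ 2) (hA : A.LiesOverPrime r) :
    IsBddFamily r A (bddFin r A) where
  isOpen := fun _ hH => hH.1
  cc0 := by
    rintro u hu ⟨H, ⟨-, T, hT, hH⟩, hvan⟩
    exact cc0_of_vanish A hr2 hA u hu fun σ hσ hfix =>
      hvan σ (hH σ hσ fun β hβ => hfix β (hT β hβ))
  kum := by
    rintro z - - ⟨H, ⟨-, T, hT, hH⟩, hvan⟩ a γ ha hγ hzγ
    refine kummer_unit_class A hA T hT a ha γ hγ fun σ hσ hfix => ?_
    rw [hzγ σ, hvan σ (hH σ hσ hfix), one_mul]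

end base

end Fermat.Agent.S15.Desc.H63
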