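/-
S15 / DESC, local theory at the descent prime `r` (helper63): the compactness upgrade
`bddElem r A ⊆ bddFin r A`, hence `IsBddFamily r A (bddElem r A)`.

The inertia group `I` is closed in the Krull topology and `G_ℚ` is compact; an open subgroup `H`
containing `I ∩ Fix(unrRoots)` therefore contains `I ∩ Fix(T)` for a finite `T ⊆ unrRoots`.
-/
import Fermat.Agent.S15.Desc.H63_BddElem
import Fermat.Agent.Lib.InertiaLift
import Mathlib.FieldTheory.Galois.Profinite

set_option autoImplicit false

noncomputable section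

namespace Fermat.Agent.S15.Desc.H63

local notation "Qbar" => AlgebraicClosure ℚ
local notation "GQ" => (AlgebraicClosure ℚ ≃ₐ[ℚ] AlgebraicClosure ℚ)

open scoped Pointwise

section krull

/-- The level sets of the evaluation at `x` are open in the Krull topology. -/
theorem isOpen_setOf_apply_eq (x y : Qbar) : IsOpen {σ : GQ | σ x = y} := by
  have := H97.qbar_isAlgebraic
  by_cases h : ∃ σ₀ : GQ, σ₀ x = y
  · obtain ⟨σ₀, rfl⟩ := h
    have h1 : {σ : GQ | σ x = σ₀ x} = σ₀ • (MulAction.stabilizer GQ x : Set GQ) := by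
      ext σ
      rw [Set.mem_smul_set_iff_inv_smul_mem, Set.mem_ofPred_eq, SetLike.mem_coe,
        MulAction.mem_stabilizer_iff, smul_eq_mul]
      constructor
      · intro hσ
        change (σ₀⁻¹ * σ) x = x
        rw [AlgEquiv.mul_apply, hσ]
        change (σ₀⁻¹ * σ₀) x = x
        rw [inv_mul_cancel]
        rfl
      · intro hσ
        have h2 : (σ₀⁻¹ * σ) x = x := hσ
        have h3 : σ₀ ((σ₀⁻¹ * σ) x) = σ x := by
          change (σ₀ * (σ₀⁻¹ * σ)) x = σ x
          rw [mul_inv_cancel_left]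
        rw [← h3, h2]
    rw [h1]
    exact (stabilizer_isOpen_of_isIntegral x).smul σ₀
  · have h1 : {σ : GQ | σ x = y} = ∅ := by
      ext σ
      simp only [Set.mem_ofPred_eq, Set.mem_empty_iff_false, iff_false]
      exact fun hσ => h ⟨σ, hσ⟩
    rw [h1]
    exact isOpen_empty

/-- Conditions on a single value are open (and closed) in the Krull topology. -/
theorem isOpen_setOf_apply_mem (x : Qbar) (P : Set Qbar) : IsOpen {σ : GQ | σ x ∈ P} := by
  have h1 : {σ : GQ | σ x ∈ P} = ⋃ y ∈ P, {σ : GQ | σ x = y} := by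
    ext σ
    simp only [Set.mem_ofPred_eq, Set.mem_iUnion, exists_prop, exists_eq_right']
  rw [h1]
  exact isOpen_biUnion fun y _ => isOpen_setOf_apply_eq x y

theorem isClosed_setOf_apply_mem (x : Qbar) (P : Set Qbar) : IsClosed {σ : GQ | σ x ∈ P} := by
  refine ⟨?_⟩
  have h1 : {σ : GQ | σ x ∈ P}ᶜ = {σ : GQ | σ x ∈ Pᶜ} := by
    ext σ
    simp only [Set.mem_compl_iff, Set.mem_ofPred_eq]
  rw [h1]
  exact isOpen_setOf_apply_mem x _

/-- A subgroup containing the pointwise stabiliser of a finite set is open. -/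
theorem isOpen_of_finset (H : Subgroup GQ) (S : Finset Qbar)
    (hS : ∀ σ : GQ, (∀ x ∈ S, σ x = x) → σ ∈ H) : IsOpen (H : Set GQ) := by
  have h1 : IsOpen (⋂ x ∈ S, {σ : GQ | σ x ∈ ({x} : Set Qbar)}) :=
    isOpen_biInter_finset fun x _ => isOpen_setOf_apply_mem x _
  refine Subgroup.isOpen_of_mem_nhds H (g := 1) ?_
  refine Filter.mem_of_superset (h1.mem_nhds ?_) ?_
  · simp only [Set.mem_iInter, Set.mem_ofPred_eq, Set.mem_singleton_iff]
    intro x _
    rfl
  · intro σ hσ
    simp only [Set.mem_iInter, Set.mem_ofPred_eq, Set.mem_singleton_iff] at hσ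
    exact hS σ hσ

end krull

section inertia

variable (A : ValuationSubring Qbar) {r : ℕ}

/-- Algebraic integers lie in every valuation subring. -/
theorem val_le_one_of_integral' {x : Qbar} (hx : IsIntegral ℤ x) : A.valuation x ≤ 1 := by
  have h1 : IsIntegral A x := hx.tower_top
  rw [ValuationSubring.valuation_le_one_iff]
  have h2 := (Valuation.Integers.isIntegral_iff_v_le_one
    (Valuation.valuationSubring.integers A.valuation) (x := x)).mp
    (by rw [A.valuationSubring_valuation]; exact h1)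
  exact (ValuationSubring.valuation_le_one_iff A x).mp h2

/-- The inertia group of a place over a prime is closed in the Krull topology. -/
theorem isClosed_inertia (hr : r.Prime) (hA : A.LiesOverPrime r) :
    IsClosed (A.inertiaSubgroupIn ℚ : Set GQ) := by
  have := H97.qbar_isAlgebraic
  have h1 : (A.inertiaSubgroupIn ℚ : Set GQ) =
      ⋂ (b : Qbar) (_ : IsIntegral ℤ b), {σ : GQ | σ b ∈ {y : Qbar | y - b ∈ A.nonunits}} := by
    ext σ
    simp only [SetLike.mem_coe, Set.mem_iInter, Set.mem_ofPred_eq]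
    constructor
    · intro hσ b hb
      have hbA : b ∈ A := by
        rw [← A.valuation_le_one_iff]
        exact val_le_one_of_integral' A hb
      exact Fermat.Agent.S05.H95.sub_mem_nonunits_of_mem_inertia A hσ hbA
    · intro h
      exact Fermat.Agent.Lib.InertiaLift.mem_inertiaSubgroupIn_of_integers r hr A hA σ h
  rw [h1]
  exact isClosed_iInter fun b => isClosed_iInter fun _ => isClosed_setOf_apply_mem b _

end inertia

section compact

variable (A : ValuationSubring Qbar) {r : ℕ}

/-- **Compactness upgrade**: an open subgroup containing `I ∩ Fix(unrRoots)` contains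
`I ∩ Fix(T)` for a finite set `T` of `r`-th roots of unramified units. -/
theorem bddElem_subset_bddFin (hr : r.Prime) (hA : A.LiesOverPrime r) :
    bddElem r A ⊆ bddFin r A := by
  classical
  have := Fermat.Agent.Lib.InertiaLift.qbar_isGalois'
  rintro H ⟨⟨S, hS⟩, hH⟩
  refine ⟨⟨S, hS⟩, ?_⟩
  have hHopen : IsOpen (H : Set GQ) := isOpen_of_finset H S hS
  have hX : IsCompact ((A.inertiaSubgroupIn ℚ : Set GQ) ∩ (H : Set GQ)ᶜ) :=
    ((isClosed_inertia A hr hA).inter hHopen.isClosed_compl).isCompact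
  have hcover : (A.inertiaSubgroupIn ℚ : Set GQ) ∩ (H : Set GQ)ᶜ ⊆
      ⋃ β : ↥(unrRoots r A), {σ : GQ | σ (β : Qbar) ∈ ({(β : Qbar)} : Set Qbar)ᶜ} := by
    rintro σ ⟨hσI, hσH⟩
    by_contra hcon
    apply hσH
    refine hH σ hσI fun β hβ => ?_
    by_contra hne
    apply hcon
    exact Set.mem_iUnion.mpr ⟨⟨β, hβ⟩, hne⟩
  obtain ⟨t, ht⟩ := hX.elim_finite_subcover
    (fun β : ↥(unrRoots r A) => {σ : GQ | σ (β : Qbar) ∈ ({(β : Qbar)} : Set Qbar)ᶜ})
    (fun β => isOpen_setOf_apply_mem _ _) hcover
  refine ⟨t.image Subtype.val, ?_, ?_⟩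
  · intro β hβ
    obtain ⟨β', -, rfl⟩ := Finset.mem_image.mp hβ
    exact β'.2
  · intro σ hσ hfix
    by_contra hσH
    have h1 := ht ⟨hσ, hσH⟩
    simp only [Set.mem_iUnion, exists_prop] at h1
    obtain ⟨β, hβt, hβ⟩ := h1
    exact hβ (hfix β (Finset.mem_image_of_mem _ hβt))

variable [Fact r.Prime]

/-- **BASE for the elementary bounded family** `bddElem r A` of `S15_LOCr.md` §1. -/
theorem isBddFamily_bddElem (hr2 : r ≠ 2) (hA : A.LiesOverPrime r) :
    IsBddFamily r A (bddElem r A) := by
  have h : bddElem r A = bddFin r A :=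
    Set.Subset.antisymm (bddElem_subset_bddFin A Fact.out hA) (bddFin_subset_bddElem r A)
  rw [h]
  exact isBddFamily_bddFin A hr2 hA

end compact

end Fermat.Agent.S15.Desc.H63
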