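import Fermat.Agent.S15.Desc.H69_CoordCusp
import Fermat.Agent.S15.H23_ModEq
import Fermat.Agent.S15.H63_NewtonVal

/-!
# BAD_q / COORD, leaf CUSP at a general level `M q` (helper69)

`q ∤ M` tame, `A` over `q`, `T = H91.modT` the modular total conservation datum of level `M q`.
A place `z₀` of the reduced field of level `M` at which `j~` has a pole (a cusp of the special
fibre) is not a node of `T`:

* `coordCusp_gen : z₀.ord (jRed A M) < 0 → ¬ T.IsNode (κ⁻¹ z₀)`.

Test function `f = j_q / j ^ q`, `j_q = j (t ^ q)`, as at level `p` (`H69_CoordCusp.lean`); the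
poles of `j_q` are handled by the Newton polygon of the modular equation `Φ_q(j, j_q) = 0`
(`H63.newtonVal_dich` for the valuation ring of the place): `|j_q| > 1 ⇒ |j_q| ≤ |j| ^ q`.

* `modEq_level` : the modular equation of level `q` holds in `F_{M q}`;
* `regAt_jq_div` : `j_q / j ^ q` is regular at every place of `F_{M q}` at which `j` has no zero.
-/

set_option autoImplicit false
set_option linter.style.haveILetI false
set_option linter.unusedSectionVars false
set_option linter.unusedVariables false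
set_option synthInstance.maxHeartbeats 400000
set_option maxHeartbeats 1000000

noncomputable section

open HahnSeries IntermediateField AlgebraicCurve ModularCurve
open Fermat.Agent.S28.H73 Fermat.Agent.RED.H73 Fermat.Agent.RED Fermat.Agent.S24
open Fermat.Agent.BAD.H88

namespace Fermat.Agent.S15.Desc.H69C

open Fermat.Agent.BAD Fermat.Agent.BAD.H91 Fermat.Agent.RED.H17

/-! ## The modular equation at level `M q` -/

section ModEq

/-- `modEqVal` commutes with algebra homomorphisms. -/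
theorem map_modEqVal {K R R' : Type*} [CommRing K] [CommRing R] [CommRing R'] [Algebra K R]
    [Algebra K R'] (φ : R →ₐ[K] R') (p : ℕ) (c : ℕ → ℕ → K) (x y : R) :
    φ (Fermat.Agent.S15.modEqVal p c x y) = Fermat.Agent.S15.modEqVal p c (φ x) (φ y) := by
  unfold Fermat.Agent.S15.modEqVal
  simp only [map_add, map_sub, map_mul, map_pow, map_sum, AlgHom.commutes]

variable (M q : ℕ) [NeZero M] [NeZero q] [NeZero (M * q)]

/-- **The modular equation of level `q` in `F_{M q}`**: `Φ_q(j, j_q) = 0`. -/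
theorem modEq_level (hq : q.Prime) :
    ∃ c : ℕ → ℕ → Kbar, (∀ i k, IsIntegral ℤ (c i k)) ∧ c q q = 0 ∧
      Fermat.Agent.S15.modEqVal q c
        (heckeAlphaBar Kbar M q (RED.H73.jF (L := Kbar) M))
        (heckeBetaBar Kbar M q (RED.H73.jF (L := Kbar) M)) = 0 := by
  obtain ⟨c, hc⟩ := Fermat.Agent.S15.H23.stmt_modEq q hq
  refine ⟨c, hc.integral, hc.top, ?_⟩
  have hinj : Function.Injective (modularFunctionFieldBar (M * q)).val :=
    (modularFunctionFieldBar (M * q)).val.injective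
  apply hinj
  rw [map_zero, map_modEqVal]
  have hrel := congrArg (modularFunctionFieldBar q).val hc.rel
  rw [map_zero, map_modEqVal] at hrel
  have ej : jqModC Kbar = coeffEmb Kbar jq := by
    have h := RED.H73.coeffEmb_qExpand_jq (L := Kbar) 1
    rw [qExpand_one_apply, qExpand_one_apply] at h
    exact h.symm
  have e1 : (modularFunctionFieldBar (M * q)).val
      (heckeAlphaBar Kbar M q (RED.H73.jF (L := Kbar) M))
      = (modularFunctionFieldBar q).val (Fermat.Agent.S15.jBar q) := by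
    show ((heckeAlphaBar Kbar M q (RED.H73.jF (L := Kbar) M) : FN (M * q)) :
      LaurentSeries Kbar) = coeffEmb Kbar jq
    rw [coe_heckeAlphaBar]
    exact ej
  have e2 : (modularFunctionFieldBar (M * q)).val
      (heckeBetaBar Kbar M q (RED.H73.jF (L := Kbar) M))
      = (modularFunctionFieldBar q).val (Fermat.Agent.S15.jBarN q) := by
    show ((heckeBetaBar Kbar M q (RED.H73.jF (L := Kbar) M) : FN (M * q)) :
      LaurentSeries Kbar) = coeffEmb Kbar (qExpand ℚ q jq)
    rw [coe_heckeBetaBar, Fermat.Agent.S15.H23.coeffEmb_qExpand_eq]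
    show qExpand Kbar q (jqModC Kbar) = _
    rw [ej]
  rw [e1, e2]
  exact hrel

end ModEq

/-! ## Regularity of `j_q / j ^ q` -/

section Reg

variable {K F : Type*} [Field K] [Field F] [Algebra K F]

/-- Abstract form: if `Φ(x, y) = 0` for a modular-type equation with integral constant
coefficients, then `y / x ^ q` is regular at every place at which `x` has no zero. -/
theorem regAt_div_pow_of_modEq (q : ℕ) (hq : 1 ≤ q) (c : ℕ → ℕ → K)
    (hcpp : c q q = 0) (x y : F) (hrel : Fermat.Agent.S15.modEqVal q c x y = 0)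
    (P : Place K F) (hx : P.ord x ≤ 0) (hx0 : x ≠ 0) : RegAt P (y / x ^ q) := by
  by_cases hy : RegAt P y
  · rw [div_eq_mul_inv, ← inv_pow]
    refine hy.mul (RegAt.pow ?_ q)
    apply regAt_of_ord_nonneg
    rw [Place.ord_inv]
    omega
  · -- a pole of `y`: Newton polygon
    set B := P.toValuationSubring with hB
    have hy1 : 1 < B.valuation y := by
      rw [regAt_iff_mem] at hy
      by_contra hcon
      rw [not_lt] at hcon
      exact hy ((ValuationSubring.valuation_le_one_iff B y).mp hcon)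
    have hc : ∀ i k, B.valuation (algebraMap K F (c i k)) ≤ 1 := by
      intro i k
      rw [ValuationSubring.valuation_le_one_iff]
      exact (regAt_iff_mem P _).mp (regAt_algebraMap P (c i k))
    have hcpp' : algebraMap K F (c q q) = 0 := by rw [hcpp, map_zero]
    have hrel' : Fermat.Agent.S15.modEqVal q (fun i k => algebraMap K F (c i k)) x y = 0 := by
      rw [← hrel]
      unfold Fermat.Agent.S15.modEqVal
      simp only [Algebra.algebraMap_self_apply]
    have hd := Fermat.Agent.S15.H63.newtonVal_dich B q hq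
      (fun i k => algebraMap K F (c i k)) hc hcpp' x y hrel' hy1
    have hle : B.valuation y ≤ B.valuation x ^ q := by
      rcases hd with h | h
      · exact h.ge
      · rw [h, ← pow_mul]
        exact le_self_pow₀ hy1.le (Nat.mul_ne_zero (by omega) (by omega))
    rw [regAt_iff_mem, ← hB, ← ValuationSubring.valuation_le_one_iff, map_div₀, map_pow]
    have hpos : 0 < B.valuation x ^ q := lt_of_lt_of_le (zero_lt_one.trans hy1) hle
    exact (div_le_one₀ hpos).mpr hle

end Reg

/-! ## The cusp is not a node, general level -/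

section MainGen

variable {A : ValuationSubring Kbar} {q M : ℕ} (a b : ℤ) (hab : a * q + b * M = 1)
  (hq : q.Prime) [NeZero M] [NeZero (M * q)] [NeZero q] (hA : A.LiesOverPrime q)
  (hqM : ¬ q ∣ M) (ht : TameAt M q)

/-- **(CUSP)**, general level `M q`: a pole of `j~` is not a node of the modular total
conservation datum of level `M q`. -/
theorem coordCusp_gen
    (htot : ∀ (u₁ : ↥(V1 A q M)) (u₂ : ↥(V2 A q M a b hab hq)), red1 A q M u₁ ≠ 0 →
      red2 A q M a b hab hq u₂ ≠ 0 →
      (∃ c : Kbar, (u₂ : FN (M * q)) = algebraMap Kbar (FN (M * q)) c * (u₁ : FN (M * q))) →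
      ∀ D : Divisor Kbar (FN (M * q)), (∀ P, D P = P.ord (u₁ : FN (M * q))) →
        ∀ z : Place (kV A) (F1 A q M),
          Finsupp.mapDomain (rhoF1 a b hab hq hA hqM ht) D z
            = z.ord (red1 A q M u₁)
              + (H73.betaF1 A q M hq hA M (H82.redField_eq_fullC q M a b hab hq A hA) z).ord
                  (red2 A q M a b hab hq u₂))
    (z₀ : Place (kV A) ↥(H91.redM A M)) (hz₀ : z₀.ord (jRed A M) < 0) :
    ¬ (modT a b hab hq hA hqM ht
        (H73.betaF1 A q M hq hA M (H82.redField_eq_fullC q M a b hab hq A hA)) htot).IsNode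
      ((kappa A q M a b hab hq hA).symm z₀) := by
  intro hnode
  haveI : IsAlgClosed (kV A) := isAlgClosed_kV A
  haveI hpF : Fact q.Prime := ⟨hq⟩
  haveI hchar : CharP (kV A) q := H82.charP_kV A hq hA
  have hp2 : (2 : ℤ) ≤ (q : ℤ) := by exact_mod_cast hq.two_le
  -- the datum
  set T := modT a b hab hq hA hqM ht
    (H73.betaF1 A q M hq hA M (H82.redField_eq_fullC q M a b hab hq A hA)) htot with hT
  set z := (kappa A q M a b hab hq hA).symm z₀ with hz
  -- the functions
  set x₁ : FN M := RED.H73.jF (L := Kbar) M with hx₁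
  have hxV : x₁ ∈ VM A M := jF_mem A M
  set jα : FN (M * q) := heckeAlphaBar Kbar M q x₁ with hjα
  set jβ : FN (M * q) := heckeBetaBar Kbar M q x₁ with hjβ
  have hα1 : jα ∈ V1 A q M := (alpha_mem_V1_iff A q M x₁).2 hxV
  have hβ1 : jβ ∈ V1 A q M := (beta_mem_V1_iff A q M x₁).2 hxV
  have hα2 : jα ∈ V2 A q M a b hab hq := (alpha_mem_V2_iff A q M a b hab hq x₁).2 hxV
  have hβ2 : jβ ∈ V2 A q M a b hab hq := (beta_mem_V2_iff A q M a b hab hq x₁).2 hxV
  -- the reductions, as series
  have hJ : ((H88.redM A M ⟨x₁, hxV⟩ : FM A M) : LaurentSeries (kV A)) = jqModC (kV A) :=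
    red_jF A M
  have hpow : qExpand (kV A) q (jqModC (kV A)) = jqModC (kV A) ^ q := by
    rw [Fermat.Agent.RED.H10.pow_char_eq q (jqModC (kV A)), coeffMap_jqModC]
  have sα1 : ((red1 A q M ⟨jα, hα1⟩ : F1 A q M) : LaurentSeries (kV A)) = jqModC (kV A) :=
    (red1_alpha A q M x₁ hxV hα1).trans hJ
  have sβ1 : ((red1 A q M ⟨jβ, hβ1⟩ : F1 A q M) : LaurentSeries (kV A))
      = jqModC (kV A) ^ q := by
    rw [red1_beta A q M x₁ hxV hβ1, hJ, hpow]
  have sα2 : ((red2 A q M a b hab hq ⟨jα, hα2⟩ : F1 A q M) : LaurentSeries (kV A))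
      = jqModC (kV A) ^ q := by
    rw [red2_alpha A q M a b hab hq x₁ hxV hα2, hJ, hpow]
  have sβ2 : ((red2 A q M a b hab hq ⟨jβ, hβ2⟩ : F1 A q M) : LaurentSeries (kV A))
      = jqModC (kV A) :=
    (red2_beta A q M a b hab hq x₁ hxV hβ2).trans hJ
  set J : F1 A q M := red1 A q M ⟨jα, hα1⟩ with hJdef
  have hJ0 : J ≠ 0 := by
    intro h0
    have := congrArg (fun y : F1 A q M => (y : LaurentSeries (kV A))) h0
    simp only [sα1, ZeroMemClass.coe_zero] at this
    exact jqModC_ne_zero_of_nontrivial (kV A) this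
  have eβ1 : red1 A q M ⟨jβ, hβ1⟩ = J ^ q :=
    Subtype.ext (by rw [sβ1, IntermediateField.coe_pow, sα1])
  have eα2 : red2 A q M a b hab hq ⟨jα, hα2⟩ = J ^ q :=
    Subtype.ext (by rw [sα2, IntermediateField.coe_pow, sα1])
  have eβ2 : red2 A q M a b hab hq ⟨jβ, hβ2⟩ = J :=
    Subtype.ext (by rw [sβ2, sα1])
  -- Gauss units
  have gα1 : T.p₁.IsGU jα := ⟨hα1, by rw [T.p₁.rd_of_mem hα1]; exact hJ0⟩
  have gβ1 : T.p₁.IsGU jβ := ⟨hβ1, by
    rw [T.p₁.rd_of_mem hβ1]
    show red1 A q M ⟨jβ, hβ1⟩ ≠ 0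
    rw [eβ1]
    exact pow_ne_zero _ hJ0⟩
  have gα2 : T.p₂.IsGU jα := ⟨hα2, by
    rw [T.p₂.rd_of_mem hα2]
    show red2 A q M a b hab hq ⟨jα, hα2⟩ ≠ 0
    rw [eα2]
    exact pow_ne_zero _ hJ0⟩
  have gβ2 : T.p₂.IsGU jβ := ⟨hβ2, by
    rw [T.p₂.rd_of_mem hβ2]
    show red2 A q M a b hab hq ⟨jβ, hβ2⟩ ≠ 0
    rw [eβ2]
    exact hJ0⟩
  have gf1 : T.p₁.IsGU (jβ / jα ^ q) := gβ1.div (gα1.pow q)
  have gf2 : T.p₂.IsGU (jβ / jα ^ q) := gβ2.div (gα2.pow q)
  have rf1 : T.p₁.rd (jβ / jα ^ q) = 1 := by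
    rw [gβ1.rd_div (gα1.pow q), T.p₁.rd_pow hα1, T.p₁.rd_of_mem hα1, T.p₁.rd_of_mem hβ1]
    show red1 A q M ⟨jβ, hβ1⟩ / (red1 A q M ⟨jα, hα1⟩) ^ q = 1
    rw [eβ1]
    exact div_self (pow_ne_zero _ hJ0)
  have rf2 : T.p₂.rd (jβ / jα ^ q) = J / (J ^ q) ^ q := by
    rw [gβ2.rd_div (gα2.pow q), T.p₂.rd_pow hα2, T.p₂.rd_of_mem hα2, T.p₂.rd_of_mem hβ2]
    show red2 A q M a b hab hq ⟨jβ, hβ2⟩ / (red2 A q M a b hab hq ⟨jα, hα2⟩) ^ q = _
    rw [eβ2, eα2]
  -- orders of `J`
  have oz : z.ord J = z₀.ord (jRed A M) :=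
    kappa_symm_ord A q M a b hab hq hA z₀ J (jRed A M) (by rw [sα1]; exact (red_jF A M).symm)
  have hphi : H73.phiF1 A q M hq hA M (H82.redField_eq_fullC q M a b hab hq A hA) J = J :=
    H73.phiF1_of_int A q M hq hA M _ J (jqModC ℤ) (by
      rw [sα1]
      exact (coeffMap_jqModC (Int.castRingHom (kV A))).symm)
  have oβ : (T.β z).ord J = z.ord J :=
    H73.betaF1_ord_of_fixed A q M hq hA M _ z J hphi
  -- `f ∈ R_z`
  have hjα' : jα = Fermat.Agent.S24.jF (M * q) := by
    rw [hjα, ← incl_eq_alpha]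
    exact incl_jF
  have hα0 : jα ≠ 0 := gα1.ne_zero
  have hβ0 : jβ ≠ 0 := gβ1.ne_zero
  obtain ⟨c, -, hctop, hrel⟩ := modEq_level M q hq
  have hreg : ∀ P, T.ρ P = z → RegAt P (jβ / jα ^ q) := by
    intro P hP
    have hρ : rhoM hq hqM ht hA P = z₀ := by
      rw [← kappa_rhoF1 a b hab hq hA hqM ht P]
      have hP' : rhoF1 a b hab hq hA hqM ht P = (kappa A q M a b hab hq hA).symm z₀ := hP
      rw [hP']
      exact Equiv.apply_symm_apply _ _
    have h1 : P.ord jα ≤ 0 := by
      rw [hjα']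
      apply ord_jF_nonpos_of_rhoM hq hqM ht hA P
      rw [hρ]
      exact hz₀.le
    exact regAt_div_pow_of_modEq q hq.one_le c hctop jα jβ hrel P h1 hα0
  have hInR : T.InR z (jβ / jα ^ q) := ⟨gf1.mem, gf2.mem, hreg⟩
  have h0 := hnode (jβ / jα ^ q) hInR 0
  rw [map_zero, sub_zero, sub_zero, rf1, rf2] at h0
  have hv2 : VanAt (T.β z) (J / (J ^ q) ^ q) := by
    apply vanAt_of_ord_pos
    rw [ord_div _ hJ0 (pow_ne_zero _ (pow_ne_zero _ hJ0)), ord_pow, ord_pow, oβ, oz]
    have h3 : (1 : ℤ) < (q : ℤ) * (q : ℤ) := by nlinarith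
    have h4 := mul_pos (neg_pos.2 hz₀) (sub_pos.2 h3)
    nlinarith
  have hv1 := h0.2 hv2
  rw [vanAt_iff_ord] at hv1
  rcases hv1 with h | h
  · exact one_ne_zero h
  · rw [Place.ord_one] at h
    exact lt_irrefl _ h

end MainGen

end Fermat.Agent.S15.Desc.H69C
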