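import Fermat.Agent.S15.Desc.H69_LinAlg

/-!
# S15 / DESC: the `r`-torsion of a `G`-module as an `𝔽_r[G]`-module; Kummer cocycles (helper69)

`J` an abelian group with an action of a group `G` and of a commutative ring `R` commuting with
`G`; `r` a prime, `e ∈ R`.

* `TorsR J r` : the type `J[r]`, with its structure of `ZMod r`-module and its `G`-action.
* `toTors` : `J → J[r]` (junk value `0` outside `J[r]`).
* `kumDom G J r` : `Y = {y | r • y is G-fixed}`.
* `kumCoc r e y` : the cocycle `σ ↦ e • (σ • y - y)` with values in `J[r]`, for `y ∈ Y`.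
* `eisW r e` : `W = {v ∈ J[r] | e • v = v}`.
* `cobMap` : `v ↦ (σ ↦ σ • v - v)`.
-/

set_option autoImplicit false

namespace Fermat.Agent.S15.Desc

open Module

section Tors

variable (J : Type*) [AddCommGroup J] (r : ℕ)

/-- `J[r]`. -/
def torsR : AddSubgroup J := (nsmulAddMonoidHom (α := J) r).ker

variable {J r}

theorem mem_torsR {v : J} : v ∈ torsR J r ↔ r • v = 0 := Iff.rfl

variable (J r)

/-- `J[r]` as a type. -/
abbrev TorsR : Type _ := ↥(torsR J r)

noncomputable instance instModuleTorsR : Module (ZMod r) (TorsR J r) :=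
  AddCommGroup.zmodModule (fun x => Subtype.ext (by
    have := x.2
    rw [mem_torsR] at this
    simpa using this))

variable {J r}

theorem coe_zmod_smul (c : ZMod r) [NeZero r] (v : TorsR J r) :
    ((c • v : TorsR J r) : J) = c.val • (v : J) := by
  conv_lhs => rw [← ZMod.natCast_zmod_val c, Nat.cast_smul_eq_nsmul]
  rfl

theorem zmod_smul_eq_nsmul {E : Type*} [AddCommGroup E] [Module (ZMod r) E] [NeZero r]
    (c : ZMod r) (x : E) : c • x = c.val • x := by
  conv_lhs => rw [← ZMod.natCast_zmod_val c, Nat.cast_smul_eq_nsmul]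

variable {G : Type*} [Group G] [DistribMulAction G J]

instance instDMATorsR : DistribMulAction G (TorsR J r) where
  smul σ v := ⟨σ • (v : J), by
    rw [mem_torsR, ← smul_comm, mem_torsR.mp v.2, smul_zero]⟩
  one_smul v := Subtype.ext (one_smul G (v : J))
  mul_smul σ τ v := Subtype.ext (mul_smul σ τ (v : J))
  smul_zero σ := Subtype.ext (smul_zero σ)
  smul_add σ v w := Subtype.ext (smul_add σ (v : J) (w : J))

theorem coe_gal_smul (σ : G) (v : TorsR J r) : ((σ • v : TorsR J r) : J) = σ • (v : J) := rfl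

instance instSMulCommTorsR : SMulCommClass G (ZMod r) (TorsR J r) where
  smul_comm σ c v := ZMod.map_smul (DistribSMul.toAddMonoidHom (TorsR J r) σ) c v

/-- `J → J[r]`, with junk value `0` outside `J[r]`. -/
noncomputable def toTors (r : ℕ) (x : J) : TorsR J r :=
  open Classical in if h : r • x = 0 then ⟨x, h⟩ else 0

theorem coe_toTors {x : J} (h : r • x = 0) : ((toTors r x : TorsR J r) : J) = x := by
  unfold toTors
  rw [dif_pos h]

theorem toTors_coe (v : TorsR J r) : toTors r (v : J) = v :=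
  Subtype.ext (coe_toTors (mem_torsR.mp v.2))

theorem toTors_add {x y : J} (hx : r • x = 0) (hy : r • y = 0) :
    toTors r (x + y) = toTors r x + toTors r y := by
  apply Subtype.ext
  rw [coe_toTors (by rw [smul_add, hx, hy, add_zero]), AddSubgroup.coe_add, coe_toTors hx,
    coe_toTors hy]

theorem toTors_zero : toTors r (0 : J) = 0 :=
  Subtype.ext (coe_toTors (smul_zero r))

end Tors

section Kummer

variable (G : Type*) (J : Type*) [Group G] [AddCommGroup J] [DistribMulAction G J]

/-- The `G`-fixed points. -/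
def ratG : AddSubgroup J where
  carrier := {z | ∀ σ : G, σ • z = z}
  zero_mem' := fun σ => smul_zero σ
  add_mem' := fun {a b} ha hb σ => by rw [smul_add, ha σ, hb σ]
  neg_mem' := fun {a} ha σ => by rw [smul_neg, ha σ]

/-- `Y = {y | r • y is G-fixed}`. -/
def kumDom (r : ℕ) : AddSubgroup J where
  carrier := {y | ∀ σ : G, σ • (r • y) = r • y}
  zero_mem' := fun σ => by rw [smul_zero, smul_zero]
  add_mem' := fun {a b} ha hb σ => by rw [smul_add, smul_add, ha σ, hb σ]
  neg_mem' := fun {a} ha σ => by rw [smul_neg, smul_neg, ha σ]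

variable {G J}

theorem mem_ratG {z : J} : z ∈ ratG G J ↔ ∀ σ : G, σ • z = z := Iff.rfl

theorem mem_kumDom {r : ℕ} {y : J} : y ∈ kumDom G J r ↔ ∀ σ : G, σ • (r • y) = r • y := Iff.rfl

theorem ratG_le_kumDom (r : ℕ) : ratG G J ≤ kumDom G J r := by
  intro z hz σ
  rw [← smul_comm, hz σ]

theorem torsR_le_kumDom (r : ℕ) : torsR J r ≤ kumDom G J r := by
  intro v hv σ
  rw [mem_torsR.mp hv, smul_zero]

variable {R : Type*} [CommRing R] [Module R J]

/-- The Kummer cocycle `σ ↦ e • (σ • y - y)`, with values in `J[r]` (for `y ∈ Y`). -/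
noncomputable def kumCoc (r : ℕ) (e : R) (y : J) : G → TorsR J r :=
  fun σ => toTors r (e • (σ • y - y))

variable (hGH : ∀ (σ : G) (t : R) (z : J), σ • (t • z) = t • (σ • z))

theorem nsmul_kum {r : ℕ} (e : R) {y : J} (hy : y ∈ kumDom G J r) (σ : G) :
    r • (e • (σ • y - y)) = 0 := by
  rw [← smul_comm e, smul_sub, ← smul_comm σ, hy σ, sub_self, smul_zero]

theorem coe_kumCoc {r : ℕ} (e : R) {y : J} (hy : y ∈ kumDom G J r) (σ : G) :
    ((kumCoc r e y σ : TorsR J r) : J) = e • (σ • y - y) :=
  coe_toTors (nsmul_kum e hy σ)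

theorem kumCoc_add {r : ℕ} (e : R) {y y' : J} (hy : y ∈ kumDom G J r) (hy' : y' ∈ kumDom G J r) :
    kumCoc (G := G) r e (y + y') = kumCoc r e y + kumCoc r e y' := by
  funext σ
  apply Subtype.ext
  rw [coe_kumCoc e ((kumDom G J r).add_mem hy hy'), Pi.add_apply, AddSubgroup.coe_add,
    coe_kumCoc e hy, coe_kumCoc e hy', ← smul_add]
  congr 1
  rw [smul_add]
  abel

theorem kumCoc_zero {r : ℕ} (e : R) : kumCoc (G := G) r e (0 : J) = 0 := by
  funext σ
  apply Subtype.ext
  rw [coe_kumCoc e (kumDom G J r).zero_mem, smul_zero, sub_zero, smul_zero]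
  rfl

theorem kumCoc_nsmul {r : ℕ} (e : R) (n : ℕ) {y : J} (hy : y ∈ kumDom G J r) :
    kumCoc (G := G) r e (n • y) = n • kumCoc r e y := by
  induction n with
  | zero => rw [zero_smul, zero_smul]; exact kumCoc_zero e
  | succ n ih =>
    rw [succ_nsmul, succ_nsmul, kumCoc_add e ((kumDom G J r).nsmul_mem hy n) hy, ih]

include hGH in
/-- The cocycle relation. -/
theorem kumCoc_cocycle {r : ℕ} (e : R) {y : J} (hy : y ∈ kumDom G J r) (σ τ : G) :
    kumCoc r e y (σ * τ) = kumCoc r e y σ + σ • kumCoc r e y τ := by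
  apply Subtype.ext
  rw [AddSubgroup.coe_add, coe_gal_smul, coe_kumCoc e hy, coe_kumCoc e hy, coe_kumCoc e hy,
    hGH, ← smul_add]
  congr 1
  rw [mul_smul, smul_sub]
  abel

/-- `W = {v ∈ J[r] | e • v = v}`. -/
def eisW (r : ℕ) [NeZero r] (e : R) : Submodule (ZMod r) (TorsR J r) where
  carrier := {v | e • (v : J) = v}
  add_mem' := fun {a b} ha hb => by
    show e • ((a + b : TorsR J r) : J) = ((a + b : TorsR J r) : J)
    rw [AddSubgroup.coe_add, smul_add, ha, hb]
  zero_mem' := smul_zero e
  smul_mem' := fun c v hv => by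
    show e • ((c • v : TorsR J r) : J) = ((c • v : TorsR J r) : J)
    rw [coe_zmod_smul, smul_comm, hv]

theorem mem_eisW {r : ℕ} [NeZero r] {e : R} {v : TorsR J r} :
    v ∈ eisW r e ↔ e • (v : J) = v := Iff.rfl

/-- The coboundary map `v ↦ (σ ↦ σ • v - v)`. -/
def cobMap (G : Type*) (J : Type*) [Group G] [AddCommGroup J] [DistribMulAction G J] (r : ℕ) :
    TorsR J r →ₗ[ZMod r] (G → TorsR J r) where
  toFun v := fun σ => σ • v - v
  map_add' a b := by
    funext σ
    simp only [Pi.add_apply, smul_add]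
    abel
  map_smul' c v := by
    funext σ
    simp only [RingHom.id_apply, Pi.smul_apply, smul_sub]
    rw [smul_comm]

theorem cobMap_apply {r : ℕ} (v : TorsR J r) (σ : G) : cobMap G J r v σ = σ • v - v := rfl

include hGH in
/-- On `W` the Kummer cocycle of a torsion point is its coboundary. -/
theorem kumCoc_coe_of_mem_eisW {r : ℕ} [NeZero r] {e : R} {w : TorsR J r}
    (hw : w ∈ eisW r e) : kumCoc r e (w : J) = cobMap G J r w := by
  funext σ
  apply Subtype.ext
  rw [coe_kumCoc e (torsR_le_kumDom r w.2), cobMap_apply, AddSubgroup.coe_sub, coe_gal_smul,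
    smul_sub, ← hGH, mem_eisW.mp hw]

end Kummer

end Fermat.Agent.S15.Desc
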