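import Fermat.Agent.S15.Defs
import Fermat.Agent.S15.Desc.H69_Tors
import Fermat.Agent.S15.Desc.H69_Base

/-!
# S15 / DESC: the leaves, as Lean statements (helper69, owner-planner of DESC)

`J = J₀(p)`, `M = ratPts p = J(ℚ)`, with the ANEMIC Hecke action `heckeInst` (`X_p` acts as `1`);
`r` a prime (`r ∣ p - 1`), `e` an Eisenstein projector
(`IsEisProj`), `W = e J[r]` (`eisW r e`), `I_A` the inertia group of a valuation subring `A` of `ℚ̄`.

Plan: the board note "helper69 S15 DESC v2".  The assembly `H69_Wire.lean` proves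
`SelBAt p r` (hence `Stmt_selB p`, the input of `S15/H40_CoreSel.lean`) from the leaves below.

| leaf | statement | source |
|---|---|---|
| FIN | `Stmt_FIN p` : `J[n]` finite | G-TOR (`GTor.stmt_TOR_uncond`) |
| DIV | `Stmt_DIV p r` : `J = r J` | S17-W2 |
| GAL | `Stmt_GALfin p` : every point is fixed by an open subgroup | `GTor.stmt_GAL` |
| GH | `Fermat.Agent.S15.Stmt_GH p` | helper2 |
| PROJ | `Stmt_PROJ p r` : Eisenstein projectors exist | helper87 (pure algebra, from FIN) |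
| ES | `Stmt_ESr p r` : Eichler–Shimura on `J[r]` | G-RED (`GTor.Stmt_TorsES`) + COMM |
| LOC-ℓ | `Stmt_LOCl p r` | helper87 (`H87.loc_l_of_redPackage`) |
| EXP | `Stmt_EXP p r` | helper87 (`H87.exp_bound`) |
| LOC-U | `Stmt_LOCU p r` : the Kummer cocycles are bounded at `r` | helper40's plan `S15_LOCr.md` |
| VT | `Stmt_VT p r` : local condition at `p` + numerics | from UNIP + CG (`stmt_VT_of_CG`), or helper63's count |
| UNIP | `Stmt_TorsUnipAt p r` | BAD (`BAD.Stmt_TorsUnip p r`) |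
| CG | `Stmt_CG p r` : component group at `p` | helper67 (with BAD) |
| NUM-∞ | `Stmt_NUMinfOdd p r` (`r` odd) | Betti (complex conjugation) |
-/

set_option autoImplicit false

noncomputable section

open ModularCurve Module

namespace Fermat.Agent.S15.Desc

open Fermat.Agent.S15

local notation "Qbar" => AlgebraicClosure ℚ

/-- The **anemic** substitution `X_p ↦ 1`, `X_ℓ ↦ X_ℓ` (`ℓ ≠ p`). -/
def anemicSubst (p : ℕ) : HeckeAlg →+* HeckeAlg :=
  (MvPolynomial.aeval (R := ℤ)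
    (fun ℓ : Nat.Primes => if (ℓ : ℕ) = p then (1 : HeckeAlg) else MvPolynomial.X ℓ)).toRingHom

theorem anemicSubst_heckeGen (p : ℕ) {ℓ : ℕ} (hℓ : ℓ.Prime) (hℓp : ℓ ≠ p) :
    anemicSubst p (heckeGen ⟨ℓ, hℓ⟩) = heckeGen ⟨ℓ, hℓ⟩ := by
  have h := MvPolynomial.aeval_X (R := ℤ)
    (fun ℓ : Nat.Primes => if (ℓ : ℕ) = p then (1 : HeckeAlg) else MvPolynomial.X ℓ)
    (⟨ℓ, hℓ⟩ : Nat.Primes)
  have h2 : anemicSubst p (heckeGen ⟨ℓ, hℓ⟩) =
      if ((⟨ℓ, hℓ⟩ : Nat.Primes) : ℕ) = p then (1 : HeckeAlg) else MvPolynomial.X ⟨ℓ, hℓ⟩ := h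
  rw [h2, if_neg hℓp]
  rfl

/-- The anemic substitution does not change the Eisenstein character. -/
theorem eisEval_anemicSubst (p : ℕ) (t : HeckeAlg) :
    eisEval p (anemicSubst p t) = eisEval p t := by
  have key : (eisEval p).comp (anemicSubst p) = eisEval p := by
    apply MvPolynomial.ringHom_ext
    · intro a
      show eisEval p (anemicSubst p (MvPolynomial.C a)) = eisEval p (MvPolynomial.C a)
      have h1 : anemicSubst p (MvPolynomial.C a) = MvPolynomial.C a :=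
        MvPolynomial.aeval_C (R := ℤ) _ a
      rw [h1]
    · intro ℓ
      show eisEval p (anemicSubst p (MvPolynomial.X ℓ)) = eisEval p (MvPolynomial.X ℓ)
      have h := MvPolynomial.aeval_X (R := ℤ)
        (fun ℓ : Nat.Primes => if (ℓ : ℕ) = p then (1 : HeckeAlg) else MvPolynomial.X ℓ) ℓ
      have h2 : anemicSubst p (MvPolynomial.X ℓ) =
          if (ℓ : ℕ) = p then (1 : HeckeAlg) else MvPolynomial.X ℓ := h
      rw [h2]
      by_cases hℓ : (ℓ : ℕ) = p
      · rw [if_pos hℓ, map_one]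
        have h3 : eisEval p (MvPolynomial.X ℓ) = eisensteinSystem p ℓ :=
          MvPolynomial.aeval_X (R := ℤ) (eisensteinSystem p) ℓ
        rw [h3, eisensteinSystem_of_dvd (hℓ ▸ dvd_rfl)]
      · rw [if_neg hℓ]
  exact congrArg (fun f : HeckeAlg →+* ℤ => f t) key

/-- The **anemic** Hecke module structure on `J₀(p)`: `X_ℓ` acts as the Hecke operator `T_ℓ` of
the prelude for `ℓ ≠ p`, and `X_p` acts as `1`; `t • z = hsmul p (anemicSubst p t) z` by `rfl`.
(The operator `U_p` plays no role in the descent, and the Betti dictionary exists for `ℓ ≠ p`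
only.) -/
@[reducible] def heckeInst (p : ℕ) [NeZero p] : Module HeckeAlg (JZero p) :=
  letI := heckeModuleBar p
  Module.compHom (JZero p) (anemicSubst p)

attribute [local instance] heckeInst

theorem smul_eq_hsmul (p : ℕ) [NeZero p] (t : HeckeAlg) (z : JZero p) :
    t • z = hsmul p (anemicSubst p t) z := rfl

theorem heckeGen_smul (p : ℕ) [NeZero p] {ℓ : ℕ} (hℓ : ℓ.Prime) (hℓp : ℓ ≠ p) (z : JZero p) :
    heckeGen ⟨ℓ, hℓ⟩ • z = hsmul p (heckeGen ⟨ℓ, hℓ⟩) z := by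
  rw [smul_eq_hsmul, anemicSubst_heckeGen p hℓ hℓp]

/-- `e` is an **Eisenstein projector** of level `k` at `r`: `ε(e) ≡ 1 mod r`, `e` is idempotent on
`J[r^(k+1)]`, and every `t` with `r ∣ ε(t)` is nilpotent on `e J[r]`. -/
def IsEisProj (p r k : ℕ) [NeZero p] (e : HeckeAlg) : Prop :=
  (r : ℤ) ∣ eisEval p e - 1 ∧
  (∀ y : JZero p, r ^ (k + 1) • y = 0 → e • (e • y) = e • y) ∧
  ∀ t : HeckeAlg, (r : ℤ) ∣ eisEval p t → ∃ N : ℕ, ∀ v : JZero p, r • v = 0 → e • v = v →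
    t ^ N • v = 0

/-- (SELB at `r`) the conclusion of the descent at the prime `r`. -/
def SelBAt (p r : ℕ) [NeZero p] : Prop :=
  ∀ z ∈ ratPts p, ∃ t : HeckeAlg, ¬ (r : ℤ) ∣ eisEval p t ∧
    ∃ h ∈ ratPts p, (∃ j : ℕ, r ^ j • h = 0) ∧ ∃ w ∈ ratPts p, hsmul p t z = h + r • w

/-- (FIN) the torsion of `J₀(p)` is finite. -/
def Stmt_FIN (p : ℕ) : Prop := ∀ n : ℕ, 0 < n → Finite (TorsR (JZero p) n)

/-- (DIV) the rational points of `J₀(p)` are `r`-divisible in `J₀(p)(ℚ̄)`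
(`= Fermat.Agent.S17.Stmt_divisible p r`). -/
def Stmt_DIV (p r : ℕ) : Prop := ∀ x : JZero p, (∀ σ : GalQ, σ • x = x) → ∃ y : JZero p, r • y = x

/-- (GAL) every point of `J₀(p)` is fixed by an open subgroup of `G_ℚ`. -/
def Stmt_GALfin (p : ℕ) : Prop :=
  ∀ y : JZero p, ∃ S : Finset Qbar, ∀ σ : GalQ, (∀ x ∈ S, σ x = x) → σ • y = y

/-- (PROJ) Eisenstein projectors of every level exist. -/
def Stmt_PROJ (p r : ℕ) [NeZero p] : Prop := ∀ k : ℕ, ∃ e : HeckeAlg, IsEisProj p r k e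

/-- (ES) the Eichler–Shimura relation on `J[r]`, for every Frobenius element at `ℓ ∤ p r`. -/
def Stmt_ESr (p r : ℕ) [NeZero p] : Prop :=
  ∀ (ℓ : ℕ) (hℓ : ℓ.Prime), ℓ ≠ p → ℓ ≠ r →
    ∀ A : ValuationSubring Qbar, A.LiesOverPrime ℓ →
      ∀ σ : GalQ, A.IsFrobeniusAt σ ℓ → ∀ x : JZero p, r • x = 0 →
        σ • σ • x - heckeGen ⟨ℓ, hℓ⟩ • (σ • x) + ℓ • x = 0

/-- (LOC-ℓ) inertia at `ℓ ∤ p r` fixes the `r`-division points of the rational points. -/
def Stmt_LOCl (p r : ℕ) : Prop :=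
  ∀ ℓ : ℕ, ℓ.Prime → ℓ ≠ p → ℓ ≠ r → ∀ A : ValuationSubring Qbar, A.LiesOverPrime ℓ →
    ∀ τ ∈ A.inertiaSubgroupIn ℚ, ∀ y : JZero p, r • y ∈ ratPts p → τ • y = y

/-- (EXP) the rational points of `r`-power order have bounded exponent. -/
def Stmt_EXP (p r : ℕ) : Prop :=
  ∃ k : ℕ, ∀ z ∈ ratPts p, (∃ n : ℕ, r ^ n • z = 0) → r ^ k • z = 0

/-- (LOC-U) there is a family `𝔅` of subgroups bounded at `r` such that the Eisenstein part of
every Kummer cocycle of a rational point vanishes on a member of `𝔅`. -/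
def Stmt_LOCU (p r : ℕ) [NeZero p] : Prop :=
  ∃ (Ar : ValuationSubring Qbar) (_ : Ar.LiesOverPrime r) (𝔅 : Set (Subgroup GalQ)),
    IsBddFamily r Ar 𝔅 ∧
    ∀ (k : ℕ) (e : HeckeAlg), IsEisProj p r k e → ∀ y : JZero p, r • y ∈ ratPts p →
      ∃ H ∈ 𝔅, ∀ σ ∈ H, e • (σ • y - y) = 0

/-- (UNIP) inertia at `p` acts unipotently (of level two) on the `r`-power torsion of `J₀(p)`. -/
def Stmt_TorsUnipAt (p r : ℕ) : Prop :=
  ∀ A : ValuationSubring Qbar, A.LiesOverPrime p →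
    ∀ σ ∈ A.inertiaSubgroupIn ℚ, ∀ τ ∈ A.inertiaSubgroupIn ℚ,
      ∀ x : JZero p, (∃ n : ℕ, r ^ n • x = 0) → σ • τ • x - σ • x - τ • x + x = 0

/-- (CG) **the component group at `p`**: there is a rational point `t₀` of `r`-power order such
that every rational point is `a t₀ + r y` with `y` fixed by the inertia group at `p`. -/
def Stmt_CG (p r : ℕ) : Prop :=
  ∀ A : ValuationSubring Qbar, A.LiesOverPrime p →
    ∃ t₀ ∈ ratPts p, (∃ n : ℕ, r ^ n • t₀ = 0) ∧
      ∀ x ∈ ratPts p, ∃ (a : ℤ) (y : JZero p),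
        (∀ σ ∈ A.inertiaSubgroupIn ℚ, σ • y = y) ∧ x = a • t₀ + r • y

/-- (VT) **the local condition at `p` with its numerics**: for every Eisenstein projector `e`
there is a subspace `Vt ≤ J[r]` containing the values on the inertia group at `p` of all the
Kummer cocycles `σ ↦ e (σ y - y)` (`r y` rational), with `2 dim (W ∩ Vt) ≤ dim W + 1`.
Two routes: `stmt_VT_of_CG` (`H69_Wire.lean`: from (UNIP) and (CG)), or the dimension count of
helper63 (from `dim K1(r) ≤ g`, `dim J[r]^I ≤ g + 1`, (B0), (B1)). -/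
def Stmt_VT (p r : ℕ) [NeZero p] [NeZero r] : Prop :=
  ∀ A : ValuationSubring Qbar, A.LiesOverPrime p →
    ∀ (k : ℕ) (e : HeckeAlg), IsEisProj p r k e →
      ∃ Vt : Submodule (ZMod r) (TorsR (JZero p) r),
        (∀ σ ∈ A.inertiaSubgroupIn ℚ, ∀ y ∈ kumDom GalQ (JZero p) r, kumCoc r e y σ ∈ Vt) ∧
        2 * finrank (ZMod r) ↥(eisW (J := JZero p) r e ⊓ Vt) ≤
          finrank (ZMod r) ↥(eisW (J := JZero p) r e) + 1

/-- The subspace of `J[r]` fixed by `c`. -/
def fixSub {J : Type*} [AddCommGroup J] {G : Type*} [Group G] [DistribMulAction G J] (r : ℕ)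
    (c : G) : Submodule (ZMod r) (TorsR J r) where
  carrier := {v | c • v = v}
  add_mem' := fun {a b} ha hb => by
    show c • (a + b) = a + b
    rw [smul_add, ha, hb]
  zero_mem' := smul_zero c
  smul_mem' := fun a v hv => by
    show c • (a • v) = a • v
    rw [smul_comm, hv]

/-- (NUM-∞, `r` odd) there is an element `c` of `G_ℚ` acting non-trivially on the `r`-th roots of
unity (complex conjugation) whose fixed space in `W = e J[r]` has dimension at least
`dim W / 2`, for every Eisenstein projector `e` of level `≥ k₀`. -/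
def Stmt_NUMinfOdd (p r : ℕ) [NeZero p] [NeZero r] : Prop :=
  ∃ (c : GalQ) (ζ : Qbar), IsPrimitiveRoot ζ r ∧ c ζ ≠ ζ ∧ ∃ k₀ : ℕ,
    ∀ (k : ℕ) (e : HeckeAlg), k₀ ≤ k → IsEisProj p r k e →
      finrank (ZMod r) ↥(eisW (J := JZero p) r e) ≤
        2 * finrank (ZMod r) ↥(eisW (J := JZero p) r e ⊓ fixSub r c)

end Fermat.Agent.S15.Desc
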