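import Fermat.Agent.BAD.H91_B0
import Fermat.Agent.S36.H61_B0

/-!
# S15 / DESC: (B0-div) — inertia moves division points by toric classes (helper63)

`b0div` : for every level `N ≠ 0`, every valuation ring `A` of `ℚ̄`, `σ` in the inertia group
`I_A`, every `n` and every `y ∈ J₀(N)` such that `n y` is fixed by `I_A`:
`σ y - y ∈ K1(n)` (`BAD.InK1`), i.e. `σ y - y` is the class of a divisor `D₁` with
`n D₁ = div f₁`, `f₁` a Gauss unit with reduction `1`.

Proof: `n y` is the class of an `I_A`-stable divisor `B` (Hilbert 90 descent of helper61/helper35,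
`S36.H61.exists_invariant_rep`); `n D - B = div f`, `f = c u` with `u` a Gauss unit; then
`n (σ D - D) = div (σ u / u)` and `σ u / u` reduces to `1` (helper91's argument for (B0)).
-/

set_option autoImplicit false
set_option linter.style.haveILetI false

noncomputable section

open AlgebraicCurve ModularCurve Fermat.Agent.S28.H73 Fermat.Agent.RED.H73

namespace Fermat.Agent.S15.Desc.H63

open Fermat.Agent.BAD Fermat.Agent.BAD.H91

/-- **(B0-div)**. -/
theorem b0div (N : ℕ) [NeZero N] (A : ValuationSubring (AlgebraicClosure ℚ)) (σ : GalQ)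
    (hσ : σ ∈ A.inertiaSubgroupIn ℚ) (n : ℕ) (y : JZero N)
    (hy : ∀ τ ∈ A.inertiaSubgroupIn ℚ, τ • (n • y) = n • y) : InK1 A N n (σ • y - y) := by
  obtain ⟨D, rfl⟩ := Pic0.mk_surjective y
  have hfix : ∀ τ ∈ A.inertiaSubgroupIn ℚ,
      τ • (Pic0.mk (n • D) : JZero N) = Pic0.mk (n • D) := hy
  obtain ⟨B, hclass, hBfix⟩ :=
    Fermat.Agent.S36.H61.exists_invariant_rep N (A.inertiaSubgroupIn ℚ) (n • D) hfix
  -- `B - n D = div f₀`
  have h2 := (QuotientAddGroup.eq).1 hclass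
  rw [AddSubgroup.mem_addSubgroupOf] at h2
  obtain ⟨f₀, hf₀, hf₀D⟩ := h2
  have hf₀D' : ∀ P : Place (AlgebraicClosure ℚ) ↥(FNbar N),
      P.ord f₀ = (B : Divisor (AlgebraicClosure ℚ) ↥(FNbar N)) P
        - (n : ℤ) * (D : Divisor (AlgebraicClosure ℚ) ↥(FNbar N)) P := by
    intro P
    rw [← hf₀D P]
    show (-(n • (D : Divisor (AlgebraicClosure ℚ) ↥(FNbar N)))
      + (B : Divisor (AlgebraicClosure ℚ) ↥(FNbar N))) P = _
    rw [Finsupp.add_apply, Finsupp.neg_apply, Finsupp.smul_apply, nsmul_eq_mul]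
    ring
  -- `f = f₀⁻¹ = c u`
  obtain ⟨c, u, hc, hfu⟩ := exists_unit_scale A (hasScale_laurentBaseChange A N) f₀⁻¹
    (inv_ne_zero hf₀)
  have hu : ((u : ↥(gaussV A N)) : ↥(FNbar N)) ∈ gaussV A N := (u : ↥(gaussV A N)).2
  have hu0 : ((u : ↥(gaussV A N)) : ↥(FNbar N)) ≠ 0 := by
    intro h0
    apply inv_ne_zero hf₀
    rw [hfu, h0, mul_zero]
  let σu : ↥(gaussV A N) := ⟨galF N σ • ((u : ↥(gaussV A N)) : ↥(FNbar N)),
    galF_mem_gaussV A N hσ hu⟩
  let f₁ : ↥(gaussV A N) := σu * ((u⁻¹ : (↥(gaussV A N))ˣ) : ↥(gaussV A N))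
  have hres : gaussRes A N f₁ = 1 := by
    show gaussRes A N (σu * ((u⁻¹ : (↥(gaussV A N))ˣ) : ↥(gaussV A N))) = 1
    rw [map_mul]
    have e1 : gaussRes A N σu = gaussRes A N (u : ↥(gaussV A N)) :=
      gaussRes_galF A N hσ hu
    rw [e1, ← map_mul, Units.mul_inv, map_one]
  have hf₁ : ((f₁ : ↥(gaussV A N)) : ↥(FNbar N))
      = (galF N σ • ((u : ↥(gaussV A N)) : ↥(FNbar N)))
        * (((u : ↥(gaussV A N)) : ↥(FNbar N)))⁻¹ := by
    show (galF N σ • ((u : ↥(gaussV A N)) : ↥(FNbar N)))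
        * (((u⁻¹ : (↥(gaussV A N))ˣ) : ↥(gaussV A N)) : ↥(FNbar N)) = _
    congr 1
    have : ((u : ↥(gaussV A N)) : ↥(FNbar N))
        * (((u⁻¹ : (↥(gaussV A N))ˣ) : ↥(gaussV A N)) : ↥(FNbar N)) = 1 := by
      have h := congrArg (fun z : ↥(gaussV A N) => (z : ↥(FNbar N))) (Units.mul_inv u)
      exact h
    exact (eq_inv_of_mul_eq_one_right this)
  -- orders of `u`
  have hordu : ∀ P : Place (AlgebraicClosure ℚ) ↥(FNbar N),
      P.ord ((u : ↥(gaussV A N)) : ↥(FNbar N))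
        = (n : ℤ) * (D : Divisor (AlgebraicClosure ℚ) ↥(FNbar N)) P
          - (B : Divisor (AlgebraicClosure ℚ) ↥(FNbar N)) P := by
    intro P
    have h1 : P.ord f₀⁻¹ = P.ord ((u : ↥(gaussV A N)) : ↥(FNbar N)) := by
      rw [hfu, Place.ord_mul _ ((map_ne_zero _).2 hc) hu0, ord_algebraMap_zero, zero_add]
    rw [← h1, Place.ord_inv, hf₀D' P]
    ring
  -- `B` is fixed by `σ`
  have hBσ : ∀ P : Place (AlgebraicClosure ℚ) ↥(FNbar N),
      (B : Divisor (AlgebraicClosure ℚ) ↥(FNbar N)) ((galF N σ)⁻¹ • P)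
        = (B : Divisor (AlgebraicClosure ℚ) ↥(FNbar N)) P := by
    intro P
    have h := DFunLike.congr_fun (hBfix ⟨σ, hσ⟩) P
    rw [SemilinearAut.divisor_smul_apply] at h
    exact h
  refine ⟨SemilinearAut.degZeroSMulHom (galF N σ) D - D, f₁, ?_, hres, fun P => ?_⟩
  · show galF N σ • (Pic0.mk D) - Pic0.mk D = _
    rw [SemilinearAut.pic0_smul_mk]
    rfl
  · have hσu0 : galF N σ • ((u : ↥(gaussV A N)) : ↥(FNbar N)) ≠ 0 := by
      intro h0
      apply hu0
      have h1 := congrArg (fun z => (galF N σ)⁻¹ • z) h0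
      simp only [inv_smul_smul, smul_zero] at h1
      exact h1
    rw [hf₁, Place.ord_mul _ hσu0 (inv_ne_zero hu0), Place.ord_inv, ord_galF_smul, hordu, hordu,
      hBσ P]
    have e : ((SemilinearAut.degZeroSMulHom (galF N σ) D - D :
        Divisor.degZero (K := AlgebraicClosure ℚ) (F := ↥(FNbar N))) :
          Divisor (AlgebraicClosure ℚ) ↥(FNbar N)) P
        = (D : Divisor (AlgebraicClosure ℚ) ↥(FNbar N)) ((galF N σ)⁻¹ • P)
          - (D : Divisor (AlgebraicClosure ℚ) ↥(FNbar N)) P := by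
      rw [AddSubgroup.coe_sub, SemilinearAut.coe_degZeroSMulHom, Finsupp.sub_apply,
        SemilinearAut.divisor_smul_apply]
    rw [e]
    ring

end Fermat.Agent.S15.Desc.H63
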