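import Fermat.Agent.S15.Desc.H69_Tors

/-!
# S15 / DESC: the local condition at the bad prime and its numerics (NUM-p; helper69)

`J` an abelian group with commuting actions of `G` and of a commutative ring `R`, `r` a prime,
`e ∈ R` idempotent on `J[r]`, `W = e J[r]`, `I ≤ G` (the inertia group at the bad prime `p`).

Hypotheses:
* (TU) `(σ - 1)(τ - 1) x = 0` for `σ, τ ∈ I` and `x` of `r`-power order (`BAD.Stmt_TorsUnip`);
* (CYC) on `J[r^m]` the group `I` acts through a cyclic group (tame inertia);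
* (CG) there is a `G`-fixed point `t₀` of `r`-power order such that every `G`-fixed point is
  `a t₀ + r y` with `y` fixed by `I` (the component group is cyclic, generated by the cusp).

Conclusion (`exists_vt`): there is a subspace `Vt ≤ J[r]` containing the values on `I` of all
Kummer cocycles `σ ↦ e (σ y - y)` (`r y` rational), with `2 dim (W ∩ Vt) ≤ dim W + 1`.

No toric part, no Weil pairing: `Vt = N W + 𝔽_r v₀`, `N = σ₀ - 1`, `N² = 0`, `v₀ = e N y₀ ∈ ker N`.
-/

set_option autoImplicit false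

namespace Fermat.Agent.S15.Desc

open Module

section NumP

variable {G J R : Type*} [Group G] [AddCommGroup J] [DistribMulAction G J] [CommRing R]
  [Module R J]

/-- `σ^k u - u = k (σ u - u)` if `(σ - 1)² u = 0`. -/
theorem pow_smul_sub_of_unip (σ : G) (u : J) (h : σ • σ • u - σ • u - σ • u + u = 0) (k : ℕ) :
    σ ^ k • u - u = k • (σ • u - u) := by
  have h2 : σ • (σ • u - u) = σ • u - u := by
    rw [smul_sub]
    have : σ • σ • u - σ • u - (σ • u - u) = 0 := by
      rw [← h]; abel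
    exact sub_eq_zero.mp this
  induction k with
  | zero => rw [pow_zero, one_smul, sub_self, zero_smul]
  | succ k ih =>
    have h3 : σ ^ (k + 1) • u - u = σ ^ k • (σ • u - u) + (σ ^ k • u - u) := by
      rw [pow_succ, mul_smul, smul_sub]
      abel
    have h4 : ∀ j : ℕ, σ ^ j • (σ • u - u) = σ • u - u := by
      intro j
      induction j with
      | zero => rw [pow_zero, one_smul]
      | succ j ihj => rw [pow_succ, mul_smul, h2, ihj]
    rw [h3, h4 k, ih, succ_nsmul]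
    abel

variable (r : ℕ) [hr : Fact r.Prime] (e : R)
variable (hGH : ∀ (σ : G) (t : R) (z : J), σ • (t • z) = t • (σ • z))

include hGH in
/-- **NUM-p.** -/
theorem exists_vt (I : Subgroup G)
    (hfin : Finite (TorsR J r))
    (hidem : ∀ v : J, r • v = 0 → e • (e • v) = e • v)
    (hdiv : ∀ x : J, (∀ σ : G, σ • x = x) → ∃ y : J, r • y = x)
    (htu : ∀ σ ∈ I, ∀ τ ∈ I, ∀ x : J, (∃ n : ℕ, r ^ n • x = 0) →
      σ • τ • x - σ • x - τ • x + x = 0)
    (hcyc : ∀ m : ℕ, ∃ σ₀ ∈ I, ∀ σ ∈ I, ∃ k : ℕ, ∀ u : J, r ^ m • u = 0 → σ • u = σ₀ ^ k • u)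
    (hcg : ∃ t₀ : J, (∀ σ : G, σ • t₀ = t₀) ∧ (∃ n : ℕ, r ^ n • t₀ = 0) ∧
      ∀ x : J, (∀ σ : G, σ • x = x) → ∃ (a : ℤ) (y : J), (∀ σ ∈ I, σ • y = y) ∧
        x = a • t₀ + r • y) :
    haveI : NeZero r := ⟨hr.out.ne_zero⟩
    ∃ Vt : Submodule (ZMod r) (TorsR J r),
      (∀ σ ∈ I, ∀ y ∈ kumDom G J r, kumCoc r e y σ ∈ Vt) ∧
      2 * finrank (ZMod r) ↥(eisW (J := J) r e ⊓ Vt) ≤ finrank (ZMod r) ↥(eisW (J := J) r e) + 1 := by
  classical
  haveI : NeZero r := ⟨hr.out.ne_zero⟩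
  haveI : Module.Finite (ZMod r) (TorsR J r) := Module.Finite.of_finite
  obtain ⟨t₀, ht₀fix, ⟨n, hn⟩, hcg⟩ := hcg
  obtain ⟨y₀, hy₀⟩ := hdiv t₀ ht₀fix
  have hy₀tors : r ^ (n + 1) • y₀ = 0 := by
    rw [pow_succ, mul_smul, hy₀, hn]
  have hy₀dom : y₀ ∈ kumDom G J r := fun σ => by rw [hy₀, ht₀fix σ]
  obtain ⟨σ₀, hσ₀, hcyc⟩ := hcyc (n + 1)
  -- torsion of order `r` is torsion of order `r ^ (n + 1)`
  have htors1 : ∀ v : J, r • v = 0 → r ^ (n + 1) • v = 0 := by
    intro v hv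
    rw [pow_succ, mul_smul, hv, smul_zero]
  -- the operator `N = σ₀ - 1` on `J[r]`
  let N : TorsR J r →ₗ[ZMod r] TorsR J r :=
    { toFun := fun v => σ₀ • v - v
      map_add' := fun a b => by rw [smul_add]; abel
      map_smul' := fun c v => by
        rw [RingHom.id_apply, smul_sub, smul_comm] }
  have hNapp : ∀ v : TorsR J r, N v = σ₀ • v - v := fun v => rfl
  have hunip : ∀ x : J, (∃ n : ℕ, r ^ n • x = 0) → σ₀ • σ₀ • x - σ₀ • x - σ₀ • x + x = 0 :=
    fun x hx => htu σ₀ hσ₀ σ₀ hσ₀ x hx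
  have hfix_of_unip : ∀ x : J, (∃ n : ℕ, r ^ n • x = 0) → σ₀ • (σ₀ • x - x) = σ₀ • x - x := by
    intro x hx
    rw [smul_sub]
    have : σ₀ • σ₀ • x - σ₀ • x - (σ₀ • x - x) = 0 := by
      rw [← hunip x hx]; abel
    exact sub_eq_zero.mp this
  have hNN : ∀ v : TorsR J r, N (N v) = 0 := by
    intro v
    apply Subtype.ext
    show σ₀ • (σ₀ • (v : J) - (v : J)) - (σ₀ • (v : J) - (v : J)) = 0
    rw [hfix_of_unip (v : J) ⟨1, by rw [pow_one]; exact mem_torsR.mp v.2⟩, sub_self]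
  set W : Submodule (ZMod r) (TorsR J r) := eisW r e with hW
  have hNW : ∀ w ∈ W, N w ∈ W := by
    intro w hw
    show e • ((N w : TorsR J r) : J) = ((N w : TorsR J r) : J)
    have hw' : e • (w : J) = w := hw
    show e • (σ₀ • (w : J) - (w : J)) = σ₀ • (w : J) - (w : J)
    rw [smul_sub, ← hGH, hw']
  -- the vector `v₀`
  set v₀ : TorsR J r := kumCoc r e y₀ σ₀ with hv₀
  have hv₀coe : (v₀ : J) = e • (σ₀ • y₀ - y₀) := coe_kumCoc e hy₀dom σ₀
  have hkum_tors : r • (σ₀ • y₀ - y₀) = 0 := by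
    rw [smul_sub, ← smul_comm, hy₀, ht₀fix, sub_self]
  have hv₀W : v₀ ∈ W := by
    show e • (v₀ : J) = v₀
    rw [hv₀coe]
    exact hidem _ hkum_tors
  have hNv₀ : N v₀ = 0 := by
    apply Subtype.ext
    show σ₀ • (v₀ : J) - (v₀ : J) = 0
    rw [hv₀coe, hGH, hfix_of_unip y₀ ⟨n + 1, hy₀tors⟩, sub_self]
  -- the subspace
  set Vt : Submodule (ZMod r) (TorsR J r) := W.map N ⊔ Submodule.span (ZMod r) {v₀} with hVt
  have hVtW : Vt ≤ W := by
    refine sup_le ?_ ?_
    · rintro _ ⟨w, hw, rfl⟩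
      exact hNW w hw
    · rw [Submodule.span_le]
      rintro _ rfl
      exact hv₀W
  have hVtker : Vt ≤ LinearMap.ker N := by
    refine sup_le ?_ ?_
    · rintro _ ⟨w, -, rfl⟩
      exact LinearMap.mem_ker.mpr (hNN w)
    · rw [Submodule.span_le]
      rintro _ rfl
      exact LinearMap.mem_ker.mpr hNv₀
  refine ⟨Vt, ?_, ?_⟩
  · -- the Kummer cocycles
    intro σ hσ y hy
    have hxfix : ∀ τ : G, τ • (r • y) = r • y := hy
    obtain ⟨a, y', hy'fix, hxy⟩ := hcg (r • y) hxfix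
    obtain ⟨k, hk⟩ := hcyc σ hσ
    -- `v = y - a y₀ - y'` is killed by `r`
    obtain ⟨v, hv⟩ : ∃ v : J, v = y - a • y₀ - y' := ⟨_, rfl⟩
    have hvtors : r • v = 0 := by
      rw [hv, smul_sub, smul_sub, hxy, smul_comm r a y₀, hy₀]
      abel
    have hyv : y = a • y₀ + y' + v := by rw [hv]; abel
    have h1 : σ • y - y = a • (σ • y₀ - y₀) + (σ • v - v) := by
      rw [hyv, smul_add, smul_add, hy'fix σ hσ, smul_comm σ a y₀, smul_sub]
      abel
    have h2 : σ • y₀ - y₀ = k • (σ₀ • y₀ - y₀) := by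
      rw [hk y₀ hy₀tors]
      exact pow_smul_sub_of_unip σ₀ y₀ (hunip y₀ ⟨n + 1, hy₀tors⟩) k
    have h3 : σ • v - v = k • (σ₀ • v - v) := by
      rw [hk v (htors1 v hvtors)]
      exact pow_smul_sub_of_unip σ₀ v (hunip v ⟨1, by rw [pow_one]; exact hvtors⟩) k
    -- the element `e v` of `W`
    have hevt : r • (e • v) = 0 := by rw [← smul_comm, hvtors, smul_zero]
    set w : TorsR J r := ⟨e • v, hevt⟩ with hw
    have hwW : w ∈ W := by
      show e • (e • v) = e • v
      exact hidem v hvtors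
    have hkey : kumCoc r e y σ = (a * k) • v₀ + k • N w := by
      apply Subtype.ext
      rw [coe_kumCoc e hy σ, AddSubgroup.coe_add, AddSubgroup.coe_zsmul, AddSubgroup.coe_nsmul,
        hv₀coe]
      show e • (σ • y - y) = (a * k) • e • (σ₀ • y₀ - y₀) + k • (σ₀ • (e • v) - e • v)
      rw [h1, h2, h3, smul_add]
      congr 1
      · rw [smul_comm e a, smul_comm e k, mul_smul, natCast_zsmul]
      · rw [smul_comm e k, smul_sub, ← hGH]
    rw [hkey]
    refine Vt.add_mem ?_ ?_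
    · exact zsmul_mem (Submodule.mem_sup_right (Submodule.mem_span_singleton_self v₀)) _
    · exact Vt.nsmul_mem (Submodule.mem_sup_left (Submodule.mem_map_of_mem hwW)) _
  · -- the dimension count
    have hinf : W ⊓ Vt = Vt := inf_eq_right.mpr hVtW
    rw [hinf]
    have h1 : finrank (ZMod r) ↥Vt ≤ finrank (ZMod r) ↥(W.map N) + 1 := by
      refine (Submodule.finrank_add_le_finrank_add_finrank _ _).trans ?_
      have h0 : finrank (ZMod r) ↥(Submodule.span (ZMod r) ({v₀} : Set (TorsR J r))) ≤ 1 := by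
        have := finrank_span_finset_le_card (R := ZMod r) ({v₀} : Finset (TorsR J r))
        rw [Finset.card_singleton, Finset.coe_singleton] at this
        exact this
      omega
    have h2 : finrank (ZMod r) ↥Vt ≤ finrank (ZMod r) ↥(W ⊓ LinearMap.ker N) :=
      Submodule.finrank_mono (le_inf hVtW hVtker)
    have h3 := finrank_eq_map_add_inf_ker W N
    omega

end NumP

end Fermat.Agent.S15.Desc
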