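import Fermat.Agent.S15.Desc.H97_GlobTame
import Fermat.Agent.S15.Desc.H69_NumP

/-!
# S15 / DESC: tame inertia acts through a cyclic group on torsion (helper69)

* `tame_cyclic_inertia` : helper97's `tame_cyclic` with the exponent hypothesis on the image of
  the inertia group only.
* `cyc_of_unip` : the hypothesis `hcyc` of `exists_vt` (NUM-p): if the inertia group `I` at `p`
  acts unipotently (of level two) on the finite group `J[r^m]`, `r ≠ p`, and the action of `G_ℚ`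
  on `J[r^m]` is open, then `I` acts on `J[r^m]` through a cyclic group.
-/

set_option autoImplicit false

namespace Fermat.Agent.S15.Desc

local notation "Qbar" => AlgebraicClosure ℚ
local notation "GQ" => (AlgebraicClosure ℚ ≃ₐ[ℚ] AlgebraicClosure ℚ)

attribute [local instance] H97.qbar_isAlgebraic H97.qbar_isAlgClosure H97.qbar_isGalois

open H97 in
/-- **Tame inertia is cyclic** (exponent hypothesis on the inertia group only). -/
theorem tame_cyclic_inertia (p : ℕ) (hp : p.Prime) (A : ValuationSubring Qbar)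
    (hA : A.LiesOverPrime p) {T : Type*} [Group T] (Ψ : GQ →* T)
    (hopen : ∃ S : Finset Qbar, ∀ σ : GQ, (∀ x ∈ S, σ x = x) → Ψ σ = 1)
    (n : ℕ) (hn : n.Coprime p) (hT : ∀ σ ∈ A.inertiaSubgroupIn ℚ, Ψ σ ^ n = 1) :
    ∃ σ₀ ∈ A.inertiaSubgroupIn ℚ, ∀ σ ∈ A.inertiaSubgroupIn ℚ, ∃ k : ℕ, Ψ σ = Ψ σ₀ ^ k := by
  classical
  obtain ⟨S, hS⟩ := hopen
  let F : IntermediateField ℚ Qbar := IntermediateField.adjoin ℚ (S : Set Qbar)
  have hFD : FiniteDimensional ℚ F :=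
    IntermediateField.finiteDimensional_adjoin (fun x _ => Algebra.IsIntegral.isIntegral x)
  let L : IntermediateField ℚ Qbar := IntermediateField.normalClosure ℚ F Qbar
  have hLn : Normal ℚ L := normalClosure.normal ℚ F Qbar
  have hLfd : FiniteDimensional ℚ L := normalClosure.is_finiteDimensional ℚ F Qbar
  have hFL : F ≤ L := IntermediateField.le_normalClosure F
  have hker : ∀ σ : GQ, AlgEquiv.restrictNormalHom L σ = 1 → Ψ σ = 1 := by
    intro σ hσ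
    apply hS
    intro x hx
    have hxL : x ∈ L := hFL (IntermediateField.subset_adjoin ℚ _ hx)
    have h1 := AlgEquiv.restrictNormal_commutes σ L ⟨x, hxL⟩
    have h2 : AlgEquiv.restrictNormal σ L = 1 := hσ
    rw [h2] at h1
    exact h1.symm
  obtain ⟨τ₀, hτ₀, hgen⟩ := tame_cyclic_finite L p hp A hA
  obtain ⟨σ₀, hσ₀, hres₀⟩ := lift_inertia L p hp A hA τ₀ hτ₀
  refine ⟨σ₀, hσ₀, fun σ hσ => ?_⟩
  obtain ⟨k, a, hka⟩ := hgen _ (res_mem_inertia L A σ hσ)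
  refine ⟨k, ?_⟩
  set u : GQ := (σ₀ ^ k)⁻¹ * σ with hu
  have huI : u ∈ A.inertiaSubgroupIn ℚ :=
    Subgroup.mul_mem _ (Subgroup.inv_mem _ (Subgroup.pow_mem _ hσ₀ k)) hσ
  have hresu : AlgEquiv.restrictNormalHom L (u ^ (p ^ a)) = 1 := by
    rw [map_pow, hu, map_mul, map_inv, map_pow, hres₀]
    exact hka
  have h1 : Ψ u ^ (p ^ a) = 1 := by
    rw [← map_pow]
    exact hker _ hresu
  have h2 : Ψ u ^ n = 1 := hT u huI
  have h3 : orderOf (Ψ u) ∣ Nat.gcd (p ^ a) n :=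
    Nat.dvd_gcd (orderOf_dvd_of_pow_eq_one h1) (orderOf_dvd_of_pow_eq_one h2)
  have h4 : Nat.gcd (p ^ a) n = 1 := Nat.Coprime.pow_left a (Nat.Coprime.symm hn)
  rw [h4, Nat.dvd_one, orderOf_eq_one_iff] at h3
  have h5 : Ψ σ = Ψ (σ₀ ^ k) * Ψ u := by
    rw [← map_mul, hu, mul_inv_cancel_left]
  rw [h5, h3, mul_one, map_pow]

section Cyc

variable {J : Type*} [AddCommGroup J] [DistribMulAction GQ J]

/-- **(CYC)** from (UNIP), (FIN) and (GAL). -/
theorem cyc_of_unip (p r : ℕ) (hp : p.Prime) (hr : r.Prime) (hpr : p ≠ r)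
    (A : ValuationSubring Qbar) (hA : A.LiesOverPrime p)
    (hfin : ∀ m : ℕ, Finite (TorsR J (r ^ m)))
    (hgal : ∀ y : J, ∃ S : Finset Qbar, ∀ σ : GQ, (∀ x ∈ S, σ x = x) → σ • y = y)
    (htu : ∀ σ ∈ A.inertiaSubgroupIn ℚ, ∀ τ ∈ A.inertiaSubgroupIn ℚ,
      ∀ x : J, (∃ n : ℕ, r ^ n • x = 0) → σ • τ • x - σ • x - τ • x + x = 0) :
    ∀ m : ℕ, ∃ σ₀ ∈ A.inertiaSubgroupIn ℚ, ∀ σ ∈ A.inertiaSubgroupIn ℚ,
      ∃ k : ℕ, ∀ u : J, r ^ m • u = 0 → σ • u = σ₀ ^ k • u := by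
  classical
  intro m
  haveI := hfin m
  -- the action on `J[r^m]`
  let Ψ : GQ →* Equiv.Perm (TorsR J (r ^ m)) := MulAction.toPermHom GQ (TorsR J (r ^ m))
  have hΨ : ∀ (σ : GQ) (v : TorsR J (r ^ m)), Ψ σ v = σ • v := fun σ v => rfl
  -- openness
  have hopen : ∃ S : Finset Qbar, ∀ σ : GQ, (∀ x ∈ S, σ x = x) → Ψ σ = 1 := by
    choose S hS using hgal
    haveI : Fintype (TorsR J (r ^ m)) := Fintype.ofFinite _
    refine ⟨Finset.univ.biUnion fun v : TorsR J (r ^ m) => S (v : J), fun σ hσ => ?_⟩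
    ext v
    rw [hΨ, Equiv.Perm.coe_one, id_eq]
    exact hS (v : J) σ fun x hx =>
      hσ x (Finset.mem_biUnion.mpr ⟨v, Finset.mem_univ v, hx⟩)
  -- the exponent on inertia
  have hT : ∀ σ ∈ A.inertiaSubgroupIn ℚ, Ψ σ ^ (r ^ m) = 1 := by
    intro σ hσ
    ext v
    rw [← map_pow, hΨ, Equiv.Perm.coe_one, id_eq]
    have h1 := pow_smul_sub_of_unip σ (v : J) (htu σ hσ σ hσ (v : J) ⟨m, mem_torsR.mp v.2⟩) (r ^ m)
    have h2 : r ^ m • (σ • (v : J) - (v : J)) = 0 := by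
      rw [smul_sub, ← smul_comm, mem_torsR.mp v.2, smul_zero, sub_self]
    rw [h2] at h1
    rw [coe_gal_smul]
    exact sub_eq_zero.mp h1
  have hcop : (r ^ m).Coprime p :=
    Nat.Coprime.pow_left m ((Nat.coprime_primes hr hp).mpr (Ne.symm hpr))
  obtain ⟨σ₀, hσ₀, hgen⟩ := tame_cyclic_inertia p hp A hA Ψ hopen (r ^ m) hcop hT
  refine ⟨σ₀, hσ₀, fun σ hσ => ?_⟩
  obtain ⟨k, hk⟩ := hgen σ hσ
  refine ⟨k, fun u hu => ?_⟩
  have h1 := congrArg (fun f : Equiv.Perm (TorsR J (r ^ m)) => ((f ⟨u, hu⟩ : TorsR J (r ^ m)) : J)) hk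
  simp only [← map_pow] at h1
  exact h1

end Cyc

end Fermat.Agent.S15.Desc
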