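import Fermat.Agent.BAD.Defs
import Fermat.Agent.BAD.H28_NodeRad2

/-!
# S15 DESC, route 2, leaf COORD: the modular interface `Stmt_CoordMod p`  (helper67)

`Stmt_CoordMod p` is the statement consumed by helper63's `Stmt_FIX p r`:

* the seven clauses of `BAD.Stmt_ModSSD p p` (a semistable Deuring datum `S` for `F_p · ℚ̄` whose
  first component is the Gauss valuation, with Riemann's theorem for the three function fields,
  enough nodes, and on which the inertia group of `A` acts inertially);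
* `g₁ = 0` (the component of `∞` is rational);
* for every node `s` an annulus coordinate `t` (helper28's `SSD.IsAnnCoord`) with uniformiser
  `p ^ e s`, `0 < e s`, which is FIXED by the inertia group of `A`;
* for every prime `r` there is at most one node with `r ∣ e s`.

This file contains the definition only.  The abstract construction of the coordinates is
`Fermat.Agent.S15.Desc.H67.exists_isAnnCoord` (`S15/Desc/H67_Coord.lean`).
-/

set_option autoImplicit false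

noncomputable section

open AlgebraicCurve ModularCurve

namespace Fermat.Agent.S15.Desc.H67

open Fermat.Agent.BAD Fermat.Agent.S28.H73 Fermat.Agent.RED.H73

/-- **COORD, modular form**, at the prime level `p`: the semistable Deuring datum of `X₀(p)` at
`p` together with inertia-fixed annulus coordinates of thickness `p ^ e s` at all nodes. -/
def Stmt_CoordMod (p : ℕ) : Prop :=
  ∀ A : ValuationSubring (AlgebraicClosure ℚ), A.LiesOverPrime p →
    ∃ (F₁ F₂ : Type) (_ : Field F₁) (_ : Algebra (kV A) F₁) (_ : Field F₂)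
      (_ : Algebra (kV A) F₂)
      (S : SSD (AlgebraicClosure ℚ) ↥(FNbar p) (kV A) F₁ F₂)
      (_ : RED.H17.FFHyp (AlgebraicClosure ℚ) ↥(FNbar p)) (_ : RED.H17.FFHyp (kV A) F₁)
      (_ : RED.H17.FFHyp (kV A) F₂) (g g₁ g₂ : ℕ) (c c₁ c₂ : ℤ),
      RED.H17.IsGenus (AlgebraicClosure ℚ) ↥(FNbar p) g c ∧
      RED.H17.IsGenus (kV A) F₁ g₁ c₁ ∧ RED.H17.IsGenus (kV A) F₂ g₂ c₂ ∧
      g + 1 ≤ g₁ + g₂ + S.nodes.card ∧
      (∀ f : ↥(FNbar p), f ∈ gaussV A p → f ∈ S.c₁.V) ∧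
      (∀ (f : ↥(gaussV A p)) (hf : (f : ↥(FNbar p)) ∈ S.c₁.V), gaussRes A p f = 1 →
        S.c₁.red ⟨(f : ↥(FNbar p)), hf⟩ = 1) ∧
      (∀ σ ∈ A.inertiaSubgroupIn ℚ, S.IsInertial (galF p σ)) ∧
      g₁ = 0 ∧
      ∃ e : Place (kV A) F₁ × Place (kV A) F₂ → ℕ,
        (∀ s ∈ S.nodes, 0 < e s ∧
          ∃ t : ↥(FNbar p), S.IsAnnCoord s t ((p : AlgebraicClosure ℚ) ^ e s) ∧
            ∀ σ ∈ A.inertiaSubgroupIn ℚ, galF p σ • t = t) ∧
        (∀ r : ℕ, r.Prime → ∀ s ∈ S.nodes, ∀ s' ∈ S.nodes, r ∣ e s → r ∣ e s' → s = s')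

/-- `Stmt_CoordMod p` contains `BAD.Stmt_ModSSD p p`. -/
theorem stmt_ModSSD_of_coordMod {p : ℕ} (h : Stmt_CoordMod p) : Stmt_ModSSD p p := by
  intro A hA
  obtain ⟨F₁, F₂, i₁, i₂, i₃, i₄, S, h₁, h₂, h₃, g, g₁, g₂, c, c₁, c₂, a₁, a₂, a₃, a₄, a₅, a₆,
    a₇, -⟩ := h A hA
  exact ⟨F₁, F₂, i₁, i₂, i₃, i₄, S, h₁, h₂, h₃, g, g₁, g₂, c, c₁, c₂, a₁, a₂, a₃, a₄, a₅, a₆, a₇⟩

end Fermat.Agent.S15.Desc.H67
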