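import Fermat.Agent.S15.Desc.H63_FixAbs
import Fermat.Agent.S15.Desc.H63_VtWire
import Fermat.Agent.R.H6_UnrFix
import Fermat.Agent.S15.Desc.H67_CoordModDefs

/-!
# S15 / DESC: (FIX) for `J₀(p)` from a modular semistable datum with coordinates (helper63)

`fix_of_data` : for `A` over `p` and a semistable Deuring datum `S` for `F_p · ℚ̄` whose first
component is the Gauss valuation (the clauses of `BAD.Stmt_ModSSD`), with first component of
genus `0`, inertial inertia, and an `I_A`-fixed annulus coordinate of thickness `p ^ e s` at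
every node, such that at most one node has `r ∣ e s`:
`dim J₀(p)[r]^{I_A} ≤ dim T + 1`, `T = toricSub A p r`.

Inputs: `H63.fix_abs` (abstract), `S36.H61.stmt_NUB0` (Hilbert 90), `R.H6.stmt_UnrFix`.
-/

set_option autoImplicit false
set_option linter.style.haveILetI false

noncomputable section

open AlgebraicCurve ModularCurve Module Fermat.Agent.S28.H73 Fermat.Agent.RED.H73

attribute [local instance] Classical.propDecidable

namespace Fermat.Agent.S15.Desc.H63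

open Fermat.Agent.BAD Fermat.Agent.RED.H17 Fermat.Agent.RED Fermat.Agent.S15.Desc

local notation "Qbar" => AlgebraicClosure ℚ

section Compat

variable {K F k F' R : Type*} [Field K] [Field F] [Algebra K F] [Field k] [Field F']
  [Algebra k F'] [Field R] (c : PRed K F k F') (V₀ : ValuationSubring F) (ρ : ↥V₀ →+* R)
  (hρ : ∀ x : ↥V₀, ρ x ≠ 0 → IsUnit x)
  (hV : ∀ f : F, f ∈ V₀ → f ∈ c.V)
  (hred : ∀ (f : ↥V₀) (hf : (f : F) ∈ c.V), ρ f = 1 → c.red ⟨(f : F), hf⟩ = 1)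

include hV hred

/-- The kernel of `ρ` reduces to `0`. -/
theorem rd_eq_zero_of_res (x : ↥V₀) (hx : ρ x = 0) : c.rd (x : F) = 0 := by
  have h1 : ρ (1 + x) = 1 := by rw [map_add, map_one, hx, add_zero]
  have hmem : ((1 + x : ↥V₀) : F) ∈ c.V := hV _ (1 + x).2
  have h2 := hred (1 + x) hmem h1
  have h3 : c.rd ((1 : F) + (x : F)) = 1 := by
    rw [c.rd_of_mem (by exact hmem)]
    exact h2
  rw [c.rd_add c.V.one_mem (hV _ x.2), c.rd_one] at h3
  exact left_eq_add.mp h3.symm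

include hρ

/-- A function with reduction `1` for `c` lies in `V₀`, with residue `1`. -/
theorem mem_of_rd_eq_one {u : F} (hu : u ∈ c.V) (hu1 : c.rd u = 1) :
    ∃ hm : u ∈ V₀, ρ ⟨u, hm⟩ = 1 := by
  have hGU : c.IsGU u := ⟨hu, by rw [hu1]; exact one_ne_zero⟩
  have hu0 : u ≠ 0 := hGU.ne_zero
  have hm : u ∈ V₀ := by
    by_contra hnot
    have hinv : u⁻¹ ∈ V₀ := (V₀.mem_or_inv_mem u).resolve_left hnot
    have hnu : ρ ⟨u⁻¹, hinv⟩ = 0 := by
      by_contra hne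
      obtain ⟨v, hv⟩ := hρ _ hne
      have h1 : ((v⁻¹ : (↥V₀)ˣ) : ↥V₀) * ⟨u⁻¹, hinv⟩ = 1 := by
        rw [← hv]; exact v.inv_mul
      have h2 : (((v⁻¹ : (↥V₀)ˣ) : ↥V₀) : F) * u⁻¹ = 1 := congrArg Subtype.val h1
      have h3 : (((v⁻¹ : (↥V₀)ˣ) : ↥V₀) : F) = u := by
        have h4 := (mul_inv_eq_one₀ hu0).mp h2
        exact h4
      apply hnot
      rw [← h3]
      exact ((v⁻¹ : (↥V₀)ˣ) : ↥V₀).2
    have h4 := rd_eq_zero_of_res c V₀ ρ hV hred ⟨u⁻¹, hinv⟩ hnu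
    have h5 : c.rd u⁻¹ = (c.rd u)⁻¹ := hGU.rd_inv
    rw [hu1, inv_one] at h5
    have h6 : c.rd u⁻¹ = 0 := h4
    rw [h5] at h6
    exact one_ne_zero h6
  refine ⟨hm, ?_⟩
  by_contra hne
  have hx : ρ (⟨u, hm⟩ - 1) ≠ 0 := by
    rw [map_sub, map_one]
    exact sub_ne_zero.mpr hne
  obtain ⟨v, hv⟩ := hρ _ hx
  have h1 : ((v⁻¹ : (↥V₀)ˣ) : ↥V₀) * (⟨u, hm⟩ - 1) = 1 := by
    rw [← hv]; exact v.inv_mul
  have h2 : (((v⁻¹ : (↥V₀)ˣ) : ↥V₀) : F) * (u - 1) = 1 := congrArg Subtype.val h1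
  have h3 := congrArg c.rd h2
  rw [c.rd_mul (hV _ ((v⁻¹ : (↥V₀)ˣ) : ↥V₀).2) (c.V.sub_mem hu c.V.one_mem),
    c.rd_sub hu c.V.one_mem, hu1, c.rd_one, sub_self, mul_zero] at h3
  exact zero_ne_one h3

end Compat

section LinAlg

variable {K E : Type*} [Field K] [AddCommGroup E] [Module K E]

/-- If any two elements of `U` are linearly dependent modulo `T`, then `dim U ≤ dim T + 1`. -/
theorem finrank_le_add_one_of_pairwise [Module.Finite K E] (U T : Submodule K E)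
    (h : ∀ u₁ ∈ U, ∀ u₂ ∈ U, ∃ a b : K, (a ≠ 0 ∨ b ≠ 0) ∧ a • u₁ + b • u₂ ∈ T) :
    finrank K ↥U ≤ finrank K ↥T + 1 := by
  have h3 := finrank_eq_map_add_inf_ker U T.mkQ
  rw [Submodule.ker_mkQ] at h3
  have h4 : finrank K ↥(U ⊓ T) ≤ finrank K ↥T := Submodule.finrank_mono inf_le_right
  have h5 : finrank K ↥(U.map T.mkQ) ≤ 1 := by
    refine finrank_le_one_of_pairwise_dep _ ?_
    rintro _ ⟨u₁, hu₁, rfl⟩ _ ⟨u₂, hu₂, rfl⟩
    obtain ⟨a, b, hab, hmem⟩ := h u₁ hu₁ u₂ hu₂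
    refine ⟨a, b, hab, ?_⟩
    rw [← map_smul, ← map_smul, ← map_add]
    exact (Submodule.Quotient.mk_eq_zero T).mpr hmem
  omega

end LinAlg

section Const

variable {A : ValuationSubring Qbar} {N : ℕ} {F₁ F₂ : Type} [Field F₁] [Algebra (kV A) F₁]
  [Field F₂] [Algebra (kV A) F₂] (S : SSD Qbar ↥(FNbar N) (kV A) F₁ F₂)
  (hV : ∀ f : ↥(FNbar N), f ∈ gaussV A N → f ∈ S.c₁.V)
  (hred : ∀ (f : ↥(gaussV A N)) (hf : (f : ↥(FNbar N)) ∈ S.c₁.V), gaussRes A N f = 1 →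
    S.c₁.red ⟨(f : ↥(FNbar N)), hf⟩ = 1)

/-- Non-zero residue means unit, for the Gauss valuation ring. -/
theorem isUnit_of_gaussRes_ne_zero (x : ↥(gaussV A N)) (hx : gaussRes A N x ≠ 0) : IsUnit x :=
  (isUnit_iff_gaussResF_ne_zero A (hasScale_laurentBaseChange A N) x).2
    (fun h0 => hx (Subtype.ext h0))

include hV in
/-- A unit of `A` is a unit constant. -/
theorem isCU_of_unit {a : Qbar} (ha : a ∈ A) (ha' : a⁻¹ ∈ A) (ha0 : a ≠ 0) : S.IsCU a := by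
  have h1 : algebraMap Qbar ↥(FNbar N) a ∈ S.c₁.V :=
    hV _ ((algebraMap_mem_gaussValSub_iff A (hasScale_laurentBaseChange A N) a).2 ha)
  have h2 : algebraMap Qbar ↥(FNbar N) a⁻¹ ∈ S.c₁.V :=
    hV _ ((algebraMap_mem_gaussValSub_iff A (hasScale_laurentBaseChange A N) a⁻¹).2 ha')
  refine ⟨h1, fun h0 => ?_⟩
  have h3 := S.c₁.rd_mul h1 h2
  rw [← map_mul, mul_inv_cancel₀ ha0, map_one, S.c₁.rd_one, h0, zero_mul] at h3
  exact one_ne_zero h3

include hV hred in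
/-- A non-unit of `A` reduces to `0`. -/
theorem rd_const_eq_zero {a : Qbar} (ha : a ∈ A) (ha' : a⁻¹ ∉ A) :
    S.c₁.rd (algebraMap Qbar ↥(FNbar N) a) = 0 := by
  have hm : algebraMap Qbar ↥(FNbar N) a ∈ gaussV A N :=
    (algebraMap_mem_gaussValSub_iff A (hasScale_laurentBaseChange A N) a).2 ha
  have h0 : gaussRes A N ⟨algebraMap Qbar ↥(FNbar N) a, hm⟩ = 0 := by
    by_contra hne
    obtain ⟨v, hv⟩ := isUnit_of_gaussRes_ne_zero _ hne
    have h1 : ((v⁻¹ : (↥(gaussV A N))ˣ) : ↥(gaussV A N)) *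
        ⟨algebraMap Qbar ↥(FNbar N) a, hm⟩ = 1 := by
      rw [← hv]; exact v.inv_mul
    have h2 : (((v⁻¹ : (↥(gaussV A N))ˣ) : ↥(gaussV A N)) : ↥(FNbar N)) *
        algebraMap Qbar ↥(FNbar N) a = 1 := congrArg Subtype.val h1
    have ha0 : a ≠ 0 := by
      rintro rfl
      rw [map_zero, mul_zero] at h2
      exact zero_ne_one h2
    have h3 : (((v⁻¹ : (↥(gaussV A N))ˣ) : ↥(gaussV A N)) : ↥(FNbar N))
        = algebraMap Qbar ↥(FNbar N) a⁻¹ := by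
      rw [map_inv₀]
      exact eq_inv_of_mul_eq_one_left h2
    apply ha'
    rw [← algebraMap_mem_gaussValSub_iff A (hasScale_laurentBaseChange A N) a⁻¹, ← h3]
    exact ((v⁻¹ : (↥(gaussV A N))ˣ) : ↥(gaussV A N)).2
  exact rd_eq_zero_of_res S.c₁ (gaussV A N) (gaussRes A N) hV hred ⟨_, hm⟩ h0

include hV hred in
/-- The exponent of a non-unit is well defined. -/
theorem zpow_isCU_imp {a : Qbar} (ha : a ∈ A) (ha' : a⁻¹ ∉ A) (m : ℤ)
    (h : S.IsCU (a ^ m)) : m = 0 := by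
  have hrd := rd_const_eq_zero S hV hred ha ha'
  have hmem : algebraMap Qbar ↥(FNbar N) a ∈ S.c₁.V :=
    hV _ ((algebraMap_mem_gaussValSub_iff A (hasScale_laurentBaseChange A N) a).2 ha)
  have key : ∀ n : ℕ, 0 < n → ¬ S.IsCU (a ^ n) := by
    intro n hn hcu
    have h1 : S.c₁.rd (algebraMap Qbar ↥(FNbar N) (a ^ n)) = 0 := by
      rw [map_pow, S.c₁.rd_pow hmem, hrd, zero_pow (by omega)]
    exact hcu.2 h1
  by_contra hm
  rcases lt_or_gt_of_ne hm with hlt | hgt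
  · have h2 := h.inv
    rw [← zpow_neg] at h2
    have h3 : (-m) = ((-m).toNat : ℤ) := (Int.toNat_of_nonneg (by omega)).symm
    rw [h3, zpow_natCast] at h2
    exact key _ (by omega) h2
  · have h3 : m = (m.toNat : ℤ) := (Int.toNat_of_nonneg (by omega)).symm
    rw [h3, zpow_natCast] at h
    exact key _ (by omega) h

end Const

section Main

variable {p : ℕ} [NeZero p]

omit [NeZero p] in
/-- The class of a function with reduction `1` is toric: the combination step. -/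
theorem inK1_comb (A : ValuationSubring Qbar) {r : ℕ}
    (H : FFHyp Qbar ↥(FNbar p))
    (D D' : Divisor.degZero (K := Qbar) (F := ↥(FNbar p))) (h h' : ↥(FNbar p))
    (hh0 : h ≠ 0) (hh0' : h' ≠ 0)
    (hord : ∀ P : Place Qbar ↥(FNbar p),
      (r : ℤ) * (D : Divisor Qbar ↥(FNbar p)) P = P.ord h)
    (hord' : ∀ P : Place Qbar ↥(FNbar p),
      (r : ℤ) * (D' : Divisor Qbar ↥(FNbar p)) P = P.ord h')
    (α β : ℕ) (w : ↥(FNbar p)) (c : Qbar) (hw : w ≠ 0) (hc : c ≠ 0)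
    (hm : algebraMap Qbar ↥(FNbar p) c * (h ^ α * h' ^ β) * w ^ r ∈ gaussV A p)
    (hres : gaussRes A p ⟨algebraMap Qbar ↥(FNbar p) c * (h ^ α * h' ^ β) * w ^ r, hm⟩ = 1) :
    InK1 A p r (α • (Pic0.mk D : JZero p) + β • (Pic0.mk D' : JZero p)) := by
  have hdeg : dv H.principal w ∈ Divisor.degZero (K := Qbar) (F := ↥(FNbar p)) := by
    rw [Divisor.mem_degZero]
    exact degree_dv H.principal w
  refine ⟨α • D + β • D' + ⟨dv H.principal w, hdeg⟩,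
    ⟨algebraMap Qbar ↥(FNbar p) c * (h ^ α * h' ^ β) * w ^ r, hm⟩, ?_, hres, fun P => ?_⟩
  · have hz : (Pic0.mk (⟨dv H.principal w, hdeg⟩ :
        Divisor.degZero (K := Qbar) (F := ↥(FNbar p))) : JZero p) = 0 :=
      (QuotientAddGroup.eq_zero_iff _).2
        (AddSubgroup.mem_addSubgroupOf.2 (dv_mem_principal H.principal hw))
    rw [Pic0.mk_add, Pic0.mk_add, hz, add_zero]
    rfl
  · show (r : ℤ) * ((α • (D : Divisor Qbar ↥(FNbar p)) + β • (D' : Divisor Qbar ↥(FNbar p))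
      + dv H.principal w) P) = P.ord (algebraMap Qbar ↥(FNbar p) c * (h ^ α * h' ^ β) * w ^ r)
    have h1 : h ^ α * h' ^ β ≠ 0 := mul_ne_zero (pow_ne_zero α hh0) (pow_ne_zero β hh0')
    have h2 : algebraMap Qbar ↥(FNbar p) c ≠ 0 := (map_ne_zero _).2 hc
    rw [Place.ord_mul _ (mul_ne_zero h2 h1) (pow_ne_zero r hw), Place.ord_mul _ h2 h1,
      ord_algebraMap, zero_add, Place.ord_mul _ (pow_ne_zero α hh0) (pow_ne_zero β hh0'),
      ord_pow, ord_pow, ord_pow, ← hord P, ← hord' P, Finsupp.add_apply, Finsupp.add_apply,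
      Finsupp.smul_apply, Finsupp.smul_apply, dv_apply, nsmul_eq_mul, nsmul_eq_mul]
    ring

/-- **(FIX) from the modular datum** (an SSD for `F_p · ℚ̄` over `A`, first component the Gauss
valuation of genus `0`, inertia-fixed coordinates of thickness `p ^ e s`, at most one node with
`r ∣ e s`). -/
theorem fix_of_data {r : ℕ} (hp : p.Prime) (hr : r.Prime)
    (A : ValuationSubring Qbar) (hA : A.LiesOverPrime p)
    {F₁ F₂ : Type} [Field F₁] [Algebra (kV A) F₁] [Field F₂] [Algebra (kV A) F₂]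
    (S : SSD Qbar ↥(FNbar p) (kV A) F₁ F₂)
    (H : FFHyp Qbar ↥(FNbar p)) (H₁ : FFHyp (kV A) F₁) {c₁ : ℤ}
    (hg₁ : IsGenus (kV A) F₁ 0 c₁)
    (hV : ∀ f : ↥(FNbar p), f ∈ gaussV A p → f ∈ S.c₁.V)
    (hred : ∀ (f : ↥(gaussV A p)) (hf : (f : ↥(FNbar p)) ∈ S.c₁.V), gaussRes A p f = 1 →
      S.c₁.red ⟨(f : ↥(FNbar p)), hf⟩ = 1)
    (hin : ∀ σ ∈ A.inertiaSubgroupIn ℚ, S.IsInertial (galF p σ))
    (e : Place (kV A) F₁ × Place (kV A) F₂ → ℕ)
    (hcoord : ∀ s ∈ S.nodes, 0 < e s ∧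
      ∃ t : ↥(FNbar p), S.IsAnnCoord s t ((p : Qbar) ^ e s) ∧
        ∀ σ ∈ A.inertiaSubgroupIn ℚ, galF p σ • t = t)
    (huniq : ∀ s ∈ S.nodes, ∀ s' ∈ S.nodes, r ∣ e s → r ∣ e s' → s = s')
    (hfin : Finite (TorsR (JZero p) r)) :
    finrank (ZMod r) ↥(fixI (J := JZero p) r (A.inertiaSubgroupIn ℚ)) ≤
      finrank (ZMod r) ↥(toricSub A p r) + 1 := by
  haveI hrF : Fact r.Prime := ⟨hr⟩
  haveI : NeZero r := ⟨hr.ne_zero⟩
  haveI : Module.Finite (ZMod r) (TorsR (JZero p) r) := Module.Finite.of_finite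
  -- constants
  have hpval : A.valuation (p : Qbar) < 1 := hA
  have hp0 : (p : Qbar) ≠ 0 := Nat.cast_ne_zero.mpr hp.ne_zero
  have hpA : (p : Qbar) ∈ A := (A.valuation_le_one_iff _).mp hpval.le
  have hpinv : (p : Qbar)⁻¹ ∉ A :=
    ((ValuationSubring.mem_nonunits_iff_or A).mp hA).resolve_left hp0
  -- the set of inertial automorphisms
  obtain ⟨I, hIdef⟩ : ∃ I : Set (SemilinearAut Qbar ↥(FNbar p)),
      I = {τ | ∃ σ ∈ A.inertiaSubgroupIn ℚ, τ = galF p σ} := ⟨_, rfl⟩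
  have hImem : ∀ σ ∈ A.inertiaSubgroupIn ℚ, galF p σ ∈ I := by
    intro σ hσ
    rw [hIdef]
    exact ⟨σ, hσ, rfl⟩
  have hI : ∀ τ ∈ I, S.IsInertial τ := by
    intro τ hτ
    rw [hIdef] at hτ
    obtain ⟨σ, hσ, rfl⟩ := hτ
    exact hin σ hσ
  have hbase : ∀ σ : GalQ, ∀ y : Qbar, SemilinearAut.baseAut (galF p σ) y = σ y := by
    intro σ y
    rw [baseAut_arithmeticGalois]
    rfl
  have hqI : ∀ τ ∈ I, SemilinearAut.baseAut τ (p : Qbar) = (p : Qbar) := by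
    intro τ hτ
    rw [hIdef] at hτ
    obtain ⟨σ, -, rfl⟩ := hτ
    rw [hbase]
    exact map_natCast σ p
  have hq : ∀ m : ℤ, S.IsCU ((p : Qbar) ^ m) → m = 0 :=
    fun m hm => zpow_isCU_imp S hV hred hpA hpinv m hm
  have hunr : ∀ Y : Qbar, Y ≠ 0 → (∀ τ ∈ I, SemilinearAut.baseAut τ Y = Y) →
      ∃ m : ℤ, S.IsCU (Y / (p : Qbar) ^ m) := by
    intro Y hY0 hYI
    have hfix : ∀ σ ∈ A.inertiaSubgroupIn ℚ, σ Y = Y := by
      intro σ hσ
      have := hYI _ (hImem σ hσ)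
      rwa [hbase] at this
    obtain ⟨m, hm⟩ := Fermat.Agent.R.H6.stmt_UnrFix p hp A hA Y hY0 hfix
    refine ⟨m, ?_⟩
    have hpm0 : (p : Qbar) ^ m ≠ 0 := zpow_ne_zero _ hp0
    have hv1 : A.valuation (Y / (p : Qbar) ^ m) = 1 := by
      rw [map_div₀, map_zpow₀, hm]
      exact div_self (zpow_ne_zero _ ((map_ne_zero _).mpr hp0))
    have hv2 : A.valuation (Y / (p : Qbar) ^ m)⁻¹ = 1 := by
      rw [map_inv₀, hv1, inv_one]
    exact isCU_of_unit S hV ((A.valuation_le_one_iff _).mp hv1.le)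
      ((A.valuation_le_one_iff _).mp hv2.le) (div_ne_zero hY0 hpm0)
  -- the exceptional node
  obtain ⟨s₀, hs₀⟩ : ∃ s₀ : Place (kV A) F₁ × Place (kV A) F₂,
      ∀ s ∈ S.nodes, s ≠ s₀ → ¬ r ∣ e s := by
    by_cases hex : ∃ s ∈ S.nodes, r ∣ e s
    · obtain ⟨s₀, hs₀, hre⟩ := hex
      exact ⟨s₀, fun s hs hne hrs => hne (huniq s hs s₀ hs₀ hrs hre)⟩
    · obtain ⟨s₀, -⟩ := S.nodes_nonempty
      exact ⟨s₀, fun s hs _ hrs => hex ⟨s, hs, hrs⟩⟩
  have hcoord' : ∀ s ∈ S.nodes, s ≠ s₀ → ∃ (t : ↥(FNbar p)) (e' : ℕ),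
      S.IsAnnCoord s t ((p : Qbar) ^ e') ∧ (∀ τ ∈ I, τ • t = t) ∧ ¬ r ∣ e' := by
    intro s hs hne
    obtain ⟨-, t, ht, htI⟩ := hcoord s hs
    refine ⟨t, e s, ht, fun τ hτ => ?_, hs₀ s hs hne⟩
    rw [hIdef] at hτ
    obtain ⟨σ, hσ, rfl⟩ := hτ
    exact htI σ hσ
  -- pairwise dependence modulo the toric part
  refine finrank_le_add_one_of_pairwise _ _ ?_
  intro v hv v' hv'
  obtain ⟨D, h, hh0, hvD, hord, -, hhfix, -, -⟩ :=
    Fermat.Agent.S36.H61.stmt_NUB0 p (A.inertiaSubgroupIn ℚ) r (v : JZero p)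
      (mem_torsR.mp v.2) (fun σ hσ => congrArg Subtype.val (hv σ hσ))
  obtain ⟨D', h', hh0', hvD', hord', -, hhfix', -, -⟩ :=
    Fermat.Agent.S36.H61.stmt_NUB0 p (A.inertiaSubgroupIn ℚ) r (v' : JZero p)
      (mem_torsR.mp v'.2) (fun σ hσ => congrArg Subtype.val (hv' σ hσ))
  have hfI : ∀ τ ∈ I, τ • h = h := by
    intro τ hτ
    rw [hIdef] at hτ
    obtain ⟨σ, hσ, rfl⟩ := hτ
    exact hhfix σ hσ
  have hf'I : ∀ τ ∈ I, τ • h' = h' := by
    intro τ hτ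
    rw [hIdef] at hτ
    obtain ⟨σ, hσ, rfl⟩ := hτ
    exact hhfix' σ hσ
  obtain ⟨α, β, hαβ, w, c, hw, hc, hmem, hrd⟩ := fix_abs S H.principal H.deg_one H₁ hg₁ I hI
    (p : Qbar) hp0 hqI hq hunr r hr s₀ hcoord' hh0 hh0' hfI hf'I
    (fun P => ⟨_, (hord P).symm⟩) (fun P => ⟨_, (hord' P).symm⟩)
  obtain ⟨hm, hres⟩ := mem_of_rd_eq_one S.c₁ (gaussV A p) (gaussRes A p)
    (fun x hx => isUnit_of_gaussRes_ne_zero x hx) hV hred hmem hrd
  have hK := inK1_comb A H D D' h h' hh0 hh0' hord hord' α β w c hw hc hm hres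
  refine ⟨(α : ZMod r), (β : ZMod r), ?_, ?_⟩
  · rcases hαβ with h1 | h1
    · exact Or.inl (fun h0 => h1 ((ZMod.natCast_eq_zero_iff α r).mp h0))
    · exact Or.inr (fun h0 => h1 ((ZMod.natCast_eq_zero_iff β r).mp h0))
  · refine Submodule.subset_span ?_
    show InK1 A p r (((α : ZMod r) • v + (β : ZMod r) • v' : TorsR (JZero p) r) : JZero p)
    have e1 : (((α : ZMod r) • v + (β : ZMod r) • v' : TorsR (JZero p) r) : JZero p)
        = α • (Pic0.mk D : JZero p) + β • (Pic0.mk D' : JZero p) := by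
      rw [Nat.cast_smul_eq_nsmul, Nat.cast_smul_eq_nsmul, AddSubgroup.coe_add,
        AddSubgroup.coe_nsmul, AddSubgroup.coe_nsmul, hvD, hvD']
    rw [e1]
    exact hK

/-- **(FIX) from the modular coordinates** (helper67's `Stmt_CoordMod p`). -/
theorem stmt_FIX_of_coordMod {r : ℕ} (hp : p.Prime) (hr : r.Prime)
    (hFIN : Stmt_FIN p) (hC : H67.Stmt_CoordMod p) : Stmt_FIX p r := by
  intro A hA
  obtain ⟨F₁, F₂, i₁, i₂, i₃, i₄, S, H, H₁, -, g, g₁, g₂, c, c₁, c₂, -, hg₁, -, -, hV, hred,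
    hin, hg0, e, hcoord, huniq⟩ := hC A hA
  subst hg0
  exact fix_of_data hp hr A hA S H H₁ hg₁ hV hred hin e hcoord (huniq r hr) (hFIN r hr.pos)

end Main

end Fermat.Agent.S15.Desc.H63
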