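import Fermat.Agent.BAD.H28_NodeRad3
import Fermat.Agent.BAD.H28_SlopeK1

/-!
# S15 / DESC: (FIX), abstract part over a semistable Deuring datum (helper63)

`S : SSD K F k F₁ F₂`, the first component `F₁` of genus `0`, `I` a set of inertial automorphisms,
`q ∈ K` a uniformiser of the fixed field of `I`, `r` a prime; at every node `s ≠ s₀` an `I`-fixed
annulus coordinate of thickness `q ^ e`, `r ∤ e`.

* `slope_congr` : for an `I`-fixed function `f` with `n ∣ div f`, the slopes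
  `m_s = ord_{s.1} (rd₁ (c₁ f))` at two nodes with coordinates satisfy `e m_s ≡ e' m_{s'} mod n`
  (helper28's `nodeRad_isInertial`).
* `dvd_slope_of_others` (sum-zero): if `n ∣ div u` and `n` divides the slopes of `u` at all nodes
  but one, then `n` divides the slopes at all nodes.
* `fix_abs` : for two `I`-fixed functions `f`, `f'` with `r ∣ div f`, `r ∣ div f'` there are
  `α`, `β`, not both divisible by `r`, and `c`, `w` with `rd₁ (c f ^ α f' ^ β w ^ r) = 1`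
  (with helper28's `exists_rd₁_eq_one_of_slopes`).
-/

set_option autoImplicit false
set_option linter.style.haveILetI false

noncomputable section

open AlgebraicCurve

attribute [local instance] Classical.propDecidable

namespace Fermat.Agent.S15.Desc.H63

open Fermat.Agent.BAD Fermat.Agent.RED.H17 Fermat.Agent.RED

section Abs

variable {K F k F₁ F₂ : Type*} [Field K] [Field F] [Algebra K F] [Field k] [Field F₁]
  [Algebra k F₁] [Field F₂] [Algebra k F₂] (S : SSD K F k F₁ F₂)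

/-- **Sum-zero**: if `n ∣ div u` and `n` divides the slopes of `u` at all nodes `s ≠ s₀`, then `n`
divides the slopes at all nodes. -/
theorem dvd_slope_of_others (hP : HasPrincipalDivisors K F) (H₁ : FFHyp k F₁) {n : ℕ} {u : F}
    (hu : S.c₁.IsGU u) (hdiv : ∀ P : Place K F, (n : ℤ) ∣ P.ord u)
    (s₀ : Place k F₁ × Place k F₂)
    (hslope : ∀ s ∈ S.nodes, s ≠ s₀ → (n : ℤ) ∣ s.1.ord (S.c₁.rd u)) :
    ∀ s ∈ S.nodes, (n : ℤ) ∣ s.1.ord (S.c₁.rd u) := by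
  intro s hs
  by_cases hss : s = s₀
  swap
  · exact hslope s hs hss
  subst hss
  -- the orders at the other places
  have hother : ∀ Q : Place k F₁, Q ≠ s.1 → (n : ℤ) ∣ Q.ord (S.c₁.rd u) := by
    intro Q hQs
    by_cases hQ : Q ∈ S.c₁.good
    · rw [S.c₁.ord_rd_eq_sum hP hu Q hQ]
      refine Finset.dvd_sum fun P _ => ?_
      split_ifs
      · exact hdiv P
      · exact dvd_zero _
    · rw [S.good₁] at hQ
      push Not at hQ
      obtain ⟨s', hs', rfl⟩ := hQ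
      refine hslope s' hs' ?_
      rintro rfl
      exact hQs rfl
  -- the degree of `div (rd₁ u)` is `0`
  have hdeg0 := degree_dv H₁.principal (S.c₁.rd u)
  rw [degree_eq_sum H₁.deg_one, Finsupp.sum] at hdeg0
  by_cases hmem : s.1 ∈ (dv H₁.principal (S.c₁.rd u)).support
  · rw [← Finset.add_sum_erase _ _ hmem] at hdeg0
    have h1 : (n : ℤ) ∣ ∑ Q ∈ (dv H₁.principal (S.c₁.rd u)).support.erase s.1,
        (dv H₁.principal (S.c₁.rd u)) Q := by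
      refine Finset.dvd_sum fun Q hQ => ?_
      rw [dv_apply]
      exact hother Q (Finset.ne_of_mem_erase hQ)
    rw [dv_apply] at hdeg0
    have h2 : s.1.ord (S.c₁.rd u) =
        - ∑ Q ∈ (dv H₁.principal (S.c₁.rd u)).support.erase s.1,
          (dv H₁.principal (S.c₁.rd u)) Q := by
      linarith
    rw [h2]
    exact (dvd_neg).mpr h1
  · rw [Finsupp.notMem_support_iff, dv_apply] at hmem
    rw [hmem]
    exact dvd_zero _

/-- **Slope congruence** between two nodes with `I`-fixed coordinates of thickness `q ^ e`,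
`q ^ e'`. -/
theorem slope_congr (hP : HasPrincipalDivisors K F) (hdeg : ∀ v : Place K F, v.deg = 1)
    (I : Set (SemilinearAut K F)) (hI : ∀ σ ∈ I, S.IsInertial σ)
    (q : K) (hq0 : q ≠ 0) (hqI : ∀ σ ∈ I, SemilinearAut.baseAut σ q = q)
    (hq : ∀ m : ℤ, S.IsCU (q ^ m) → m = 0)
    (hunr : ∀ Y : K, Y ≠ 0 → (∀ σ ∈ I, SemilinearAut.baseAut σ Y = Y) →
      ∃ m : ℤ, S.IsCU (Y / q ^ m))
    (n : ℕ) {s s' : Place k F₁ × Place k F₂} (hs : s ∈ S.nodes) (hs' : s' ∈ S.nodes)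
    {t t' : F} {e e' : ℕ} (ht : S.IsAnnCoord s t (q ^ e)) (ht' : S.IsAnnCoord s' t' (q ^ e'))
    (htI : ∀ σ ∈ I, σ • t = t) (ht'I : ∀ σ ∈ I, σ • t' = t')
    {f : F} {c₁ c₂ : K} (h₁ : S.c₁.IsGU (algebraMap K F c₁ * f))
    (h₂ : S.c₂.IsGU (algebraMap K F c₂ * f)) (hfI : ∀ σ ∈ I, σ • f = f)
    (hdiv : ∀ P : Place K F, (n : ℤ) ∣ P.ord f) :
    (n : ℤ) ∣ (e : ℤ) * s.1.ord (S.c₁.rd (algebraMap K F c₁ * f))
      - (e' : ℤ) * s'.1.ord (S.c₁.rd (algebraMap K F c₁ * f)) := by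
  have hc₂ : c₂ ≠ 0 := by
    rintro rfl
    exact h₂.ne_zero (by rw [map_zero, zero_mul])
  have hD : ∀ (s₁ : Place k F₁ × Place k F₂) (P : Place K F), S.c₁.r P = some s₁.1 →
      P.ord f = n * (P.ord f / (n : ℤ)) := fun _ P _ => (Int.mul_ediv_cancel' (hdiv P)).symm
  -- one node
  have key : ∀ (s₁ : Place k F₁ × Place k F₂) (_ : s₁ ∈ S.nodes) (t₁ : F) (e₁ : ℕ)
      (_ : S.IsAnnCoord s₁ t₁ (q ^ e₁)) (_ : ∀ σ ∈ I, σ • t₁ = t₁),
      ∃ j : ℤ, S.IsCU (c₁ / (c₂ * q ^ ((e₁ : ℤ) *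
        s₁.1.ord (S.c₁.rd (algebraMap K F c₁ * f)) + n * j))) := by
    intro s₁ hs₁ t₁ e₁ ht₁ ht₁I
    obtain ⟨Y, hY0, hYI, hCU⟩ := S.nodeRad_isInertial hP hdeg hs₁ ht₁ h₁ h₂ n
      (fun P => P.ord f / (n : ℤ)) (hD s₁) I (fun σ hσ =>
        ⟨hI σ hσ, ht₁I σ hσ, by rw [map_pow, hqI σ hσ], hfI σ hσ⟩)
    obtain ⟨j, hj⟩ := hunr Y hY0 hYI
    refine ⟨j, ?_⟩
    have h3 := hCU.mul (hj.pow n)
    have hqj : q ^ j ≠ 0 := zpow_ne_zero _ hq0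
    have e3 : c₁ / (c₂ * (q ^ e₁) ^ s₁.1.ord (S.c₁.rd (algebraMap K F c₁ * f)) * Y ^ n)
        * (Y / q ^ j) ^ n
        = c₁ / (c₂ * q ^ ((e₁ : ℤ) * s₁.1.ord (S.c₁.rd (algebraMap K F c₁ * f)) + n * j)) := by
      have e4 : (q ^ e₁) ^ s₁.1.ord (S.c₁.rd (algebraMap K F c₁ * f))
          = q ^ ((e₁ : ℤ) * s₁.1.ord (S.c₁.rd (algebraMap K F c₁ * f))) := by
        rw [← zpow_natCast q e₁, ← zpow_mul]
      have e5 : q ^ ((e₁ : ℤ) * s₁.1.ord (S.c₁.rd (algebraMap K F c₁ * f)) + n * j)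
          = q ^ ((e₁ : ℤ) * s₁.1.ord (S.c₁.rd (algebraMap K F c₁ * f))) * (q ^ j) ^ n := by
        have e5a : q ^ ((n : ℤ) * j) = (q ^ j) ^ n := by
          rw [mul_comm, zpow_mul, zpow_natCast]
        rw [zpow_add₀ hq0, e5a]
      rw [e4, e5, div_pow]
      have hYn : Y ^ n ≠ 0 := pow_ne_zero n hY0
      have hqjn : (q ^ j) ^ n ≠ 0 := pow_ne_zero n hqj
      have hqe : q ^ ((e₁ : ℤ) * s₁.1.ord (S.c₁.rd (algebraMap K F c₁ * f))) ≠ 0 :=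
        zpow_ne_zero _ hq0
      field_simp
    rw [e3] at h3
    exact h3
  obtain ⟨j, hj⟩ := key s hs t e ht htI
  obtain ⟨j', hj'⟩ := key s' hs' t' e' ht' ht'I
  have h4 := hj'.div hj
  have hc₁ : c₁ ≠ 0 := by
    rintro rfl
    exact h₁.ne_zero (by rw [map_zero, zero_mul])
  have e6 : c₁ / (c₂ * q ^ ((e' : ℤ) * s'.1.ord (S.c₁.rd (algebraMap K F c₁ * f)) + n * j'))
      / (c₁ / (c₂ * q ^ ((e : ℤ) * s.1.ord (S.c₁.rd (algebraMap K F c₁ * f)) + n * j)))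
      = q ^ (((e : ℤ) * s.1.ord (S.c₁.rd (algebraMap K F c₁ * f)) + n * j)
        - ((e' : ℤ) * s'.1.ord (S.c₁.rd (algebraMap K F c₁ * f)) + n * j')) := by
    rw [zpow_sub₀ hq0]
    have h7 : q ^ ((e' : ℤ) * s'.1.ord (S.c₁.rd (algebraMap K F c₁ * f)) + n * j') ≠ 0 :=
      zpow_ne_zero _ hq0
    have h8 : q ^ ((e : ℤ) * s.1.ord (S.c₁.rd (algebraMap K F c₁ * f)) + n * j) ≠ 0 :=
      zpow_ne_zero _ hq0
    field_simp
  rw [e6] at h4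
  have h9 := hq _ h4
  refine ⟨j' - j, ?_⟩
  linarith

/-- A single `I`-fixed function: if `r` divides the slope at one node `s₁ ≠ s₀` (or if there is
no such node), then the class is toric. -/
theorem fix_single (hP : HasPrincipalDivisors K F) (hdeg : ∀ v : Place K F, v.deg = 1)
    (H₁ : FFHyp k F₁) {c₀ : ℤ} (hg₁ : IsGenus k F₁ 0 c₀)
    (I : Set (SemilinearAut K F)) (hI : ∀ σ ∈ I, S.IsInertial σ)
    (q : K) (hq0 : q ≠ 0) (hqI : ∀ σ ∈ I, SemilinearAut.baseAut σ q = q)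
    (hq : ∀ m : ℤ, S.IsCU (q ^ m) → m = 0)
    (hunr : ∀ Y : K, Y ≠ 0 → (∀ σ ∈ I, SemilinearAut.baseAut σ Y = Y) →
      ∃ m : ℤ, S.IsCU (Y / q ^ m))
    (r : ℕ) (hr : r.Prime) (s₀ : Place k F₁ × Place k F₂)
    (hcoord : ∀ s ∈ S.nodes, s ≠ s₀ → ∃ (t : F) (e : ℕ), S.IsAnnCoord s t (q ^ e) ∧
      (∀ σ ∈ I, σ • t = t) ∧ ¬ r ∣ e)
    {G : F} {C₁ C₂ : K} (h₁ : S.c₁.IsGU (algebraMap K F C₁ * G))
    (h₂ : S.c₂.IsGU (algebraMap K F C₂ * G)) (hGI : ∀ σ ∈ I, σ • G = G)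
    (hdiv : ∀ P : Place K F, (r : ℤ) ∣ P.ord G)
    (href : ∀ s₁ ∈ S.nodes, s₁ ≠ s₀ → ∃ s₂ ∈ S.nodes, s₂ ≠ s₀ ∧
      (r : ℤ) ∣ s₂.1.ord (S.c₁.rd (algebraMap K F C₁ * G))) :
    ∃ (w : F) (c : K), w ≠ 0 ∧ c ≠ 0 ∧ algebraMap K F c * G * w ^ r ∈ S.c₁.V ∧
      S.c₁.rd (algebraMap K F c * G * w ^ r) = 1 := by
  have hC₁ : C₁ ≠ 0 := by
    rintro rfl
    exact h₁.ne_zero (by rw [map_zero, zero_mul])
  have hrZ : Prime (r : ℤ) := Nat.prime_iff_prime_int.mp hr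
  have hgood : ∀ s ∈ S.nodes, s ≠ s₀ →
      (r : ℤ) ∣ s.1.ord (S.c₁.rd (algebraMap K F C₁ * G)) := by
    intro s hs hss
    obtain ⟨s₂, hs₂, hs₂0, hdvd⟩ := href s hs hss
    obtain ⟨t, e, ht, htI, hre⟩ := hcoord s hs hss
    obtain ⟨t₂, e₂, ht₂, ht₂I, -⟩ := hcoord s₂ hs₂ hs₂0
    have hcg := slope_congr S hP hdeg I hI q hq0 hqI hq hunr r hs hs₂ ht ht₂ htI ht₂I h₁ h₂
      hGI hdiv
    have h3 : (r : ℤ) ∣ (e : ℤ) * s.1.ord (S.c₁.rd (algebraMap K F C₁ * G)) := by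
      have h4 := dvd_add hcg (dvd_mul_of_dvd_right hdvd (e₂ : ℤ))
      rwa [sub_add_cancel] at h4
    rcases hrZ.dvd_or_dvd h3 with h5 | h5
    · exact absurd (Int.natCast_dvd_natCast.mp h5) hre
    · exact h5
  have hdiv' : ∀ P : Place K F, (r : ℤ) ∣ P.ord (algebraMap K F C₁ * G) := by
    intro P
    rw [ord_algebraMap_mul P hC₁]
    exact hdiv P
  have hall := dvd_slope_of_others S hP H₁ h₁ hdiv' s₀ hgood
  exact S.exists_rd₁_eq_one_of_slopes hP H₁ hg₁ hr.ne_zero h₁ hdiv hall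

/-- Two integers have a non-trivial combination divisible by `r`. -/
theorem exists_comb_dvd (r : ℕ) (hr : 1 < r) (m m' : ℤ) :
    ∃ α β : ℕ, (¬ r ∣ α ∨ ¬ r ∣ β) ∧ (r : ℤ) ∣ (α : ℤ) * m + (β : ℤ) * m' := by
  have hr' : (0 : ℤ) < r := by exact_mod_cast (by omega : 0 < r)
  have hr0 : (r : ℤ) ≠ 0 := ne_of_gt hr'
  by_cases hm : (r : ℤ) ∣ m
  · refine ⟨1, 0, Or.inl ?_, ?_⟩
    · intro h
      have h1 := Nat.le_of_dvd Nat.one_pos h
      omega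
    · rw [Nat.cast_one, one_mul, Nat.cast_zero, zero_mul, add_zero]
      exact hm
  · refine ⟨(m' % r).toNat, ((-m) % r).toNat, Or.inr ?_, ?_⟩
    · intro h
      apply hm
      have h1 : (((-m) % (r : ℤ)).toNat : ℤ) = (-m) % (r : ℤ) :=
        Int.toNat_of_nonneg (Int.emod_nonneg _ hr0)
      have h2 : (r : ℤ) ∣ (-m) % (r : ℤ) := by
        rw [← h1]
        exact Int.natCast_dvd_natCast.mpr h
      have h3 : (r : ℤ) ∣ -m := by
        have h4 := Int.emod_add_mul_ediv (-m) (r : ℤ)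
        rw [← h4]
        exact dvd_add h2 (dvd_mul_right _ _)
      exact (dvd_neg).mp h3
    · have h1 : (((m') % (r : ℤ)).toNat : ℤ) = m' % (r : ℤ) :=
        Int.toNat_of_nonneg (Int.emod_nonneg _ hr0)
      have h2 : (((-m) % (r : ℤ)).toNat : ℤ) = (-m) % (r : ℤ) :=
        Int.toNat_of_nonneg (Int.emod_nonneg _ hr0)
      rw [h1, h2, Int.emod_def, Int.emod_def]
      refine ⟨-(m' / r * m + (-m) / r * m'), ?_⟩
      ring

/-- **(FIX), abstract form**: two `I`-fixed Kummer functions have a non-trivial combination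
whose class is toric. -/
theorem fix_abs (hP : HasPrincipalDivisors K F) (hdeg : ∀ v : Place K F, v.deg = 1)
    (H₁ : FFHyp k F₁) {c₀ : ℤ} (hg₁ : IsGenus k F₁ 0 c₀)
    (I : Set (SemilinearAut K F)) (hI : ∀ σ ∈ I, S.IsInertial σ)
    (q : K) (hq0 : q ≠ 0) (hqI : ∀ σ ∈ I, SemilinearAut.baseAut σ q = q)
    (hq : ∀ m : ℤ, S.IsCU (q ^ m) → m = 0)
    (hunr : ∀ Y : K, Y ≠ 0 → (∀ σ ∈ I, SemilinearAut.baseAut σ Y = Y) →
      ∃ m : ℤ, S.IsCU (Y / q ^ m))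
    (r : ℕ) (hr : r.Prime) (s₀ : Place k F₁ × Place k F₂)
    (hcoord : ∀ s ∈ S.nodes, s ≠ s₀ → ∃ (t : F) (e : ℕ), S.IsAnnCoord s t (q ^ e) ∧
      (∀ σ ∈ I, σ • t = t) ∧ ¬ r ∣ e)
    {f f' : F} (hf : f ≠ 0) (hf' : f' ≠ 0) (hfI : ∀ σ ∈ I, σ • f = f)
    (hf'I : ∀ σ ∈ I, σ • f' = f')
    (hdiv : ∀ P : Place K F, (r : ℤ) ∣ P.ord f) (hdiv' : ∀ P : Place K F, (r : ℤ) ∣ P.ord f') :
    ∃ α β : ℕ, (¬ r ∣ α ∨ ¬ r ∣ β) ∧ ∃ (w : F) (c : K), w ≠ 0 ∧ c ≠ 0 ∧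
      algebraMap K F c * (f ^ α * f' ^ β) * w ^ r ∈ S.c₁.V ∧
      S.c₁.rd (algebraMap K F c * (f ^ α * f' ^ β) * w ^ r) = 1 := by
  obtain ⟨c₁, -, h₁⟩ := S.c₁.exists_isGU_scale hf
  obtain ⟨c₂, -, h₂⟩ := S.c₂.exists_isGU_scale hf
  obtain ⟨c₁', -, h₁'⟩ := S.c₁.exists_isGU_scale hf'
  obtain ⟨c₂', -, h₂'⟩ := S.c₂.exists_isGU_scale hf'
  -- the combination `G = f ^ α f' ^ β`
  have hGeq : ∀ (a a' : K) (α β : ℕ), algebraMap K F (a ^ α * a' ^ β) * (f ^ α * f' ^ β)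
      = (algebraMap K F a * f) ^ α * (algebraMap K F a' * f') ^ β := by
    intro a a' α β
    rw [map_mul, map_pow, map_pow, mul_pow, mul_pow]
    ring
  have hG₁ : ∀ α β : ℕ, S.c₁.IsGU (algebraMap K F (c₁ ^ α * c₁' ^ β) * (f ^ α * f' ^ β)) := by
    intro α β
    rw [hGeq]
    exact (h₁.pow α).mul (h₁'.pow β)
  have hG₂ : ∀ α β : ℕ, S.c₂.IsGU (algebraMap K F (c₂ ^ α * c₂' ^ β) * (f ^ α * f' ^ β)) := by
    intro α β
    rw [hGeq]
    exact (h₂.pow α).mul (h₂'.pow β)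
  have hGI : ∀ α β : ℕ, ∀ σ ∈ I, σ • (f ^ α * f' ^ β) = f ^ α * f' ^ β := by
    intro α β σ hσ
    rw [smul_mul', smul_pow', smul_pow', hfI σ hσ, hf'I σ hσ]
  have hGdiv : ∀ α β : ℕ, ∀ P : Place K F, (r : ℤ) ∣ P.ord (f ^ α * f' ^ β) := by
    intro α β P
    rw [Place.ord_mul _ (pow_ne_zero α hf) (pow_ne_zero β hf'), ord_pow, ord_pow]
    exact dvd_add (dvd_mul_of_dvd_right (hdiv P) _) (dvd_mul_of_dvd_right (hdiv' P) _)
  have hGord : ∀ (α β : ℕ) (Q : Place k F₁),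
      Q.ord (S.c₁.rd (algebraMap K F (c₁ ^ α * c₁' ^ β) * (f ^ α * f' ^ β)))
        = (α : ℤ) * Q.ord (S.c₁.rd (algebraMap K F c₁ * f))
          + (β : ℤ) * Q.ord (S.c₁.rd (algebraMap K F c₁' * f')) := by
    intro α β Q
    rw [hGeq, S.c₁.rd_mul (h₁.pow α).1 (h₁'.pow β).1, S.c₁.rd_pow h₁.1, S.c₁.rd_pow h₁'.1,
      Place.ord_mul _ (pow_ne_zero α h₁.2) (pow_ne_zero β h₁'.2), ord_pow, ord_pow]
  by_cases hex : ∃ s₁ ∈ S.nodes, s₁ ≠ s₀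
  · obtain ⟨s₁, hs₁, hs₁0⟩ := hex
    obtain ⟨α, β, hαβ, hdvd⟩ := exists_comb_dvd r hr.one_lt
      (s₁.1.ord (S.c₁.rd (algebraMap K F c₁ * f)))
      (s₁.1.ord (S.c₁.rd (algebraMap K F c₁' * f')))
    refine ⟨α, β, hαβ, ?_⟩
    exact fix_single S hP hdeg H₁ hg₁ I hI q hq0 hqI hq hunr r hr s₀ hcoord (hG₁ α β)
      (hG₂ α β) (hGI α β) (hGdiv α β)
      (fun _ _ _ => ⟨s₁, hs₁, hs₁0, by rw [hGord]; exact hdvd⟩)
  · refine ⟨1, 0, Or.inl ?_, ?_⟩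
    · intro h
      have h1 := Nat.le_of_dvd Nat.one_pos h
      have := hr.one_lt
      omega
    · exact fix_single S hP hdeg H₁ hg₁ I hI q hq0 hqI hq hunr r hr s₀ hcoord (hG₁ 1 0)
        (hG₂ 1 0) (hGI 1 0) (hGdiv 1 0)
        (fun s hs hss => absurd ⟨s, hs, hss⟩ hex)

end Abs

end Fermat.Agent.S15.Desc.H63
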