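/-
S15 / DESC for the descent prime `r = 2` (helper63), part 1: the global Kummer theory of
`μ_2`-valued crossed homomorphisms of `Gal(ℚ̄/ℚ)` (the analogue of helper97's `glob_mu_trunc`,
`glob_mu_full` for `r = 2`; the only new feature is the class of `-1`).

* `rat_eq_pm_sq` : a nonzero rational number all of whose valuations are even is `± c²`;
* `glob_mu2_trunc` : a `μ_2`-valued open crossed homomorphism, unramified outside `2`, with unit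
  class at `2`, is the coboundary of a fourth root of unity;
* `glob_mu2_full` : two of them, unramified outside `{2, p}`, unit class at `2`: a nontrivial
  combination is the coboundary of a fourth root of unity.
-/
import Fermat.Agent.S15.Desc.H97_GlobMu

set_option autoImplicit false

namespace Fermat.Agent.S15.Desc.H63

local notation "Qbar" => AlgebraicClosure ℚ
local notation "GQ" => (AlgebraicClosure ℚ ≃ₐ[ℚ] AlgebraicClosure ℚ)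

/-- A nonzero rational number all of whose valuations are even is `± c²`. -/
theorem rat_eq_pm_sq (a : ℚ) (ha : a ≠ 0)
    (h : ∀ l : ℕ, l.Prime → (2 : ℤ) ∣ padicValRat l a) :
    ∃ c : ℚ, c ≠ 0 ∧ (a = c ^ 2 ∨ a = -c ^ 2) := by
  have hnum : a.num ≠ 0 := Rat.num_ne_zero.2 ha
  have hden : a.den ≠ 0 := a.den_ne_zero
  have hcop : Nat.Coprime a.num.natAbs a.den := a.reduced
  have hdef : ∀ l : ℕ, padicValRat l a =
      (padicValNat l a.num.natAbs : ℤ) - (padicValNat l a.den : ℤ) := fun l => rfl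
  have hboth : ∀ l : ℕ, l.Prime → 2 ∣ padicValNat l a.num.natAbs ∧ 2 ∣ padicValNat l a.den := by
    intro l hl
    have hl' := h l hl
    rw [hdef] at hl'
    by_cases hd : l ∣ a.den
    · have hn : ¬ l ∣ a.num.natAbs := by
        intro hn
        have := Nat.dvd_gcd hn hd
        rw [hcop.gcd_eq_one] at this
        exact hl.one_lt.ne' (Nat.dvd_one.1 this)
      have h0 : padicValNat l a.num.natAbs = 0 := padicValNat.eq_zero_of_not_dvd hn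
      rw [h0] at hl' ⊢
      refine ⟨dvd_zero _, ?_⟩
      have : (2 : ℤ) ∣ (padicValNat l a.den : ℤ) := by
        have := (dvd_neg (a := (2 : ℤ))).2 hl'
        simpa using this
      exact_mod_cast this
    · have h0 : padicValNat l a.den = 0 := padicValNat.eq_zero_of_not_dvd hd
      rw [h0] at hl' ⊢
      refine ⟨?_, dvd_zero _⟩
      have : (2 : ℤ) ∣ (padicValNat l a.num.natAbs : ℤ) := by simpa using hl'
      exact_mod_cast this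
  obtain ⟨m, hm⟩ := H97.nat_eq_pow_of_dvd_padicValNat (r := 2) (Int.natAbs_ne_zero.2 hnum)
    (fun l hl => (hboth l hl).1)
  obtain ⟨d, hd⟩ := H97.nat_eq_pow_of_dvd_padicValNat (r := 2) hden (fun l hl => (hboth l hl).2)
  have hd0 : (d : ℚ) ≠ 0 := by
    intro h0
    have : d = 0 := by exact_mod_cast h0
    rw [this, zero_pow two_ne_zero] at hd
    exact hden hd
  have hm0 : (m : ℚ) ≠ 0 := by
    intro h0
    have : m = 0 := by exact_mod_cast h0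
    rw [this, zero_pow two_ne_zero] at hm
    exact hnum (Int.natAbs_eq_zero.mp hm)
  have hdq : (a.den : ℚ) = (d : ℚ) ^ 2 := by exact_mod_cast hd
  have ha' : a = (a.num : ℚ) / (a.den : ℚ) := (Rat.num_div_den a).symm
  refine ⟨(m : ℚ) / d, div_ne_zero hm0 hd0, ?_⟩
  rcases Int.natAbs_eq a.num with hs | hs
  · left
    have hnq : (a.num : ℚ) = (m : ℚ) ^ 2 := by
      have e1 : (a.num : ℚ) = ((a.num.natAbs : ℤ) : ℚ) := congrArg (fun z : ℤ => (z : ℚ)) hs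
      rw [e1, hm]
      push_cast
      rfl
    rw [div_pow, ← hnq, ← hdq]
    exact ha'
  · right
    have hnq : (a.num : ℚ) = -((m : ℚ) ^ 2) := by
      have e1 : (a.num : ℚ) = ((-(a.num.natAbs : ℤ) : ℤ) : ℚ) :=
        congrArg (fun z : ℤ => (z : ℚ)) hs
      rw [e1, hm]
      push_cast
      rfl
    rw [div_pow, ← neg_div, ← hnq, ← hdq]
    exact ha'

/-- A fourth root of unity from a square root of `± c²`. -/
theorem coboundary_of_pm_sq (z : GQ → Qbar) (γ : Qbar) (a c : ℚ) (hc : c ≠ 0)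
    (hac : a = c ^ 2 ∨ a = -c ^ 2)
    (hγ : γ ^ 2 = algebraMap ℚ Qbar a) (hzγ : ∀ σ : GQ, σ γ = z σ * γ) :
    ∃ ζ : Qbar, ζ ^ 4 = 1 ∧ ∀ σ : GQ, σ ζ = z σ * ζ := by
  have hc' : algebraMap ℚ Qbar c ≠ 0 := (map_ne_zero _).2 hc
  refine ⟨γ / algebraMap ℚ Qbar c, ?_, fun σ => ?_⟩
  · have h4 : (4 : ℕ) = 2 * 2 := rfl
    rw [div_pow, h4, pow_mul, pow_mul, hγ]
    rcases hac with h | h
    · rw [h, map_pow, ← pow_mul]
      exact div_self (pow_ne_zero _ hc')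
    · rw [h, map_neg, map_pow, neg_sq, ← pow_mul]
      exact div_self (pow_ne_zero _ hc')
  · rw [map_div₀, hzγ σ, AlgEquiv.commutes, mul_div_assoc]

/-- **(G3) for `r = 2`**: a `μ_2`-valued open crossed homomorphism which is unramified outside
`2` and has unit class at `2` is the coboundary of a fourth root of unity. -/
theorem glob_mu2_trunc (z : GQ → Qbar)
    (hz : ∀ σ τ : GQ, z (σ * τ) = z σ * σ (z τ)) (hzr : ∀ σ, z σ ^ 2 = 1)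
    (hopen : ∃ S : Finset Qbar, ∀ σ : GQ, (∀ x ∈ S, σ x = x) → z σ = 1)
    (hunr : ∀ ℓ : ℕ, ℓ.Prime → ℓ ≠ 2 → H97.UnramAt ℓ z) (hloc : H97.UnitClassAt 2 z) :
    ∃ ζ : Qbar, ζ ^ 4 = 1 ∧ ∀ σ : GQ, σ ζ = z σ * ζ := by
  obtain ⟨a, γ, ha, hγ, hzγ⟩ := H97.kummer_class 2 z hz hzr two_ne_zero hopen
  have hall : ∀ ℓ : ℕ, ℓ.Prime → (2 : ℤ) ∣ padicValRat ℓ a := by
    intro ℓ hℓ
    by_cases hℓr : ℓ = 2
    · subst hℓr
      exact_mod_cast hloc a γ ha hγ hzγ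
    · exact_mod_cast H97.dvd_padicValRat_of_unramAt Nat.prime_two hℓ hℓr z (hunr ℓ hℓ hℓr) a ha γ
        hγ hzγ
  obtain ⟨c, hc0, hc⟩ := rat_eq_pm_sq a ha hall
  exact coboundary_of_pm_sq z γ a c hc0 hc hγ hzγ

/-- **(G4) for `r = 2`**: two `μ_2`-valued open crossed homomorphisms which are unramified outside
`{2, p}` and have unit class at `2`: a nontrivial combination is the coboundary of a fourth root
of unity. -/
theorem glob_mu2_full {p : ℕ} (hp : p.Prime) (z₁ z₂ : GQ → Qbar)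
    (hz₁ : ∀ σ τ : GQ, z₁ (σ * τ) = z₁ σ * σ (z₁ τ)) (hzr₁ : ∀ σ, z₁ σ ^ 2 = 1)
    (hz₂ : ∀ σ τ : GQ, z₂ (σ * τ) = z₂ σ * σ (z₂ τ)) (hzr₂ : ∀ σ, z₂ σ ^ 2 = 1)
    (hopen₁ : ∃ S : Finset Qbar, ∀ σ : GQ, (∀ x ∈ S, σ x = x) → z₁ σ = 1)
    (hopen₂ : ∃ S : Finset Qbar, ∀ σ : GQ, (∀ x ∈ S, σ x = x) → z₂ σ = 1)
    (hunr₁ : ∀ ℓ : ℕ, ℓ.Prime → ℓ ≠ 2 → ℓ ≠ p → H97.UnramAt ℓ z₁)
    (hunr₂ : ∀ ℓ : ℕ, ℓ.Prime → ℓ ≠ 2 → ℓ ≠ p → H97.UnramAt ℓ z₂)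
    (hloc₁ : H97.UnitClassAt 2 z₁) (hloc₂ : H97.UnitClassAt 2 z₂) :
    ∃ (c₁ c₂ : ℕ) (ζ : Qbar), (¬ 2 ∣ c₁ ∨ ¬ 2 ∣ c₂) ∧ ζ ^ 4 = 1 ∧
      ∀ σ : GQ, σ ζ = z₁ σ ^ c₁ * z₂ σ ^ c₂ * ζ := by
  obtain ⟨a₁, γ₁, ha₁, hγ₁, hzγ₁⟩ := H97.kummer_class 2 z₁ hz₁ hzr₁ two_ne_zero hopen₁
  obtain ⟨a₂, γ₂, ha₂, hγ₂, hzγ₂⟩ := H97.kummer_class 2 z₂ hz₂ hzr₂ two_ne_zero hopen₂
  obtain ⟨c₁, c₂, hc, hdvd⟩ := H97.exists_comb_dvd Nat.prime_two (padicValRat p a₁)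
    (padicValRat p a₂)
  set a : ℚ := a₁ ^ c₁ * a₂ ^ c₂ with ha
  have ha0 : a ≠ 0 := mul_ne_zero (pow_ne_zero _ ha₁) (pow_ne_zero _ ha₂)
  have hval : ∀ ℓ : ℕ, ℓ.Prime →
      padicValRat ℓ a = c₁ * padicValRat ℓ a₁ + c₂ * padicValRat ℓ a₂ := by
    intro ℓ hℓ
    have hfact : Fact ℓ.Prime := ⟨hℓ⟩
    rw [ha, padicValRat.mul (pow_ne_zero _ ha₁) (pow_ne_zero _ ha₂), padicValRat.pow a₁,
      padicValRat.pow a₂]
  have hall : ∀ ℓ : ℕ, ℓ.Prime → (2 : ℤ) ∣ padicValRat ℓ a := by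
    intro ℓ hℓ
    rw [hval ℓ hℓ]
    by_cases hℓp : ℓ = p
    · subst hℓp
      exact_mod_cast hdvd
    · have h1 : (2 : ℤ) ∣ padicValRat ℓ a₁ := by
        by_cases hℓr : ℓ = 2
        · subst hℓr
          exact_mod_cast hloc₁ a₁ γ₁ ha₁ hγ₁ hzγ₁
        · exact_mod_cast H97.dvd_padicValRat_of_unramAt Nat.prime_two hℓ hℓr z₁
            (hunr₁ ℓ hℓ hℓr hℓp) a₁ ha₁ γ₁ hγ₁ hzγ₁
      have h2 : (2 : ℤ) ∣ padicValRat ℓ a₂ := by
        by_cases hℓr : ℓ = 2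
        · subst hℓr
          exact_mod_cast hloc₂ a₂ γ₂ ha₂ hγ₂ hzγ₂
        · exact_mod_cast H97.dvd_padicValRat_of_unramAt Nat.prime_two hℓ hℓr z₂
            (hunr₂ ℓ hℓ hℓr hℓp) a₂ ha₂ γ₂ hγ₂ hzγ₂
      exact dvd_add (Dvd.dvd.mul_left h1 _) (Dvd.dvd.mul_left h2 _)
  obtain ⟨c, hc0, hcr⟩ := rat_eq_pm_sq a ha0 hall
  obtain ⟨ζ, hζ, hzζ⟩ := coboundary_of_pm_sq (fun σ => z₁ σ ^ c₁ * z₂ σ ^ c₂)
    (γ₁ ^ c₁ * γ₂ ^ c₂) a c hc0 hcr
    (by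
      rw [ha, map_mul, map_pow, map_pow, ← hγ₁, ← hγ₂]
      ring)
    (fun σ => by
      show σ (γ₁ ^ c₁ * γ₂ ^ c₂) = z₁ σ ^ c₁ * z₂ σ ^ c₂ * (γ₁ ^ c₁ * γ₂ ^ c₂)
      rw [map_mul, map_pow, map_pow, hzγ₁ σ, hzγ₂ σ]
      ring)
  exact ⟨c₁, c₂, ζ, hc, hζ, hzζ⟩

end Fermat.Agent.S15.Desc.H63
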