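/-
S15 / DESC for the descent prime `r = 2` (helper63), part 2: the base cases of the dévissage
for lines over `𝔽_2` (all lines have trivial character; the type of a line is read off its local
condition at `2`: étale lines have `Lloc 2 = ⊥`, multiplicative lines `Lloc 2 = ⊤`).

* `IsBddFamilyTwo 𝔅` : the requirements on the family `𝔅` at `r = 2` (openness and (KUM); the
  statement (CC0) of `IsBddFamily` is false for `r = 2`: `ℚ(√-1)`);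
* `base_unr`     : lines with trivial character and `Lloc ℓ = ⊥` for all `ℓ ≠ p` (any prime `r`):
  dimension `≤ dim Lloc p`;
* `base_two_mu`  : lines over `𝔽_2` with `Lloc ℓ = ⊥` for `ℓ ≠ 2, p`, cocycles vanishing on a member
  of `𝔅`: dimension `≤ dim Lloc p + 1` (classes `-1` and `p`).
-/
import Fermat.Agent.S15.Desc.H63_TwoGlob
import Fermat.Agent.S15.Desc.H69_Base

set_option autoImplicit false

namespace Fermat.Agent.S15.Desc.H63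

open Module

local notation "Qbar" => AlgebraicClosure ℚ
local notation "GQ" => (AlgebraicClosure ℚ ≃ₐ[ℚ] AlgebraicClosure ℚ)

/-- Requirements on the family `𝔅` of subgroups of `Gal(ℚ̄/ℚ)` "bounded at `2`". -/
structure IsBddFamilyTwo (𝔅 : Set (Subgroup GQ)) : Prop where
  isOpen : ∀ H ∈ 𝔅, ∃ S : Finset Qbar, ∀ σ : GQ, (∀ x ∈ S, σ x = x) → σ ∈ H
  kum : ∀ z : GQ → Qbar, (∀ σ τ, z (σ * τ) = z σ * σ (z τ)) → (∀ σ, z σ ^ 2 = 1) →
    (∃ H ∈ 𝔅, ∀ σ ∈ H, z σ = 1) → H97.UnitClassAt 2 z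

section unr

variable {r : ℕ} [hr : Fact r.Prime] {p : ℕ}
variable {A : ℕ → ValuationSubring Qbar}
variable {𝔅 : Set (Subgroup GQ)}

/-- **BASE, trivial character, unramified at `r` by the local condition.** -/
theorem base_unr (hp : p.Prime) (hpr : p ≠ r)
    (hA : ∀ ℓ : ℕ, ℓ.Prime → (A ℓ).LiesOverPrime ℓ)
    (h𝔅 : ∀ H ∈ 𝔅, ∃ S : Finset Qbar, ∀ σ : GQ, (∀ x ∈ S, σ x = x) → σ ∈ H)
    (Lloc : ℕ → Submodule (ZMod r) (ZMod r))
    (hL : ∀ ℓ : ℕ, ℓ.Prime → ℓ ≠ p → Lloc ℓ = ⊥) :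
    DimLE (ZMod r) (ZgoodLine (fun ℓ => (A ℓ).inertiaSubgroupIn ℚ) 𝔅 (fun _ => (1 : ZMod r)) Lloc)
      (finrank (ZMod r) (Lloc p)) := by
  intro T hT hfin
  have hadd : ∀ u ∈ T, ∀ σ τ : GQ, u (σ * τ) = u σ + u τ := by
    intro u hu σ τ
    have := (hT hu).1 σ τ
    rwa [one_mul] at this
  have hopen : ∀ u ∈ T, ∃ S : Finset Qbar, ∀ σ : GQ, (∀ x ∈ S, σ x = x) → u σ = 0 := by
    intro u hu
    obtain ⟨H, hH, hvan⟩ := (hT hu).2.2
    obtain ⟨S, hS⟩ := h𝔅 H hH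
    exact ⟨S, fun σ hσ => hvan σ (hS σ hσ)⟩
  have hunr : ∀ u ∈ T, ∀ ℓ : ℕ, ℓ.Prime → ℓ ≠ p → ∃ B : ValuationSubring Qbar,
      B.LiesOverPrime ℓ ∧ ∀ σ ∈ B.inertiaSubgroupIn ℚ, u σ = 0 := by
    intro u hu ℓ hℓ hℓp
    refine ⟨A ℓ, hA ℓ hℓ, fun σ hσ => ?_⟩
    have h1 := (hT hu).2.1 ℓ σ hσ
    rw [hL ℓ hℓ hℓp, Submodule.mem_bot] at h1
    exact h1
  by_cases hLp : Lloc p = ⊥
  · have hzero : ∀ u ∈ T, u = 0 := by
      intro u hu
      funext σ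
      refine H97.glob_etale_trunc u (hadd u hu) (hopen u hu) (fun ℓ hℓ => ?_) σ
      by_cases hℓp : ℓ = p
      · subst hℓp
        refine ⟨A ℓ, hA ℓ hℓ, fun σ hσ => ?_⟩
        have h1 := (hT hu).2.1 ℓ σ hσ
        rw [hLp, Submodule.mem_bot] at h1
        exact h1
      · exact hunr u hu ℓ hℓ hℓp
    have : T = ⊥ := by
      rw [eq_bot_iff]
      intro x hx
      rw [Submodule.mem_bot]
      exact hzero x hx
    subst this
    simp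
  · have h1 : 1 ≤ finrank (ZMod r) (Lloc p) := by
      rw [Nat.one_le_iff_ne_zero]
      intro h0
      exact hLp (Submodule.finrank_eq_zero.mp h0)
    refine le_trans (finrank_le_one_of_pairwise_dep T ?_) h1
    intro u₁ hu₁ u₂ hu₂
    obtain ⟨c₁, c₂, hc, hcomb⟩ := H97.glob_etale hp hr.out hpr u₁ u₂ (hadd u₁ hu₁) (hadd u₂ hu₂)
      (hopen u₁ hu₁) (hopen u₂ hu₂) (hunr u₁ hu₁) (hunr u₂ hu₂)
    refine ⟨c₁, c₂, hc, ?_⟩
    funext σ
    exact hcomb σ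

end unr

section two

variable {p : ℕ}
variable {A : ℕ → ValuationSubring Qbar}
variable {𝔅 : Set (Subgroup GQ)}

/-- The sign attached to an element of `𝔽_2`. -/
theorem neg_one_pow_val_eq_one_iff (a : ZMod 2) : (-1 : Qbar) ^ a.val = 1 ↔ a = 0 := by
  have h : a = 0 ∨ a = 1 := by
    revert a
    decide
  rcases h with rfl | rfl
  · simp
  · simp only [ZMod.val_one, pow_one, one_ne_zero, iff_false]
    intro h
    have h2 : (2 : Qbar) = 0 := by linear_combination -h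
    exact two_ne_zero h2

/-- The quadratic character of `ℚ(√-1)`, with values in `𝔽_2`. -/
noncomputable def chiFour (ι : Qbar) : GQ → ZMod 2 := by
  classical
  exact fun σ => if σ ι = ι then 0 else 1

/-- If `σ ↦ (-1)^(w σ)` is the coboundary of a fourth root of unity, `w` is a multiple of the
character of `ℚ(√-1)`. -/
theorem eq_smul_chiFour {ι : Qbar} (hι : ι ^ 2 = -1) (w : GQ → ZMod 2) (ζ : Qbar)
    (hζ : ζ ^ 4 = 1) (h : ∀ σ : GQ, σ ζ = (-1) ^ (w σ).val * ζ) :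
    ∃ j : ZMod 2, w = j • chiFour ι := by
  classical
  have hζ0 : ζ ≠ 0 := by
    rintro rfl
    rw [zero_pow (by norm_num)] at hζ
    exact zero_ne_one hζ
  have hι0 : ι ≠ 0 := by
    rintro rfl
    rw [zero_pow two_ne_zero] at hι
    have h2 : (1 : Qbar) = 0 := by linear_combination hι
    exact one_ne_zero h2
  have hfac : (ζ ^ 2 - 1) * (ζ ^ 2 + 1) = 0 := by linear_combination hζ
  rcases mul_eq_zero.mp hfac with h1 | h1
  · -- `ζ = ± 1` is rational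
    refine ⟨0, ?_⟩
    funext σ
    rw [zero_smul, Pi.zero_apply]
    have hσ : σ ζ = ζ := by
      have h2 : (ζ - 1) * (ζ + 1) = 0 := by linear_combination h1
      rcases mul_eq_zero.mp h2 with h3 | h3
      · have : ζ = 1 := by linear_combination h3
        rw [this, map_one]
      · have : ζ = -1 := by linear_combination h3
        rw [this, map_neg, map_one]
    have h2 := h σ
    rw [hσ] at h2
    have h3 : ((-1 : Qbar) ^ (w σ).val - 1) * ζ = 0 := by linear_combination -h2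
    rcases mul_eq_zero.mp h3 with h4 | h4
    · exact (neg_one_pow_val_eq_one_iff _).mp (by linear_combination h4)
    · exact absurd h4 hζ0
  · -- `ζ = ± ι`
    refine ⟨1, ?_⟩
    funext σ
    rw [one_smul]
    have h2 : (ζ - ι) * (ζ + ι) = 0 := by linear_combination h1 - hι
    have hζι : ∃ ε : Qbar, (ε = 1 ∨ ε = -1) ∧ ζ = ε * ι := by
      rcases mul_eq_zero.mp h2 with h3 | h3
      · exact ⟨1, Or.inl rfl, by linear_combination h3⟩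
      · exact ⟨-1, Or.inr rfl, by linear_combination h3⟩
    obtain ⟨ε, hε, rfl⟩ := hζι
    have hε0 : ε ≠ 0 := by
      rcases hε with rfl | rfl
      · exact one_ne_zero
      · exact neg_ne_zero.mpr one_ne_zero
    have hσε : σ ε = ε := by
      rcases hε with rfl | rfl
      · exact map_one σ
      · rw [map_neg, map_one]
    have h3 := h σ
    rw [map_mul, hσε] at h3
    have h4 : σ ι = (-1) ^ (w σ).val * ι := by
      have : ε * (σ ι - (-1) ^ (w σ).val * ι) = 0 := by linear_combination h3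
      rcases mul_eq_zero.mp this with h5 | h5
      · exact absurd h5 hε0
      · linear_combination h5
    unfold chiFour
    split_ifs with h5
    · rw [h5] at h4
      have h6 : ((-1 : Qbar) ^ (w σ).val - 1) * ι = 0 := by linear_combination -h4
      rcases mul_eq_zero.mp h6 with h7 | h7
      · exact (neg_one_pow_val_eq_one_iff _).mp (by linear_combination h7)
      · exact absurd h7 hι0
    · by_contra h6
      have h7 : w σ = 0 := by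
        have h8 : w σ = 0 ∨ w σ = 1 := by
          generalize w σ = a
          revert a
          decide
        rcases h8 with h8 | h8
        · exact h8
        · exact absurd h8 h6
      rw [h7, ZMod.val_zero, pow_zero, one_mul] at h4
      exact h5 h4

/-- The `μ_2`-valued crossed homomorphisms attached to the good cocycles of a line over `𝔽_2`:
the inputs of `glob_mu2_trunc`, `glob_mu2_full`. -/
theorem two_line_facts
    (hA : ∀ ℓ : ℕ, ℓ.Prime → (A ℓ).LiesOverPrime ℓ)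
    (h𝔅 : IsBddFamilyTwo 𝔅)
    (Lloc : ℕ → Submodule (ZMod 2) (ZMod 2))
    (hL : ∀ ℓ : ℕ, ℓ.Prime → ℓ ≠ p → ℓ ≠ 2 → Lloc ℓ = ⊥)
    {u : GQ → ZMod 2}
    (hu : u ∈ ZgoodLine (fun ℓ => (A ℓ).inertiaSubgroupIn ℚ) 𝔅 (fun _ => (1 : ZMod 2)) Lloc) :
    (∀ σ τ : GQ, zOf (-1 : Qbar) u (σ * τ) = zOf (-1 : Qbar) u σ * σ (zOf (-1 : Qbar) u τ)) ∧
    (∀ σ : GQ, zOf (-1 : Qbar) u σ ^ 2 = 1) ∧
    (∃ S : Finset Qbar, ∀ σ : GQ, (∀ x ∈ S, σ x = x) → zOf (-1 : Qbar) u σ = 1) ∧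
    H97.UnitClassAt 2 (zOf (-1 : Qbar) u) ∧
    (∀ ℓ : ℕ, ℓ.Prime → ℓ ≠ 2 → ℓ ≠ p → H97.UnramAt ℓ (zOf (-1 : Qbar) u)) ∧
    (Lloc p = ⊥ → ∀ ℓ : ℕ, ℓ.Prime → ℓ ≠ 2 → H97.UnramAt ℓ (zOf (-1 : Qbar) u)) := by
  have : Fact (Nat.Prime 2) := ⟨Nat.prime_two⟩
  have hζ1 : (-1 : Qbar) ^ 2 = 1 := by norm_num
  have hχ : ∀ σ : GQ, σ (-1 : Qbar) = (-1 : Qbar) ^ ((fun _ : GQ => (1 : ZMod 2)) σ).val := by
    intro σ
    rw [map_neg, map_one]
    simp only [ZMod.val_one, pow_one]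
  have hcr : ∀ σ τ : GQ,
      zOf (-1 : Qbar) u (σ * τ) = zOf (-1 : Qbar) u σ * σ (zOf (-1 : Qbar) u τ) :=
    zOf_crossed hζ1 hχ hu.1
  have hunr : ∀ ℓ : ℕ, ℓ.Prime → ℓ ≠ 2 → ℓ ≠ p → H97.UnramAt ℓ (zOf (-1 : Qbar) u) := by
    intro ℓ hℓ hℓr hℓp
    refine ⟨A ℓ, hA ℓ hℓ, fun σ hσ => ?_⟩
    have h1 := hu.2.1 ℓ σ hσ
    rw [hL ℓ hℓ hℓp hℓr, Submodule.mem_bot] at h1
    show (-1 : Qbar) ^ (u σ).val = 1
    rw [h1, ZMod.val_zero, pow_zero]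
  refine ⟨hcr, zOf_pow hζ1 u, ?_, ?_, hunr, ?_⟩
  · obtain ⟨H, hH, hvan⟩ := hu.2.2
    obtain ⟨S, hS⟩ := h𝔅.isOpen H hH
    refine ⟨S, fun σ hσ => ?_⟩
    show (-1 : Qbar) ^ (u σ).val = 1
    rw [hvan σ (hS σ hσ), ZMod.val_zero, pow_zero]
  · refine h𝔅.kum _ hcr (zOf_pow hζ1 u) ?_
    obtain ⟨H, hH, hvan⟩ := hu.2.2
    refine ⟨H, hH, fun σ hσ => ?_⟩
    show (-1 : Qbar) ^ (u σ).val = 1
    rw [hvan σ hσ, ZMod.val_zero, pow_zero]
  · intro hLp ℓ hℓ hℓr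
    by_cases hℓp : ℓ = p
    · subst hℓp
      refine ⟨A ℓ, hA ℓ hℓ, fun σ hσ => ?_⟩
      have h1 := hu.2.1 ℓ σ hσ
      rw [hLp, Submodule.mem_bot] at h1
      show (-1 : Qbar) ^ (u σ).val = 1
      rw [h1, ZMod.val_zero, pow_zero]
    · exact hunr ℓ hℓ hℓr hℓp

/-- Lines over `𝔽_2`, unramified at `p`: every good cocycle is a multiple of the character of
`ℚ(√-1)`. -/
theorem two_line_trunc
    (hA : ∀ ℓ : ℕ, ℓ.Prime → (A ℓ).LiesOverPrime ℓ)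
    (h𝔅 : IsBddFamilyTwo 𝔅)
    (Lloc : ℕ → Submodule (ZMod 2) (ZMod 2))
    (hL : ∀ ℓ : ℕ, ℓ.Prime → ℓ ≠ p → ℓ ≠ 2 → Lloc ℓ = ⊥) (hLp : Lloc p = ⊥)
    {ι : Qbar} (hι : ι ^ 2 = -1) {u : GQ → ZMod 2}
    (hu : u ∈ ZgoodLine (fun ℓ => (A ℓ).inertiaSubgroupIn ℚ) 𝔅 (fun _ => (1 : ZMod 2)) Lloc) :
    ∃ j : ZMod 2, u = j • chiFour ι := by
  obtain ⟨hcr, hpow, hopen, hunit, -, hunr⟩ := two_line_facts hA h𝔅 Lloc hL hu
  obtain ⟨ζ, hζr, hcob⟩ := glob_mu2_trunc (zOf (-1 : Qbar) u) hcr hpow hopen (hunr hLp) hunit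
  exact eq_smul_chiFour hι u ζ hζr hcob

/-- Lines over `𝔽_2`: two good cocycles have a nontrivial combination which is a multiple of the
character of `ℚ(√-1)`. -/
theorem two_line_full (hp : p.Prime)
    (hA : ∀ ℓ : ℕ, ℓ.Prime → (A ℓ).LiesOverPrime ℓ)
    (h𝔅 : IsBddFamilyTwo 𝔅)
    (Lloc : ℕ → Submodule (ZMod 2) (ZMod 2))
    (hL : ∀ ℓ : ℕ, ℓ.Prime → ℓ ≠ p → ℓ ≠ 2 → Lloc ℓ = ⊥)
    {ι : Qbar} (hι : ι ^ 2 = -1) {u₁ u₂ : GQ → ZMod 2}
    (hu₁ : u₁ ∈ ZgoodLine (fun ℓ => (A ℓ).inertiaSubgroupIn ℚ) 𝔅 (fun _ => (1 : ZMod 2)) Lloc)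
    (hu₂ : u₂ ∈ ZgoodLine (fun ℓ => (A ℓ).inertiaSubgroupIn ℚ) 𝔅 (fun _ => (1 : ZMod 2)) Lloc) :
    ∃ c₁ c₂ j : ZMod 2, (c₁ ≠ 0 ∨ c₂ ≠ 0) ∧ c₁ • u₁ + c₂ • u₂ = j • chiFour ι := by
  have : Fact (Nat.Prime 2) := ⟨Nat.prime_two⟩
  have hζ1 : (-1 : Qbar) ^ 2 = 1 := by norm_num
  obtain ⟨hcr₁, hpow₁, hopen₁, hunit₁, hunr₁, -⟩ := two_line_facts hA h𝔅 Lloc hL hu₁
  obtain ⟨hcr₂, hpow₂, hopen₂, hunit₂, hunr₂, -⟩ := two_line_facts hA h𝔅 Lloc hL hu₂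
  obtain ⟨c₁, c₂, ζ, hc, hζr, hcob⟩ := glob_mu2_full hp (zOf (-1 : Qbar) u₁)
    (zOf (-1 : Qbar) u₂) hcr₁ hpow₁ hcr₂ hpow₂ hopen₁ hopen₂ hunr₁ hunr₂ hunit₁ hunit₂
  set w : GQ → ZMod 2 := fun σ => (c₁ : ZMod 2) * u₁ σ + (c₂ : ZMod 2) * u₂ σ with hw
  have hwz : ∀ σ : GQ, σ ζ = (-1 : Qbar) ^ (w σ).val * ζ := by
    intro σ
    rw [hcob σ]
    congr 1
    show ((-1 : Qbar) ^ (u₁ σ).val) ^ c₁ * ((-1 : Qbar) ^ (u₂ σ).val) ^ c₂ = _
    rw [hw]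
    simp only
    rw [zpow_val_add hζ1, zpow_val_mul hζ1, zpow_val_mul hζ1, ZMod.val_natCast,
      ZMod.val_natCast, ← pow_mul, ← pow_mul, ← pow_mul, ← pow_mul]
    have e1 : (-1 : Qbar) ^ ((u₁ σ).val * (c₁ % 2)) = (-1 : Qbar) ^ ((u₁ σ).val * c₁) := by
      rw [pow_mul, pow_mul, ← pow_eq_pow_mod c₁ (by rw [← pow_mul, mul_comm, pow_mul, hζ1,
        one_pow])]
    have e2 : (-1 : Qbar) ^ ((u₂ σ).val * (c₂ % 2)) = (-1 : Qbar) ^ ((u₂ σ).val * c₂) := by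
      rw [pow_mul, pow_mul, ← pow_eq_pow_mod c₂ (by rw [← pow_mul, mul_comm, pow_mul, hζ1,
        one_pow])]
    rw [e1, e2]
  obtain ⟨j, hj⟩ := eq_smul_chiFour hι w ζ hζr hwz
  refine ⟨(c₁ : ZMod 2), (c₂ : ZMod 2), j, ?_, ?_⟩
  · rcases hc with hc | hc
    · left
      intro h0
      exact hc ((ZMod.natCast_eq_zero_iff c₁ 2).mp h0)
    · right
      intro h0
      exact hc ((ZMod.natCast_eq_zero_iff c₂ 2).mp h0)
  · rw [← hj]
    funext σ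
    rfl

/-- **BASE for `r = 2`, lines without a condition at the second place.** -/
theorem base_two_mu (hp : p.Prime)
    (hA : ∀ ℓ : ℕ, ℓ.Prime → (A ℓ).LiesOverPrime ℓ)
    (h𝔅 : IsBddFamilyTwo 𝔅)
    (Lloc : ℕ → Submodule (ZMod 2) (ZMod 2))
    (hL : ∀ ℓ : ℕ, ℓ.Prime → ℓ ≠ p → ℓ ≠ 2 → Lloc ℓ = ⊥) :
    DimLE (ZMod 2) (ZgoodLine (fun ℓ => (A ℓ).inertiaSubgroupIn ℚ) 𝔅 (fun _ => (1 : ZMod 2)) Lloc)
      (finrank (ZMod 2) (Lloc p) + 1) := by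
  classical
  intro T hT hfin
  obtain ⟨ι, hι⟩ := IsAlgClosed.exists_pow_nat_eq (-1 : Qbar) (n := 2) (by norm_num)
  by_cases hLp : Lloc p = ⊥
  · have hmul : ∀ u ∈ T, ∃ j : ZMod 2, u = j • chiFour ι :=
      fun u hu => two_line_trunc hA h𝔅 Lloc hL hLp hι (hT hu)
    have h1 : finrank (ZMod 2) T ≤ 1 := by
      refine finrank_le_one_of_pairwise_dep T ?_
      intro u₁ hu₁ u₂ hu₂
      obtain ⟨j₁, rfl⟩ := hmul u₁ hu₁
      obtain ⟨j₂, rfl⟩ := hmul u₂ hu₂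
      by_cases hj : j₁ = 0 ∧ j₂ = 0
      · refine ⟨1, 0, Or.inl one_ne_zero, ?_⟩
        rw [hj.1, zero_smul, smul_zero, zero_smul, add_zero]
      · refine ⟨j₂, -j₁, ?_, ?_⟩
        · by_contra hcon
          simp only [not_or, not_not, neg_eq_zero] at hcon
          exact hj ⟨hcon.2, hcon.1⟩
        · rw [smul_smul, smul_smul, mul_comm j₂ j₁, neg_mul, neg_smul, add_neg_cancel]
    omega
  · have h1 : 1 ≤ finrank (ZMod 2) (Lloc p) := by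
      rw [Nat.one_le_iff_ne_zero]
      intro h0
      exact hLp (Submodule.finrank_eq_zero.mp h0)
    have h2 : finrank (ZMod 2) T ≤ 2 :=
      finrank_le_two_of_pairwise_dep_mod T (chiFour ι) fun u₁ hu₁ u₂ hu₂ =>
        two_line_full hp hA h𝔅 Lloc hL hι (hT hu₁) (hT hu₂)
    omega

/-- **BASE for `r = 2`, lines whose cocycles vanish at an element `c` acting nontrivially on
`√-1`** (complex conjugation). -/
theorem base_two_real (hp : p.Prime)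
    (hA : ∀ ℓ : ℕ, ℓ.Prime → (A ℓ).LiesOverPrime ℓ)
    (h𝔅 : IsBddFamilyTwo 𝔅)
    (Lloc : ℕ → Submodule (ZMod 2) (ZMod 2))
    (hL : ∀ ℓ : ℕ, ℓ.Prime → ℓ ≠ p → ℓ ≠ 2 → Lloc ℓ = ⊥)
    {ι : Qbar} (hι : ι ^ 2 = -1) (c : GQ) (hc : c ι ≠ ι)
    (T : Submodule (ZMod 2) (GQ → ZMod 2)) [Module.Finite (ZMod 2) T]
    (hT : (T : Set (GQ → ZMod 2)) ⊆
      ZgoodLine (fun ℓ => (A ℓ).inertiaSubgroupIn ℚ) 𝔅 (fun _ => (1 : ZMod 2)) Lloc)
    (hTc : ∀ u ∈ T, u c = 0) :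
    finrank (ZMod 2) T ≤ finrank (ZMod 2) (Lloc p) := by
  classical
  have hχc : chiFour ι c = 1 := by
    unfold chiFour
    rw [if_neg hc]
  have hj0 : ∀ u ∈ T, ∀ j : ZMod 2, u = j • chiFour ι → u = 0 := by
    intro u hu j hj
    have h1 := hTc u hu
    rw [hj, Pi.smul_apply, hχc, smul_eq_mul, mul_one] at h1
    rw [hj, h1, zero_smul]
  by_cases hLp : Lloc p = ⊥
  · have hzero : ∀ u ∈ T, u = 0 := by
      intro u hu
      obtain ⟨j, hj⟩ := two_line_trunc hA h𝔅 Lloc hL hLp hι (hT hu)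
      exact hj0 u hu j hj
    have : T = ⊥ := by
      rw [eq_bot_iff]
      intro x hx
      rw [Submodule.mem_bot]
      exact hzero x hx
    subst this
    simp
  · have h1 : 1 ≤ finrank (ZMod 2) (Lloc p) := by
      rw [Nat.one_le_iff_ne_zero]
      intro h0
      exact hLp (Submodule.finrank_eq_zero.mp h0)
    refine le_trans (finrank_le_one_of_pairwise_dep T ?_) h1
    intro u₁ hu₁ u₂ hu₂
    obtain ⟨c₁, c₂, j, hc12, hcomb⟩ := two_line_full hp hA h𝔅 Lloc hL hι (hT hu₁) (hT hu₂)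
    refine ⟨c₁, c₂, hc12, ?_⟩
    exact hj0 _ (T.add_mem (T.smul_mem c₁ hu₁) (T.smul_mem c₂ hu₂)) j hcomb

end two

end Fermat.Agent.S15.Desc.H63
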