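import Fermat.Agent.S15.Desc.Defs
import Fermat.Agent.S15.Desc.H63_TwoBase

/-!
# S15 / DESC: the leaves for the descent prime `r = 2` (helper69)

Same leaves as for `r` odd (`S15/Desc/Defs.lean`, with `r = 2`), except:

| leaf | statement |
|---|---|
| LOC-U at 2 | `Stmt_LOCUTwo p` : the Kummer cocycles vanish on a member of a family `𝔅` with `H63.IsBddFamilyTwo 𝔅` |
| NUM-∞ at 2 | `Stmt_NUMinfTwo p` : a complex conjugation `c` and, for every Eisenstein projector `e`, a subspace `Vinf ≤ J[2]` containing the values at `c` of the Kummer cocycles, with `2 dim (W ∩ Vinf) ≤ dim W` |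

(`Vinf = e ((c - 1) J ∩ J[2])`; `(c - 1) J` is divisible, so `Vinf ⊆ 2^(n-1) ker (c + 1 | J[2^n])`
for all `n`, and the bound follows from the Betti description of `J[2^n]` with the action of `c`.)
-/

set_option autoImplicit false

noncomputable section

open ModularCurve Module

namespace Fermat.Agent.S15.Desc

open Fermat.Agent.S15

local notation "Qbar" => AlgebraicClosure ℚ

attribute [local instance] heckeInst

/-- (LOC-U at `2`). -/
def Stmt_LOCUTwo (p : ℕ) [NeZero p] : Prop :=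
  ∃ 𝔅 : Set (Subgroup GalQ), H63.IsBddFamilyTwo 𝔅 ∧
    ∀ (k : ℕ) (e : HeckeAlg), IsEisProj p 2 k e → ∀ y : JZero p, 2 • y ∈ ratPts p →
      ∃ H ∈ 𝔅, ∀ σ ∈ H, e • (σ • y - y) = 0

/-- (NUM-∞ at `2`). -/
def Stmt_NUMinfTwo (p : ℕ) [NeZero p] : Prop :=
  ∃ (c : GalQ) (i : Qbar), i ^ 2 = -1 ∧ c i ≠ i ∧ c * c = 1 ∧ ∃ k₀ : ℕ,
    ∀ (k : ℕ) (e : HeckeAlg), k₀ ≤ k → IsEisProj p 2 k e →
      ∃ Vinf : Submodule (ZMod 2) (TorsR (JZero p) 2),
        (∀ y ∈ kumDom GalQ (JZero p) 2, kumCoc 2 e y c ∈ Vinf) ∧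
        2 * finrank (ZMod 2) ↥(eisW (J := JZero p) 2 e ⊓ Vinf) ≤
          finrank (ZMod 2) ↥(eisW (J := JZero p) 2 e)

end Fermat.Agent.S15.Desc
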