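import Mathlib

/-!
# S15 / DESC / NUM-∞: the linear algebra (helper26)

`K` a field with `2 ≠ 0`, `V` a finite dimensional `K`-vector space, `E` an idempotent endomorphism,
`I` an involution commuting with `E`.  If `E (1 + I)` and `E (1 - I)` have the same characteristic
polynomial, then `dim (E V) ≤ 2 dim (E V ∩ ker (I + 1))`.

(The characteristic polynomial is the bridge from characteristic `0`: for integer matrices the
identity of characteristic polynomials is proved over `ℂ` and reduced modulo `r`.)
-/

set_option autoImplicit false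

namespace Fermat.Agent.S15.Desc.H26

open Module

section Alg

variable {K V : Type*} [Field K] [AddCommGroup V] [Module K V]

/-- `B² = 2B` for `B = E (1 + I)`. -/
theorem numInf_B_sq {E I : Module.End K V} (hE : E * E = E) (hI : I * I = 1)
    (hEI : Commute E I) : (E * (1 + I)) * (E * (1 + I)) = (2 : K) • (E * (1 + I)) := by
  have hc : Commute (1 + I) E := (Commute.one_left E).add_left hEI.symm
  calc (E * (1 + I)) * (E * (1 + I)) = E * ((1 + I) * E) * (1 + I) := by
        simp only [mul_assoc]
    _ = E * (E * (1 + I)) * (1 + I) := by rw [hc.eq]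
    _ = (E * E) * ((1 + I) * (1 + I)) := by simp only [mul_assoc]
    _ = E * ((1 + I) * (1 + I)) := by rw [hE]
    _ = E * ((2 : K) • (1 + I)) := by
        congr 1
        rw [two_smul, mul_add, mul_one, add_mul, one_mul, hI]
        abel
    _ = (2 : K) • (E * (1 + I)) := by rw [mul_smul_comm]

/-- `(B - 2)² = -2 (B - 2)` when `B² = 2 B`. -/
theorem numInf_sub_two_sq {B : Module.End K V} (hB : B * B = (2 : K) • B) :
    (B - (2 : K) • (1 : Module.End K V)) * (B - (2 : K) • (1 : Module.End K V)) =
      (-2 : K) • (B - (2 : K) • (1 : Module.End K V)) := by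
  ext v
  have hBv : B (B v) = (2 : K) • B v := by
    have := congrArg (fun f : Module.End K V => f v) hB
    simpa using this
  simp only [Module.End.mul_apply, LinearMap.sub_apply, LinearMap.smul_apply,
    Module.End.one_apply, map_sub, map_smul, hBv]
  module

theorem numInf_pow_eq_zero {B : Module.End K V} (h2 : (2 : K) ≠ 0) (hB : B * B = (2 : K) • B)
    (v : V) (k : ℕ) (hk : ((B - (2 : K) • (1 : Module.End K V)) ^ (k + 1)) v = 0) :
    (B - (2 : K) • (1 : Module.End K V)) v = 0 := by
  induction k with
  | zero => simpa using hk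
  | succ k ih =>
    apply ih
    have h1 : (B - (2 : K) • (1 : Module.End K V)) ^ (k + 1 + 1) =
        (-2 : K) • (B - (2 : K) • (1 : Module.End K V)) ^ (k + 1) := by
      rw [pow_succ, pow_succ, mul_assoc, numInf_sub_two_sq hB, mul_smul_comm]
    rw [h1, LinearMap.smul_apply] at hk
    have h3 : (-2 : K) ≠ 0 := neg_ne_zero.mpr h2
    exact (smul_eq_zero.mp hk).resolve_left h3

/-- The generalised eigenspace of `E (1 + I)` for the eigenvalue `2`. -/
theorem numInf_maxGenEigenspace (h2 : (2 : K) ≠ 0) {E I : Module.End K V} (hE : E * E = E)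
    (hI : I * I = 1) (hEI : Commute E I) :
    (E * (1 + I)).maxGenEigenspace (2 : K) =
      LinearMap.ker (E - 1) ⊓ LinearMap.ker (I - 1) := by
  have hB := numInf_B_sq hE hI hEI
  ext v
  rw [Module.End.mem_maxGenEigenspace, Submodule.mem_inf, LinearMap.mem_ker, LinearMap.mem_ker,
    LinearMap.sub_apply, LinearMap.sub_apply, Module.End.one_apply, sub_eq_zero, sub_eq_zero]
  constructor
  · rintro ⟨k, hk⟩
    have h1 : (E * (1 + I) - (2 : K) • (1 : Module.End K V)) v = 0 := by
      rcases k with _ | k
      · have : v = 0 := by simpa using hk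
        rw [this, map_zero]
      · exact numInf_pow_eq_zero h2 hB v k hk
    have h3 : E (v + I v) = (2 : K) • v := by
      have := sub_eq_zero.mp (by simpa using h1 : E (v + I v) - (2 : K) • v = 0)
      exact this
    have hII : I (I v) = v := by
      have := congrArg (fun f : Module.End K V => f v) hI
      simpa using this
    have hIE : ∀ w, I (E w) = E (I w) := fun w => by
      have := congrArg (fun f : Module.End K V => f w) hEI.eq
      simpa using this.symm
    have h4 : (2 : K) • I v = (2 : K) • v := by
      have : I (E (v + I v)) = I ((2 : K) • v) := by rw [h3]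
      rw [hIE, map_add, hII, map_smul, add_comm (I v) v, h3] at this
      exact this.symm
    have h5 : I v = v := smul_right_injective V h2 h4
    have h6 : (2 : K) • E v = (2 : K) • v := by
      rw [h5, ← two_smul K v, map_smul] at h3
      exact h3
    exact ⟨smul_right_injective V h2 h6, h5⟩
  · rintro ⟨h1, h2'⟩
    refine ⟨1, ?_⟩
    rw [pow_one, LinearMap.sub_apply, LinearMap.smul_apply, Module.End.one_apply,
      Module.End.mul_apply, LinearMap.add_apply, Module.End.one_apply, h2', ← two_smul K v,
      map_smul, h1, sub_self]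

variable [FiniteDimensional K V]

/-- **NUM-∞, linear algebra**: if `E (1 + I)` and `E (1 - I)` have the same characteristic
polynomial then `dim (E V) ≤ 2 dim (E V ∩ ker (I + 1))`. -/
theorem numInf_finrank_le (h2 : (2 : K) ≠ 0) {E I : Module.End K V} (hE : E * E = E)
    (hI : I * I = 1) (hEI : Commute E I)
    (hchar : (E * (1 + I)).charpoly = (E * (1 - I)).charpoly) :
    finrank K ↥(LinearMap.ker (E - 1)) ≤
      2 * finrank K ↥(LinearMap.ker (E - 1) ⊓ LinearMap.ker (I + 1)) := by
  have hI' : (-I) * (-I) = 1 := by rw [neg_mul_neg, hI]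
  have hEI' : Commute E (-I) := hEI.neg_right
  have hp := numInf_maxGenEigenspace h2 hE hI hEI
  have hm := numInf_maxGenEigenspace h2 hE hI' hEI'
  have hker : LinearMap.ker (-I - 1) = LinearMap.ker (I + 1) := by
    ext v
    simp only [LinearMap.mem_ker, LinearMap.sub_apply, LinearMap.neg_apply, LinearMap.add_apply,
      Module.End.one_apply]
    constructor
    · intro h
      have : I v + v = -(-I v - v) := by abel
      rw [this, h, neg_zero]
    · intro h
      have : -I v - v = -(I v + v) := by abel
      rw [this, h, neg_zero]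
  have hsub : E * (1 + -I) = E * (1 - I) := by rw [sub_eq_add_neg]
  rw [hsub, hker] at hm
  have e1 : finrank K ↥(LinearMap.ker (E - 1) ⊓ LinearMap.ker (I - 1)) =
      finrank K ↥(LinearMap.ker (E - 1) ⊓ LinearMap.ker (I + 1)) := by
    rw [← hp, ← hm, LinearMap.finrank_maxGenEigenspace_eq, LinearMap.finrank_maxGenEigenspace_eq,
      hchar]
  have hle : LinearMap.ker (E - 1) ≤
      (LinearMap.ker (E - 1) ⊓ LinearMap.ker (I - 1)) ⊔
        (LinearMap.ker (E - 1) ⊓ LinearMap.ker (I + 1)) := by
    intro v hv
    have hEv : E v = v := by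
      rw [LinearMap.mem_ker, LinearMap.sub_apply, Module.End.one_apply, sub_eq_zero] at hv
      exact hv
    have hII : I (I v) = v := by
      have := congrArg (fun f : Module.End K V => f v) hI
      simpa using this
    have hIE : ∀ w, I (E w) = E (I w) := fun w => by
      have := congrArg (fun f : Module.End K V => f w) hEI.eq
      simpa using this.symm
    have hdec : v = (2 : K)⁻¹ • (v + I v) + (2 : K)⁻¹ • (v - I v) := by
      rw [← smul_add]
      have : v + I v + (v - I v) = (2 : K) • v := by rw [two_smul]; abel
      rw [this, smul_smul, inv_mul_cancel₀ h2, one_smul]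
    rw [hdec]
    refine Submodule.add_mem_sup (Submodule.smul_mem _ _ ?_) (Submodule.smul_mem _ _ ?_)
    · refine Submodule.mem_inf.mpr ⟨?_, ?_⟩
      · rw [LinearMap.mem_ker, LinearMap.sub_apply, Module.End.one_apply, map_add, ← hIE, hEv,
          sub_self]
      · rw [LinearMap.mem_ker, LinearMap.sub_apply, Module.End.one_apply, map_add, hII]
        abel
    · refine Submodule.mem_inf.mpr ⟨?_, ?_⟩
      · rw [LinearMap.mem_ker, LinearMap.sub_apply, Module.End.one_apply, map_sub, ← hIE, hEv,
          sub_self]
      · rw [LinearMap.mem_ker, LinearMap.add_apply, Module.End.one_apply, map_sub, hII]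
        abel
  calc finrank K ↥(LinearMap.ker (E - 1))
      ≤ finrank K ↥((LinearMap.ker (E - 1) ⊓ LinearMap.ker (I - 1)) ⊔
        (LinearMap.ker (E - 1) ⊓ LinearMap.ker (I + 1))) := Submodule.finrank_mono hle
    _ ≤ finrank K ↥(LinearMap.ker (E - 1) ⊓ LinearMap.ker (I - 1)) +
        finrank K ↥(LinearMap.ker (E - 1) ⊓ LinearMap.ker (I + 1)) :=
      Submodule.finrank_add_le_finrank_add_finrank _ _
    _ = 2 * finrank K ↥(LinearMap.ker (E - 1) ⊓ LinearMap.ker (I + 1)) := by
      rw [e1, two_mul]

end Alg

end Fermat.Agent.S15.Desc.H26
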