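import Fermat.Agent.Betti.H76_MatrixRep

/-!
# S15 / DESC / NUM-∞: the characteristic `0` input (helper26)

`H_ℂ = Hom_par(Γ₀(N), ℂ)`, `ι` = `charInvolution`.  The Eichler–Shimura isomorphism
`Φ : S₂ × S₂ ≃ H_ℂ`, `(f, g) ↦ (1 + ι) P f + (1 - ι) P g` (`Fermat.Agent.S21.result`) intertwines
the Hecke operators and carries `(f, g) ↦ (f, -g)` to `ι`.  Hence `Ψ = Φ ∘ swap ∘ Φ⁻¹` is an
automorphism of `H_ℂ` commuting with the Betti Hecke operators and anticommuting with `ι`, and

* `charpoly_matW_plus_minus` : the integer matrices `M_w (1 + M_ι)` and `M_w (1 - M_ι)` have the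
  same characteristic polynomial;
* `trace_matW_mul_matI` : `trace (M_w M_ι) = 0`,

for the matrix `M_w` of every word `w` in the Betti Hecke operators in a universal basis `b`.
-/

set_option autoImplicit false

open CongruenceSubgroup ModularCurve ModularCurve.Period
open scoped MatrixGroups

noncomputable section

namespace Fermat.Agent.S15.Desc.H26

open Fermat.Agent.Betti Fermat.Agent.Betti.H76

section Complex

variable (N : ℕ) [NeZero N] (S : Set ℕ)

/-- `Hom_par(Γ₀(N), ℂ)`. -/
abbrev ParC : Submodule ℂ (Additive (Gamma0 N) →+ ℂ) := parabolicHoms ℂ (Gamma0 N) ℂ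

theorem periodHomPair_mem (x : CuspForm (Gamma0 N) 2 × CuspForm (Gamma0 N) 2) :
    periodHomPair N x ∈ ParC N := by
  have h : periodHomPair N x ∈ LinearMap.range (periodHomPair N) := ⟨x, rfl⟩
  rw [(Fermat.Agent.S21.result N).2] at h
  exact h

/-- The Eichler–Shimura isomorphism. -/
def esEquiv : (CuspForm (Gamma0 N) 2 × CuspForm (Gamma0 N) 2) ≃ₗ[ℂ] ParC N :=
  LinearEquiv.ofBijective ((periodHomPair N).codRestrict (ParC N) (periodHomPair_mem N))
    ⟨fun x y h => (Fermat.Agent.S21.result N).1 (congrArg Subtype.val h), fun φ => by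
      have h : (φ : Additive (Gamma0 N) →+ ℂ) ∈ parabolicHoms ℂ (Gamma0 N) ℂ := φ.2
      rw [← (Fermat.Agent.S21.result N).2] at h
      obtain ⟨x, hx⟩ := h
      exact ⟨x, Subtype.ext hx⟩⟩

theorem coe_esEquiv (x : CuspForm (Gamma0 N) 2 × CuspForm (Gamma0 N) 2) :
    ((esEquiv N x : ParC N) : Additive (Gamma0 N) →+ ℂ) = periodHomPair N x := rfl

theorem periodHomPair_apply (f g : CuspForm (Gamma0 N) 2) :
    periodHomPair N (f, g) =
      (periodMap N f + charInvolution N ℂ ℂ (periodMap N f)) +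
        (periodMap N g - charInvolution N ℂ ℂ (periodMap N g)) := by
  obtain ⟨pml, hpml, hdef⟩ := periodHomPair_def N
    (Fermat.Agent.S21.existsPeriodMapLinear_of_partA (Fermat.Agent.S21.partA N))
  rw [hdef]
  simp only [LinearMap.coprod_apply, LinearMap.comp_apply, LinearMap.add_apply,
    LinearMap.sub_apply, LinearMap.id_apply, hpml]

theorem periodMap_neg (g : CuspForm (Gamma0 N) 2) : periodMap N (-g) = -periodMap N g := by
  obtain ⟨pml, hpml⟩ :=
    Fermat.Agent.S21.existsPeriodMapLinear_of_partA (Fermat.Agent.S21.partA N)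
  rw [← hpml, ← hpml, map_neg]

/-- The Betti word operator on `Hom_par(Γ₀(N), ℂ)`. -/
def wordBC (w : FreeAlgebra ℤ (Gen S)) : Module.End ℂ (ParC N) where
  toFun φ := ⟨wordB N S ℂ w φ, wordB_mem_parabolicHoms N S ℂ w φ.2⟩
  map_add' φ ψ := Subtype.ext (map_add (wordB N S ℂ w) (φ : Additive (Gamma0 N) →+ ℂ) ψ)
  map_smul' c φ := Subtype.ext (wordB_smul N S w c φ)

theorem coe_wordBC (w : FreeAlgebra ℤ (Gen S)) (φ : ParC N) :
    ((wordBC N S w φ : ParC N) : Additive (Gamma0 N) →+ ℂ) = wordB N S ℂ w φ := rfl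

/-- The involution on `Hom_par(Γ₀(N), ℂ)`. -/
def invC : Module.End ℂ (ParC N) :=
  (charInvolution N ℂ ℂ).restrict (fun _ h => charInvolution_mem_parabolicHoms N ℂ ℂ h)

omit [NeZero N] in
theorem coe_invC (φ : ParC N) :
    ((invC N φ : ParC N) : Additive (Gamma0 N) →+ ℂ) = charInvolution N ℂ ℂ φ := rfl

theorem esEquiv_wordS (w : FreeAlgebra ℤ (Gen S)) (f g : CuspForm (Gamma0 N) 2) :
    esEquiv N (wordS N S w f, wordS N S w g) = wordBC N S w (esEquiv N (f, g)) := by
  apply Subtype.ext
  rw [coe_wordBC, coe_esEquiv, coe_esEquiv, periodHomPair_apply, periodHomPair_apply,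
    map_add, map_sub, map_add, ← wordB_charInvolution, ← wordB_charInvolution,
    ← periodMap_wordS, ← periodMap_wordS]

theorem invC_esEquiv (f g : CuspForm (Gamma0 N) 2) :
    invC N (esEquiv N (f, g)) = esEquiv N (f, -g) := by
  apply Subtype.ext
  rw [coe_invC, coe_esEquiv, coe_esEquiv, periodHomPair_apply, periodHomPair_apply,
    map_add, map_sub, map_add, charInvolution_charInvolution, charInvolution_charInvolution,
    periodMap_neg, map_neg]
  abel

/-- The automorphism `Ψ = Φ ∘ swap ∘ Φ⁻¹`. -/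
def swapC : ParC N ≃ₗ[ℂ] ParC N :=
  ((esEquiv N).symm.trans
    (LinearEquiv.prodComm ℂ (CuspForm (Gamma0 N) 2) (CuspForm (Gamma0 N) 2))).trans (esEquiv N)

theorem swapC_esEquiv (f g : CuspForm (Gamma0 N) 2) :
    swapC N (esEquiv N (f, g)) = esEquiv N (g, f) := by
  simp [swapC]

theorem swapC_wordBC (w : FreeAlgebra ℤ (Gen S)) (φ : ParC N) :
    swapC N (wordBC N S w φ) = wordBC N S w (swapC N φ) := by
  obtain ⟨⟨f, g⟩, rfl⟩ := (esEquiv N).surjective φ
  rw [← esEquiv_wordS, swapC_esEquiv, swapC_esEquiv, esEquiv_wordS]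

theorem swapC_invC (φ : ParC N) : swapC N (invC N φ) = -invC N (swapC N φ) := by
  obtain ⟨⟨f, g⟩, rfl⟩ := (esEquiv N).surjective φ
  rw [invC_esEquiv, swapC_esEquiv, swapC_esEquiv, invC_esEquiv, ← map_neg]
  congr 1
  simp

instance instFiniteParC : Module.Finite ℂ (ParC N) :=
  haveI := Fermat.Agent.S21.finite_cuspForm N
  Module.Finite.equiv (esEquiv N)

theorem conj_wordBC_invC (w : FreeAlgebra ℤ (Gen S)) :
    (swapC N).conj (wordBC N S w * (1 + invC N)) = wordBC N S w * (1 - invC N) := by
  ext1 φ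
  obtain ⟨ψ, rfl⟩ := (swapC N).surjective φ
  rw [LinearEquiv.conj_apply_apply, LinearEquiv.symm_apply_apply, Module.End.mul_apply,
    Module.End.mul_apply, LinearMap.add_apply, LinearMap.sub_apply, Module.End.one_apply,
    Module.End.one_apply, swapC_wordBC, map_add, swapC_invC, sub_eq_add_neg]

/-- Over `ℂ`: `T (1 + ι)` and `T (1 - ι)` have the same characteristic polynomial. -/
theorem charpoly_wordBC (w : FreeAlgebra ℤ (Gen S)) :
    (wordBC N S w * (1 + invC N)).charpoly = (wordBC N S w * (1 - invC N)).charpoly := by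
  rw [← conj_wordBC_invC, LinearEquiv.charpoly_conj]

theorem conj_wordBC_mul_invC (w : FreeAlgebra ℤ (Gen S)) :
    (swapC N).conj (wordBC N S w * invC N) = -(wordBC N S w * invC N) := by
  ext1 φ
  obtain ⟨ψ, rfl⟩ := (swapC N).surjective φ
  rw [LinearEquiv.conj_apply_apply, LinearEquiv.symm_apply_apply, Module.End.mul_apply,
    LinearMap.neg_apply, Module.End.mul_apply, swapC_wordBC, swapC_invC, map_neg]

/-- Over `ℂ`: `trace (T ι) = 0`. -/
theorem trace_wordBC_mul_invC (w : FreeAlgebra ℤ (Gen S)) :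
    LinearMap.trace ℂ (ParC N) (wordBC N S w * invC N) = 0 := by
  have h := LinearMap.trace_conj' (wordBC N S w * invC N) (swapC N)
  rw [conj_wordBC_mul_invC] at h
  have hneg : LinearMap.trace ℂ (ParC N) (-(wordBC N S w * invC N)) =
      -LinearMap.trace ℂ (ParC N) (wordBC N S w * invC N) :=
    (LinearMap.trace ℂ (ParC N)).map_neg (wordBC N S w * invC N)
  have h3 : LinearMap.trace ℂ (ParC N) (wordBC N S w * invC N) =
      -LinearMap.trace ℂ (ParC N) (wordBC N S w * invC N) := h.symm.trans hneg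
  have h2 : (2 : ℂ) * LinearMap.trace ℂ (ParC N) (wordBC N S w * invC N) = 0 := by
    rw [two_mul]
    nth_rewrite 1 [h3]
    exact neg_add_cancel _
  exact (mul_eq_zero.mp h2).resolve_left two_ne_zero

end Complex

section Matrices

variable {N : ℕ} [NeZero N] (S : Set ℕ) {n : ℕ} {b : Fin n → (Additive (Gamma0 N) →+ ℤ)}

/-- The complexification of an integral parabolic homomorphism. -/
def toParC (φ : ParZ N) : ParC N :=
  ⟨(Int.castAddHom ℂ).comp (φ : Additive (Gamma0 N) →+ ℤ),
    castHom_complex_comp_mem_parabolicHoms N φ.2⟩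

omit [NeZero N] in
theorem coe_toParC (φ : ParZ N) :
    ((toParC φ : ParC N) : Additive (Gamma0 N) →+ ℂ) =
      (Int.castAddHom ℂ).comp (φ : Additive (Gamma0 N) →+ ℤ) := rfl

omit [NeZero N] in
theorem toParC_apply (φ : ParZ N) (γ : Additive (Gamma0 N)) :
    ((toParC φ : ParC N) : Additive (Gamma0 N) →+ ℂ) γ =
      (((φ : Additive (Gamma0 N) →+ ℤ) γ : ℤ) : ℂ) := rfl

omit [NeZero N] in
theorem toParC_sum_smul (c : Fin n → ℤ) (φ : Fin n → ParZ N) :
    toParC (∑ i, c i • φ i) = ∑ i, (c i : ℂ) • toParC (φ i) := by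
  apply Subtype.ext
  refine AddMonoidHom.ext fun γ => ?_
  rw [toParC_apply]
  simp only [Submodule.coe_sum, Submodule.coe_smul, AddMonoidHom.coe_finsetSum,
    Finset.sum_apply, AddMonoidHom.coe_smul, Pi.smul_apply, smul_eq_mul, Int.cast_sum,
    Int.cast_mul]
  refine Finset.sum_congr rfl fun i _ => ?_
  rfl

variable (hb : IsParBasis N b)

/-- The complexification of a universal basis is a basis of `Hom_par(Γ₀(N), ℂ)`. -/
def parBasisC (hb : IsParBasis N b) : Module.Basis (Fin n) ℂ (ParC N) :=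
  Module.Basis.mk (v := fun i => toParC (parBasis hb i))
    (by
      rw [Fintype.linearIndependent_iff]
      intro g hg
      obtain ⟨a, -, ha⟩ := hb.2 ℂ (0 : Additive (Gamma0 N) →+ ℂ) (fun _ _ => rfl)
      have h1 : g = a := by
        apply ha
        intro γ
        have h2 := congrArg (fun φ : ParC N => (φ : Additive (Gamma0 N) →+ ℂ) γ) hg
        simp only [Submodule.coe_sum, Submodule.coe_smul, AddMonoidHom.coe_finsetSum,
          Finset.sum_apply, AddMonoidHom.coe_smul, Pi.smul_apply, smul_eq_mul,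
          ZeroMemClass.coe_zero, AddMonoidHom.zero_apply, toParC_apply, parBasis_apply] at h2
        rw [AddMonoidHom.zero_apply, ← h2]
        exact Finset.sum_congr rfl fun i _ => by rw [zsmul_eq_mul, mul_comm]
      have h3 : (0 : Fin n → ℂ) = a := by
        apply ha
        intro γ
        simp
      intro i
      rw [h1, ← h3]
      rfl)
    (by
      rintro ⟨φ, hφ⟩ -
      obtain ⟨a, ha, -⟩ := hb.2 ℂ φ hφ
      have : (⟨φ, hφ⟩ : ParC N) = ∑ i, a i • toParC (parBasis hb i) := by
        apply Subtype.ext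
        refine AddMonoidHom.ext fun γ => ?_
        simp only [Submodule.coe_sum, Submodule.coe_smul, AddMonoidHom.coe_finsetSum,
          Finset.sum_apply, AddMonoidHom.coe_smul, Pi.smul_apply, smul_eq_mul, toParC_apply,
          parBasis_apply]
        rw [ha γ]
        exact Finset.sum_congr rfl fun i _ => by rw [zsmul_eq_mul, mul_comm]
      rw [this]
      exact Submodule.sum_mem _ fun i _ =>
        Submodule.smul_mem _ _ (Submodule.subset_span ⟨i, rfl⟩))

omit [NeZero N] in
theorem parBasisC_apply (i : Fin n) : parBasisC hb i = toParC (parBasis hb i) := by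
  simp [parBasisC]

/-- The involution on `Hom_par(Γ₀(N), ℤ)`. -/
def invZ (N : ℕ) : Module.End ℤ (ParZ N) :=
  (charInvolution N ℤ ℤ).restrict (fun _ h => charInvolution_mem_parabolicHoms N ℤ ℤ h)

omit [NeZero N] in
theorem coe_invZ (φ : ParZ N) :
    ((invZ N φ : ParZ N) : Additive (Gamma0 N) →+ ℤ) = charInvolution N ℤ ℤ φ := rfl

/-- The matrix of a word in the Betti Hecke operators. -/
def matW (w : FreeAlgebra ℤ (Gen S)) : Matrix (Fin n) (Fin n) ℤ :=
  LinearMap.toMatrix (parBasis hb) (parBasis hb) (wordBL N S w)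

/-- The matrix of the involution. -/
def matI : Matrix (Fin n) (Fin n) ℤ :=
  LinearMap.toMatrix (parBasis hb) (parBasis hb) (invZ N)

omit [NeZero N] in
theorem end_parBasis (f : Module.End ℤ (ParZ N)) (j : Fin n) :
    f (parBasis hb j) =
      ∑ i, LinearMap.toMatrix (parBasis hb) (parBasis hb) f i j • parBasis hb i := by
  conv_lhs => rw [← Matrix.toLin_toMatrix (parBasis hb) (parBasis hb) f]
  rw [Matrix.toLin_self]

omit [NeZero N] in
theorem toMatrix_of_parBasisC (f : Module.End ℂ (ParC N)) (g : Module.End ℤ (ParZ N))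
    (h : ∀ φ : ParZ N, f (toParC φ) = toParC (g φ)) :
    LinearMap.toMatrix (parBasisC hb) (parBasisC hb) f =
      (LinearMap.toMatrix (parBasis hb) (parBasis hb) g).map (Int.castRingHom ℂ) := by
  have h1 : f = Matrix.toLin (parBasisC hb) (parBasisC hb)
      ((LinearMap.toMatrix (parBasis hb) (parBasis hb) g).map (Int.castRingHom ℂ)) := by
    apply (parBasisC hb).ext
    intro j
    rw [Matrix.toLin_self, parBasisC_apply, h, end_parBasis hb g j, toParC_sum_smul]
    refine Finset.sum_congr rfl fun i _ => ?_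
    rw [parBasisC_apply]
    rfl
  conv_lhs => rw [h1]
  rw [LinearMap.toMatrix_toLin]

theorem wordBC_toParC (w : FreeAlgebra ℤ (Gen S)) (φ : ParZ N) :
    wordBC N S w (toParC φ) = toParC (wordBL N S w φ) := by
  apply Subtype.ext
  rw [coe_wordBC, coe_toParC, coe_toParC, wordBL_coe, wordB_comp]

omit [NeZero N] in
theorem invC_toParC (φ : ParZ N) : invC N (toParC φ) = toParC (invZ N φ) := by
  apply Subtype.ext
  rfl

theorem toMatrix_wordBC (w : FreeAlgebra ℤ (Gen S)) :
    LinearMap.toMatrix (parBasisC hb) (parBasisC hb) (wordBC N S w) =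
      (matW S hb w).map (Int.castRingHom ℂ) :=
  toMatrix_of_parBasisC hb _ _ (wordBC_toParC S w)

omit [NeZero N] in
theorem toMatrix_invC :
    LinearMap.toMatrix (parBasisC hb) (parBasisC hb) (invC N) =
      (matI hb).map (Int.castRingHom ℂ) :=
  toMatrix_of_parBasisC hb _ _ invC_toParC

omit [NeZero N] in
theorem matI_mul_matI : matI hb * matI hb = 1 := by
  unfold matI
  rw [← LinearMap.toMatrix_mul]
  have : invZ N * invZ N = 1 := by
    ext1 φ
    apply Subtype.ext
    rw [Module.End.mul_apply, coe_invZ, coe_invZ, charInvolution_charInvolution]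
    rfl
  rw [this, LinearMap.toMatrix_one]

theorem matW_comm_matI (w : FreeAlgebra ℤ (Gen S)) :
    matW S hb w * matI hb = matI hb * matW S hb w := by
  unfold matI matW
  rw [← LinearMap.toMatrix_mul, ← LinearMap.toMatrix_mul]
  congr 1
  ext1 φ
  apply Subtype.ext
  rw [Module.End.mul_apply, Module.End.mul_apply, wordBL_coe, coe_invZ, coe_invZ, wordBL_coe,
    wordB_charInvolution]

omit [NeZero N] in
theorem toParC_add (φ ψ : ParZ N) : toParC (φ + ψ) = toParC φ + toParC ψ := by
  apply Subtype.ext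
  refine AddMonoidHom.ext fun γ => ?_
  show (((φ + ψ : ParZ N) : Additive (Gamma0 N) →+ ℤ) γ : ℂ) = _
  simp [toParC_apply]

omit [NeZero N] in
theorem toParC_sub (φ ψ : ParZ N) : toParC (φ - ψ) = toParC φ - toParC ψ := by
  apply Subtype.ext
  refine AddMonoidHom.ext fun γ => ?_
  show (((φ - ψ : ParZ N) : Additive (Gamma0 N) →+ ℤ) γ : ℂ) = _
  simp [toParC_apply]

theorem charpoly_of_parBasisC (f : Module.End ℂ (ParC N)) (g : Module.End ℤ (ParZ N))
    (h : ∀ φ : ParZ N, f (toParC φ) = toParC (g φ)) :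
    f.charpoly = (LinearMap.toMatrix (parBasis hb) (parBasis hb) g).charpoly.map
      (Int.castRingHom ℂ) := by
  rw [← LinearMap.charpoly_toMatrix f (parBasisC hb), toMatrix_of_parBasisC hb f g h,
    Matrix.charpoly_map]

omit [NeZero N] in
theorem toMatrix_mul_one_add (g : Module.End ℤ (ParZ N)) :
    LinearMap.toMatrix (parBasis hb) (parBasis hb) (g * (1 + invZ N)) =
      LinearMap.toMatrix (parBasis hb) (parBasis hb) g * (1 + matI hb) := by
  rw [LinearMap.toMatrix_mul, map_add, LinearMap.toMatrix_one]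
  rfl

omit [NeZero N] in
theorem toMatrix_mul_one_sub (g : Module.End ℤ (ParZ N)) :
    LinearMap.toMatrix (parBasis hb) (parBasis hb) (g * (1 - invZ N)) =
      LinearMap.toMatrix (parBasis hb) (parBasis hb) g * (1 - matI hb) := by
  rw [LinearMap.toMatrix_mul]
  congr 1
  have h1 : (1 : Module.End ℤ (ParZ N)) - invZ N = 1 + -invZ N := sub_eq_add_neg _ _
  rw [h1, map_add, LinearMap.toMatrix_one, sub_eq_add_neg]
  congr 1
  exact map_neg (LinearMap.toMatrix (parBasis hb) (parBasis hb)) (invZ N)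

/-- **NUM-∞, characteristic zero**: `M_w (1 + M_ι)` and `M_w (1 - M_ι)` have the same
characteristic polynomial. -/
theorem charpoly_matW_plus_minus (w : FreeAlgebra ℤ (Gen S)) :
    (matW S hb w * (1 + matI hb)).charpoly = (matW S hb w * (1 - matI hb)).charpoly := by
  apply Polynomial.map_injective (Int.castRingHom ℂ) Int.cast_injective
  have hp := charpoly_of_parBasisC hb (wordBC N S w * (1 + invC N))
    (wordBL N S w * (1 + invZ N)) (fun φ => by
      rw [Module.End.mul_apply, Module.End.mul_apply, LinearMap.add_apply,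
        LinearMap.add_apply, Module.End.one_apply, Module.End.one_apply, invC_toParC,
        ← toParC_add, wordBC_toParC])
  have hm := charpoly_of_parBasisC hb (wordBC N S w * (1 - invC N))
    (wordBL N S w * (1 - invZ N)) (fun φ => by
      rw [Module.End.mul_apply, Module.End.mul_apply, LinearMap.sub_apply,
        LinearMap.sub_apply, Module.End.one_apply, Module.End.one_apply, invC_toParC,
        ← toParC_sub, wordBC_toParC])
  rw [toMatrix_mul_one_add] at hp
  rw [toMatrix_mul_one_sub] at hm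
  exact hp.symm.trans ((charpoly_wordBC N S w).trans hm)

/-- **NUM-∞, characteristic zero**: `trace (M_w M_ι) = 0`. -/
theorem trace_matW_mul_matI (w : FreeAlgebra ℤ (Gen S)) :
    (matW S hb w * matI hb).trace = 0 := by
  have h := trace_wordBC_mul_invC N S w
  rw [LinearMap.trace_eq_matrix_trace ℂ (parBasisC hb), LinearMap.toMatrix_mul,
    toMatrix_wordBC S hb w, toMatrix_invC hb, ← Matrix.map_mul] at h
  have h2 : ((matW S hb w * matI hb).map (Int.castRingHom ℂ)).trace =
      (((matW S hb w * matI hb).trace : ℤ) : ℂ) := by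
    simp [Matrix.trace]
  rw [h2] at h
  exact_mod_cast h

end Matrices

end Fermat.Agent.S15.Desc.H26
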