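import Fermat.Agent.GTor.TateDefs
import Fermat.Agent.GTor.H56_Common

/-!
# S15 / DESC, NUM-∞, leaf N3: the reflection principle (helper97)

Complex conjugation on the Kummer–Betti dictionary of G-TOR.  `J = diag(-1, 1)`, so that
`(F ∣[k] J) τ = conj (F (-conj τ))` (Mathlib's slash action of `GL₂(ℝ)`).

* `isTwistedForm_slashJ` : `R` twisted form with multiplier `ζ ^ φ` ⟹ `R ∣ J` twisted form with
  multiplier `ζ ^ (-φ ∘ jConj)`;
* `qExpansion_slashJ_coeff`, `qLaurent_slashJ` : the `q`-expansion of `F ∣ J` has the conjugate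
  coefficients;
* `reflForm B` : the modular form `B ∣ J` on `Γ₀(N)`;
* `hasChar_conj` : `HasChar N n f φ → HasChar N n (conj f) (-φ ∘ jConj)`;
* `torChar_conj`, `torChar_conj'` (**N3**): if `ι ∘ c = conj ∘ ι` then
  `TorChar N n ι x φ → TorChar N n ι (c • x) (-(charInvolution N ℤ (ZMod n) φ))`.
-/

set_option autoImplicit false

open UpperHalfPlane ModularForm CongruenceSubgroup Function
open scoped MatrixGroups ModularForm Manifold ComplexConjugate

noncomputable section

namespace Fermat.Agent.S15.Desc.H97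

open Fermat.Agent.GTor Fermat.Agent.GTor.H56 ModularCurve.Period
open Fermat.Agent.S23.H22 (Nice)

/-- Slash by `J` is `F ↦ conj ∘ F ∘ (τ ↦ -conj τ)`, in every weight. -/
theorem slashJ_apply (k : ℤ) (F : ℍ → ℂ) (τ : ℍ) : (F ∣[k] J) τ = conj (F (J • τ)) := by
  simp [ModularForm.slash_apply]

theorem J_mul_J : (J * J : GL (Fin 2) ℝ) = 1 := by
  rw [← sq, J_sq]

theorem J_smul_J_smul (τ : ℍ) : J • J • τ = τ := by
  rw [← mul_smul, J_mul_J, one_smul]

theorem im_J_smul (τ : ℍ) : (J • τ).im = τ.im := by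
  have h := coe_J_smul τ
  have : ((J • τ : ℍ) : ℂ).im = (τ : ℂ).im := by
    rw [h]; simp
  exact this

/-- `J γ = jConj(γ) J` in `GL₂(ℝ)`. -/
theorem J_mul_SL (γ : SL(2, ℤ)) :
    J * (Matrix.SpecialLinearGroup.mapGL ℝ γ : GL (Fin 2) ℝ) =
      (Matrix.SpecialLinearGroup.mapGL ℝ (jConjSL γ) : GL (Fin 2) ℝ) * J := by
  ext i j
  fin_cases i <;> fin_cases j <;>
    simp [Matrix.mul_apply, Fin.sum_univ_two, jConjMat]

/-- `(F ∣ J) ∣ γ = (F ∣ jConj γ) ∣ J`. -/
theorem slashJ_slash_SL (k : ℤ) (F : ℍ → ℂ) (γ : SL(2, ℤ)) :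
    (F ∣[k] J) ∣[k] γ = (F ∣[k] (jConjSL γ)) ∣[k] J := by
  rw [SL_slash, SL_slash, ← SlashAction.slash_mul, ← SlashAction.slash_mul]
  congr 1
  exact J_mul_SL γ

theorem isBoundedAtImInfty_slashJ {F : ℍ → ℂ} (hF : IsBoundedAtImInfty F) (k : ℤ) :
    IsBoundedAtImInfty (F ∣[k] J) := by
  rw [isBoundedAtImInfty_iff] at hF ⊢
  obtain ⟨M, A, h⟩ := hF
  refine ⟨M, A, fun z hz => ?_⟩
  rw [slashJ_apply, RCLike.norm_conj]
  exact h _ (by rw [im_J_smul]; exact hz)

theorem conj_zetaPow (n : ℕ) (a : ZMod n) : conj (zetaPow n a) = zetaPow n (-a) := by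
  have h1 : zetaPow n a * zetaPow n (-a) = 1 := by
    rw [← zetaPow_add, add_neg_cancel, zetaPow_zero]
  have h2 : ‖zetaPow n a‖ = 1 := by
    rw [zetaPow]
    have : (2 * (Real.pi : ℂ) * Complex.I * ((ZMod.val a : ℕ) : ℂ) / (n : ℂ)) =
        ((2 * Real.pi * (ZMod.val a : ℝ) / (n : ℝ) : ℝ) : ℂ) * Complex.I := by
      push_cast; ring
    rw [this, Complex.norm_exp_ofReal_mul_I]
  have h3 : zetaPow n a * conj (zetaPow n a) = 1 := by
    rw [Complex.mul_conj, Complex.normSq_eq_norm_sq, h2]; simp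
  have h0 : zetaPow n a ≠ 0 := fun h => by rw [h, zero_mul] at h1; exact zero_ne_one h1
  exact mul_left_cancel₀ h0 (h3.trans h1.symm)

variable {N n : ℕ} {k : ℤ} {φ : Additive (Gamma0 N) →+ ZMod n} {R : ℍ → ℂ}

/-- **Reflection of twisted forms**: `R ∣ J` is a twisted form with multiplier
`ζ ^ (-φ ∘ jConj)`. -/
theorem isTwistedForm_slashJ (h : IsTwistedForm N n k φ R) :
    IsTwistedForm N n k (-(φ.comp (MonoidHom.toAdditive (jConjGamma0 N)))) (R ∣[k] J) where
  mdiff := h.mdiff.slash k J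
  slash γ := by
    rw [slashJ_slash_SL]
    have h1 := h.slash (jConjGamma0 N γ)
    rw [jConjGamma0_coe] at h1
    rw [h1, ModularForm.smul_slash, sigma_J]
    congr 1
    show conj (zetaPow n _) = zetaPow n _
    rw [conj_zetaPow]
    rfl
  bdd σ := by
    rw [slashJ_slash_SL]
    exact isBoundedAtImInfty_slashJ (h.bdd _) k


/-! ### `q`-expansions -/

/-- `𝕢 (J • τ) = conj (𝕢 τ)`. -/
theorem qParam_J_smul (τ : ℍ) :
    Periodic.qParam 1 ((J • τ : ℍ) : ℂ) = conj (Periodic.qParam 1 (τ : ℂ)) := by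
  rw [coe_J_smul, Periodic.qParam, Periodic.qParam, ← Complex.exp_conj]
  congr 1
  simp only [map_div₀, map_mul, Complex.conj_ofReal, Complex.conj_I, map_ofNat, Complex.ofReal_one,
    map_one]
  ring

/-- The `q`-expansion of `F ∣ J` has the conjugate coefficients. -/
theorem qExpansion_slashJ_coeff {F : ℍ → ℂ} (k : ℤ) (hF : Nice 1 F) (hFc : Nice 1 (F ∣[k] J))
    (m : ℕ) : (qExpansion 1 (F ∣[k] J)).coeff m = conj ((qExpansion 1 F).coeff m) := by
  have hsum : ∀ τ : ℍ, HasSum (fun m : ℕ =>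
      conj ((qExpansion 1 F).coeff m) • Periodic.qParam 1 (τ : ℂ) ^ m) ((F ∣[k] J) τ) := by
    intro τ
    have h2 := hasSum_qExpansion one_pos hF.per hF.hol hF.bdd (J • τ)
    rw [qParam_J_smul] at h2
    have h3 := Complex.hasSum_conj'.2 h2
    rw [slashJ_apply]
    have h4 : (fun m : ℕ => conj ((qExpansion 1 F).coeff m) • Periodic.qParam 1 (τ : ℂ) ^ m) =
        fun m : ℕ => conj ((qExpansion 1 F).coeff m • conj (Periodic.qParam 1 (τ : ℂ)) ^ m) := by
      funext m
      simp only [smul_eq_mul, map_mul, map_pow, Complex.conj_conj]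
    rw [h4]
    exact h3
  exact (UpperHalfPlane.qExpansion_coeff_unique (ContinuousMap.mk _ hFc.hol.continuous) one_pos
    (hFc.analyticAt one_pos) hsum m).symm


/-- Complex conjugation, as an automorphism of `ℂ` over `ℚ`. -/
def conjQ : ℂ ≃ₐ[ℚ] ℂ := Complex.conjAe.restrictScalars ℚ

theorem conjQ_apply (z : ℂ) : (conjQ : ℂ →+* ℂ) z = conj z := rfl

/-- The `q`-expansion of `F ∣ J` is the conjugate series. -/
theorem qLaurent_slashJ {F : ℍ → ℂ} (k : ℤ) (hF : Nice 1 F) (hFc : Nice 1 (F ∣[k] J)) :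
    qLaurent (F ∣[k] J) = ModularCurve.coeffMap (conjQ : ℂ →+* ℂ) (qLaurent F) := by
  ext m
  rw [ModularCurve.coeffMap_coeff, conjQ_apply]
  rcases lt_or_ge m 0 with hm | hm
  · rw [qLaurent, qLaurent, ModularCurve.ofPowerSeries_coeff_of_neg _ hm,
      ModularCurve.ofPowerSeries_coeff_of_neg _ hm, map_zero]
  · lift m to ℕ using hm
    rw [qLaurent, qLaurent, HahnSeries.ofPowerSeries_apply_coeff,
      HahnSeries.ofPowerSeries_apply_coeff, qExpansion_slashJ_coeff k hF hFc]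

theorem pow_slashJ (k : ℤ) (n : ℕ) (R : ℍ → ℂ) :
    (fun z => (R ∣[k] J) z ^ n) = (fun z => R z ^ n) ∣[(n : ℤ) * k] J := by
  funext z
  rw [slashJ_apply, slashJ_apply, map_pow]

variable [NeZero N]

/-- The reflected modular form `B ∣ J`. -/
def reflForm (B : ModularForm (Gamma0 N) k) : ModularForm (Gamma0 N) k :=
  toModularForm (n := 1) (R := (B : ℍ → ℂ) ∣[k] J) (by
    have h := isTwistedForm_slashJ (isTwistedForm_of_modularForm (N := N) 1 B)
    have h0 : (-((0 : Additive (Gamma0 N) →+ ZMod 1).comp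
        (MonoidHom.toAdditive (jConjGamma0 N)))) = 0 := by
      ext γ
      simp
    rw [h0] at h
    exact h)

theorem reflForm_coe (B : ModularForm (Gamma0 N) k) :
    (reflForm B : ℍ → ℂ) = (B : ℍ → ℂ) ∣[k] J := rfl

theorem reflForm_ne_zero {B : ModularForm (Gamma0 N) k} (hB : B ≠ 0) : reflForm B ≠ 0 := by
  intro h
  apply hB
  ext τ
  have h1 : (reflForm B : ℍ → ℂ) (J • τ) = 0 := by rw [h]; rfl
  rw [reflForm_coe, slashJ_apply, J_smul_J_smul] at h1
  have h2 := congrArg conj h1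
  rw [Complex.conj_conj, map_zero] at h2
  exact h2

/-- **Reflection for `HasChar`**: if `f` has character `φ`, the conjugate series has character
`-φ ∘ jConj`. -/
theorem hasChar_conj {f : FNL ℂ N} (hf : HasChar N n f φ) :
    HasChar N n ⟨ModularCurve.coeffMap (conjQ : ℂ →+* ℂ) (f : LaurentSeries ℂ),
        ModularCurve.coeffMap_mem_laurentBaseChange conjQ f.2⟩
      (-(φ.comp (MonoidHom.toAdditive (jConjGamma0 N)))) := by
  obtain ⟨k, R, B, hR, hB, h⟩ := hf
  have hRc := isTwistedForm_slashJ hR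
  refine ⟨k, R ∣[k] J, reflForm B, hRc, reflForm_ne_zero hB, ?_⟩
  have hBn : Nice 1 (fun z => (B : ℍ → ℂ) z ^ n) :=
    (isTwistedForm_of_modularForm (N := N) n B).nice_pow
  have hBcn : Nice 1 (fun z => (reflForm B : ℍ → ℂ) z ^ n) :=
    (isTwistedForm_of_modularForm (N := N) n (reflForm B)).nice_pow
  have e1 : (fun z => (R ∣[k] J) z ^ n) = (fun z => R z ^ n) ∣[(n : ℤ) * k] J := pow_slashJ k n R
  have e2 : (fun z => (reflForm B : ℍ → ℂ) z ^ n) =
      (fun z => (B : ℍ → ℂ) z ^ n) ∣[(n : ℤ) * k] J := by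
    rw [reflForm_coe]; exact pow_slashJ k n B
  have q1 : qLaurent (fun z => (R ∣[k] J) z ^ n) =
      ModularCurve.coeffMap (conjQ : ℂ →+* ℂ) (qLaurent (fun z => R z ^ n)) := by
    rw [e1]
    exact qLaurent_slashJ _ hR.nice_pow (e1 ▸ hRc.nice_pow)
  have q2 : qLaurent (fun z => (reflForm B : ℍ → ℂ) z ^ n) =
      ModularCurve.coeffMap (conjQ : ℂ →+* ℂ) (qLaurent (fun z => (B : ℍ → ℂ) z ^ n)) := by
    rw [e2]
    exact qLaurent_slashJ _ hBn (e2 ▸ hBcn)
  rw [q1, q2, h, map_mul]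


set_option maxHeartbeats 1600000 in
set_option synthInstance.maxHeartbeats 400000 in
open AlgebraicCurve ModularCurve in
/-- **N3 (reflection principle)**: if `c ∈ G_ℚ` induces complex conjugation under the embedding
`ι : ℚ̄ → ℂ` and the torsion class `x` has Betti character `φ`, then `c • x` has Betti character
`-φ ∘ jConj`. -/
theorem torChar_conj (ι : AlgebraicClosure ℚ →+* ℂ) (c : GQ)
    (hc : ∀ a : AlgebraicClosure ℚ, ι (c a) = conj (ι a)) {x : JZero N}
    (h : TorChar N n ι x φ) :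
    TorChar N n ι (c • x) (-(φ.comp (MonoidHom.toAdditive (jConjGamma0 N)))) := by
  obtain ⟨D, f, f', hf0, hx, hD, hcoef, hchar⟩ := h
  refine ⟨SemilinearAut.degZeroSMulHom (arithmeticGalois (modularFunctionFieldFull N) c) D,
    arithmeticGalois (modularFunctionFieldFull N) c • f,
    ⟨ModularCurve.coeffMap (conjQ : ℂ →+* ℂ) (f' : LaurentSeries ℂ),
      ModularCurve.coeffMap_mem_laurentBaseChange conjQ f'.2⟩, ?_, ?_, ?_, ?_, hasChar_conj hchar⟩
  · intro h0
    exact hf0 ((smul_eq_zero_iff_eq _).1 h0)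
  · rw [hx, galois_smul_pic0_def, SemilinearAut.pic0_smul_mk]
  · intro v
    rw [SemilinearAut.coe_degZeroSMulHom, SemilinearAut.divisor_smul_apply,
      hD ((arithmeticGalois (modularFunctionFieldFull N) c)⁻¹ • v)]
    have := SemilinearAut.ord_smul (arithmeticGalois (modularFunctionFieldFull N) c)
      ((arithmeticGalois (modularFunctionFieldFull N) c)⁻¹ • v) f
    rw [smul_inv_smul] at this
    exact this.symm
  · intro m
    have h1 : ((arithmeticGalois (modularFunctionFieldFull N) c • f : FNL (AlgebraicClosure ℚ) N) :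
        LaurentSeries (AlgebraicClosure ℚ)) = ModularCurve.coeffMap
          (c : AlgebraicClosure ℚ →+* AlgebraicClosure ℚ) (f : LaurentSeries (AlgebraicClosure ℚ)) :=
      coe_arithmeticGalois_smul (modularFunctionFieldFull N) c f
    have h2 : (ModularCurve.coeffMap (conjQ : ℂ →+* ℂ) (f' : LaurentSeries ℂ)).coeff m =
        conj ((f' : LaurentSeries ℂ).coeff m) := ModularCurve.coeffMap_coeff _ _ m
    have h3 : (ModularCurve.coeffMap (c : AlgebraicClosure ℚ →+* AlgebraicClosure ℚ)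
        (f : LaurentSeries (AlgebraicClosure ℚ))).coeff m =
        c ((f : LaurentSeries (AlgebraicClosure ℚ)).coeff m) := ModularCurve.coeffMap_coeff _ _ m
    rw [h1, h3, hc, ← hcoef m]
    exact h2

/-- N3 in terms of the involution `charInvolution` of the prelude. -/
theorem torChar_conj' (ι : AlgebraicClosure ℚ →+* ℂ) (c : GQ)
    (hc : ∀ a : AlgebraicClosure ℚ, ι (c a) = conj (ι a)) {x : ModularCurve.JZero N}
    (h : TorChar N n ι x φ) :
    TorChar N n ι (c • x) (-(charInvolution N ℤ (ZMod n) φ)) :=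
  torChar_conj ι c hc h

end Fermat.Agent.S15.Desc.H97
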