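import Fermat.Agent.S15.Desc.H26_NumInfMat
import Fermat.Agent.S15.Desc.H97_Reflect
import Fermat.Agent.GTor.H81_T2d
import Fermat.Agent.GTor.H81_Uncond
import Fermat.Agent.GTor.H44_HK
import Fermat.Agent.Lib.HeckeComm.H2_Comm

/-!
# S15 / DESC / NUM-∞: the torsion dictionary for the anemic Hecke ring and for the complex
conjugation (helper26)

`θ : J₀(p)[m] ≃ (ℤ/m)^d` the coordinates of G-TOR (`GTor.H81.theta`).

* `theta_smul` : `θ (t • x) = (mat t mod m) θ(x)` for the anemic action of `t ∈ HeckeAlg`;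
* `theta_conj` : `θ (c • x) = - (matI mod m) θ(x)` for `c` inducing the complex conjugation
  (from `H97.torChar_conj'`).
-/

set_option autoImplicit false
set_option synthInstance.maxHeartbeats 400000

open CongruenceSubgroup ModularCurve ModularCurve.Period AlgebraicCurve
open scoped MatrixGroups ComplexConjugate

noncomputable section

namespace Fermat.Agent.S15.Desc.H26

open Fermat.Agent.Betti Fermat.Agent.Betti.H76 Fermat.Agent.GTor Fermat.Agent.GTor.H81
open Fermat.Agent.S15

attribute [local instance] heckeInst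

section Coord

variable {N : ℕ} {d : ℕ} {b : Fin d → (Additive (Gamma0 N) →+ ℤ)} (m : ℕ)

theorem coordFun_neg (a : Fin d → ZMod m) : coordFun b m (-a) = -coordFun b m a := by
  refine AddMonoidHom.ext fun γ => ?_
  simp [coordFun_apply]

/-- The involution in coordinates. -/
theorem charInvolution_coordFun (hb : IsParBasis N b) (a : Fin d → ZMod m) :
    charInvolution N ℤ (ZMod m) (coordFun b m a) =
      coordFun b m (((matI hb).map (Int.cast : ℤ → ZMod m)).mulVec a) := by
  refine AddMonoidHom.ext fun γ => ?_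
  rw [charInvolution_apply, coordFun_apply, coordFun_apply]
  have h1 : ∀ j, b j (Additive.ofMul (jConjGamma0 N (Additive.toMul γ))) =
      ∑ i, matI hb i j * b i γ := by
    intro j
    have h2 := end_parBasis hb (invZ N) j
    have h3 := congrArg (fun φ : ParZ N => (φ : Additive (Gamma0 N) →+ ℤ) γ) h2
    simp only [coe_invZ, parBasis_apply, charInvolution_apply, Submodule.coe_sum,
      Submodule.coe_smul, AddMonoidHom.coe_finsetSum, Finset.sum_apply, AddMonoidHom.coe_smul,
      Pi.smul_apply, smul_eq_mul] at h3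
    exact h3
  simp only [h1, Matrix.mulVec, dotProduct, Matrix.map_apply, Finset.sum_mul]
  push_cast
  simp only [Finset.mul_sum]
  rw [Finset.sum_comm]
  refine Finset.sum_congr rfl fun i _ => Finset.sum_congr rfl fun j _ => ?_
  ring

end Coord

section Conj

variable {N : ℕ} [NeZero N] {ι : AlgebraicClosure ℚ →+* ℂ}
  {d : ℕ} {b : Fin d → (Additive (Gamma0 N) →+ ℤ)}
  (hb : IsParBasis N b) (hL : Stmt_torsLift N) {m : ℕ} (hm : m ≠ 0) (E : TorIso N m ι)

/-- **The complex conjugation in coordinates.** -/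
theorem theta_conj (c : GQ) (hc : ∀ a : AlgebraicClosure ℚ, ι (c a) = conj (ι a))
    (x y : Jtor N m) (hxy : (y : JZero N) = c • (x : JZero N)) :
    theta hb hL hm E y =
      -((matI hb).map (Int.cast : ℤ → ZMod m)).mulVec (theta hb hL hm E x) := by
  apply theta_eq_of_torChar
  have h := H97.torChar_conj' ι c hc (torChar_theta hb hL hm E x)
  rw [charInvolution_coordFun m hb, ← coordFun_neg, ← hxy] at h
  exact h

end Conj

section Smul

variable {p : ℕ} [NeZero p]

theorem anemic_C_smul (a : ℤ) (x : JZero p) : (MvPolynomial.C a : HeckeAlg) • x = a • x := by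
  have h1 : (MvPolynomial.C a : HeckeAlg) = a • (1 : HeckeAlg) := by
    rw [← MvPolynomial.algebraMap_eq, Algebra.algebraMap_eq_smul_one]
  rw [h1, smul_assoc, one_smul]

theorem anemic_X_smul_self (ℓ : Nat.Primes) (h : (ℓ : ℕ) = p) (x : JZero p) :
    (MvPolynomial.X ℓ : HeckeAlg) • x = x := by
  have h1 : anemicSubst p (MvPolynomial.X ℓ) = 1 := by
    have h := MvPolynomial.aeval_X (R := ℤ)
      (fun ℓ : Nat.Primes => if (ℓ : ℕ) = p then (1 : HeckeAlg) else MvPolynomial.X ℓ) ℓ
    have h2 : anemicSubst p (MvPolynomial.X ℓ) =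
        if (ℓ : ℕ) = p then (1 : HeckeAlg) else MvPolynomial.X ℓ := h
    rw [h2, if_pos ‹_›]
  have h3 : (MvPolynomial.X ℓ : HeckeAlg) • x = (1 : HeckeAlg) • x := by
    rw [smul_eq_hsmul, h1, smul_eq_hsmul, map_one]
  rw [h3, one_smul]

theorem anemic_X_smul (ℓ : Nat.Primes) (h : (ℓ : ℕ) ≠ p) (x : JZero p) :
    (MvPolynomial.X ℓ : HeckeAlg) • x = heckeOperatorBar p ℓ x := by
  have h1 := heckeGen_smul p ℓ.2 h x
  have h2 := heckeModuleBar_heckeGen_smul
    (Fermat.Agent.Lib.HeckeComm.heckeOperatorsCommuteBar p) ℓ x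
  exact h1.trans h2

theorem anemic_smul_mem_Jtor (m : ℕ) (t : HeckeAlg) (x : Jtor p m) :
    t • (x : JZero p) ∈ Jtor p m := by
  rw [Pic0.mem_torsion, smul_comm, Pic0.mem_torsion.1 x.2, smul_zero]

theorem intCast_map_mulVec {d m : ℕ} (a : ℤ) (v : Fin d → ZMod m) :
    (((a : Matrix (Fin d) (Fin d) ℤ)).map (Int.cast : ℤ → ZMod m)).mulVec v = a • v := by
  funext i
  have h : ((a : Matrix (Fin d) (Fin d) ℤ)) = Matrix.diagonal (fun _ => a) := rfl
  rw [h]
  simp [Matrix.mulVec, dotProduct, Matrix.diagonal_apply, Matrix.map_apply]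

variable (hp : p.Prime) {ι : AlgebraicClosure ℚ →+* ℂ}
  {d : ℕ} {b : Fin d → (Additive (Gamma0 p) →+ ℤ)}
  (hb : IsParBasis p b) (hL : Stmt_torsLift p) {m : ℕ} (hm : m ≠ 0) (E : TorIso p m ι)

theorem theta_X_smul (ℓ : Nat.Primes) (x y : Jtor p m)
    (hxy : (y : JZero p) = (MvPolynomial.X ℓ : HeckeAlg) • (x : JZero p)) :
    theta hb hL hm E y =
      ((mat hp hb (MvPolynomial.X ℓ)).map (Int.cast : ℤ → ZMod m)).mulVec
        (theta hb hL hm E x) := by
  by_cases h : (ℓ : ℕ) = p
  · rw [anemic_X_smul_self ℓ h] at hxy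
    have e : y = x := Subtype.ext hxy
    rw [e, mat_X_self hp hb ℓ h, Matrix.map_one _ Int.cast_zero Int.cast_one,
      Matrix.one_mulVec]
  · rw [anemic_X_smul ℓ h] at hxy
    have e : y = heckeTor m ℓ x := Subtype.ext hxy
    rw [e]
    exact theta_heckeTor hb hL hm E ℓ.2 (not_dvd_of_ne hp ℓ.2 h) (Fermat.Agent.GTor.H44.stmt_HK p m)
      (mat hp hb (MvPolynomial.X ℓ)) (TB_eq_mat hp hb ℓ h) x

/-- **The anemic Hecke ring in coordinates.** -/
theorem theta_smul (t : HeckeAlg) (x y : Jtor p m)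
    (hxy : (y : JZero p) = t • (x : JZero p)) :
    theta hb hL hm E y =
      ((mat hp hb t).map (Int.cast : ℤ → ZMod m)).mulVec (theta hb hL hm E x) := by
  induction t using MvPolynomial.induction_on generalizing x y with
  | C a =>
    rw [anemic_C_smul] at hxy
    have e : y = a • x := Subtype.ext hxy
    have h1 : mat hp hb (MvPolynomial.C a) = (a : Matrix (Fin d) (Fin d) ℤ) := by
      rw [← MvPolynomial.algebraMap_eq, eq_intCast, map_intCast]
    rw [e, h1, intCast_map_mulVec, map_zsmul]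
  | add s t hs ht =>
    rw [add_smul] at hxy
    have e : y = ⟨s • (x : JZero p), anemic_smul_mem_Jtor m s x⟩ +
        ⟨t • (x : JZero p), anemic_smul_mem_Jtor m t x⟩ := Subtype.ext hxy
    rw [e, map_add, hs x ⟨s • (x : JZero p), anemic_smul_mem_Jtor m s x⟩ rfl,
      ht x ⟨t • (x : JZero p), anemic_smul_mem_Jtor m t x⟩ rfl, map_add,
      Matrix.map_add _ (fun _ _ => Int.cast_add _ _), Matrix.add_mulVec]
  | mul_X t ℓ ht =>
    rw [mul_smul] at hxy
    have h1 := ht ⟨(MvPolynomial.X ℓ : HeckeAlg) • (x : JZero p),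
      anemic_smul_mem_Jtor m _ x⟩ y hxy
    have hmm : (mat hp hb t * mat hp hb (MvPolynomial.X ℓ)).map (Int.cast : ℤ → ZMod m) =
        (mat hp hb t).map (Int.cast : ℤ → ZMod m) *
          (mat hp hb (MvPolynomial.X ℓ)).map (Int.cast : ℤ → ZMod m) :=
      Matrix.map_mul (f := Int.castRingHom (ZMod m))
    rw [h1, theta_X_smul hp hb hL hm E ℓ x ⟨(MvPolynomial.X ℓ : HeckeAlg) • (x : JZero p),
      anemic_smul_mem_Jtor m _ x⟩ rfl, map_mul, hmm, Matrix.mulVec_mulVec]

end Smul

end Fermat.Agent.S15.Desc.H26
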