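import Fermat.Agent.S15.Desc.Defs
import Fermat.Agent.S15.Desc.H26_NumInfChar0

/-!
# S15 / DESC / NUM-∞: the integer matrices of the anemic Hecke ring (helper26)

`p` a prime, `b` a universal basis of `Hom_par(Γ₀(p), ℤ)`.

* `anemicHecke hp : HeckeAlg →ₐ[ℤ] heckeAlgebra p 2 ∅`, `X_ℓ ↦ T_ℓ` (`ℓ ≠ p`), `X_p ↦ 1`;
* `mat hp hb : HeckeAlg →+* Matrix (Fin d) (Fin d) ℤ`, the matrices of the Betti operators;
* `mat_X`, `mat_X_self`, `TB_eq_mat` (the shape consumed by `GTor.H81.theta_heckeTor`);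
* `charpoly_mat_plus_minus`, `trace_mat_mul_matI`, `mat_comm_matI`.
-/

set_option autoImplicit false

open CongruenceSubgroup ModularCurve ModularCurve.Period
open scoped MatrixGroups

noncomputable section

namespace Fermat.Agent.S15.Desc.H26

open Fermat.Agent.Betti Fermat.Agent.Betti.H76

section Mat

variable {p : ℕ} [NeZero p] (hp : p.Prime)

omit [NeZero p] in
theorem not_dvd_of_ne (hp : p.Prime) {ℓ : ℕ} (hℓ : ℓ.Prime) (h : ℓ ≠ p) : ¬ ℓ ∣ p :=
  fun hd => h ((Nat.prime_dvd_prime_iff_eq hℓ hp).mp hd)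

/-- The anemic Hecke ring acting on cusp forms: `X_ℓ ↦ T_ℓ` (`ℓ ≠ p`), `X_p ↦ 1`. -/
def anemicHecke (hp : p.Prime) : HeckeAlg →ₐ[ℤ] CuspForm.heckeAlgebra p 2 (∅ : Set ℕ) :=
  MvPolynomial.aeval (fun ℓ : Nat.Primes =>
    if h : (ℓ : ℕ) = p then 1
    else CuspForm.heckeAlgebra.T ℓ.2 (not_dvd_of_ne hp ℓ.2 h) (Set.notMem_empty _))

theorem anemicHecke_X_self (ℓ : Nat.Primes) (h : (ℓ : ℕ) = p) :
    anemicHecke hp (MvPolynomial.X ℓ) = 1 := by
  unfold anemicHecke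
  rw [MvPolynomial.aeval_X, dif_pos h]

theorem anemicHecke_X (ℓ : Nat.Primes) (h : (ℓ : ℕ) ≠ p) :
    anemicHecke hp (MvPolynomial.X ℓ) =
      CuspForm.heckeAlgebra.T ℓ.2 (not_dvd_of_ne hp ℓ.2 h) (Set.notMem_empty _) := by
  unfold anemicHecke
  rw [MvPolynomial.aeval_X, dif_neg h]

variable {d : ℕ} {b : Fin d → (Additive (Gamma0 p) →+ ℤ)} (hb : IsParBasis p b)

/-- The integer matrices of the anemic Hecke ring in a universal basis. -/
def mat (hp : p.Prime) (hb : IsParBasis p b) : HeckeAlg →+* Matrix (Fin d) (Fin d) ℤ :=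
  ((LinearMap.toMatrixAlgEquiv (parBasis hb)).toAlgHom.toRingHom.comp (heckeRho p ∅)).comp
    (anemicHecke hp).toRingHom

theorem mat_apply (t : HeckeAlg) :
    mat hp hb t = LinearMap.toMatrix (parBasis hb) (parBasis hb)
      (heckeRho p ∅ (anemicHecke hp t)) := rfl

/-- Every matrix `mat t` is the matrix of a word in the Betti Hecke operators. -/
theorem exists_word (t : HeckeAlg) :
    ∃ w : FreeAlgebra ℤ (Gen (∅ : Set ℕ)), mat hp hb t = matW ∅ hb w := by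
  obtain ⟨w, hw⟩ := wordSH_surjective p ∅ (anemicHecke hp t)
  refine ⟨w, ?_⟩
  rw [mat_apply, ← hw, heckeRho_wordSH]
  rfl

theorem mat_X_self (ℓ : Nat.Primes) (h : (ℓ : ℕ) = p) : mat hp hb (MvPolynomial.X ℓ) = 1 := by
  rw [mat_apply, anemicHecke_X_self hp ℓ h, map_one]
  exact LinearMap.toMatrix_one _

/-- The shape consumed by `GTor.H81.theta_heckeTor`. -/
theorem TB_eq_mat (ℓ : Nat.Primes) (h : (ℓ : ℕ) ≠ p) (j : Fin d) :
    TB p ℤ ℓ.2 (not_dvd_of_ne hp ℓ.2 h) (b j) =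
      ∑ i, mat hp hb (MvPolynomial.X ℓ) i j • b i := by
  have h1 := heckeRho_T p ∅ ℓ.2 (not_dvd_of_ne hp ℓ.2 h) (Set.notMem_empty _) (parBasis hb j)
  rw [parBasis_apply] at h1
  rw [← h1, end_parBasis hb _ j, mat_apply, anemicHecke_X hp ℓ h]
  simp only [Submodule.coe_sum, Submodule.coe_smul, parBasis_apply]

theorem charpoly_mat_plus_minus (t : HeckeAlg) :
    (mat hp hb t * (1 + matI hb)).charpoly = (mat hp hb t * (1 - matI hb)).charpoly := by
  obtain ⟨w, hw⟩ := exists_word hp hb t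
  rw [hw]
  exact charpoly_matW_plus_minus ∅ hb w

theorem trace_mat_mul_matI (t : HeckeAlg) : (mat hp hb t * matI hb).trace = 0 := by
  obtain ⟨w, hw⟩ := exists_word hp hb t
  rw [hw]
  exact trace_matW_mul_matI ∅ hb w

theorem mat_comm_matI (t : HeckeAlg) : mat hp hb t * matI hb = matI hb * mat hp hb t := by
  obtain ⟨w, hw⟩ := exists_word hp hb t
  rw [hw]
  exact matW_comm_matI ∅ hb w

end Mat

end Fermat.Agent.S15.Desc.H26
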