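import Mathlib
import Fermat.Prelude.Def_GaloisRep_ComplexConjugation

/-!
# S15 / DESC, NUM-∞, leaf EXC: a complex conjugation in `G_ℚ` (helper97)

`exists_conj`: there are an embedding `ι : ℚ̄ → ℂ` and `c ∈ G_ℚ` with `ι ∘ c = conj ∘ ι`,
`c * c = 1`, and `c ζ = ζ⁻¹ ≠ ζ` for every primitive `r`-th root of unity `ζ`, `2 < r`.
(`ι = complexEmbedding`, `c = complexConjugation` of the prelude.)
-/

set_option autoImplicit false

open scoped ComplexConjugate

noncomputable section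

namespace Fermat.Agent.S15.Desc.H97

/-- The complex conjugation of the prelude inverts the roots of unity. -/
theorem complexConjugation_rootOfUnity {z : AlgebraicClosure ℚ} {n : ℕ} (hn : n ≠ 0)
    (hz : z ^ n = 1) : complexConjugation z = z⁻¹ := by
  have hinj : Function.Injective complexEmbedding := complexEmbedding.toRingHom.injective
  apply hinj
  rw [complexEmbedding_complexConjugation, map_inv₀]
  have h1 : (complexEmbedding z) ^ n = 1 := by rw [← map_pow, hz, map_one]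
  have h2 : ‖complexEmbedding z‖ = 1 := Complex.norm_eq_one_of_pow_eq_one h1 hn
  exact (Complex.inv_eq_conj h2).symm

/-- The complex conjugation of the prelude moves the primitive `r`-th roots of unity, `2 < r`. -/
theorem complexConjugation_primitiveRoot_ne {ζ : AlgebraicClosure ℚ} {r : ℕ} (hr : 2 < r)
    (hζ : IsPrimitiveRoot ζ r) : complexConjugation ζ ≠ ζ := by
  rw [complexConjugation_rootOfUnity (by omega : r ≠ 0) hζ.pow_eq_one]
  intro h
  have h0 : ζ ≠ 0 := hζ.ne_zero (by omega)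
  have h2 : ζ ^ 2 = 1 := by
    rw [sq]
    nth_rewrite 1 [← h]
    exact inv_mul_cancel₀ h0
  exact hζ.pow_ne_one_of_pos_of_lt (by norm_num) hr h2

/-- **EXC**: an embedding `ι : ℚ̄ → ℂ` and an element `c` of `G_ℚ` inducing the complex conjugation
through `ι`; `c` is an involution and moves every primitive `r`-th root of unity, `2 < r`. -/
theorem exists_conj :
    ∃ (ι : AlgebraicClosure ℚ →+* ℂ) (c : AlgebraicClosure ℚ ≃ₐ[ℚ] AlgebraicClosure ℚ),
      (∀ a : AlgebraicClosure ℚ, ι (c a) = conj (ι a)) ∧ c * c = 1 ∧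
      (∀ (z : AlgebraicClosure ℚ) (n : ℕ), n ≠ 0 → z ^ n = 1 → c z = z⁻¹) ∧
      ∀ (r : ℕ) (ζ : AlgebraicClosure ℚ), 2 < r → IsPrimitiveRoot ζ r → c ζ ≠ ζ :=
  ⟨complexEmbedding.toRingHom, complexConjugation, complexEmbedding_complexConjugation,
    complexConjugation_mul_self, fun _ _ hn hz => complexConjugation_rootOfUnity hn hz,
    fun _ _ hr hζ => complexConjugation_primitiveRoot_ne hr hζ⟩

/-- Primitive roots of unity exist in `ℚ̄`. -/
theorem exists_primitiveRoot_Qbar (r : ℕ) (hr : r ≠ 0) :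
    ∃ ζ : AlgebraicClosure ℚ, IsPrimitiveRoot ζ r :=
  haveI : NeZero r := ⟨hr⟩
  HasEnoughRootsOfUnity.exists_primitiveRoot (AlgebraicClosure ℚ) r

/-- EXC in the shape of `Stmt_NUMinfOdd`. -/
theorem exists_conj_root (r : ℕ) (hr : 2 < r) :
    ∃ (ι : AlgebraicClosure ℚ →+* ℂ) (c : AlgebraicClosure ℚ ≃ₐ[ℚ] AlgebraicClosure ℚ)
      (ζ : AlgebraicClosure ℚ),
      (∀ a : AlgebraicClosure ℚ, ι (c a) = conj (ι a)) ∧ c * c = 1 ∧ IsPrimitiveRoot ζ r ∧
        c ζ ≠ ζ := by
  obtain ⟨ι, c, h1, h2, -, h4⟩ := exists_conj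
  obtain ⟨ζ, hζ⟩ := exists_primitiveRoot_Qbar r (by omega)
  exact ⟨ι, c, ζ, h1, h2, hζ, h4 r ζ hr hζ⟩

end Fermat.Agent.S15.Desc.H97
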