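import Fermat.Agent.S15.Desc.H26_NumInfDict
import Fermat.Agent.S15.Desc.H26_NumInfAlg
import Fermat.Agent.S15.Desc.H97_Conj
import Fermat.Agent.S15.H2_GH
import Fermat.Agent.Betti.Basis
import Fermat.Agent.GTor.H77_TorsLift

/-!
# S15 / DESC / NUM-∞ for `r` odd (helper26)

`stmt_NUMinfOdd : Stmt_NUMinfOdd p r` for primes `p`, `r`, `r ≠ 2`: for the complex conjugation
`c` and every Eisenstein projector `e`, `dim W ≤ 2 dim W^{c = 1}`, `W = e J₀(p)[r]`.

Proof: in the coordinates `θ : J[r] ≃ 𝔽_r^d` of G-TOR, `e` acts by `Ē = mat e mod r`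
(`theta_smul`) and `c` by `-Ī`, `Ī = matI mod r` (`theta_conj`); the integer matrices
`mat e (1 ± matI)` have the same characteristic polynomial (`charpoly_mat_plus_minus`, from
Eichler–Shimura), and `numInf_finrank_le` applies.
-/

set_option autoImplicit false
set_option synthInstance.maxHeartbeats 400000
set_option linter.unusedSectionVars false
set_option linter.style.haveILetI false

open CongruenceSubgroup ModularCurve ModularCurve.Period AlgebraicCurve Module
open scoped MatrixGroups ComplexConjugate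

noncomputable section

namespace Fermat.Agent.S15.Desc.H26

open Fermat.Agent.Betti Fermat.Agent.Betti.H76 Fermat.Agent.GTor Fermat.Agent.GTor.H81
open Fermat.Agent.S15

attribute [local instance] heckeInst

section Tors

variable {p : ℕ} [NeZero p] (r : ℕ)

theorem mem_Jtor_iff (x : JZero p) : x ∈ Jtor p r ↔ r • x = 0 := by
  rw [Pic0.mem_torsion, natCast_zsmul]

/-- `TorsR (JZero p) r` and `Jtor p r` are the same subgroup. -/
def torsEquiv : TorsR (JZero p) r ≃+ Jtor p r where
  toFun v := ⟨(v : JZero p), (mem_Jtor_iff r _).2 (mem_torsR.1 v.2)⟩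
  invFun x := ⟨(x : JZero p), mem_torsR.2 ((mem_Jtor_iff r _).1 x.2)⟩
  left_inv _ := rfl
  right_inv _ := rfl
  map_add' _ _ := rfl

@[simp] theorem coe_torsEquiv (v : TorsR (JZero p) r) :
    ((torsEquiv r v : Jtor p r) : JZero p) = (v : JZero p) := rfl

/-- An additive endomorphism of `J` induces a `ZMod r`-linear endomorphism of `J[r]`. -/
def torsEnd (f : JZero p →+ JZero p) : Module.End (ZMod r) (TorsR (JZero p) r) :=
  AddMonoidHom.toZModLinearMap r
    { toFun := fun v => ⟨f (v : JZero p), by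
        rw [mem_torsR, ← map_nsmul, mem_torsR.1 v.2, map_zero]⟩
      map_zero' := Subtype.ext (map_zero f)
      map_add' := fun v w => Subtype.ext (map_add f (v : JZero p) (w : JZero p)) }

@[simp] theorem coe_torsEnd (f : JZero p →+ JZero p) (v : TorsR (JZero p) r) :
    ((torsEnd r f v : TorsR (JZero p) r) : JZero p) = f (v : JZero p) := rfl

end Tors

section Main

variable {p : ℕ} [NeZero p] (hp : p.Prime) {r : ℕ} [hrF : Fact r.Prime]
  {ι : AlgebraicClosure ℚ →+* ℂ}
  {d : ℕ} {b : Fin d → (Additive (Gamma0 p) →+ ℤ)}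
  (hb : IsParBasis p b) (hL : Stmt_torsLift p) (E : TorIso p r ι)

/-- The coordinates on `TorsR (JZero p) r`. -/
def thetaR : TorsR (JZero p) r ≃ₗ[ZMod r] (Fin d → ZMod r) :=
  { (torsEquiv r).trans (theta hb hL hrF.out.ne_zero E) with
    map_smul' := fun c x =>
      ZMod.map_smul ((torsEquiv r).trans (theta hb hL hrF.out.ne_zero E)).toAddMonoidHom c x }

theorem thetaR_apply (v : TorsR (JZero p) r) :
    thetaR hb hL E v = theta hb hL hrF.out.ne_zero E (torsEquiv r v) := rfl

/-- The action of `t ∈ HeckeAlg` (anemic) on `J`, as an additive map. -/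
def heckeAdd (p : ℕ) [NeZero p] (t : HeckeAlg) : JZero p →+ JZero p :=
  DistribSMul.toAddMonoidHom (JZero p) t

/-- The action of `σ ∈ G_ℚ` on `J`, as an additive map. -/
def galAdd (p : ℕ) [NeZero p] (σ : GQ) : JZero p →+ JZero p :=
  DistribSMul.toAddMonoidHom (JZero p) σ

theorem thetaR_hecke (t : HeckeAlg) (v : TorsR (JZero p) r) :
    thetaR hb hL E (torsEnd r (heckeAdd p t) v) =
      ((mat hp hb t).map (Int.cast : ℤ → ZMod r)).mulVec (thetaR hb hL E v) :=
  theta_smul hp hb hL hrF.out.ne_zero E t (torsEquiv r v) _ rfl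

theorem thetaR_conj (c : GQ) (hc : ∀ a : AlgebraicClosure ℚ, ι (c a) = conj (ι a))
    (v : TorsR (JZero p) r) :
    thetaR hb hL E (torsEnd r (galAdd p c) v) =
      -((matI hb).map (Int.cast : ℤ → ZMod r)).mulVec (thetaR hb hL E v) :=
  theta_conj hb hL hrF.out.ne_zero E c hc (torsEquiv r v) _ rfl

include hb hL E in
theorem finite_torsR : Module.Finite (ZMod r) (TorsR (JZero p) r) :=
  Module.Finite.equiv (thetaR hb hL E).symm

/-- The characteristic polynomial of an endomorphism of `J[r]` given in coordinates by the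
reduction of an integer matrix. -/
theorem charpoly_of_thetaR [Module.Finite (ZMod r) (TorsR (JZero p) r)]
    (M : Matrix (Fin d) (Fin d) ℤ)
    (F : Module.End (ZMod r) (TorsR (JZero p) r))
    (hF : ∀ v, thetaR hb hL E (F v) =
      (M.map (Int.cast : ℤ → ZMod r)).mulVec (thetaR hb hL E v)) :
    F.charpoly = M.charpoly.map (Int.castRingHom (ZMod r)) := by
  have h1 : F = (thetaR hb hL E).symm.conj (Matrix.toLin' (M.map (Int.cast : ℤ → ZMod r))) := by
    ext1 v
    rw [LinearEquiv.conj_apply_apply, LinearEquiv.symm_symm, Matrix.toLin'_apply, ← hF,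
      LinearEquiv.symm_apply_apply]
  rw [h1, LinearEquiv.charpoly_conj, Matrix.charpoly_toLin', ← Matrix.charpoly_map]
  rfl

theorem heckeAdd_apply (t : HeckeAlg) (z : JZero p) : heckeAdd p t z = t • z := rfl

theorem galAdd_apply (σ : GQ) (z : JZero p) : galAdd p σ z = σ • z := rfl

theorem gal_anemic_smul (σ : GQ) (t : HeckeAlg) (z : JZero p) : σ • (t • z) = t • (σ • z) :=
  Fermat.Agent.S15.H2.stmt_GH p σ (anemicSubst p t) z

end Main

set_option maxHeartbeats 2000000 in
/-- **NUM-∞ for `r` odd.** -/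
theorem stmt_NUMinfOdd (p r : ℕ) [NeZero p] [NeZero r] (hp : p.Prime) (hr : r.Prime)
    (hr2 : r ≠ 2) : Stmt_NUMinfOdd p r := by
  classical
  haveI hrF : Fact r.Prime := ⟨hr⟩
  have hr3 : 2 < r := lt_of_le_of_ne hr.two_le (Ne.symm hr2)
  obtain ⟨ι, c, ζ, hc, hcc, hζ, hcζ⟩ := H97.exists_conj_root r hr3
  refine ⟨c, ζ, hζ, hcζ, 0, fun k e _ he => ?_⟩
  obtain ⟨d, b, hb⟩ := Betti.stmt_basis p
  have hL := H77.stmt_torsLift p
  obtain ⟨E⟩ := nonempty_torIso (stmt_TORc_uncond p r hr.ne_zero) ι
  haveI : Module.Finite (ZMod r) (TorsR (JZero p) r) := finite_torsR hb hL E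
  -- the endomorphisms
  obtain ⟨EV, hEV⟩ : ∃ EV : Module.End (ZMod r) (TorsR (JZero p) r),
      EV = torsEnd r (heckeAdd p e) := ⟨_, rfl⟩
  obtain ⟨CV, hCV⟩ : ∃ CV : Module.End (ZMod r) (TorsR (JZero p) r),
      CV = torsEnd r (galAdd p c) := ⟨_, rfl⟩
  have hEVc : ∀ v : TorsR (JZero p) r, ((EV v : TorsR (JZero p) r) : JZero p) =
      e • (v : JZero p) := fun v => by rw [hEV]; rfl
  have hCVc : ∀ v : TorsR (JZero p) r, ((CV v : TorsR (JZero p) r) : JZero p) =
      c • (v : JZero p) := fun v => by rw [hCV]; rfl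
  have h2 : (2 : ZMod r) ≠ 0 := by
    intro h
    have h' : ((2 : ℕ) : ZMod r) = 0 := by exact_mod_cast h
    rw [ZMod.natCast_eq_zero_iff] at h'
    have := Nat.le_of_dvd (by norm_num) h'
    omega
  have hE : EV * EV = EV := by
    ext1 v
    apply Subtype.ext
    rw [Module.End.mul_apply, hEVc, hEVc]
    refine he.2.1 (v : JZero p) ?_
    rw [pow_succ, mul_smul, mem_torsR.1 v.2, smul_zero]
  have hCC : CV * CV = 1 := by
    ext1 v
    apply Subtype.ext
    rw [Module.End.mul_apply, hCVc, hCVc, ← mul_smul, hcc, one_smul]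
    rfl
  have hI : (-CV) * (-CV) = 1 := by rw [neg_mul_neg, hCC]
  have hEC : EV * CV = CV * EV := by
    ext1 v
    apply Subtype.ext
    rw [Module.End.mul_apply, Module.End.mul_apply, hEVc, hCVc, hCVc, hEVc, gal_anemic_smul]
  have hEI : Commute EV (-CV) := by
    show EV * (-CV) = (-CV) * EV
    rw [mul_neg, neg_mul, hEC]
  -- coordinates
  have hθE : ∀ v, thetaR hb hL E (EV v) =
      ((mat hp hb e).map (Int.cast : ℤ → ZMod r)).mulVec (thetaR hb hL E v) := fun v => by
    rw [hEV]; exact thetaR_hecke hp hb hL E e v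
  have hθI : ∀ v, thetaR hb hL E ((-CV) v) =
      ((matI hb).map (Int.cast : ℤ → ZMod r)).mulVec (thetaR hb hL E v) := fun v => by
    rw [LinearMap.neg_apply, map_neg, hCV, thetaR_conj hb hL E c hc v, neg_neg]
  have hmapmul : ∀ A B : Matrix (Fin d) (Fin d) ℤ,
      (A * B).map (Int.cast : ℤ → ZMod r) =
        A.map (Int.cast : ℤ → ZMod r) * B.map (Int.cast : ℤ → ZMod r) := fun A B =>
    Matrix.map_mul (f := Int.castRingHom (ZMod r))
  have hchar : (EV * (1 + -CV)).charpoly = (EV * (1 - -CV)).charpoly := by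
    have hplus := charpoly_of_thetaR hb hL E (mat hp hb e * (1 + matI hb)) (EV * (1 + -CV))
      (fun v => by
        rw [Module.End.mul_apply, LinearMap.add_apply, Module.End.one_apply, hθE, map_add, hθI,
          hmapmul, Matrix.map_add _ (fun _ _ => Int.cast_add _ _),
          Matrix.map_one _ Int.cast_zero Int.cast_one, ← Matrix.mulVec_mulVec,
          Matrix.add_mulVec, Matrix.one_mulVec])
    have hminus := charpoly_of_thetaR hb hL E (mat hp hb e * (1 - matI hb)) (EV * (1 - -CV))
      (fun v => by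
        rw [Module.End.mul_apply, LinearMap.sub_apply, Module.End.one_apply, hθE, map_sub, hθI,
          hmapmul, Matrix.map_sub _ (fun _ _ => Int.cast_sub _ _),
          Matrix.map_one _ Int.cast_zero Int.cast_one, ← Matrix.mulVec_mulVec,
          Matrix.sub_mulVec, Matrix.one_mulVec])
    rw [hplus, hminus, charpoly_mat_plus_minus]
  have key := numInf_finrank_le h2 hE hI hEI hchar
  have e1 : eisW (J := JZero p) r e = LinearMap.ker (EV - 1) := by
    ext v
    rw [mem_eisW, LinearMap.mem_ker, LinearMap.sub_apply, Module.End.one_apply, sub_eq_zero]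
    constructor
    · intro h
      apply Subtype.ext
      rw [hEVc]
      exact h
    · intro h
      rw [← hEVc, h]
  have e2 : fixSub r c = LinearMap.ker (-CV + 1) := by
    ext v
    rw [LinearMap.mem_ker, LinearMap.add_apply, LinearMap.neg_apply, Module.End.one_apply,
      neg_add_eq_zero]
    show c • v = v ↔ _
    constructor
    · intro h
      apply Subtype.ext
      rw [hCVc, ← coe_gal_smul, h]
    · intro h
      apply Subtype.ext
      rw [coe_gal_smul, ← hCVc, h]
  rw [e1, e2]
  exact key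

end Fermat.Agent.S15.Desc.H26
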