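import Fermat.Agent.S15.Desc.H26_NumInfOdd
import Fermat.Agent.Betti.H21_BasisGe

/-!
# S15 / DESC / VT: TORS-RANK (helper26, for helper83's GLUE-dim)

`finrank_torsR_ge` : `2 dim_ℂ S₂(Γ₀(N)) ≤ dim_{𝔽_r} J₀(N)[r]`.

`finrank_torsR_eq` : for a universal basis `b : Fin d → …`, `dim_{𝔽_r} J₀(N)[r] = d`.
-/

set_option autoImplicit false
set_option synthInstance.maxHeartbeats 400000

open CongruenceSubgroup ModularCurve Module

noncomputable section

namespace Fermat.Agent.S15.Desc.H26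

open Fermat.Agent.Betti Fermat.Agent.GTor Fermat.Agent.GTor.H81

/-- The rank of `J₀(N)[r]` is the rank of `Hom_par(Γ₀(N), ℤ)`. -/
theorem finrank_torsR_eq (N : ℕ) [NeZero N] (r : ℕ) [hrF : Fact r.Prime] {d : ℕ}
    {b : Fin d → (Additive (Gamma0 N) →+ ℤ)} (hb : IsParBasis N b) :
    Module.finrank (ZMod r) (TorsR (JZero N) r) = d := by
  obtain ⟨ι, -, -⟩ := H97.exists_conj
  obtain ⟨E⟩ := nonempty_torIso (stmt_TORc_uncond N r hrF.out.ne_zero) ι
  rw [(thetaR hb (H77.stmt_torsLift N) E).finrank_eq, Module.finrank_pi, Fintype.card_fin]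

/-- **TORS-RANK**: `2 dim S₂(Γ₀(N)) ≤ dim J₀(N)[r]`. -/
theorem finrank_torsR_ge (N : ℕ) [NeZero N] (r : ℕ) [Fact r.Prime] :
    2 * Module.finrank ℂ (CuspForm (CongruenceSubgroup.Gamma0 N) 2) ≤
      Module.finrank (ZMod r) (TorsR (ModularCurve.JZero N) r) := by
  obtain ⟨d, b, hb, hd⟩ := Fermat.Agent.Betti.H21.exists_basis_ge N
  rw [finrank_torsR_eq N r hb]
  exact hd

end Fermat.Agent.S15.Desc.H26
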