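import Fermat.Agent.S56.FL.Coh
import Fermat.Agent.Lib.LocalGlobalDense

/-!
# S15 / DESC, ROUTE-F: the Fontaine family of subgroups of `G_ℚ` (helper66)

`bddFon r` is the family of subgroups `H` of `G_ℚ = Gal(ℚ̄/ℚ)` which are open and contain the
image of `Gal(ℚ̄_r / L)` for some finite Galois extension `L / ℚ_r` whose ramification is bounded
in the sense of Fontaine (`Fermat.Agent.S56.FL.IsBddField`, cluster T).

The place of `ℚ̄` over `r` used with this family is `padicPlace r` (prelude), the place cut out by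
the embedding `ℚ̄ → ℚ̄_r` which defines `localGaloisToGlobal r`.

* `bddFon r`, `mem_bddFon_iff`, `bddFon_mono` (the family is upward closed);
* `padicPlace_liesOver : (padicPlace r).LiesOverPrime r`.

`IsBddFamily r (padicPlace r) (bddFon r)` is proved in `H66_BddFon.lean`.
-/

set_option autoImplicit false

noncomputable section

namespace Fermat.Agent.S15.Desc.H66

open Fermat.Agent.S56.FL Fermat.Agent.Lib.LocalGlobalDense

local notation "Qbar" => AlgebraicClosure ℚ
local notation "GQ" => (AlgebraicClosure ℚ ≃ₐ[ℚ] AlgebraicClosure ℚ)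

/-- **The Fontaine family at `r`**: open subgroups of `G_ℚ` containing the image of
`Gal(ℚ̄_r / L)`, `L / ℚ_r` finite Galois with bounded ramification. -/
def bddFon (r : ℕ) [Fact r.Prime] : Set (Subgroup GQ) :=
  {H | (∃ S : Finset Qbar, ∀ σ : GQ, (∀ x ∈ S, σ x = x) → σ ∈ H) ∧
    ∃ (L : IntermediateField ℚ_[r] (PadicAlgCl r)) (_ : FiniteDimensional ℚ_[r] L),
      Normal ℚ_[r] L ∧ IsBddField r L ∧
        ∀ τ : Gp r, τ ∈ L.fixingSubgroup → localGaloisToGlobal r τ ∈ H}

theorem mem_bddFon_iff (r : ℕ) [Fact r.Prime] (H : Subgroup GQ) :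
    H ∈ bddFon r ↔ (∃ S : Finset Qbar, ∀ σ : GQ, (∀ x ∈ S, σ x = x) → σ ∈ H) ∧
      ∃ (L : IntermediateField ℚ_[r] (PadicAlgCl r)) (_ : FiniteDimensional ℚ_[r] L),
        Normal ℚ_[r] L ∧ IsBddField r L ∧
          ∀ τ : Gp r, τ ∈ L.fixingSubgroup → localGaloisToGlobal r τ ∈ H :=
  Iff.rfl

/-- The Fontaine family is upward closed. -/
theorem bddFon_mono (r : ℕ) [Fact r.Prime] {H H' : Subgroup GQ} (h : H ≤ H')
    (hH : H ∈ bddFon r) : H' ∈ bddFon r := by
  obtain ⟨⟨S, hS⟩, L, hfin, hN, hb, hL⟩ := hH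
  exact ⟨⟨S, fun σ hσ => h (hS σ hσ)⟩, L, hfin, hN, hb, fun τ hτ => h (hL τ hτ)⟩

/-- The distinguished place over `r` lies over `r`. -/
theorem padicPlace_liesOver (r : ℕ) [Fact r.Prime] : (padicPlace r).LiesOverPrime r := by
  show ((r : ℕ) : Qbar) ∈ (padicPlace r).nonunits
  rw [ValuationSubring.mem_nonunits_iff_or]
  right
  rw [← absQ_le_one_iff, map_inv₀, absQ_natCast_self, inv_inv, not_le]
  exact_mod_cast (Fact.out : r.Prime).one_lt

end Fermat.Agent.S15.Desc.H66
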