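import Fermat.Agent.S15.Desc.Defs
import Fermat.Agent.S15.Desc.H66_BddFonDefs
import Fermat.Agent.S56.FL.Count

/-!
# S15 / DESC, ROUTE-F: the local condition at `r` from the flatness of the Kummer extension
(helper40; route of helper66's note "S15 L7 ROUTE-F")

`J = J₀(p)`, `r` a prime not dividing `p`, `y ∈ J(ℚ̄)` with `r y ∈ J(ℚ)`.

* `kumAct r y` : the action of `G_ℚ` on the group `J[r] × ℤ/r` given by
  `σ (v, k) = (σ v + k (σ y - y), k)`.  With this action `J[r] × ℤ/r` is the extension of `ℤ/r`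
  by `J[r]` whose class is the Kummer class of `r y`; as a `G_ℚ`-set it is
  `⋃_{0 ≤ k < r} (k y + J[r])` (via `(v, k) ↦ v + k y`), with the addition "with carry"
  `s ⊕ s' = s + s' - carry · (r y)`.  It is killed by `r`, and `(0, 1)` is fixed by `σ` iff
  `σ y = y`.
* `Stmt_FlatKummer` (**FL-x**, the geometric input, from the method of `NOTES/plan/G_FL.md` applied
  to the finite set of points `⋃_k (k y + J[r])`): this `G_ℚ`-module is flat at `r`.
* `FLAat r` : Fontaine's bound at the prime `r` (`= Stmt_FL_A` of cluster T for this `r`).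
* `stab_mem_bddFon` : FL-x + Fontaine's bound + (GAL) ⟹ the stabiliser of `y` belongs to the
  Fontaine family `H66.bddFon r`.
* `stmt_LOCU_of` : (LOC-U) `Stmt_LOCU p r` from FL-x, Fontaine's bound, (GAL) and
  `IsBddFamily r (padicPlace r) (bddFon r)` (BASE-F, helper66).
-/

set_option autoImplicit false

noncomputable section

namespace Fermat.Agent.S15.Desc.H40

open ModularCurve Fermat.Agent.S15 Fermat.Agent.S15.Desc Fermat.Agent.S56.FL
  Fermat.Agent.Lib.LocalGlobalDense

local notation "Qbar" => AlgebraicClosure ℚ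

attribute [local instance] heckeInst

section Model

variable {J : Type*} [AddCommGroup J] {G : Type*} [Group G] [DistribMulAction G J]

/-- The action of `G` on `J[r] × ℤ/r` attached to `y`: `σ (v, k) = (σ v + k (σ y - y), k)`. -/
def kumAct (r : ℕ) (y : J) (σ : G) (m : TorsR J r × ZMod r) : TorsR J r × ZMod r :=
  (σ • m.1 + m.2.val • toTors r (σ • y - y), m.2)

theorem kumAct_fst (r : ℕ) (y : J) (σ : G) (m : TorsR J r × ZMod r) :
    (kumAct r y σ m).1 = σ • m.1 + m.2.val • toTors r (σ • y - y) := rfl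

theorem kumAct_snd (r : ℕ) (y : J) (σ : G) (m : TorsR J r × ZMod r) :
    (kumAct r y σ m).2 = m.2 := rfl

/-- The Kummer extension is killed by `r`. -/
theorem nsmul_kumExt_eq_zero (r : ℕ) (m : TorsR J r × ZMod r) : r • m = 0 := by
  refine Prod.ext ?_ ?_
  · show r • m.1 = 0
    apply Subtype.ext
    rw [AddSubgroup.coe_nsmul]
    exact mem_torsR.mp m.1.2
  · show r • m.2 = 0
    rw [nsmul_eq_mul, ZMod.natCast_self, zero_mul]

/-- If `σ` fixes the point `(0, 1)` of the Kummer extension of `y`, then `σ y = y`. -/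
theorem smul_eq_of_kumAct_eq {r : ℕ} (hr : 1 < r) {y : J} {σ : G}
    (hy : r • (σ • y - y) = 0)
    (h : kumAct r y σ ((0 : TorsR J r), (1 : ZMod r)) = ((0 : TorsR J r), (1 : ZMod r))) :
    σ • y = y := by
  have h1 : (kumAct r y σ ((0 : TorsR J r), (1 : ZMod r))).1 = 0 := by rw [h]
  rw [kumAct_fst] at h1
  have h2 : ((1 : ZMod r)).val = 1 := by
    have : Fact (1 < r) := ⟨hr⟩
    exact ZMod.val_one r
  simp only [h2, one_smul, smul_zero, zero_add] at h1
  have h3 : ((toTors r (σ • y - y) : TorsR J r) : J) = 0 := by rw [h1]; rfl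
  rw [coe_toTors hy] at h3
  exact sub_eq_zero.mp h3

end Model

/-- **FL-x**: for `r ∤ p` and `y` with `r y` rational, the Kummer extension `J[r] × ℤ/r` (with
the action `kumAct r y`) is the group of `ℚ̄`-points of a finite flat commutative group scheme
over `ℤ_(r)`.

(True: it is the group of points of the finite flat group scheme `[r]⁻¹(ℤ x) / ℤ x`-type
extension, `x = r y ∈ J(ℤ_(r))`.  Route: `NOTES/plan/G_FL.md` for the finite `G_ℚ`-stable set of
points `⋃_{0 ≤ k < r} (k y + J[r])`, plus one translation by the rational point `- r y`.) -/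
def Stmt_FlatKummer : Prop :=
  ∀ (p : ℕ) [NeZero p] (r : ℕ) [Fact r.Prime], ¬ r ∣ p →
    ∀ y : JZero p, r • y ∈ ratPts p →
      Fermat.Agent.R.IsFlatGaloisModule r (TorsR (JZero p) r × ZMod r)
        (kumAct (G := GalQ) r y)

/-- Fontaine's bound at the prime `r` for flat Galois modules killed by `r`
(`Fermat.Agent.S56.FL.Stmt_FL_A` for the prime `r`, without the hypothesis `r ≠ 2`). -/
def FLAat (r : ℕ) [Fact r.Prime] : Prop :=
  ∀ (M : Type) [AddCommGroup M] (act : GalQ → M → M),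
    (∀ m : M, r • m = 0) → Fermat.Agent.R.IsFlatGaloisModule r M act →
    ∃ (L : IntermediateField ℚ_[r] (PadicAlgCl r)) (_ : FiniteDimensional ℚ_[r] L),
      Normal ℚ_[r] L ∧ IsBddField r L ∧
        ∀ σ : Gp r, σ ∈ L.fixingSubgroup → ∀ m : M, act (localGaloisToGlobal r σ) m = m

/-- Fontaine's bound at an odd prime, from cluster T. -/
theorem flaAt_of_FL_A (hFLA : Stmt_FL_A) (r : ℕ) [Fact r.Prime] (hr2 : r ≠ 2) : FLAat r :=
  fun M _ act hkill hflat => hFLA r hr2 M act hkill hflat

/-- FL-x + Fontaine's bound + (GAL): the stabiliser of an `r`-division point of a rational point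
belongs to the Fontaine family. -/
theorem stab_mem_bddFon (hFK : Stmt_FlatKummer) {p : ℕ} [NeZero p] {r : ℕ} [Fact r.Prime]
    (hFLA : FLAat r) (hGAL : Stmt_GALfin p) (hrp : ¬ r ∣ p)
    (y : JZero p) (hy : r • y ∈ ratPts p) :
    MulAction.stabilizer GalQ y ∈ H66.bddFon r := by
  have hr : r.Prime := Fact.out
  refine ⟨?_, ?_⟩
  · obtain ⟨S, hS⟩ := hGAL y
    exact ⟨S, fun σ hσ => MulAction.mem_stabilizer_iff.mpr (hS σ hσ)⟩
  · obtain ⟨L, hfin, hN, hb, hL⟩ :=
      hFLA (TorsR (JZero p) r × ZMod r) (kumAct (G := GalQ) r y)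
        (fun m => nsmul_kumExt_eq_zero r m) (hFK p r hrp y hy)
    refine ⟨L, hfin, hN, hb, fun τ hτ => ?_⟩
    rw [MulAction.mem_stabilizer_iff]
    refine smul_eq_of_kumAct_eq hr.one_lt ?_ (hL τ hτ _)
    rw [nsmul_sub, smul_comm r (localGaloisToGlobal r τ) y, mem_ratPts.mp hy, sub_self]

/-- **(LOC-U) by ROUTE-F.** -/
theorem stmt_LOCU_of (hFK : Stmt_FlatKummer) {p : ℕ} [NeZero p] {r : ℕ} [Fact r.Prime]
    (hFLA : FLAat r) (hGAL : Stmt_GALfin p) (hrp : ¬ r ∣ p)
    (hBase : IsBddFamily r (padicPlace r) (H66.bddFon r)) :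
    Stmt_LOCU p r := by
  refine ⟨padicPlace r, H66.padicPlace_liesOver r, H66.bddFon r, hBase, ?_⟩
  intro k e _ y hy
  refine ⟨MulAction.stabilizer GalQ y, stab_mem_bddFon hFK hFLA hGAL hrp y hy, fun σ hσ => ?_⟩
  rw [MulAction.mem_stabilizer_iff.mp hσ, sub_self, smul_zero]

end Fermat.Agent.S15.Desc.H40
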