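import Fermat.Agent.S15.Desc.H66_BddFonDefs
import Fermat.Agent.S15.Desc.H69_Base
import Fermat.Agent.S56.FL.H38_InertiaOnto
import Fermat.Agent.S56.FL.H85_CCKumCore
import Fermat.Agent.S56.FL.H15_Comp

/-!
# S15 / DESC, ROUTE-F: the Fontaine family is a bounded family (package BASE-F; helper66)

`isBddFamily_bddFon : r ≠ 2 → IsBddFamily r (padicPlace r) (bddFon r)`.

Inputs (cluster T, all landed): `H38.stmt_CC0` (bounded homomorphisms are unramified),
`H85.kumbdd_core` (Kummer generators inside a bounded field are `≡ 1 mod r` up to `r`-th powers),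
`H15.isBdd_sup`, `H15.isBdd_cycloField`, `H38.inertia_onto`, and helper13's
`Lib/LocalGlobalDense.exists_local_lift_field`.

* `exists_inertiaP_lift` : an element of the inertia group of `padicPlace r` agrees on a given
  finite set with the image of an element of the local inertia group `inertiaP r`.
* `cc0_bddFon`, `kum_bddFon`, `isBddFamily_bddFon`.
-/

set_option autoImplicit false
set_option linter.style.haveILetI false
set_option linter.unusedSectionVars false

noncomputable section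

namespace Fermat.Agent.S15.Desc.H66

open Fermat.Agent.S56.FL Fermat.Agent.Lib.LocalGlobalDense Fermat.Agent.Lib.InertiaBridge
open Polynomial IntermediateField

local notation "Qbar" => AlgebraicClosure ℚ
local notation "GQ" => (AlgebraicClosure ℚ ≃ₐ[ℚ] AlgebraicClosure ℚ)

variable (r : ℕ) [Fact r.Prime]

local instance isAlgebraicQbar_h66 : Algebra.IsAlgebraic ℚ (AlgebraicClosure ℚ) :=
  AlgebraicClosure.isAlgebraic ℚ
local instance isAlgClosureQbar_h66 : IsAlgClosure ℚ (AlgebraicClosure ℚ) :=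
  ⟨inferInstance, inferInstance⟩
local instance normalQbar_h66 : Normal ℚ (AlgebraicClosure ℚ) :=
  IsAlgClosure.normal ℚ (AlgebraicClosure ℚ)
local instance towerQqPadic_h66 : IsScalarTower ℚ ℚ_[r] (PadicAlgCl r) :=
  IsScalarTower.of_algebraMap_eq' (Subsingleton.elim _ _)
local instance normalPadic_h66 : Normal ℚ_[r] (PadicAlgCl r) :=
  IsAlgClosure.normal ℚ_[r] (PadicAlgCl r)

/-- `(padicPlace r).valuation y < 1` means `‖ι y‖ < 1`. -/
theorem norm_lt_one_of_valuation_lt_one {y : Qbar} (h : (padicPlace r).valuation y < 1) :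
    ‖padicEmbedding r y‖ < 1 := by
  rw [← ValuationSubring.mem_nonunits_iff, ValuationSubring.mem_nonunits_iff_or] at h
  rcases h with h | h
  · rw [h, map_zero, norm_zero]
    exact one_pos
  · rw [← absQ_le_one_iff, map_inv₀, not_le] at h
    have hpos : 0 < absQ r y := by
      by_contra hcon
      have h0 : absQ r y = 0 := le_antisymm (not_lt.mp hcon) ((absQ r).nonneg y)
      rw [h0, inv_zero] at h
      exact absurd h (by norm_num)
    rw [← absQ_apply]
    exact (one_lt_inv₀ hpos).mp h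

/-- The image under `ℚ̄ → ℚ̄_r` of a polynomial expression in `α`. -/
theorem padicEmbedding_aeval (α : Qbar) (g : ℚ[X]) :
    padicEmbedding r (aeval α g) =
      aeval (padicEmbedding r α) (g.map (algebraMap ℚ ℚ_[r])) := by
  rw [aeval_map_algebraMap, aeval_algHom_apply]

/-- A finite normal extension `F` of `ℚ` inside `ℚ̄` with a generator `α`: every element of `F` is a
polynomial in `α`. -/
theorem exists_aeval_eq_of_primitive (F : IntermediateField ℚ Qbar) [FiniteDimensional ℚ F]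
    (α : F) (hα : ℚ⟮α⟯ = ⊤) (x : Qbar) (hx : x ∈ F) :
    ∃ g : ℚ[X], aeval (α : Qbar) g = x := by
  have h1 : Algebra.adjoin ℚ {α} = ⊤ := by
    have h2 := IntermediateField.adjoin_simple_toSubalgebra_of_isAlgebraic
      (Algebra.IsAlgebraic.isAlgebraic (R := ℚ) α)
    rw [hα, IntermediateField.top_toSubalgebra] at h2
    exact h2.symm
  have h3 : (⟨x, hx⟩ : F) ∈ Algebra.adjoin ℚ {α} := by rw [h1]; exact Algebra.mem_top
  rw [Algebra.adjoin_singleton_eq_range_aeval] at h3
  obtain ⟨g, hg⟩ := h3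
  refine ⟨g, ?_⟩
  have h4 : ((aeval α g : F) : Qbar) = x := congrArg (fun t : F => (t : Qbar)) hg
  rw [← h4]
  exact aeval_algebraMap_apply Qbar α g

/-- **Inertia lifts.**  An element of the inertia group of `padicPlace r` agrees on a given finite
set with the image of an element of the local inertia group. -/
theorem exists_inertiaP_lift (s : GQ) (hs : s ∈ (padicPlace r).inertiaSubgroupIn ℚ)
    (S : Finset Qbar) :
    ∃ τ ∈ inertiaP r, ∀ x ∈ S, localGaloisToGlobal r τ x = s x := by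
  classical
  obtain ⟨hsD, hsI⟩ := (mem_inertiaSubgroupIn_iff_forall (padicPlace r) s).mp hs
  -- the normal closure `F` of `ℚ(S)`
  have hSint : ∀ x ∈ (S : Set Qbar), IsIntegral ℚ x := fun x _ =>
    (Algebra.IsAlgebraic.isAlgebraic x).isIntegral
  haveI : FiniteDimensional ℚ (IntermediateField.adjoin ℚ (S : Set Qbar)) :=
    IntermediateField.finiteDimensional_adjoin hSint
  obtain ⟨F, hFdef⟩ : ∃ F : IntermediateField ℚ Qbar,
      F = IntermediateField.normalClosure ℚ (IntermediateField.adjoin ℚ (S : Set Qbar)) Qbar :=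
    ⟨_, rfl⟩
  haveI hFfin : FiniteDimensional ℚ F := by
    rw [hFdef]; exact normalClosure.is_finiteDimensional ℚ _ Qbar
  haveI hFnorm : Normal ℚ F := by rw [hFdef]; exact normalClosure.normal ℚ _ Qbar
  have hSF : ∀ x ∈ S, x ∈ F := fun x hx => by
    rw [hFdef]
    exact IntermediateField.le_normalClosure _ (IntermediateField.subset_adjoin ℚ _ hx)
  have hFstab : ∀ (g : GQ) (x : Qbar), x ∈ F → g x ∈ F := fun g x hx =>
    (IntermediateField.normal_iff_forall_map_le'.mp hFnorm g) ⟨x, hx, rfl⟩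
  obtain ⟨α, hα⟩ := Field.exists_primitive_element ℚ F
  obtain ⟨β, hβ⟩ : ∃ β, β = padicEmbedding r (α : Qbar) := ⟨_, rfl⟩
  have hβint : IsIntegral ℚ_[r] β := (Algebra.IsAlgebraic.isAlgebraic β).isIntegral
  obtain ⟨LF, hLF⟩ : ∃ LF : IntermediateField ℚ_[r] (PadicAlgCl r), LF = ℚ_[r]⟮β⟯ := ⟨_, rfl⟩
  haveI hLFfin : FiniteDimensional ℚ_[r] LF := by
    rw [hLF]; exact IntermediateField.adjoin.finiteDimensional hβint
  -- the image of `F` lies in `LF`
  have hFLF : ∀ x ∈ F, padicEmbedding r x ∈ LF := by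
    intro x hx
    obtain ⟨g, hg⟩ := exists_aeval_eq_of_primitive F α hα x hx
    rw [← hg, padicEmbedding_aeval, ← hβ, hLF]
    have h1 : aeval β (g.map (algebraMap ℚ ℚ_[r])) ∈ Algebra.adjoin ℚ_[r] {β} := by
      rw [Algebra.adjoin_singleton_eq_range_aeval]
      exact ⟨_, rfl⟩
    exact IntermediateField.algebra_adjoin_le_adjoin ℚ_[r] _ h1
  -- `LF` is normal
  haveI hLFnorm : Normal ℚ_[r] LF := by
    rw [IntermediateField.normal_iff_forall_map_le']
    intro σ
    rw [hLF, IntermediateField.adjoin_map, Set.image_singleton, IntermediateField.adjoin_le_iff,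
      Set.singleton_subset_iff, ← hLF]
    have h1 : (σ : PadicAlgCl r →ₐ[ℚ_[r]] PadicAlgCl r) β =
        padicEmbedding r (localGaloisToGlobal r σ (α : Qbar)) := by
      rw [padicEmbedding_localGaloisToGlobal, hβ]
      rfl
    rw [SetLike.mem_coe, h1]
    exact hFLF _ (hFstab _ _ α.2)
  -- a local lift of `s` on `F`
  obtain ⟨τ₀, hτ₀⟩ := exists_local_lift_field r s hsD F
  -- its restriction to `LF` is in the inertia group of `LF`
  have hγ : ∀ a : LF, ‖a‖ ≤ 1 → ‖H38.resL LF τ₀ a - a‖ < 1 := by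
    intro a ha
    have ha' : ‖(a : PadicAlgCl r)‖ ≤ 1 := ha
    have h0 : ‖H38.resL LF τ₀ a - a‖ = ‖τ₀ (a : PadicAlgCl r) - (a : PadicAlgCl r)‖ := by
      rw [← H38.resL_apply]; rfl
    rw [h0]
    -- write `a` as a polynomial in `β`
    have haA : (a : PadicAlgCl r) ∈ Algebra.adjoin ℚ_[r] {β} := by
      have h2 := IntermediateField.adjoin_simple_toSubalgebra_of_isAlgebraic
        (Algebra.IsAlgebraic.isAlgebraic (R := ℚ_[r]) β)
      rw [← h2, ← hLF]
      exact a.2
    rw [Algebra.adjoin_singleton_eq_range_aeval] at haA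
    obtain ⟨g, hg⟩ := haA
    have hg' : aeval β g = (a : PadicAlgCl r) := hg
    obtain ⟨C, hCdef⟩ : ∃ C : ℝ, C = ∑ i ∈ Finset.range (g.natDegree + 1), ‖β‖ ^ i := ⟨_, rfl⟩
    have hC : 0 ≤ C := by
      rw [hCdef]; exact Finset.sum_nonneg fun i _ => pow_nonneg (norm_nonneg _) _
    obtain ⟨δ, hδdef⟩ : ∃ δ : ℝ, δ = 1 / (2 * (C + 1)) := ⟨_, rfl⟩
    have hδ : 0 < δ := by rw [hδdef]; positivity
    have hδC : δ * C < 1 := by
      rw [hδdef, div_mul_eq_mul_div, one_mul, div_lt_one (by positivity)]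
      linarith
    have hex : ∀ i : ℕ, ∃ q : ℚ, ‖g.coeff i - (q : ℚ_[r])‖ < δ :=
      fun i => Padic.rat_dense r (g.coeff i) hδ
    choose q hq using hex
    have hq' : ∀ i, ‖g.coeff i - (q i : ℚ_[r])‖ ≤ δ := fun i => (hq i).le
    obtain ⟨x, hx⟩ : ∃ x : Qbar, x = ∑ i ∈ Finset.range (g.natDegree + 1),
        algebraMap ℚ Qbar (q i) * (α : Qbar) ^ i := ⟨_, rfl⟩
    have hxF : x ∈ F := by
      rw [hx]
      exact F.sum_mem fun i _ => F.mul_mem (F.algebraMap_mem _) (pow_mem α.2 i)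
    have hιx : padicEmbedding r x = ∑ i ∈ Finset.range (g.natDegree + 1),
        algebraMap ℚ_[r] (PadicAlgCl r) (q i : ℚ_[r]) * β ^ i := by
      rw [hx, padicEmbedding_sum, hβ]
    have h4 := norm_aeval_sub_le r g q δ hq' β
    rw [hg', ← hιx] at h4
    have hclose : ‖(a : PadicAlgCl r) - padicEmbedding r x‖ < 1 := by
      rw [← hCdef] at h4
      exact lt_of_le_of_lt h4 hδC
    have hιx1 : ‖padicEmbedding r x‖ ≤ 1 := by
      have h5 : padicEmbedding r x =
          (a : PadicAlgCl r) - ((a : PadicAlgCl r) - padicEmbedding r x) := by ring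
      rw [h5]
      exact (H15.norm_sub_le_max_algCl _ _).trans (max_le ha' hclose.le)
    have hxA : x ∈ padicPlace r := by
      rw [← absQ_le_one_iff, absQ_apply]; exact hιx1
    have hsx : ‖padicEmbedding r (s x - x)‖ < 1 :=
      norm_lt_one_of_valuation_lt_one r (hsI x hxA)
    have hτx : τ₀ (padicEmbedding r x) = padicEmbedding r (s x) := by
      rw [← padicEmbedding_localGaloisToGlobal, hτ₀ x hxF]
    have h6 : τ₀ (a : PadicAlgCl r) - (a : PadicAlgCl r) =
        (τ₀ ((a : PadicAlgCl r) - padicEmbedding r x) + padicEmbedding r (s x - x)) -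
          ((a : PadicAlgCl r) - padicEmbedding r x) := by
      rw [map_sub, hτx, map_sub]; ring
    rw [h6]
    refine (H15.norm_sub_le_max_algCl _ _).trans_lt (max_lt ?_ hclose)
    refine (IsUltrametricDist.norm_add_le_max _ _).trans_lt (max_lt ?_ hsx)
    rw [norm_gal]; exact hclose
  obtain ⟨τ, hτ, hτres⟩ := H38.inertia_onto (H38.resL LF τ₀) hγ
  refine ⟨τ, hτ, fun x hx => ?_⟩
  apply (padicEmbedding r).toRingHom.injective
  show padicEmbedding r (localGaloisToGlobal r τ x) = padicEmbedding r (s x)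
  rw [padicEmbedding_localGaloisToGlobal, ← hτ₀ x (hSF x hx), padicEmbedding_localGaloisToGlobal]
  have h7 := congrArg (fun e : LF ≃ₐ[ℚ_[r]] LF =>
    ((e ⟨padicEmbedding r x, hFLF x (hSF x hx)⟩ : LF) : PadicAlgCl r)) hτres
  simp only [H38.resL_apply] at h7
  exact h7

/-- **(CC0) for the Fontaine family** (`r` odd): an additive character vanishing on a member of
`bddFon r` is unramified at `padicPlace r`. -/
theorem cc0_bddFon (hr2 : r ≠ 2) (u : GQ → ZMod r) (hadd : ∀ σ τ, u (σ * τ) = u σ + u τ)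
    (hH : ∃ H ∈ bddFon r, ∀ σ ∈ H, u σ = 0) :
    ∀ σ ∈ (padicPlace r).inertiaSubgroupIn ℚ, u σ = 0 := by
  obtain ⟨H, ⟨⟨S, hS⟩, L, hfin, hN, hb, hL⟩, hu⟩ := hH
  intro s hs
  obtain ⟨τ, hτ, hτS⟩ := exists_inertiaP_lift r s hs S
  -- the local cocycle
  obtain ⟨c, hc⟩ : ∃ c : (⊤ : Subgroup (Gp r)) → ZMod r,
      c = fun σ : (⊤ : Subgroup (Gp r)) => u (localGaloisToGlobal r (σ : Gp r)) := ⟨_, rfl⟩
  have hcb : IsBddCocycle (⊤ : Subgroup (Gp r)) (1 : (⊤ : Subgroup (Gp r)) →* (ZMod r)ˣ) c := by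
    refine ⟨fun σ τ => ?_, L, hfin, hN, hb, fun σ hσ => ⟨rfl, ?_⟩⟩
    · rw [hc]
      simp only [Subgroup.coe_mul, map_mul, hadd, MonoidHom.one_apply, Units.val_one, one_mul]
    · rw [hc]
      exact hu _ (hL _ hσ)
  have h0 : c ⟨τ, Subgroup.mem_top τ⟩ = 0 :=
    H38.stmt_CC0 r hr2 (ZMod r) ⊤ le_top c hcb ⟨τ, Subgroup.mem_top τ⟩ hτ
  rw [hc] at h0
  have h0' : u (localGaloisToGlobal r τ) = 0 := h0
  have h1 : (localGaloisToGlobal r τ)⁻¹ * s ∈ H := by
    refine hS _ (fun x hx => ?_)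
    show (localGaloisToGlobal r τ)⁻¹ (s x) = x
    rw [← hτS x hx]
    exact AlgEquiv.symm_apply_apply _ x
  have h2 : s = localGaloisToGlobal r τ * ((localGaloisToGlobal r τ)⁻¹ * s) := by group
  rw [h2, hadd, hu _ h1, add_zero]
  exact h0'

/-- The norm of the image of a rational number. -/
theorem norm_padicEmbedding_rat {a : ℚ} (ha : a ≠ 0) :
    ‖padicEmbedding r (algebraMap ℚ Qbar a)‖ = (r : ℝ) ^ (-padicValRat r a) := by
  rw [AlgHom.commutes, IsScalarTower.algebraMap_apply ℚ ℚ_[r] (PadicAlgCl r) a]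
  have h1 : algebraMap ℚ ℚ_[r] a = (a : ℚ_[r]) := rfl
  rw [h1]
  have h2 := PadicAlgCl.norm_extends r (a : ℚ_[r])
  rw [show ((a : ℚ_[r]) : PadicAlgCl r) = algebraMap ℚ_[r] (PadicAlgCl r) (a : ℚ_[r]) from rfl]
    at h2
  rw [h2, Padic.norm_eq_zpow_neg_valuation (by exact_mod_cast ha), Padic.valuation_ratCast]

/-- **(KUM) for the Fontaine family** (`r` odd): a `μ_r`-valued crossed homomorphism vanishing on
a member of `bddFon r` has unit class at `r`. -/
theorem kum_bddFon (hr2 : r ≠ 2) (z : GQ → Qbar)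
    (hH : ∃ H ∈ bddFon r, ∀ σ ∈ H, z σ = 1) : H97.UnitClassAt r z := by
  obtain ⟨H, ⟨-, L, hfin, hN, hb, hL⟩, hz1⟩ := hH
  intro a γ ha hγ hzγ
  haveI := hfin
  haveI := hN
  have hp : r.Prime := Fact.out
  have hr1 : (1 : ℝ) < r := by exact_mod_cast hp.one_lt
  have hr0 : (0 : ℝ) < r := by linarith
  -- `ι γ ∈ L`
  have hγL : padicEmbedding r γ ∈ L := by
    refine H38.mem_of_fixed_by_fixingSubgroup (fun σ hσ => ?_)
    rw [← padicEmbedding_localGaloisToGlobal, hzγ, hz1 _ (hL σ hσ), one_mul]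
  -- the compositum with the cyclotomic field
  haveI : Normal ℚ_[r] (H15.cycloField r) := H15.normal_cycloField
  have hb' : IsBddField r (L ⊔ H15.cycloField r) :=
    H15.isBdd_sup hr2 hN H15.normal_cycloField hb H15.isBdd_cycloField
  have hN' : Normal ℚ_[r] (L ⊔ H15.cycloField r : IntermediateField ℚ_[r] (PadicAlgCl r)) :=
    inferInstance
  obtain ⟨ζ, hζ1, hζr⟩ := H15.exists_zeta (p := r)
  obtain ⟨A, hA⟩ : ∃ A : PadicAlgCl r, A = padicEmbedding r (algebraMap ℚ Qbar a) := ⟨_, rfl⟩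
  have hAK : A ∈ H15.cycloField r := by
    rw [hA, AlgHom.commutes, IsScalarTower.algebraMap_apply ℚ ℚ_[r] (PadicAlgCl r) a]
    exact (H15.cycloField r).algebraMap_mem _
  have hA0 : A ≠ 0 := by
    rw [hA]
    intro h
    have h1 := (padicEmbedding r).toRingHom.injective (h.trans (map_zero _).symm)
    exact ha ((algebraMap ℚ Qbar).injective (h1.trans (map_zero _).symm))
  have hpow : (padicEmbedding r γ) ^ r = A := by rw [← map_pow, hγ, hA]
  obtain ⟨b, hbK, hb0, hnorm⟩ := H85.kumbdd_core (L ⊔ H15.cycloField r) (H15.cycloField r) hN'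
    le_sup_right hb' ⟨ζ, H15.mem_cycloField_of_pow_eq_one hζr, hζ1, hζr⟩ A hAK hA0
    ⟨padicEmbedding r γ, (le_sup_left : L ≤ L ⊔ H15.cycloField r) hγL, hpow⟩
  -- norms
  have hlt : ‖A * b ^ r - 1‖ < 1 :=
    lt_of_le_of_lt hnorm (inv_lt_one_of_one_lt₀ hr1)
  have hone : ‖A * b ^ r‖ = 1 := by
    have h1 : A * b ^ r = 1 + (A * b ^ r - 1) := by ring
    rw [h1, H15.norm_add_eq_left (by rw [norm_one]; exact hlt), norm_one]
  rw [norm_mul, norm_pow, hA, norm_padicEmbedding_rat r ha] at hone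
  obtain ⟨k, hk⟩ := H15.norm_pow_finrank (H15.cycloField r) ⟨b, hbK⟩
    (fun h => hb0 (congrArg (fun t : H15.cycloField r => (t : PadicAlgCl r)) h))
  have hk' : ‖b‖ ^ Module.finrank ℚ_[r] (H15.cycloField r) = (r : ℝ) ^ k := hk
  obtain ⟨n, hn⟩ : ∃ n : ℕ, n = Module.finrank ℚ_[r] (H15.cycloField r) := ⟨_, rfl⟩
  rw [← hn] at hk'
  have hnr : ¬ r ∣ n := by rw [hn]; exact H15.not_dvd_finrank_cycloField
  have h2 : (r : ℝ) ^ (-padicValRat r a * n + k * r) = (r : ℝ) ^ (0 : ℤ) := by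
    rw [zpow_zero, zpow_add₀ hr0.ne', zpow_mul, zpow_mul, zpow_natCast, zpow_natCast, ← hk',
      ← pow_mul, mul_comm n r, pow_mul, ← mul_pow, hone, one_pow]
  have h3 := zpow_right_injective₀ hr0 hr1.ne' h2
  have h4 : (r : ℤ) ∣ padicValRat r a * n := ⟨k, by linarith⟩
  rcases (Nat.prime_iff_prime_int.mp hp).dvd_or_dvd h4 with h5 | h5
  · exact h5
  · exact absurd (Int.natCast_dvd_natCast.mp h5) hnr

/-- **BASE-F**: the Fontaine family is a bounded family at `padicPlace r` (`r` odd). -/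
theorem isBddFamily_bddFon (hr2 : r ≠ 2) : IsBddFamily r (padicPlace r) (bddFon r) where
  isOpen := fun _ hH => hH.1
  cc0 := fun u hadd hH => cc0_bddFon r hr2 u hadd hH
  kum := fun z _ _ hH => kum_bddFon r hr2 z hH

end Fermat.Agent.S15.Desc.H66
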