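import Fermat.Agent.S15.Desc.H40_LocF
import Fermat.Agent.S15.Desc.H66_BddFon
import Fermat.Agent.S15.Desc.DefsTwo
import Fermat.Agent.S56.FL.H50_AllP

/-!
# S15 / DESC, ROUTE-F at the descent prime `r = 2` (helper40)

The Fontaine side of cluster T holds for every prime (`H50.fl_A_all`, `H85.kumbdd_core`,
`H15.isBdd_sup_all`; refactor by helper50/helper15), so ROUTE-F gives (LOC-U) at `2` as well:

* `kum_bddFon_all` : helper66's `kum_bddFon` without the hypothesis `r ≠ 2` (same proof);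
* `isBddFamilyTwo_bddFon : H63.IsBddFamilyTwo (bddFon 2)`;
* `flaAt_all : FLAat r` for every prime `r`;
* `stmt_LOCU_of_flatKummer` : `Stmt_LOCU p r` for `r` odd from FL-x and (GAL);
* `stmt_LOCUTwo_of_flatKummer` : `Stmt_LOCUTwo p` from FL-x and (GAL).

So the ONLY open input of (LOC-U), for all `r`, is FL-x = `H40.Stmt_FlatKummer`.
-/

set_option autoImplicit false
set_option linter.style.haveILetI false
set_option linter.unusedSectionVars false

noncomputable section

namespace Fermat.Agent.S15.Desc.H40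

open ModularCurve Fermat.Agent.S15 Fermat.Agent.S15.Desc Fermat.Agent.S56.FL
  Fermat.Agent.Lib.LocalGlobalDense Fermat.Agent.S15.Desc.H66
open Polynomial IntermediateField

local notation "Qbar" => AlgebraicClosure ℚ
local notation "GQ" => (AlgebraicClosure ℚ ≃ₐ[ℚ] AlgebraicClosure ℚ)

attribute [local instance] heckeInst

section Kum

variable (r : ℕ) [Fact r.Prime]

local instance towerQqPadic_h40 : IsScalarTower ℚ ℚ_[r] (PadicAlgCl r) :=
  IsScalarTower.of_algebraMap_eq' (Subsingleton.elim _ _)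

/-- **(KUM) for the Fontaine family**, every prime `r`: a `μ_r`-valued crossed homomorphism
vanishing on a member of `bddFon r` has unit class at `r`.
(helper66's proof of `H66.kum_bddFon`, with `H15.isBdd_sup_all`.) -/
theorem kum_bddFon_all (z : GQ → Qbar)
    (hH : ∃ H ∈ bddFon r, ∀ σ ∈ H, z σ = 1) : H97.UnitClassAt r z := by
  obtain ⟨H, ⟨-, L, hfin, hN, hb, hL⟩, hz1⟩ := hH
  intro a γ ha hγ hzγ
  haveI := hfin
  haveI := hN
  have hp : r.Prime := Fact.out
  have hr1 : (1 : ℝ) < r := by exact_mod_cast hp.one_lt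
  have hr0 : (0 : ℝ) < r := by linarith
  -- `ι γ ∈ L`
  have hγL : padicEmbedding r γ ∈ L := by
    refine H38.mem_of_fixed_by_fixingSubgroup (fun σ hσ => ?_)
    rw [← padicEmbedding_localGaloisToGlobal, hzγ, hz1 _ (hL σ hσ), one_mul]
  -- the compositum with the cyclotomic field
  haveI : Normal ℚ_[r] (H15.cycloField r) := H15.normal_cycloField
  have hb' : IsBddField r (L ⊔ H15.cycloField r) :=
    H15.isBdd_sup_all hN H15.normal_cycloField hb H15.isBdd_cycloField
  have hN' : Normal ℚ_[r] (L ⊔ H15.cycloField r : IntermediateField ℚ_[r] (PadicAlgCl r)) :=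
    inferInstance
  obtain ⟨ζ, hζ1, hζr⟩ := H15.exists_zeta (p := r)
  obtain ⟨A, hA⟩ : ∃ A : PadicAlgCl r, A = padicEmbedding r (algebraMap ℚ Qbar a) := ⟨_, rfl⟩
  have hAK : A ∈ H15.cycloField r := by
    rw [hA, AlgHom.commutes, IsScalarTower.algebraMap_apply ℚ ℚ_[r] (PadicAlgCl r) a]
    exact (H15.cycloField r).algebraMap_mem _
  have hA0 : A ≠ 0 := by
    rw [hA]
    intro h
    have h1 := (padicEmbedding r).toRingHom.injective (h.trans (map_zero _).symm)
    exact ha ((algebraMap ℚ Qbar).injective (h1.trans (map_zero _).symm))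
  have hpow : (padicEmbedding r γ) ^ r = A := by rw [← map_pow, hγ, hA]
  obtain ⟨b, hbK, hb0, hnorm⟩ := H85.kumbdd_core (L ⊔ H15.cycloField r) (H15.cycloField r) hN'
    le_sup_right hb' ⟨ζ, H15.mem_cycloField_of_pow_eq_one hζr, hζ1, hζr⟩ A hAK hA0
    ⟨padicEmbedding r γ, (le_sup_left : L ≤ L ⊔ H15.cycloField r) hγL, hpow⟩
  -- norms
  have hlt : ‖A * b ^ r - 1‖ < 1 :=
    lt_of_le_of_lt hnorm (inv_lt_one_of_one_lt₀ hr1)
  have hone : ‖A * b ^ r‖ = 1 := by
    have h1 : A * b ^ r = 1 + (A * b ^ r - 1) := by ring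
    rw [h1, H15.norm_add_eq_left (by rw [norm_one]; exact hlt), norm_one]
  rw [norm_mul, norm_pow, hA, H66.norm_padicEmbedding_rat r ha] at hone
  obtain ⟨k, hk⟩ := H15.norm_pow_finrank (H15.cycloField r) ⟨b, hbK⟩
    (fun h => hb0 (congrArg (fun t : H15.cycloField r => (t : PadicAlgCl r)) h))
  have hk' : ‖b‖ ^ Module.finrank ℚ_[r] (H15.cycloField r) = (r : ℝ) ^ k := hk
  obtain ⟨n, hn⟩ : ∃ n : ℕ, n = Module.finrank ℚ_[r] (H15.cycloField r) := ⟨_, rfl⟩
  rw [← hn] at hk'
  have hnr : ¬ r ∣ n := by rw [hn]; exact H15.not_dvd_finrank_cycloField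
  have h2 : (r : ℝ) ^ (-padicValRat r a * n + k * r) = (r : ℝ) ^ (0 : ℤ) := by
    rw [zpow_zero, zpow_add₀ hr0.ne', zpow_mul, zpow_mul, zpow_natCast, zpow_natCast, ← hk',
      ← pow_mul, mul_comm n r, pow_mul, ← mul_pow, hone, one_pow]
  have h3 := zpow_right_injective₀ hr0 hr1.ne' h2
  have h4 : (r : ℤ) ∣ padicValRat r a * n := ⟨k, by linarith⟩
  rcases (Nat.prime_iff_prime_int.mp hp).dvd_or_dvd h4 with h5 | h5
  · exact h5
  · exact absurd (Int.natCast_dvd_natCast.mp h5) hnr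

end Kum

/-- **BASE-F at `2`**: the Fontaine family at `2` is a bounded family in the sense of the
descent at `r = 2`. -/
theorem isBddFamilyTwo_bddFon : H63.IsBddFamilyTwo (bddFon 2) where
  isOpen := fun _ hH => hH.1
  kum := fun z _ _ hH => kum_bddFon_all 2 z hH

/-- Fontaine's bound at every prime (cluster T: `H50.fl_A_all`). -/
theorem flaAt_all (r : ℕ) [Fact r.Prime] : FLAat r :=
  fun M _ act hkill hflat => H50.fl_A_all r M act hkill hflat

/-- **(LOC-U), `r` odd, from FL-x and (GAL).** -/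
theorem stmt_LOCU_of_flatKummer (hFK : Stmt_FlatKummer) {p : ℕ} [NeZero p] {r : ℕ}
    [Fact r.Prime] (hr2 : r ≠ 2) (hGAL : Stmt_GALfin p) (hrp : ¬ r ∣ p) : Stmt_LOCU p r :=
  stmt_LOCU_of hFK (flaAt_all r) hGAL hrp (H66.isBddFamily_bddFon r hr2)

/-- **(LOC-U) at `2`, from FL-x and (GAL).** -/
theorem stmt_LOCUTwo_of_flatKummer (hFK : Stmt_FlatKummer) {p : ℕ} [NeZero p]
    (hGAL : Stmt_GALfin p) (h2p : ¬ 2 ∣ p) : Stmt_LOCUTwo p := by
  refine ⟨bddFon 2, isBddFamilyTwo_bddFon, ?_⟩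
  intro k e _ y hy
  refine ⟨MulAction.stabilizer GalQ y,
    stab_mem_bddFon hFK (flaAt_all 2) hGAL h2p y hy, fun σ hσ => ?_⟩
  rw [MulAction.mem_stabilizer_iff.mp hσ, sub_self, smul_zero]

end Fermat.Agent.S15.Desc.H40
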