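import Fermat.Agent.S15.Desc.H67_CoordLeavesTwo

/-!
# S15 DESC, leaf COORD, sub-leaf F0 (helper63): the field of inertia-fixed functions

`F0 = {f ∈ F_p · ℚ̄ | IsFrac0 A (1 * p) f ∧ IsFrac0 A (1 * p) (w_p f)}`.

* `coeffIn_*` : series with coefficients in a subring form a subring of `K((t))`;
* `isFrac0_add`, `_mul`, `_neg`, `_inv`, `isFrac0_zero`, `isFrac0_one`, `isFrac0_const`,
  `isFrac0_jdF` : the quotients of series with coefficients in `A₀ = inertiaRing A` form a
  subfield containing the constants of `A₀` and the `j (q ^ d)`;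
* `isFrac0_fixed` : they are fixed by the inertia group of `A`;
* `fieldF0` : the subfield `F0`;
* `stmt_CoordF0_of_disc : Stmt_CoordDisc → Stmt_CoordF0 p`.
-/

set_option autoImplicit false
set_option linter.style.haveILetI false
set_option synthInstance.maxHeartbeats 400000
set_option maxHeartbeats 400000

noncomputable section

open HahnSeries IntermediateField AlgebraicCurve ModularCurve
open Fermat.Agent.S28.H73 Fermat.Agent.RED.H73 Fermat.Agent.RED Fermat.Agent.S24
open Fermat.Agent.BAD.H88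

namespace Fermat.Agent.S15.Desc.H63F

open Fermat.Agent.BAD Fermat.Agent.BAD.H91 Fermat.Agent.S15.Desc.H67

/-! ## Series with coefficients in a subring -/

section CoeffIn

variable {K : Type*} [Field K] (R : Subring K)

/-- All coefficients of the Laurent series `G` are in the subring `R`. -/
def CoeffIn (G : LaurentSeries K) : Prop := ∀ n : ℤ, G.coeff n ∈ R

variable {R}

theorem coeffIn_zero : CoeffIn R (0 : LaurentSeries K) := fun n => by
  rw [HahnSeries.coeff_zero]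
  exact R.zero_mem

theorem coeffIn_single (k : ℤ) {c : K} (hc : c ∈ R) :
    CoeffIn R (HahnSeries.single k c : LaurentSeries K) := fun n => by
  rw [HahnSeries.coeff_single]
  split_ifs
  · exact hc
  · exact R.zero_mem

theorem coeffIn_one : CoeffIn R (1 : LaurentSeries K) := fun n => by
  rw [HahnSeries.coeff_one]
  split_ifs
  · exact R.one_mem
  · exact R.zero_mem

theorem CoeffIn.add {G H : LaurentSeries K} (hG : CoeffIn R G) (hH : CoeffIn R H) :
    CoeffIn R (G + H) := fun n => by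
  rw [HahnSeries.coeff_add]
  exact R.add_mem (hG n) (hH n)

theorem CoeffIn.neg {G : LaurentSeries K} (hG : CoeffIn R G) : CoeffIn R (-G) := fun n => by
  rw [HahnSeries.coeff_neg]
  exact R.neg_mem (hG n)

theorem CoeffIn.mul {G H : LaurentSeries K} (hG : CoeffIn R G) (hH : CoeffIn R H) :
    CoeffIn R (G * H) := fun n => by
  rw [HahnSeries.coeff_mul]
  exact R.sum_mem fun ij _ => R.mul_mem (hG _) (hH _)

theorem coeffIn_algebraMap {c : K} (hc : c ∈ R) :
    CoeffIn R (algebraMap K (LaurentSeries K) c) := by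
  rw [algebraMap_laurentSeries_eq_single]
  exact coeffIn_single 0 hc

theorem coeffIn_qExpand (d : ℕ) [NeZero d] {G : LaurentSeries K} (hG : CoeffIn R G) :
    CoeffIn R (qExpand K d G) := fun n => by
  by_cases h : (d : ℤ) ∣ n
  · obtain ⟨k, rfl⟩ := h
    rw [qExpand_coeff_mul]
    exact hG k
  · rw [qExpand_coeff_of_not_dvd d G h]
    exact R.zero_mem

theorem coeffIn_jqModC : CoeffIn R (jqModC K) := fun n => by
  rw [jqModC_eq_map_intCast, HahnSeries.map_coeff]
  exact intCast_mem R _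

end CoeffIn

/-! ## Quotients of series with coefficients in `A₀` -/

section Frac0

variable (A : ValuationSubring Kbar) (N : ℕ)

theorem isFrac0_iff (f : FN N) :
    IsFrac0 A N f ↔ ∃ G H : FN N, H ≠ 0 ∧ f * H = G ∧
      CoeffIn (inertiaRing A) (G : LaurentSeries Kbar) ∧
      CoeffIn (inertiaRing A) (H : LaurentSeries Kbar) := Iff.rfl

variable {A N}

theorem isFrac0_of_coeffIn {G : FN N} (hG : CoeffIn (inertiaRing A) (G : LaurentSeries Kbar)) :
    IsFrac0 A N G :=
  ⟨G, 1, one_ne_zero, mul_one G, hG, coeffIn_one⟩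

theorem isFrac0_zero : IsFrac0 A N (0 : FN N) := isFrac0_of_coeffIn coeffIn_zero

theorem isFrac0_one : IsFrac0 A N (1 : FN N) := isFrac0_of_coeffIn coeffIn_one

theorem isFrac0_const {c : Kbar} (hc : c ∈ inertiaRing A) :
    IsFrac0 A N (algebraMap Kbar (FN N) c) :=
  isFrac0_of_coeffIn (coeffIn_algebraMap hc)

theorem isFrac0_jdF [NeZero N] (d : ℕ) [NeZero d] (hd : d ∣ N) : IsFrac0 A N (jdF N d hd) := by
  refine isFrac0_of_coeffIn ?_
  rw [Fermat.Agent.BAD.H82.coe_jdF]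
  exact coeffIn_qExpand d coeffIn_jqModC

theorem isFrac0_add {f f' : FN N} (h : IsFrac0 A N f) (h' : IsFrac0 A N f') :
    IsFrac0 A N (f + f') := by
  obtain ⟨G, H, hH, e, hG, hHc⟩ := (isFrac0_iff A N _).mp h
  obtain ⟨G', H', hH', e', hG', hHc'⟩ := (isFrac0_iff A N _).mp h'
  refine ⟨G * H' + G' * H, H * H', mul_ne_zero hH hH', ?_, ?_, ?_⟩
  · rw [← e, ← e']
    ring
  · exact (hG.mul hHc').add (hG'.mul hHc)
  · exact hHc.mul hHc'

theorem isFrac0_mul {f f' : FN N} (h : IsFrac0 A N f) (h' : IsFrac0 A N f') :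
    IsFrac0 A N (f * f') := by
  obtain ⟨G, H, hH, e, hG, hHc⟩ := (isFrac0_iff A N _).mp h
  obtain ⟨G', H', hH', e', hG', hHc'⟩ := (isFrac0_iff A N _).mp h'
  refine ⟨G * G', H * H', mul_ne_zero hH hH', ?_, ?_, ?_⟩
  · rw [← e, ← e']
    ring
  · exact hG.mul hG'
  · exact hHc.mul hHc'

theorem isFrac0_neg {f : FN N} (h : IsFrac0 A N f) : IsFrac0 A N (-f) := by
  obtain ⟨G, H, hH, e, hG, hHc⟩ := (isFrac0_iff A N _).mp h
  refine ⟨-G, H, hH, ?_, ?_, hHc⟩
  · rw [← e]
    ring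
  · exact hG.neg

theorem isFrac0_inv {f : FN N} (h : IsFrac0 A N f) : IsFrac0 A N f⁻¹ := by
  rcases eq_or_ne f 0 with rfl | hf
  · rw [inv_zero]
    exact isFrac0_zero
  obtain ⟨G, H, hH, e, hG, hHc⟩ := (isFrac0_iff A N _).mp h
  have hG0 : G ≠ 0 := by
    rw [← e]
    exact mul_ne_zero hf hH
  refine ⟨H, G, hG0, ?_, hHc, hG⟩
  rw [← e]
  field_simp

/-- A series with coefficients fixed by `σ` is fixed by `σ`. -/
theorem galF_smul_of_coeff (σ : GalQ) (G : FN N)
    (hG : ∀ n : ℤ, σ ((G : LaurentSeries Kbar).coeff n) = (G : LaurentSeries Kbar).coeff n) :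
    galF N σ • G = G := by
  apply Subtype.ext
  rw [coe_arithmeticGalois_smul]
  ext n
  rw [coeffMap_coeff]
  exact hG n

/-- The quotients of series with coefficients in `A₀` are fixed by the inertia group. -/
theorem isFrac0_fixed {f : FN N} (h : IsFrac0 A N f) (σ : GalQ)
    (hσ : σ ∈ A.inertiaSubgroupIn ℚ) : galF N σ • f = f := by
  obtain ⟨G, H, hH, e, hG, hHc⟩ := (isFrac0_iff A N _).mp h
  have e1 : galF N σ • G = G := galF_smul_of_coeff σ G fun n => (hG n).2 σ hσ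
  have e2 : galF N σ • H = H := galF_smul_of_coeff σ H fun n => (hHc n).2 σ hσ
  have e3 : galF N σ • (f * H) = galF N σ • G := by rw [e]
  rw [smul_mul', e1, e2, ← e] at e3
  exact mul_right_cancel₀ hH e3

end Frac0

/-! ## The field `F0` -/

section Field

variable (A : ValuationSubring Kbar) (p : ℕ) (a b : ℤ) (hab : a * p + b * (1 : ℕ) = 1)
  (hp : p.Prime) [NeZero (1 * p)]

/-- The field `F0` of the functions `f` such that `f` and `w_p f` are quotients of series with
coefficients in `A₀ = inertiaRing A`. -/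
def fieldF0 : Subfield (FN (1 * p)) where
  carrier := {f | IsFrac0 A (1 * p) f ∧ IsFrac0 A (1 * p) (wq p 1 a b hab hp f)}
  mul_mem' := fun hf hg => ⟨isFrac0_mul hf.1 hg.1, by
    rw [map_mul]
    exact isFrac0_mul hf.2 hg.2⟩
  one_mem' := ⟨isFrac0_one, by
    rw [map_one]
    exact isFrac0_one⟩
  add_mem' := fun hf hg => ⟨isFrac0_add hf.1 hg.1, by
    rw [map_add]
    exact isFrac0_add hf.2 hg.2⟩
  zero_mem' := ⟨isFrac0_zero, by
    rw [map_zero]
    exact isFrac0_zero⟩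
  neg_mem' := fun hf => ⟨isFrac0_neg hf.1, by
    rw [map_neg]
    exact isFrac0_neg hf.2⟩
  inv_mem' := fun f hf => ⟨isFrac0_inv hf.1, by
    rw [map_inv₀]
    exact isFrac0_inv hf.2⟩

theorem mem_fieldF0_iff (f : FN (1 * p)) :
    f ∈ fieldF0 A p a b hab hp ↔
      IsFrac0 A (1 * p) f ∧ IsFrac0 A (1 * p) (wq p 1 a b hab hp f) := Iff.rfl

theorem const_mem_fieldF0 {c : Kbar} (hc : c ∈ inertiaRing A) :
    algebraMap Kbar (FN (1 * p)) c ∈ fieldF0 A p a b hab hp := by
  refine ⟨isFrac0_const hc, ?_⟩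
  rw [AlgEquiv.commutes]
  exact isFrac0_const hc

theorem jdF_one_mem_fieldF0 :
    jdF (1 * p) 1 (one_dvd _) ∈ fieldF0 A p a b hab hp := by
  refine ⟨isFrac0_jdF 1 _, ?_⟩
  rw [wq_apply]
  have h := wqHom_jdF p 1 a b hab hp 1 (one_dvd 1)
  rw [h]
  exact isFrac0_jdF _ _

theorem jdF_p_mem_fieldF0 :
    jdF (1 * p) (1 * p) dvd_rfl ∈ fieldF0 A p a b hab hp := by
  refine ⟨isFrac0_jdF _ _, ?_⟩
  rw [wq_apply]
  have h := wqHom_jdF_mul p 1 a b hab hp 1 (one_dvd 1)
  rw [h]
  exact isFrac0_jdF _ _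

end Field

/-! ## The discreteness of the second valuation on `F0` -/

section Disc

variable (A : ValuationSubring Kbar) (p : ℕ) (a b : ℤ) (hab : a * p + b * (1 : ℕ) = 1)
  (hp : p.Prime) [NeZero (1 * p)]

/-- (DISC) for the first valuation: an element of the maximal ideal of the Gauss valuation ring
which is `p ^ m · u`, `u` a unit, is divisible by `p`. -/
theorem div_p_mem_V1 (g : FN (1 * p)) (hg : g ∈ V1 A p 1) (hred : red1 A p 1 ⟨g, hg⟩ = 0)
    (m : ℤ) (u : ↥(V1 A p 1)) (hu : red1 A p 1 u ≠ 0) (hp0 : (p : Kbar) ≠ 0)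
    (e : g = algebraMap Kbar (FN (1 * p)) ((p : Kbar) ^ m) * (u : FN (1 * p))) :
    g / algebraMap Kbar (FN (1 * p)) (p : Kbar) ∈ V1 A p 1 := by
  have hpA : ∀ k : ℕ, algebraMap Kbar (FN (1 * p)) ((p : Kbar) ^ k) ∈ V1 A p 1 := fun k =>
    (const_mem1 A p 1 _).mpr (pow_mem (natCast_mem A p) k)
  have hm : 1 ≤ m := by
    by_contra hlt
    push Not at hlt
    have hm0 : m ≤ 0 := by omega
    obtain ⟨k, hk⟩ : ∃ k : ℕ, m = -(k : ℤ) := ⟨(-m).toNat, by omega⟩
    -- `u = p ^ k · g` is in the maximal ideal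
    have hu' : (u : FN (1 * p)) = algebraMap Kbar (FN (1 * p)) ((p : Kbar) ^ k) * g := by
      rw [e, ← mul_assoc, ← map_mul, hk, zpow_neg, zpow_natCast,
        mul_inv_cancel₀ (pow_ne_zero k hp0), map_one]
      exact (one_mul _).symm
    have hu2 : u = ⟨algebraMap Kbar (FN (1 * p)) ((p : Kbar) ^ k), hpA k⟩ * ⟨g, hg⟩ :=
      Subtype.ext hu'
    apply hu
    rw [hu2, map_mul, hred, mul_zero]
  obtain ⟨k, hk⟩ : ∃ k : ℕ, m = (k : ℤ) + 1 := ⟨(m - 1).toNat, by omega⟩
  have e2 : g / algebraMap Kbar (FN (1 * p)) (p : Kbar)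
      = algebraMap Kbar (FN (1 * p)) ((p : Kbar) ^ k) * (u : FN (1 * p)) := by
    have hp1 : algebraMap Kbar (FN (1 * p)) (p : Kbar) ≠ 0 := by
      rw [Ne, map_eq_zero]
      exact hp0
    rw [div_eq_iff hp1, e, hk, zpow_add₀ hp0, zpow_natCast, zpow_one, map_mul]
    ring
  rw [e2]
  exact (V1 A p 1).mul_mem _ _ (hpA k) u.2

end Disc

/-- **(F0)** from (DISC). -/
theorem stmt_CoordF0_of_disc (p : ℕ) (hD : Stmt_CoordDisc) : Stmt_CoordF0 p := by
  intro A a b hab hp _ _ hA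
  refine ⟨fieldF0 A p a b hab hp, jdF_one_mem_fieldF0 A p a b hab hp,
    jdF_p_mem_fieldF0 A p a b hab hp, fun c hc => const_mem_fieldF0 A p a b hab hp hc,
    fun f hf σ hσ => isFrac0_fixed hf.1 σ hσ, fun f hf h hred => ?_⟩
  have hp0 : (p : Kbar) ≠ 0 := Nat.cast_ne_zero.mpr hp.ne_zero
  rcases eq_or_ne f 0 with rfl | hf0
  · rw [zero_div]
    exact (V2 A p 1 a b hab hp).zero_mem
  have hg0 : wq p 1 a b hab hp f ≠ 0 := by
    rw [Ne, map_eq_zero]
    exact hf0
  obtain ⟨m, u, hu, e⟩ := hD p hp A hA (1 * p) (wq p 1 a b hab hp f) hf.2 hg0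
  have hred' : red1 A p 1 ⟨wq p 1 a b hab hp f, h⟩ = 0 := hred
  have key := div_p_mem_V1 A p (wq p 1 a b hab hp f) h hred' m u hu hp0 e
  rw [mem_V2_iff, map_div₀, AlgEquiv.commutes]
  exact key

end Fermat.Agent.S15.Desc.H63F
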