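import Fermat.Agent.S15.Desc.H67_CoordLeaves
import Fermat.Agent.R.H6_UnrFix

/-!
# S15 DESC, leaf COORD / DISC (helper87)

The Gauss valuation is discrete on the functions with inertia-fixed `q`-expansion: a non-zero
quotient of two series with coefficients in `A₀ = A ∩ ℚ̄^I` is `p ^ m · u`, `u` a unit of the
Gauss valuation ring.

* `val_le_zpow_iff`, `exists_nat_val` : the valuation of a non-zero element of `A₀` is
  `|p| ^ k`, `k ∈ ℕ`;
* `exists_scale_prim` : a non-zero series with coefficients in `A₀` is `p ^ k · ι(g)` with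
  `red g ≠ 0`;
* `stmt_CoordDisc : H67.Stmt_CoordDisc`.
-/

set_option autoImplicit false
set_option linter.style.haveILetI false
set_option synthInstance.maxHeartbeats 400000
set_option maxHeartbeats 400000

noncomputable section

open HahnSeries IntermediateField AlgebraicCurve ModularCurve
open Fermat.Agent.S28.H73 Fermat.Agent.RED.H73 Fermat.Agent.RED Fermat.Agent.S24

namespace Fermat.Agent.S15.Desc.H87

open Fermat.Agent.BAD Fermat.Agent.S15.Desc.H67

section val

variable (A : ValuationSubring Kbar) {p : ℕ}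

/-- The valuation of a non-zero inertia-fixed element of `A` is `|p| ^ k` with `k ∈ ℕ`. -/
theorem exists_nat_val (hp : p.Prime) (hA : A.LiesOverPrime p) {c : Kbar}
    (hc : c ∈ inertiaRing A) (hc0 : c ≠ 0) :
    ∃ k : ℕ, A.valuation c = A.valuation (p : Kbar) ^ k := by
  have hlt : A.valuation (p : Kbar) < 1 := A.mem_nonunits_iff.1 hA
  have hne : A.valuation (p : Kbar) ≠ 0 :=
    (Valuation.ne_zero_iff _).2 (by exact_mod_cast hp.ne_zero)
  have h0 : 0 < A.valuation (p : Kbar) := lt_of_le_of_ne zero_le (Ne.symm hne)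
  obtain ⟨k, hk⟩ := Fermat.Agent.R.H6.stmt_UnrFix p hp A hA c hc0 hc.2
  have hle : A.valuation c ≤ 1 := (A.valuation_le_one_iff c).2 hc.1
  have hk0 : 0 ≤ k := by
    by_contra hneg
    rw [not_le] at hneg
    have h1 : A.valuation (p : Kbar) ^ (0 : ℤ) < A.valuation (p : Kbar) ^ k :=
      zpow_right_strictAnti₀ h0 hlt hneg
    rw [zpow_zero, ← hk] at h1
    exact absurd hle (not_le.2 h1)
  refine ⟨k.toNat, ?_⟩
  rw [hk, ← zpow_natCast, Int.toNat_of_nonneg hk0]

end val

section series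

variable (A : ValuationSubring Kbar) {p : ℕ}

/-- A non-zero series with coefficients in `A₀` is `p ^ k · ι(g)` with `red g ≠ 0`. -/
theorem exists_scale_prim (hp : p.Prime) (hA : A.LiesOverPrime p) (G : LaurentSeries Kbar)
    (hG : G ≠ 0) (hcoef : ∀ n : ℤ, G.coeff n ∈ inertiaRing A) :
    ∃ (k : ℕ) (g : LaurentSeries ↥A), redV A g ≠ 0 ∧
      G = HahnSeries.C ((p : Kbar) ^ k) * iotaV A g := by
  classical
  have hlt : A.valuation (p : Kbar) < 1 := A.mem_nonunits_iff.1 hA
  have hp0 : (p : Kbar) ≠ 0 := by exact_mod_cast hp.ne_zero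
  have hne : A.valuation (p : Kbar) ≠ 0 := (Valuation.ne_zero_iff _).2 hp0
  have h0 : 0 < A.valuation (p : Kbar) := lt_of_le_of_ne zero_le (Ne.symm hne)
  -- the minimal exponent
  have hex : ∃ k : ℕ, ∃ n : ℤ, G.coeff n ≠ 0 ∧
      A.valuation (G.coeff n) = A.valuation (p : Kbar) ^ k := by
    obtain ⟨n, hn⟩ : ∃ n : ℤ, G.coeff n ≠ 0 := by
      by_contra hcon
      apply hG
      ext n
      by_contra hn
      exact hcon ⟨n, hn⟩
    obtain ⟨k, hk⟩ := exists_nat_val A hp hA (hcoef n) hn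
    exact ⟨k, n, hn, hk⟩
  set k := Nat.find hex with hkdef
  obtain ⟨n₀, hn₀, hvn₀⟩ := Nat.find_spec hex
  have hmin : ∀ n : ℤ, A.valuation (G.coeff n) ≤ A.valuation (p : Kbar) ^ k := by
    intro n
    by_cases hn : G.coeff n = 0
    · rw [hn, map_zero]
      exact zero_le
    · obtain ⟨j, hj⟩ := exists_nat_val A hp hA (hcoef n) hn
      have hkj : k ≤ j := Nat.find_min' hex ⟨n, hn, hj⟩
      rw [hj]
      exact pow_le_pow_of_le_one h0.le hlt.le hkj
  have hpk0 : (p : Kbar) ^ k ≠ 0 := pow_ne_zero _ hp0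
  have hvpk : A.valuation ((p : Kbar) ^ k) ≠ 0 := (Valuation.ne_zero_iff _).2 hpk0
  -- the scaled series
  set G' : LaurentSeries Kbar := HahnSeries.C (((p : Kbar) ^ k)⁻¹) * G with hG'
  have hG'coeff : ∀ n : ℤ, G'.coeff n = ((p : Kbar) ^ k)⁻¹ * G.coeff n := by
    intro n
    rw [hG', HahnSeries.C_mul_eq_smul, HahnSeries.coeff_smul, smul_eq_mul]
  have hG'v : ∀ n : ℤ, A.valuation (G'.coeff n) ≤ 1 := by
    intro n
    rw [hG'coeff, map_mul, map_inv₀, map_pow]
    rw [inv_mul_le_iff₀ (pow_pos h0 k), mul_one]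
    exact hmin n
  have hco : Fermat.Agent.S28.CoeffsIn A.toSubring G' := fun n => (A.valuation_le_one_iff _).1 (hG'v n)
  obtain ⟨g, hg⟩ := exists_iotaV_eq A hco
  refine ⟨k, g, ?_, ?_⟩
  · rw [redV_ne_zero_iff]
    refine ⟨n₀, ?_⟩
    rw [isUnit_iff_inv_mem]
    have hc : ((g.coeff n₀ : ↥A) : Kbar) = G'.coeff n₀ := by rw [← hg]; rfl
    rw [hc, hG'coeff]
    have hv1 : A.valuation (((p : Kbar) ^ k)⁻¹ * G.coeff n₀) = 1 := by
      rw [map_mul, map_inv₀, map_pow, hvn₀]
      exact inv_mul_cancel₀ (pow_ne_zero _ hne)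
    refine ⟨mul_ne_zero (inv_ne_zero hpk0) hn₀, ?_⟩
    rw [← A.valuation_le_one_iff, map_inv₀, hv1, inv_one]
  · rw [hg, hG', ← mul_assoc, ← map_mul, mul_inv_cancel₀ hpk0, map_one, one_mul]

end series

/-- **(DISC)**: the Gauss valuation is discrete on the functions with inertia-fixed
`q`-expansion. -/
theorem stmt_CoordDisc : H67.Stmt_CoordDisc := by
  intro p hp A hA N _ f hfrac hf0
  obtain ⟨G, H, hH0, hfH, hGc, hHc⟩ := hfrac
  have hp0 : (p : Kbar) ≠ 0 := by exact_mod_cast hp.ne_zero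
  have hG0 : G ≠ 0 := by
    rw [← hfH]
    exact mul_ne_zero hf0 hH0
  have hG0' : (G : LaurentSeries Kbar) ≠ 0 := fun h => hG0 (Subtype.ext h)
  have hH0' : (H : LaurentSeries Kbar) ≠ 0 := fun h => hH0 (Subtype.ext h)
  obtain ⟨kG, g, hg, hGe⟩ := exists_scale_prim A hp hA (G : LaurentSeries Kbar) hG0' hGc
  obtain ⟨kH, h, hh, hHe⟩ := exists_scale_prim A hp hA (H : LaurentSeries Kbar) hH0' hHc
  set a : Kbar := (p : Kbar) ^ kG with ha
  set b : Kbar := (p : Kbar) ^ kH with hb
  have ha0 : a ≠ 0 := pow_ne_zero _ hp0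
  have hb0 : b ≠ 0 := pow_ne_zero _ hp0
  -- the unit
  set u : FN N := algebraMap Kbar (FN N) (b / a) * f with hu
  have hfHL : (f : LaurentSeries Kbar) * (H : LaurentSeries Kbar) = (G : LaurentSeries Kbar) :=
    congrArg Subtype.val hfH
  have hcoeu : (u : LaurentSeries Kbar) = HahnSeries.C (b / a) * (f : LaurentSeries Kbar) := by
    show ((algebraMap Kbar (FN N) (b / a) : FN N) : LaurentSeries Kbar)
      * (f : LaurentSeries Kbar) = _
    rw [coe_algebraMap_F]
  have hCa : (HahnSeries.C a : LaurentSeries Kbar) ≠ 0 := C_ne_zero' ha0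
  have hCb : (HahnSeries.C b : LaurentSeries Kbar) ≠ 0 := C_ne_zero' hb0
  have hkey : iotaV A h * (u : LaurentSeries Kbar) = iotaV A g := by
    have h1 : (f : LaurentSeries Kbar) * (HahnSeries.C b * iotaV A h)
        = HahnSeries.C a * iotaV A g := by
      rw [← hHe, ← hGe]
      exact hfHL
    have h2 : HahnSeries.C a * (iotaV A h * (u : LaurentSeries Kbar))
        = HahnSeries.C a * iotaV A g := by
      rw [← h1, hcoeu]
      have hC : (HahnSeries.C (b / a) : LaurentSeries Kbar)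
          = HahnSeries.C b * (HahnSeries.C a)⁻¹ := by
        rw [div_eq_mul_inv, map_mul, C_inv']
      rw [hC]
      field_simp
    exact mul_left_cancel₀ hCa h2
  have humem : u ∈ gaussV A N := ⟨h, g, hh, hkey⟩
  have hred : gaussRedV A ⟨(u : LaurentSeries Kbar), humem⟩ = redV A g / redV A h :=
    gaussRedV_eq A ⟨(u : LaurentSeries Kbar), humem⟩ hh hkey
  refine ⟨(kG : ℤ) - (kH : ℤ), ⟨u, humem⟩, ?_, ?_⟩
  · intro h0
    have h1 : ((gaussRes A N ⟨u, humem⟩ : ↥(redField A (FNbar N)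
        (hasScale_laurentBaseChange A N))) : LaurentSeries (kV A)) = 0 := by
      rw [h0]
      rfl
    have h2 : gaussRedV A ⟨(u : LaurentSeries Kbar), humem⟩ = 0 := h1
    rw [hred] at h2
    exact div_ne_zero hg hh h2
  · show f = algebraMap Kbar (FN N) ((p : Kbar) ^ ((kG : ℤ) - (kH : ℤ))) * u
    rw [zpow_sub₀ hp0, zpow_natCast, zpow_natCast, hu, ← mul_assoc, ← map_mul]
    have : (p : Kbar) ^ kG / (p : Kbar) ^ kH * (b / a) = 1 := by
      rw [← ha, ← hb]
      field_simp
    rw [this, map_one, one_mul]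

end Fermat.Agent.S15.Desc.H87
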