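import Fermat.Agent.S15.Desc.H63_CoordF0
import Fermat.Agent.S15.Desc.H87_CoordDisc

/-!
# S15 DESC, leaf COORD, sub-leaf F0 (helper63): unconditional form

`stmt_CoordF0 p : H67.Stmt_CoordF0 p`, from `H63F.stmt_CoordF0_of_disc` and helper87's
`stmt_CoordDisc`.
-/

set_option autoImplicit false

namespace Fermat.Agent.S15.Desc.H63F

/-- **(F0)**, unconditional. -/
theorem stmt_CoordF0 (p : ℕ) : Fermat.Agent.S15.Desc.H67.Stmt_CoordF0 p :=
  stmt_CoordF0_of_disc p Fermat.Agent.S15.Desc.H87.stmt_CoordDisc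

end Fermat.Agent.S15.Desc.H63F
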