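/-
S15 / DESC for the descent prime `r = 2` (helper63), part 4: the elementary bounded family
`bddElem 2 A` (open subgroups containing `I ∩ Fix(√U)`, `U` the unramified units) satisfies the
requirements `IsBddFamilyTwo` of the Selmer bounds `sel_bound_two`, `sel_bound_twoA`.

For every prime `r` (also `r = 2`): `kum_bddElem` — a `μ_r`-valued crossed homomorphism vanishing
on a member of `bddElem r A` has unit class at `r`.
-/
import Fermat.Agent.S15.Desc.H63_BddCompact
import Fermat.Agent.S15.Desc.H63_TwoBase

set_option autoImplicit false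

namespace Fermat.Agent.S15.Desc.H63

local notation "Qbar" => AlgebraicClosure ℚ
local notation "GQ" => (AlgebraicClosure ℚ ≃ₐ[ℚ] AlgebraicClosure ℚ)

/-- **(KUM)** for the elementary bounded family, every prime `r`. -/
theorem kum_bddElem (A : ValuationSubring Qbar) {r : ℕ} [Fact r.Prime] (hA : A.LiesOverPrime r)
    (z : GQ → Qbar) (hz : ∃ H ∈ bddElem r A, ∀ σ ∈ H, z σ = 1) : H97.UnitClassAt r z := by
  obtain ⟨H, hH, hvan⟩ := hz
  obtain ⟨-, T, hT, hHT⟩ := bddElem_subset_bddFin A Fact.out hA hH
  intro a γ ha hγ hzγ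
  refine kummer_unit_class A hA T hT a ha γ hγ fun σ hσ hfix => ?_
  rw [hzγ σ, hvan σ (hHT σ hσ hfix), one_mul]

/-- **BASE for `r = 2`**: the elementary bounded family at `2`. -/
theorem isBddFamilyTwo_bddElem (A : ValuationSubring Qbar) (hA : A.LiesOverPrime 2) :
    IsBddFamilyTwo (bddElem 2 A) where
  isOpen := fun _ hH => hH.1
  kum := fun z _ _ hz => by
    have : Fact (Nat.Prime 2) := ⟨Nat.prime_two⟩
    exact kum_bddElem A hA z hz

end Fermat.Agent.S15.Desc.H63
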