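import Fermat.Agent.S15.Desc.H69_Kolchin

/-!
# S15 / DESC: eigen-functionals (package CONST, algebra; helper69)

`V` a finite `𝔽_r`-vector space with a representation `ρ` of a group `G`, `χ : G →* 𝔽_rˣ`,
`W ≤ V` a nonzero `G`-stable subspace on which every `σ` satisfies `((σ - 1)(σ - χ σ))^N = 0`.
Then there is a linear form `π` on `V`, nonzero on `W`, with `π (σ w) = π w` for all `σ`, `w ∈ W`,
or `π (σ w) = χ σ · π w` for all `σ`, `w ∈ W`  (`exists_eigen_functional`).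
-/

set_option autoImplicit false

namespace Fermat.Agent.S15.Desc

section

variable {r : ℕ} [hr : Fact r.Prime] {G V : Type*} [Group G] [AddCommGroup V]
  [Module (ZMod r) V]

/-- The operator `(σ - 1)(σ - χ σ)`. -/
noncomputable def esOp (ρ : Representation (ZMod r) G V) (χ : G →* (ZMod r)ˣ) (σ : G) :
    Module.End (ZMod r) V :=
  (ρ σ - 1) * (ρ σ - ((χ σ : (ZMod r)ˣ) : ZMod r) • 1)

/-- The restriction of a representation to a stable subspace. -/
noncomputable def subRep (ρ : Representation (ZMod r) G V) (W : Submodule (ZMod r) V)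
    (hstab : ∀ σ : G, ∀ w ∈ W, ρ σ w ∈ W) : Representation (ZMod r) G W where
  toFun σ := (ρ σ).restrict (hstab σ)
  map_one' := by
    ext w
    simp
  map_mul' σ τ := by
    ext w
    simp

theorem subRep_apply (ρ : Representation (ZMod r) G V) (W : Submodule (ZMod r) V)
    (hstab : ∀ σ : G, ∀ w ∈ W, ρ σ w ∈ W) (σ : G) (w : W) :
    ((subRep ρ W hstab σ w : W) : V) = ρ σ (w : V) := rfl

theorem esOp_subRep_pow (ρ : Representation (ZMod r) G V) (χ : G →* (ZMod r)ˣ)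
    (W : Submodule (ZMod r) V) (hstab : ∀ σ : G, ∀ w ∈ W, ρ σ w ∈ W) (σ : G) (N : ℕ) (w : W) :
    (((esOp (subRep ρ W hstab) χ σ ^ N) w : W) : V) = (esOp ρ χ σ ^ N) (w : V) := by
  induction N generalizing w with
  | zero => rfl
  | succ N ih =>
    rw [pow_succ, Module.End.mul_apply, ih, pow_succ, Module.End.mul_apply]
    congr 1

theorem exists_eigen_functional [Finite V] (ρ : Representation (ZMod r) G V)
    (χ : G →* (ZMod r)ˣ) (W : Submodule (ZMod r) V) (hW : W ≠ ⊥)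
    (hstab : ∀ σ : G, ∀ w ∈ W, ρ σ w ∈ W)
    (hES : ∀ σ : G, ∃ N : ℕ, ∀ w ∈ W, (esOp ρ χ σ ^ N) w = 0) :
    ∃ π : V →ₗ[ZMod r] ZMod r, (∃ w ∈ W, π w ≠ 0) ∧
      ((∀ σ : G, ∀ w ∈ W, π (ρ σ w) = π w) ∨
       (∀ σ : G, ∀ w ∈ W, π (ρ σ w) = ((χ σ : (ZMod r)ˣ) : ZMod r) * π w)) := by
  classical
  have : NeZero r := ⟨hr.out.ne_zero⟩
  set ρW := subRep ρ W hstab with hρW
  -- the dual is nontrivial and finite
  obtain ⟨w₀, hw₀W, hw₀⟩ := (Submodule.ne_bot_iff W).mp hW
  have hex : ∃ f : Module.Dual (ZMod r) W, f ⟨w₀, hw₀W⟩ ≠ 0 := by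
    by_contra hcon
    push Not at hcon
    have := (Module.forall_dual_apply_eq_zero_iff (ZMod r) (⟨w₀, hw₀W⟩ : W)).mp hcon
    exact hw₀ (congrArg Subtype.val this)
  obtain ⟨f₀, hf₀⟩ := hex
  have : Nontrivial (Module.Dual (ZMod r) W) :=
    nontrivial_of_ne f₀ 0 (fun h => hf₀ (by rw [h]; rfl))
  have : Finite (Module.Dual (ZMod r) W) :=
    Finite.of_injective (fun f : Module.Dual (ZMod r) W => (f : W → ZMod r))
      DFunLike.coe_injective
  -- the hypothesis for the dual representation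
  have hESD : ∀ σ : G, ∃ N : ℕ,
      ((ρW.dual σ - 1) * (ρW.dual σ - (((χ⁻¹ σ : (ZMod r)ˣ)) : ZMod r) • 1)) ^ N = 0 := by
    intro σ
    obtain ⟨N, hN⟩ := hES σ⁻¹
    refine ⟨N, ?_⟩
    have hc : (χ⁻¹ σ : (ZMod r)ˣ) = χ σ⁻¹ := by
      rw [MonoidHom.inv_apply, map_inv]
    rw [hc]
    set T : Module.End (ZMod r) W := ρW σ⁻¹ with hT
    set c' : ZMod r := ((χ σ⁻¹ : (ZMod r)ˣ) : ZMod r) with hc'
    have hdual : ρW.dual σ = Module.Dual.transpose (R := ZMod r) T := Representation.dual_apply ρW σ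
    have hstep : ∀ f : Module.Dual (ZMod r) W,
        ((ρW.dual σ - 1) * (ρW.dual σ - c' • 1)) f = f.comp (esOp ρW χ σ⁻¹) := by
      intro f
      rw [hdual]
      ext w
      simp only [Module.End.mul_apply, LinearMap.sub_apply, LinearMap.smul_apply,
        Module.End.one_apply, Module.Dual.transpose_apply, LinearMap.comp_apply, esOp,
        map_sub, map_smul, smul_eq_mul]
      rfl
    have hpow : ∀ (n : ℕ) (f : Module.Dual (ZMod r) W),
        (((ρW.dual σ - 1) * (ρW.dual σ - c' • 1)) ^ n) f = f.comp (esOp ρW χ σ⁻¹ ^ n) := by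
      intro n
      induction n with
      | zero => intro f; rfl
      | succ n ih =>
        intro f
        rw [pow_succ, Module.End.mul_apply, hstep, ih, pow_succ']
        rfl
    have hzero : esOp ρW χ σ⁻¹ ^ N = 0 := by
      ext w
      rw [esOp_subRep_pow ρ χ W hstab σ⁻¹ N w, hN _ w.2]
      rfl
    ext f w
    rw [hpow N f, hzero]
    simp
  obtain ⟨f, hf0, hf⟩ := exists_eigenvector ρW.dual χ⁻¹ hESD
  obtain ⟨π, hπ⟩ := LinearMap.exists_extend f
  have hπW : ∀ w : W, π (w : V) = f w := fun w => LinearMap.congr_fun hπ w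
  refine ⟨π, ?_, ?_⟩
  · by_contra hcon
    push Not at hcon
    apply hf0
    ext w
    rw [← hπW w, hcon _ w.2]
    rfl
  · have hdualapp : ∀ (σ : G) (w : W), (ρW.dual σ⁻¹ f) w = f (ρW σ w) := by
      intro σ w
      rw [Representation.dual_apply, Module.Dual.transpose_apply, LinearMap.comp_apply, inv_inv]
    rcases hf with hf | hf
    · left
      intro σ w hw
      have h1 := hdualapp σ ⟨w, hw⟩
      rw [hf σ⁻¹] at h1
      have h2 : π (ρ σ w) = f (ρW σ ⟨w, hw⟩) := hπW (ρW σ ⟨w, hw⟩)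
      rw [h2, ← h1]
      exact (hπW ⟨w, hw⟩).symm
    · right
      intro σ w hw
      have h1 := hdualapp σ ⟨w, hw⟩
      rw [hf σ⁻¹, LinearMap.smul_apply, smul_eq_mul] at h1
      have h2 : π (ρ σ w) = f (ρW σ ⟨w, hw⟩) := hπW (ρW σ ⟨w, hw⟩)
      rw [h2, ← h1]
      have hc : (χ⁻¹ σ⁻¹ : (ZMod r)ˣ) = χ σ := by
        rw [MonoidHom.inv_apply, map_inv, inv_inv]
      rw [hc, hπW ⟨w, hw⟩]

end

end Fermat.Agent.S15.Desc
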