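import Fermat.Agent.S15.Desc.H69_Base
import Fermat.Agent.S15.Desc.H69_Eigen

/-!
# S15 / DESC: the Selmer bound for `r` odd (design B; helper69)

`G = Gal(ℚ̄/ℚ)`, `V` a finite `𝔽_r[G]`-module (`= J₀(p)[r]`), `W ≤ V` a `G`-stable subspace
(`= e J₀(p)[r]`, the Eisenstein part) on which every `σ` satisfies `((σ - 1)(σ - χ σ))^N = 0`
(Eichler–Shimura + Frobenius density), `Vt ≤ V` (the toric part at `p`), `𝔅` a family of subgroups
"bounded at `r`" (`IsBddFamily`).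

Good cocycles: `z : G → W` with `z (I_ℓ) = 0` (`ℓ ≠ p, r`), `z (I_p) ⊆ Vt`, vanishing on a member
of `𝔅`.

* `sel_bound_aux` : `dim Zgood(W) ≤ dim (W ∩ Vt) + dim W - dim (W ∩ U₀)` for every subspace `U₀`
  fixed by an element `σ₀` with `χ σ₀ ≠ 1` (complex conjugation).
* `sel_bound` : if `dim (W ∩ Vt) ≤ dim (W ∩ U₀)` (NUM-B) then `dim Zgood(W) ≤ dim W`.
-/

set_option autoImplicit false

namespace Fermat.Agent.S15.Desc

open Module

local notation "Qbar" => AlgebraicClosure ℚ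
local notation "GQ" => (AlgebraicClosure ℚ ≃ₐ[ℚ] AlgebraicClosure ℚ)

section

variable {r : ℕ} [hr : Fact r.Prime] {p : ℕ}
variable {V : Type*} [AddCommGroup V] [Module (ZMod r) V] [Finite V] [DistribMulAction GQ V]
  [SMulCommClass GQ (ZMod r) V]

/-- The local conditions of design B: `Vt` at `p`, no condition on the values at `r`, `0` at the
other primes. -/
def vlocB (p : ℕ) (Vt : Submodule (ZMod r) V) : ℕ → Submodule (ZMod r) V :=
  fun ℓ => if ℓ = p then Vt else if ℓ = r then ⊤ else ⊥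

omit [Finite V] [DistribMulAction GQ V] [SMulCommClass GQ (ZMod r) V] in
theorem finrank_map_le_one (S : Submodule (ZMod r) V) (π : V →ₗ[ZMod r] ZMod r) :
    finrank (ZMod r) ↥(S.map π) ≤ 1 := by
  have h := Submodule.finrank_le (S.map π)
  rwa [Module.finrank_self] at h

theorem sel_bound_aux (hp : p.Prime) (hpr : p ≠ r) (hr2 : r ≠ 2)
    {A : ℕ → ValuationSubring Qbar} (hA : ∀ ℓ : ℕ, ℓ.Prime → (A ℓ).LiesOverPrime ℓ)
    {𝔅 : Set (Subgroup GQ)} (h𝔅 : IsBddFamily r (A r) 𝔅)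
    {ζ₀ : Qbar} (hζ : IsPrimitiveRoot ζ₀ r) (χ : GQ →* (ZMod r)ˣ)
    (hχ : ∀ σ : GQ, σ ζ₀ = ζ₀ ^ ((χ σ : (ZMod r)ˣ) : ZMod r).val)
    (Vt U₀ : Submodule (ZMod r) V) (σ₀ : GQ) (hσ₀ : χ σ₀ ≠ 1) (hU₀ : ∀ v ∈ U₀, σ₀ • v = v) :
    ∀ (n : ℕ) (W : Submodule (ZMod r) V), finrank (ZMod r) W = n →
      (∀ σ : GQ, ∀ w ∈ W, σ • w ∈ W) →
      (∀ σ : GQ, ∃ N : ℕ, ∀ w ∈ W,
        (esOp (Representation.ofDistribMulAction (ZMod r) GQ V) χ σ ^ N) w = 0) →
      DimLE (ZMod r) (Zgood (fun ℓ => (A ℓ).inertiaSubgroupIn ℚ) 𝔅 (vlocB p Vt) W)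
        (finrank (ZMod r) ↥(W ⊓ Vt) + finrank (ZMod r) W - finrank (ZMod r) ↥(W ⊓ U₀)) := by
  intro n
  induction n using Nat.strong_induction_on with
  | _ n ih =>
  intro W hn hstab hES
  by_cases hW : W = ⊥
  · subst hW
    refine dimLE_zero_of_subset_zero ?_ _
    rintro z ⟨-, hzW, -, -⟩
    rw [Set.mem_singleton_iff]
    funext σ
    have := hzW σ
    rwa [Submodule.mem_bot] at this
  · set ρ := Representation.ofDistribMulAction (ZMod r) GQ V with hρ
    have hρapp : ∀ (σ : GQ) (v : V), ρ σ v = σ • v := fun σ v => rfl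
    obtain ⟨π, ⟨w₁, hw₁W, hw₁⟩, hπeig⟩ := exists_eigen_functional ρ χ W hW
      (fun σ w hw => hstab σ w hw) hES
    set W' : Submodule (ZMod r) V := W ⊓ LinearMap.ker π with hW'
    have hle : W' ≤ W := inf_le_left
    have hπ0 : ∀ w ∈ W', π w = 0 := fun w hw => LinearMap.mem_ker.mp hw.2
    have hker : ∀ w ∈ W, π w = 0 → w ∈ W' := fun w hw h0 => ⟨hw, LinearMap.mem_ker.mpr h0⟩
    -- dimension counts
    have hcount : ∀ U : Submodule (ZMod r) V,
        finrank (ZMod r) ↥(W ⊓ U) = finrank (ZMod r) ↥(W' ⊓ U) + finrank (ZMod r) ↥((W ⊓ U).map π) :=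
      fun U => finrank_inf_succ W' W U π hle hπ0 hker
    have hWtop : finrank (ZMod r) ↥((W ⊓ ⊤).map π) = 1 := by
      refine le_antisymm (finrank_map_le_one _ π) ?_
      rw [Nat.one_le_iff_ne_zero]
      intro h0
      have hbot : (W ⊓ ⊤).map π = ⊥ := Submodule.finrank_eq_zero.mp h0
      have hmem : π w₁ ∈ (W ⊓ ⊤).map π := Submodule.mem_map_of_mem ⟨hw₁W, Submodule.mem_top⟩
      rw [hbot, Submodule.mem_bot] at hmem
      exact hw₁ hmem
    have hdW : finrank (ZMod r) W = finrank (ZMod r) W' + 1 := by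
      have h1 := hcount ⊤
      rw [hWtop, inf_top_eq, inf_top_eq] at h1
      exact h1
    have hltW : finrank (ZMod r) W' < n := by omega
    -- the induction hypothesis for `W'`
    have hstab' : ∀ σ : GQ, ∀ w ∈ W', σ • w ∈ W' := by
      intro σ w hw
      refine ⟨hstab σ w hw.1, LinearMap.mem_ker.mpr ?_⟩
      rcases hπeig with h | h
      · have := h σ w hw.1
        rw [hρapp] at this
        rw [this, hπ0 w hw]
      · have := h σ w hw.1
        rw [hρapp] at this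
        rw [this, hπ0 w hw, mul_zero]
    have hES' : ∀ σ : GQ, ∃ N : ℕ, ∀ w ∈ W', (esOp ρ χ σ ^ N) w = 0 := by
      intro σ
      obtain ⟨N, hN⟩ := hES σ
      exact ⟨N, fun w hw => hN w hw.1⟩
    have ih' := ih _ hltW W' rfl hstab' hES'
    -- the local conditions of the line
    have hL : ∀ ℓ : ℕ, ℓ.Prime → ℓ ≠ p → ℓ ≠ r → (W ⊓ vlocB p Vt ℓ).map π = ⊥ := by
      intro ℓ _ hℓp hℓr
      have : vlocB p Vt ℓ = ⊥ := by
        unfold vlocB
        rw [if_neg hℓp, if_neg hℓr]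
      rw [this, inf_bot_eq, Submodule.map_bot]
    have hLp : (W ⊓ vlocB p Vt p).map π = (W ⊓ Vt).map π := by
      have : vlocB p Vt p = Vt := by
        unfold vlocB
        rw [if_pos rfl]
      rw [this]
    have hu' : finrank (ZMod r) ↥(W' ⊓ U₀) ≤ finrank (ZMod r) W' :=
      Submodule.finrank_mono inf_le_left
    have hb1 : finrank (ZMod r) ↥((W ⊓ U₀).map π) ≤ 1 := finrank_map_le_one _ π
    have ha := hcount Vt
    have hu := hcount U₀
    rcases hπeig with h | h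
    · -- trivial character
      have hsemi : ∀ σ : GQ, ∀ w ∈ W, π (σ • w) = (fun _ : GQ => (1 : ZMod r)) σ * π w := by
        intro σ w hw
        have := h σ w hw
        rw [hρapp] at this
        rw [this, one_mul]
      have hbase := base_one hp hpr hA h𝔅 (fun ℓ => (W ⊓ vlocB p Vt ℓ).map π) hL
      beta_reduce at hbase
      rw [hLp] at hbase
      have hstep := dimLE_Zgood_step (fun ℓ => (A ℓ).inertiaSubgroupIn ℚ) 𝔅 (vlocB p Vt)
        W' W π (fun _ : GQ => (1 : ZMod r)) hsemi hker ih' hbase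
      refine hstep.mono subset_rfl ?_
      omega
    · -- cyclotomic character
      have hsemi : ∀ σ : GQ, ∀ w ∈ W,
          π (σ • w) = (fun σ : GQ => ((χ σ : (ZMod r)ˣ) : ZMod r)) σ * π w := by
        intro σ w hw
        have := h σ w hw
        rw [hρapp] at this
        exact this
      have hbase := base_chi hp hr2 hA h𝔅 hζ (χ := fun σ : GQ => ((χ σ : (ZMod r)ˣ) : ZMod r)) hχ
        (fun ℓ => (W ⊓ vlocB p Vt ℓ).map π) hL
      beta_reduce at hbase
      rw [hLp] at hbase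
      have hstep := dimLE_Zgood_step (fun ℓ => (A ℓ).inertiaSubgroupIn ℚ) 𝔅 (vlocB p Vt)
        W' W π (fun σ : GQ => ((χ σ : (ZMod r)ˣ) : ZMod r)) hsemi hker ih' hbase
      have hb0 : finrank (ZMod r) ↥((W ⊓ U₀).map π) = 0 := by
        rw [Submodule.finrank_eq_zero, eq_bot_iff]
        rintro _ ⟨w, ⟨hwW, hwU⟩, rfl⟩
        rw [Submodule.mem_bot]
        have h1 := hsemi σ₀ w hwW
        rw [hU₀ w hwU] at h1
        have h2 : (((χ σ₀ : (ZMod r)ˣ) : ZMod r) - 1) * π w = 0 := by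
          rw [sub_mul, one_mul, ← h1, sub_self]
        rcases mul_eq_zero.mp h2 with h3 | h3
        · exfalso
          apply hσ₀
          ext
          rw [Units.val_one]
          exact sub_eq_zero.mp h3
        · exact h3
      refine hstep.mono subset_rfl ?_
      omega

/-- **The Selmer bound** (design B, `r` odd): if the toric part is not bigger than the part
fixed by `σ₀` (NUM-B), the good cocycles with values in `W` have dimension at most `dim W`. -/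
theorem sel_bound (hp : p.Prime) (hpr : p ≠ r) (hr2 : r ≠ 2)
    {A : ℕ → ValuationSubring Qbar} (hA : ∀ ℓ : ℕ, ℓ.Prime → (A ℓ).LiesOverPrime ℓ)
    {𝔅 : Set (Subgroup GQ)} (h𝔅 : IsBddFamily r (A r) 𝔅)
    {ζ₀ : Qbar} (hζ : IsPrimitiveRoot ζ₀ r) (χ : GQ →* (ZMod r)ˣ)
    (hχ : ∀ σ : GQ, σ ζ₀ = ζ₀ ^ ((χ σ : (ZMod r)ˣ) : ZMod r).val)
    (Vt U₀ : Submodule (ZMod r) V) (σ₀ : GQ) (hσ₀ : χ σ₀ ≠ 1) (hU₀ : ∀ v ∈ U₀, σ₀ • v = v)
    (W : Submodule (ZMod r) V) (hstab : ∀ σ : GQ, ∀ w ∈ W, σ • w ∈ W)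
    (hES : ∀ σ : GQ, ∃ N : ℕ, ∀ w ∈ W,
      (esOp (Representation.ofDistribMulAction (ZMod r) GQ V) χ σ ^ N) w = 0)
    (hnum : finrank (ZMod r) ↥(W ⊓ Vt) ≤ finrank (ZMod r) ↥(W ⊓ U₀)) :
    DimLE (ZMod r) (Zgood (fun ℓ => (A ℓ).inertiaSubgroupIn ℚ) 𝔅 (vlocB p Vt) W)
      (finrank (ZMod r) W) := by
  refine (sel_bound_aux hp hpr hr2 hA h𝔅 hζ χ hχ Vt U₀ σ₀ hσ₀ hU₀ _ W rfl hstab hES).mono
    subset_rfl ?_
  omega

end

end Fermat.Agent.S15.Desc
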