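/-
S15 / DESC for the descent prime `r = 2` (helper63), part 3: the Selmer bounds.

`G = Gal(ℚ̄/ℚ)`, `V` a finite `𝔽_2[G]`-module (`= J₀(p)[2]`), `W ≤ V` a `G`-stable subspace
(`= e J₀(p)[2]`, the Eisenstein part) on which every `σ` is unipotent, `Vt ≤ V` (the toric part
at `p`), `𝔅` a family of subgroups "bounded at `2`" (`IsBddFamilyTwo`: openness and (KUM)).

* **design C** (helper69): the second local condition is at the infinite place: `Cinf ≤ G` a
  subgroup containing an element `c` with `c √-1 ≠ √-1` (complex conjugation), `Vinf ≤ V`;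
  good cocycles: `z (I_ℓ) = 0` (`ℓ ≠ p, 2`), `z (I_p) ⊆ Vt`, `z (Cinf) ⊆ Vinf`, `z` vanishing on
  a member of `𝔅`.  `sel_bound_two` : `dim Zgood(W) ≤ dim (W ∩ Vt) + dim (W ∩ Vinf)`.
* **design A**: the second local condition is at `2`: `z (I_2) ⊆ V0` (the kernel of the reduction
  modulo `2`).  `sel_bound_twoA` : `dim Zgood(W) ≤ dim (W ∩ Vt) + dim (W ∩ V0)`.
-/
import Fermat.Agent.S15.Desc.H63_TwoBase
import Fermat.Agent.S15.Desc.H69_Sel

set_option autoImplicit false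

namespace Fermat.Agent.S15.Desc.H63

open Module

local notation "Qbar" => AlgebraicClosure ℚ
local notation "GQ" => (AlgebraicClosure ℚ ≃ₐ[ℚ] AlgebraicClosure ℚ)

theorem zmod_two_cases (a : ZMod 2) : a = 0 ∨ a = 1 := by
  revert a
  decide

section

variable {p : ℕ}
variable {V : Type*} [AddCommGroup V] [Module (ZMod 2) V] [Finite V] [DistribMulAction GQ V]
  [SMulCommClass GQ (ZMod 2) V]

/-- The local groups of design C: inertia groups at the primes, `Cinf` at the infinite place. -/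
noncomputable def iC (A : ℕ → ValuationSubring Qbar) (Cinf : Subgroup GQ) :
    Option ℕ → Subgroup GQ
  | none => Cinf
  | some ℓ => (A ℓ).inertiaSubgroupIn ℚ

/-- The local conditions of design C: `Vinf` at the infinite place, `Vt` at `p`, no condition on
the values at `2`, `0` at the other primes. -/
def vlocC (p : ℕ) (Vt Vinf : Submodule (ZMod 2) V) : Option ℕ → Submodule (ZMod 2) V
  | none => Vinf
  | some ℓ => if ℓ = p then Vt else if ℓ = 2 then ⊤ else ⊥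

/-- The local conditions of design A: `Vt` at `p`, `V0` at `2`, `0` at the other primes. -/
def vlocA (p : ℕ) (Vt V0 : Submodule (ZMod 2) V) : ℕ → Submodule (ZMod 2) V :=
  fun ℓ => if ℓ = p then Vt else if ℓ = 2 then V0 else ⊥

omit [Finite V] [DistribMulAction GQ V] [SMulCommClass GQ (ZMod 2) V] in
theorem finrank_map_le_one' (S : Submodule (ZMod 2) V) (π : V →ₗ[ZMod 2] ZMod 2) :
    finrank (ZMod 2) ↥(S.map π) ≤ 1 := by
  have h := Submodule.finrank_le (S.map π)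
  rwa [Module.finrank_self] at h

/-- Good cocycles of a line for design C are good cocycles for the inertia groups at the
primes. -/
theorem zgoodLine_some {A : ℕ → ValuationSubring Qbar} {Cinf : Subgroup GQ}
    {𝔅 : Set (Subgroup GQ)} {ψ : GQ → ZMod 2} {Lloc : Option ℕ → Submodule (ZMod 2) (ZMod 2)}
    {u : GQ → ZMod 2} (hu : u ∈ ZgoodLine (iC A Cinf) 𝔅 ψ Lloc) :
    u ∈ ZgoodLine (fun ℓ => (A ℓ).inertiaSubgroupIn ℚ) 𝔅 ψ (fun ℓ => Lloc (some ℓ)) :=
  ⟨hu.1, fun ℓ σ hσ => hu.2.1 (some ℓ) σ hσ, hu.2.2⟩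

/-- The common part of the two inductions: the eigen-functional of a nonzero stable subspace. -/
theorem exists_functional_two (χ : GQ →* (ZMod 2)ˣ)
    (W : Submodule (ZMod 2) V) (hW : W ≠ ⊥) (hstab : ∀ σ : GQ, ∀ w ∈ W, σ • w ∈ W)
    (hES : ∀ σ : GQ, ∃ N : ℕ, ∀ w ∈ W,
      (esOp (Representation.ofDistribMulAction (ZMod 2) GQ V) χ σ ^ N) w = 0) :
    ∃ π : V →ₗ[ZMod 2] ZMod 2, (∃ w ∈ W, π w ≠ 0) ∧
      ∀ σ : GQ, ∀ w ∈ W, π (σ • w) = (fun _ : GQ => (1 : ZMod 2)) σ * π w := by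
  have : Fact (Nat.Prime 2) := ⟨Nat.prime_two⟩
  obtain ⟨π, hπ1, hπeig⟩ := exists_eigen_functional
    (Representation.ofDistribMulAction (ZMod 2) GQ V) χ W hW (fun σ w hw => hstab σ w hw) hES
  refine ⟨π, hπ1, fun σ w hw => ?_⟩
  rcases hπeig with h | h
  · have := h σ w hw
    rw [one_mul]
    exact this
  · have h1 := h σ w hw
    have h2 : ((χ σ : (ZMod 2)ˣ) : ZMod 2) = 1 := by
      rcases zmod_two_cases ((χ σ : (ZMod 2)ˣ) : ZMod 2) with h4 | h4
      · exact absurd h4 (χ σ).ne_zero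
      · exact h4
    rw [h2] at h1
    exact h1

theorem sel_bound_two_aux (hp : p.Prime)
    {A : ℕ → ValuationSubring Qbar} (hA : ∀ ℓ : ℕ, ℓ.Prime → (A ℓ).LiesOverPrime ℓ)
    {𝔅 : Set (Subgroup GQ)} (h𝔅 : IsBddFamilyTwo 𝔅)
    {ι : Qbar} (hι : ι ^ 2 = -1) (Cinf : Subgroup GQ) (c : GQ) (hcC : c ∈ Cinf) (hc : c ι ≠ ι)
    (χ : GQ →* (ZMod 2)ˣ) (Vt Vinf : Submodule (ZMod 2) V) :
    ∀ (n : ℕ) (W : Submodule (ZMod 2) V), finrank (ZMod 2) W = n →
      (∀ σ : GQ, ∀ w ∈ W, σ • w ∈ W) →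
      (∀ σ : GQ, ∃ N : ℕ, ∀ w ∈ W,
        (esOp (Representation.ofDistribMulAction (ZMod 2) GQ V) χ σ ^ N) w = 0) →
      DimLE (ZMod 2) (Zgood (iC A Cinf) 𝔅 (vlocC p Vt Vinf) W)
        (finrank (ZMod 2) ↥(W ⊓ Vt) + finrank (ZMod 2) ↥(W ⊓ Vinf)) := by
  intro n
  induction n using Nat.strong_induction_on with
  | _ n ih =>
  intro W hn hstab hES
  by_cases hW : W = ⊥
  · subst hW
    refine dimLE_zero_of_subset_zero ?_ _
    rintro z ⟨-, hzW, -, -⟩
    rw [Set.mem_singleton_iff]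
    funext σ
    have := hzW σ
    rwa [Submodule.mem_bot] at this
  · obtain ⟨π, ⟨w₁, hw₁W, hw₁⟩, hsemi⟩ := exists_functional_two χ W hW hstab hES
    set W' : Submodule (ZMod 2) V := W ⊓ LinearMap.ker π with hW'
    have hle : W' ≤ W := inf_le_left
    have hπ0 : ∀ w ∈ W', π w = 0 := fun w hw => LinearMap.mem_ker.mp hw.2
    have hker : ∀ w ∈ W, π w = 0 → w ∈ W' := fun w hw h0 => ⟨hw, LinearMap.mem_ker.mpr h0⟩
    have hcount : ∀ U : Submodule (ZMod 2) V,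
        finrank (ZMod 2) ↥(W ⊓ U) =
          finrank (ZMod 2) ↥(W' ⊓ U) + finrank (ZMod 2) ↥((W ⊓ U).map π) :=
      fun U => finrank_inf_succ W' W U π hle hπ0 hker
    have hWtop : finrank (ZMod 2) ↥((W ⊓ ⊤).map π) = 1 := by
      refine le_antisymm (finrank_map_le_one' _ π) ?_
      rw [Nat.one_le_iff_ne_zero]
      intro h0
      have hbot : (W ⊓ ⊤).map π = ⊥ := Submodule.finrank_eq_zero.mp h0
      have hmem : π w₁ ∈ (W ⊓ ⊤).map π := Submodule.mem_map_of_mem ⟨hw₁W, Submodule.mem_top⟩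
      rw [hbot, Submodule.mem_bot] at hmem
      exact hw₁ hmem
    have hdW : finrank (ZMod 2) W = finrank (ZMod 2) W' + 1 := by
      have h1 := hcount ⊤
      rw [hWtop, inf_top_eq, inf_top_eq] at h1
      exact h1
    have hltW : finrank (ZMod 2) W' < n := by omega
    have hstab' : ∀ σ : GQ, ∀ w ∈ W', σ • w ∈ W' := by
      intro σ w hw
      refine ⟨hstab σ w hw.1, LinearMap.mem_ker.mpr ?_⟩
      rw [hsemi σ w hw.1, hπ0 w hw, mul_zero]
    have hES' : ∀ σ : GQ, ∃ N : ℕ, ∀ w ∈ W',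
        (esOp (Representation.ofDistribMulAction (ZMod 2) GQ V) χ σ ^ N) w = 0 := by
      intro σ
      obtain ⟨N, hN⟩ := hES σ
      exact ⟨N, fun w hw => hN w hw.1⟩
    have ih' := ih _ hltW W' rfl hstab' hES'
    -- the local conditions of the line
    set Lloc : Option ℕ → Submodule (ZMod 2) (ZMod 2) :=
      fun v => (W ⊓ vlocC p Vt Vinf v).map π with hLloc
    have hL : ∀ ℓ : ℕ, ℓ.Prime → ℓ ≠ p → ℓ ≠ 2 → Lloc (some ℓ) = ⊥ := by
      intro ℓ _ hℓp hℓ2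
      have : vlocC p Vt Vinf (some ℓ) = ⊥ := by
        show (if ℓ = p then Vt else if ℓ = 2 then ⊤ else ⊥) = ⊥
        rw [if_neg hℓp, if_neg hℓ2]
      rw [hLloc]
      simp only
      rw [this, inf_bot_eq, Submodule.map_bot]
    have hLp : Lloc (some p) = (W ⊓ Vt).map π := by
      have : vlocC p Vt Vinf (some p) = Vt := by
        show (if p = p then Vt else if p = 2 then ⊤ else ⊥) = Vt
        rw [if_pos rfl]
      rw [hLloc]
      simp only
      rw [this]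
    have hLinf : Lloc none = (W ⊓ Vinf).map π := rfl
    have hbase : DimLE (ZMod 2) (ZgoodLine (iC A Cinf) 𝔅 (fun _ : GQ => (1 : ZMod 2)) Lloc)
        (finrank (ZMod 2) ↥((W ⊓ Vt).map π) + finrank (ZMod 2) ↥((W ⊓ Vinf).map π)) := by
      intro T hT hfin
      have hT' : (T : Set (GQ → ZMod 2)) ⊆ ZgoodLine (fun ℓ => (A ℓ).inertiaSubgroupIn ℚ) 𝔅
          (fun _ : GQ => (1 : ZMod 2)) (fun ℓ => Lloc (some ℓ)) := fun u hu => zgoodLine_some (hT hu)
      by_cases hinf : (W ⊓ Vinf).map π = ⊥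
      · have hTc : ∀ u ∈ T, u c = 0 := by
          intro u hu
          have h1 := (hT hu).2.1 none c hcC
          rw [hLinf, hinf, Submodule.mem_bot] at h1
          exact h1
        have h2 := base_two_real hp hA h𝔅 (fun ℓ => Lloc (some ℓ)) hL hι c hc T hT' hTc
        beta_reduce at h2
        rw [hLp] at h2
        omega
      · have h1 : 1 ≤ finrank (ZMod 2) ↥((W ⊓ Vinf).map π) := by
          rw [Nat.one_le_iff_ne_zero]
          intro h0
          exact hinf (Submodule.finrank_eq_zero.mp h0)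
        have h2 := base_two_mu hp hA h𝔅 (fun ℓ => Lloc (some ℓ)) hL T hT' hfin
        beta_reduce at h2
        rw [hLp] at h2
        omega
    have hstep := dimLE_Zgood_step (iC A Cinf) 𝔅 (vlocC p Vt Vinf) W' W π
      (fun _ : GQ => (1 : ZMod 2)) hsemi hker ih' hbase
    refine hstep.mono subset_rfl (le_of_eq ?_)
    have ha := hcount Vt
    have hu := hcount Vinf
    omega

/-- **The Selmer bound for `r = 2`, design C** (second local condition at the infinite place). -/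
theorem sel_bound_two (hp : p.Prime)
    {A : ℕ → ValuationSubring Qbar} (hA : ∀ ℓ : ℕ, ℓ.Prime → (A ℓ).LiesOverPrime ℓ)
    {𝔅 : Set (Subgroup GQ)} (h𝔅 : IsBddFamilyTwo 𝔅)
    {ι : Qbar} (hι : ι ^ 2 = -1) (Cinf : Subgroup GQ) (c : GQ) (hcC : c ∈ Cinf) (hc : c ι ≠ ι)
    (χ : GQ →* (ZMod 2)ˣ) (Vt Vinf : Submodule (ZMod 2) V)
    (W : Submodule (ZMod 2) V) (hstab : ∀ σ : GQ, ∀ w ∈ W, σ • w ∈ W)
    (hES : ∀ σ : GQ, ∃ N : ℕ, ∀ w ∈ W,
      (esOp (Representation.ofDistribMulAction (ZMod 2) GQ V) χ σ ^ N) w = 0)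
    (hnum : finrank (ZMod 2) ↥(W ⊓ Vt) + finrank (ZMod 2) ↥(W ⊓ Vinf) ≤ finrank (ZMod 2) W) :
    DimLE (ZMod 2) (Zgood (iC A Cinf) 𝔅 (vlocC p Vt Vinf) W) (finrank (ZMod 2) W) :=
  (sel_bound_two_aux hp hA h𝔅 hι Cinf c hcC hc χ Vt Vinf _ W rfl hstab hES).mono subset_rfl hnum

theorem sel_bound_twoA_aux (hp : p.Prime) (hp2 : p ≠ 2)
    {A : ℕ → ValuationSubring Qbar} (hA : ∀ ℓ : ℕ, ℓ.Prime → (A ℓ).LiesOverPrime ℓ)
    {𝔅 : Set (Subgroup GQ)} (h𝔅 : IsBddFamilyTwo 𝔅)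
    (χ : GQ →* (ZMod 2)ˣ) (Vt V0 : Submodule (ZMod 2) V) :
    ∀ (n : ℕ) (W : Submodule (ZMod 2) V), finrank (ZMod 2) W = n →
      (∀ σ : GQ, ∀ w ∈ W, σ • w ∈ W) →
      (∀ σ : GQ, ∃ N : ℕ, ∀ w ∈ W,
        (esOp (Representation.ofDistribMulAction (ZMod 2) GQ V) χ σ ^ N) w = 0) →
      DimLE (ZMod 2) (Zgood (fun ℓ => (A ℓ).inertiaSubgroupIn ℚ) 𝔅 (vlocA p Vt V0) W)
        (finrank (ZMod 2) ↥(W ⊓ Vt) + finrank (ZMod 2) ↥(W ⊓ V0)) := by
  have : Fact (Nat.Prime 2) := ⟨Nat.prime_two⟩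
  intro n
  induction n using Nat.strong_induction_on with
  | _ n ih =>
  intro W hn hstab hES
  by_cases hW : W = ⊥
  · subst hW
    refine dimLE_zero_of_subset_zero ?_ _
    rintro z ⟨-, hzW, -, -⟩
    rw [Set.mem_singleton_iff]
    funext σ
    have := hzW σ
    rwa [Submodule.mem_bot] at this
  · obtain ⟨π, ⟨w₁, hw₁W, hw₁⟩, hsemi⟩ := exists_functional_two χ W hW hstab hES
    set W' : Submodule (ZMod 2) V := W ⊓ LinearMap.ker π with hW'
    have hle : W' ≤ W := inf_le_left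
    have hπ0 : ∀ w ∈ W', π w = 0 := fun w hw => LinearMap.mem_ker.mp hw.2
    have hker : ∀ w ∈ W, π w = 0 → w ∈ W' := fun w hw h0 => ⟨hw, LinearMap.mem_ker.mpr h0⟩
    have hcount : ∀ U : Submodule (ZMod 2) V,
        finrank (ZMod 2) ↥(W ⊓ U) =
          finrank (ZMod 2) ↥(W' ⊓ U) + finrank (ZMod 2) ↥((W ⊓ U).map π) :=
      fun U => finrank_inf_succ W' W U π hle hπ0 hker
    have hWtop : finrank (ZMod 2) ↥((W ⊓ ⊤).map π) = 1 := by
      refine le_antisymm (finrank_map_le_one' _ π) ?_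
      rw [Nat.one_le_iff_ne_zero]
      intro h0
      have hbot : (W ⊓ ⊤).map π = ⊥ := Submodule.finrank_eq_zero.mp h0
      have hmem : π w₁ ∈ (W ⊓ ⊤).map π := Submodule.mem_map_of_mem ⟨hw₁W, Submodule.mem_top⟩
      rw [hbot, Submodule.mem_bot] at hmem
      exact hw₁ hmem
    have hdW : finrank (ZMod 2) W = finrank (ZMod 2) W' + 1 := by
      have h1 := hcount ⊤
      rw [hWtop, inf_top_eq, inf_top_eq] at h1
      exact h1
    have hltW : finrank (ZMod 2) W' < n := by omega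
    have hstab' : ∀ σ : GQ, ∀ w ∈ W', σ • w ∈ W' := by
      intro σ w hw
      refine ⟨hstab σ w hw.1, LinearMap.mem_ker.mpr ?_⟩
      rw [hsemi σ w hw.1, hπ0 w hw, mul_zero]
    have hES' : ∀ σ : GQ, ∃ N : ℕ, ∀ w ∈ W',
        (esOp (Representation.ofDistribMulAction (ZMod 2) GQ V) χ σ ^ N) w = 0 := by
      intro σ
      obtain ⟨N, hN⟩ := hES σ
      exact ⟨N, fun w hw => hN w hw.1⟩
    have ih' := ih _ hltW W' rfl hstab' hES'
    set Lloc : ℕ → Submodule (ZMod 2) (ZMod 2) :=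
      fun ℓ => (W ⊓ vlocA p Vt V0 ℓ).map π with hLloc
    have hL : ∀ ℓ : ℕ, ℓ.Prime → ℓ ≠ p → ℓ ≠ 2 → Lloc ℓ = ⊥ := by
      intro ℓ _ hℓp hℓ2
      have : vlocA p Vt V0 ℓ = ⊥ := by
        unfold vlocA
        rw [if_neg hℓp, if_neg hℓ2]
      rw [hLloc]
      simp only
      rw [this, inf_bot_eq, Submodule.map_bot]
    have hLp : Lloc p = (W ⊓ Vt).map π := by
      have : vlocA p Vt V0 p = Vt := by
        unfold vlocA
        rw [if_pos rfl]
      rw [hLloc]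
      simp only
      rw [this]
    have hL2 : Lloc 2 = (W ⊓ V0).map π := by
      have : vlocA p Vt V0 2 = V0 := by
        unfold vlocA
        rw [if_neg (Ne.symm hp2), if_pos rfl]
      rw [hLloc]
      simp only
      rw [this]
    have hbase : DimLE (ZMod 2) (ZgoodLine (fun ℓ => (A ℓ).inertiaSubgroupIn ℚ) 𝔅
        (fun _ : GQ => (1 : ZMod 2)) Lloc)
        (finrank (ZMod 2) ↥((W ⊓ Vt).map π) + finrank (ZMod 2) ↥((W ⊓ V0).map π)) := by
      by_cases h0 : (W ⊓ V0).map π = ⊥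
      · have hL' : ∀ ℓ : ℕ, ℓ.Prime → ℓ ≠ p → Lloc ℓ = ⊥ := by
          intro ℓ hℓ hℓp
          by_cases hℓ2 : ℓ = 2
          · rw [hℓ2, hL2, h0]
          · exact hL ℓ hℓ hℓp hℓ2
        have h2 := base_unr (r := 2) hp hp2 hA h𝔅.isOpen Lloc hL'
        rw [hLp] at h2
        exact h2.mono subset_rfl (Nat.le_add_right _ _)
      · have h1 : 1 ≤ finrank (ZMod 2) ↥((W ⊓ V0).map π) := by
          rw [Nat.one_le_iff_ne_zero]
          intro h0'
          exact h0 (Submodule.finrank_eq_zero.mp h0')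
        have h2 := base_two_mu hp hA h𝔅 Lloc hL
        rw [hLp] at h2
        exact h2.mono subset_rfl (by omega)
    have hstep := dimLE_Zgood_step (fun ℓ => (A ℓ).inertiaSubgroupIn ℚ) 𝔅 (vlocA p Vt V0) W' W π
      (fun _ : GQ => (1 : ZMod 2)) hsemi hker ih' hbase
    refine hstep.mono subset_rfl (le_of_eq ?_)
    have ha := hcount Vt
    have hu := hcount V0
    omega

/-- **The Selmer bound for `r = 2`, design A** (second local condition at `2`). -/
theorem sel_bound_twoA (hp : p.Prime) (hp2 : p ≠ 2)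
    {A : ℕ → ValuationSubring Qbar} (hA : ∀ ℓ : ℕ, ℓ.Prime → (A ℓ).LiesOverPrime ℓ)
    {𝔅 : Set (Subgroup GQ)} (h𝔅 : IsBddFamilyTwo 𝔅)
    (χ : GQ →* (ZMod 2)ˣ) (Vt V0 : Submodule (ZMod 2) V)
    (W : Submodule (ZMod 2) V) (hstab : ∀ σ : GQ, ∀ w ∈ W, σ • w ∈ W)
    (hES : ∀ σ : GQ, ∃ N : ℕ, ∀ w ∈ W,
      (esOp (Representation.ofDistribMulAction (ZMod 2) GQ V) χ σ ^ N) w = 0)
    (hnum : finrank (ZMod 2) ↥(W ⊓ Vt) + finrank (ZMod 2) ↥(W ⊓ V0) ≤ finrank (ZMod 2) W) :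
    DimLE (ZMod 2) (Zgood (fun ℓ => (A ℓ).inertiaSubgroupIn ℚ) 𝔅 (vlocA p Vt V0) W)
      (finrank (ZMod 2) W) :=
  (sel_bound_twoA_aux hp hp2 hA h𝔅 χ Vt V0 _ W rfl hstab hES).mono subset_rfl hnum

end

end Fermat.Agent.S15.Desc.H63
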