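import Fermat.Agent.S15.Desc.H69_NumP

/-!
# S15 / DESC: the local condition at the bad prime by a dimension count (helper63)

Route 2 to `Stmt_VT` (the local condition at `p` and its numerics), without the component group.

`J` an abelian group with commuting actions of `G` and of a commutative ring `R`, `r` a prime,
`e ∈ R` idempotent on `V = J[r]`, `W = e V`, `I ≤ G` (the inertia group at the bad prime `p`),
`T ≤ V` a subspace (the toric part `K1(r)`).

Hypotheses:
* (B1) `I` acts trivially on `T`;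
* (B0-div) `σ y - y ∈ T` for `σ ∈ I` and `r y` rational (in particular for `y ∈ V`);
* (CYC) `I` acts on `V` through a cyclic group (tame inertia);
* (COUNT) `dim T + dim V^I ≤ dim V + 1`
  (from `dim T ≤ g`, `dim V^I ≤ g + 1`, `dim V = 2 g`).

Conclusion (`exists_vt_of_count`): `Vt = e T` contains the values on `I` of all Kummer cocycles
`σ ↦ e (σ y - y)`, and `2 dim (W ∩ Vt) ≤ dim W + 1`.

Proof: `N = σ₀ - 1`, `ker N = V^I`, `N V ≤ T ≤ ker N`, so `T = N V + 𝔽_r v₀` by (COUNT);
`e T = N W + 𝔽_r e v₀ ≤ W ∩ ker N`, and `dim W = dim N W + dim (W ∩ ker N)`.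
-/

set_option autoImplicit false
set_option linter.style.haveILetI false

namespace Fermat.Agent.S15.Desc.H63

open Module Fermat.Agent.S15.Desc

section LinAlg

variable {K E : Type*} [Field K] [AddCommGroup E] [Module K E]

/-- A subspace of codimension at most one is complemented by a line. -/
theorem exists_sup_span_eq (A B : Submodule K E) [Module.Finite K B] (hAB : A ≤ B)
    (hdim : finrank K B ≤ finrank K A + 1) :
    ∃ v ∈ B, B = A ⊔ Submodule.span K {v} := by
  classical
  by_cases h : B ≤ A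
  · refine ⟨0, B.zero_mem, ?_⟩
    rw [Submodule.span_zero_singleton, sup_bot_eq]
    exact le_antisymm h hAB
  · obtain ⟨v, hvB, hvA⟩ := Set.not_subset.mp h
    refine ⟨v, hvB, ?_⟩
    have hle : A ⊔ Submodule.span K {v} ≤ B :=
      sup_le hAB ((Submodule.span_singleton_le_iff_mem v B).mpr hvB)
    haveI : Module.Finite K A := Submodule.finiteDimensional_of_le hAB
    have hlt : A < A ⊔ Submodule.span K {v} := by
      refine lt_of_le_of_ne le_sup_left fun heq => hvA ?_
      have : v ∈ A ⊔ Submodule.span K {v} :=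
        Submodule.mem_sup_right (Submodule.mem_span_singleton_self v)
      rw [← heq] at this
      exact this
    haveI : Module.Finite K ↥(A ⊔ Submodule.span K {v}) :=
      Submodule.finiteDimensional_of_le hle
    have h1 : finrank K A < finrank K ↥(A ⊔ Submodule.span K {v}) :=
      Submodule.finrank_lt_finrank_of_lt hlt
    exact (Submodule.eq_of_le_of_finrank_le hle (by omega)).symm

end LinAlg

section Count

variable {G J R : Type*} [Group G] [AddCommGroup J] [DistribMulAction G J] [CommRing R]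
  [Module R J]

/-- The subspace of `J[r]` fixed by the subgroup `I`. -/
def fixI (r : ℕ) (I : Subgroup G) : Submodule (ZMod r) (TorsR J r) where
  carrier := {v | ∀ σ ∈ I, σ • v = v}
  add_mem' := fun {a b} ha hb σ hσ => by
    rw [smul_add, ha σ hσ, hb σ hσ]
  zero_mem' := fun σ _ => smul_zero σ
  smul_mem' := fun c v hv σ hσ => by
    rw [smul_comm, hv σ hσ]

theorem mem_fixI {r : ℕ} {I : Subgroup G} {v : TorsR J r} :
    v ∈ fixI (J := J) r I ↔ ∀ σ ∈ I, σ • v = v := Iff.rfl

/-- The action of `e ∈ R` on `J[r]`, as an additive map. -/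
def eAdd (r : ℕ) (e : R) : TorsR J r →+ TorsR J r where
  toFun v := ⟨e • (v : J), by rw [mem_torsR, ← smul_comm, mem_torsR.mp v.2, smul_zero]⟩
  map_zero' := Subtype.ext (smul_zero e)
  map_add' a b := Subtype.ext (by
    show e • ((a + b : TorsR J r) : J) = e • (a : J) + e • (b : J)
    rw [AddSubgroup.coe_add, smul_add])

/-- The action of `e ∈ R` on `J[r]`. -/
noncomputable def eLin (r : ℕ) (e : R) : TorsR J r →ₗ[ZMod r] TorsR J r :=
  (eAdd (J := J) r e).toZModLinearMap r

theorem coe_eLin (r : ℕ) (e : R) (v : TorsR J r) : ((eLin r e v : TorsR J r) : J) = e • (v : J) :=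
  rfl

variable (r : ℕ) [hr : Fact r.Prime] (e : R)
variable (hGH : ∀ (σ : G) (t : R) (z : J), σ • (t • z) = t • (σ • z))

include hGH in
/-- **The local condition at the bad prime, by a dimension count.** -/
theorem exists_vt_of_count (I : Subgroup G)
    (hfin : Finite (TorsR J r))
    (hidem : ∀ v : J, r • v = 0 → e • (e • v) = e • v)
    (T : Submodule (ZMod r) (TorsR J r))
    (hB1 : ∀ σ ∈ I, ∀ v ∈ T, σ • v = v)
    (hB0div : ∀ σ ∈ I, ∀ y ∈ kumDom G J r, toTors r (σ • y - y) ∈ T)
    (hcyc : ∃ σ₀ ∈ I, ∀ σ ∈ I, ∃ k : ℕ, ∀ u : J, r • u = 0 → σ • u = σ₀ ^ k • u)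
    (hcount : finrank (ZMod r) ↥T + finrank (ZMod r) ↥(fixI (J := J) r I) ≤
      finrank (ZMod r) (TorsR J r) + 1) :
    haveI : NeZero r := ⟨hr.out.ne_zero⟩
    ∃ Vt : Submodule (ZMod r) (TorsR J r),
      (∀ σ ∈ I, ∀ y ∈ kumDom G J r, kumCoc r e y σ ∈ Vt) ∧
      2 * finrank (ZMod r) ↥(eisW (J := J) r e ⊓ Vt) ≤ finrank (ZMod r) ↥(eisW (J := J) r e) + 1 := by
  classical
  haveI : NeZero r := ⟨hr.out.ne_zero⟩
  haveI : Module.Finite (ZMod r) (TorsR J r) := Module.Finite.of_finite
  obtain ⟨σ₀, hσ₀, hcyc⟩ := hcyc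
  -- the operator `N = σ₀ - 1` on `J[r]`
  let N : TorsR J r →ₗ[ZMod r] TorsR J r :=
    { toFun := fun v => σ₀ • v - v
      map_add' := fun a b => by rw [smul_add]; abel
      map_smul' := fun c v => by
        rw [RingHom.id_apply, smul_sub, smul_comm] }
  have hNapp : ∀ v : TorsR J r, N v = σ₀ • v - v := fun v => rfl
  -- `(σ - 1) V ≤ T`
  have hB0 : ∀ σ ∈ I, ∀ v : TorsR J r, σ • v - v ∈ T := by
    intro σ hσ v
    have h := hB0div σ hσ (v : J) (torsR_le_kumDom r v.2)
    have h2 : toTors r (σ • (v : J) - (v : J)) = σ • v - v := by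
      apply Subtype.ext
      rw [coe_toTors (by
        rw [smul_sub, ← smul_comm, mem_torsR.mp v.2, smul_zero, sub_self])]
      rfl
    rw [h2] at h
    exact h
  have hrange : LinearMap.range N ≤ T := by
    rintro _ ⟨v, rfl⟩
    exact hB0 σ₀ hσ₀ v
  have hker : LinearMap.ker N = fixI (J := J) r I := by
    ext v
    rw [LinearMap.mem_ker, hNapp, sub_eq_zero, mem_fixI]
    constructor
    · intro h σ hσ
      obtain ⟨k, hk⟩ := hcyc σ hσ
      apply Subtype.ext
      rw [coe_gal_smul, hk (v : J) (mem_torsR.mp v.2)]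
      have h' : σ₀ • (v : J) = v := congrArg Subtype.val h
      clear hk
      induction k with
      | zero => rw [pow_zero, one_smul]
      | succ k ih => rw [pow_succ, mul_smul, h', ih]
    · intro h
      exact h σ₀ hσ₀
  have hTker : T ≤ LinearMap.ker N := by
    intro v hv
    rw [LinearMap.mem_ker, hNapp, hB1 σ₀ hσ₀ v hv, sub_self]
  -- `T = N V + 𝔽_r v₀`
  have hrk := LinearMap.finrank_range_add_finrank_ker N
  rw [hker] at hrk
  obtain ⟨v₀, hv₀T, hTeq⟩ := exists_sup_span_eq (LinearMap.range N) T hrange (by omega)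
  set W : Submodule (ZMod r) (TorsR J r) := eisW r e with hW
  set E : TorsR J r →ₗ[ZMod r] TorsR J r := eLin r e with hE
  have hEW : ∀ v : TorsR J r, E v ∈ W := by
    intro v
    show e • ((E v : TorsR J r) : J) = ((E v : TorsR J r) : J)
    rw [hE, coe_eLin]
    exact hidem _ (mem_torsR.mp v.2)
  have hEN : ∀ v : TorsR J r, E (N v) = N (E v) := by
    intro v
    apply Subtype.ext
    show e • (σ₀ • (v : J) - (v : J)) = σ₀ • (e • (v : J)) - e • (v : J)
    rw [smul_sub, hGH]
  refine ⟨T.map E, ?_, ?_⟩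
  · intro σ hσ y hy
    refine ⟨toTors r (σ • y - y), hB0div σ hσ y hy, ?_⟩
    apply Subtype.ext
    have hy' : r • (σ • y - y) = 0 := by
      rw [smul_sub, ← smul_comm, hy σ, sub_self]
    rw [coe_kumCoc e hy σ, hE, coe_eLin, coe_toTors hy']
  · have hle1 : T.map E ≤ W.map N ⊔ Submodule.span (ZMod r) {E v₀} := by
      rintro _ ⟨t, ht, rfl⟩
      rw [hTeq] at ht
      obtain ⟨a, ⟨v, rfl⟩, b, hb, rfl⟩ := Submodule.mem_sup.mp ht
      obtain ⟨c, rfl⟩ := Submodule.mem_span_singleton.mp hb
      rw [map_add, hEN, map_smul]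
      exact Submodule.add_mem _
        (Submodule.mem_sup_left (Submodule.mem_map_of_mem (hEW v)))
        (Submodule.mem_sup_right (Submodule.smul_mem _ c (Submodule.mem_span_singleton_self _)))
    have hle2 : T.map E ≤ W ⊓ LinearMap.ker N := by
      rintro _ ⟨t, ht, rfl⟩
      refine ⟨hEW t, ?_⟩
      show N (E t) = 0
      rw [← hEN, LinearMap.mem_ker.mp (hTker ht), map_zero]
    have h1 : finrank (ZMod r) ↥(T.map E) ≤ finrank (ZMod r) ↥(W.map N) + 1 := by
      refine (Submodule.finrank_mono hle1).trans ?_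
      refine (Submodule.finrank_add_le_finrank_add_finrank _ _).trans ?_
      have h0 : finrank (ZMod r) ↥(Submodule.span (ZMod r) ({E v₀} : Set (TorsR J r))) ≤ 1 := by
        have := finrank_span_finset_le_card (R := ZMod r) ({E v₀} : Finset (TorsR J r))
        rw [Finset.card_singleton, Finset.coe_singleton] at this
        exact this
      omega
    have h2 : finrank (ZMod r) ↥(T.map E) ≤ finrank (ZMod r) ↥(W ⊓ LinearMap.ker N) :=
      Submodule.finrank_mono hle2
    have h3 := finrank_eq_map_add_inf_ker W N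
    have h4 : finrank (ZMod r) ↥(W ⊓ T.map E) ≤ finrank (ZMod r) ↥(T.map E) :=
      Submodule.finrank_mono inf_le_right
    omega

end Count

end Fermat.Agent.S15.Desc.H63
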