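import Fermat.Agent.S15.Desc.H63_FixWire
import Fermat.Agent.BAD.ABS
import Fermat.Agent.BAD.H91_Assemble

/-!
# S15 / DESC: `Stmt_VT p r` from the modular coordinates and (GLUE-dim) (helper63)

`stmt_VT_of_coordMod` : FIN, GAL, GH, `H67.Stmt_CoordMod p`, `H63.Stmt_GLUEdim p r` ⟹ `Stmt_VT p r`.

* (B1) at `(p, p)` : `BAD.stmt_ABS` applied to the datum contained in `Stmt_CoordMod p`
  (`H67.stmt_ModSSD_of_coordMod`, helper91's `b1core_of_ABS`, `b1_of_core`);
* (FIX) : `H63.stmt_FIX_of_coordMod`;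
* the count : `H63.stmt_VT_of_count`.
-/

set_option autoImplicit false
set_option linter.style.haveILetI false

noncomputable section

open ModularCurve

namespace Fermat.Agent.S15.Desc.H63

open Fermat.Agent.S15 Fermat.Agent.S15.Desc

variable {p : ℕ} [NeZero p]

omit [NeZero p] in
/-- (B1) at the pair `(p, p)` from the modular datum. -/
theorem stmt_B1_of_coordMod (hp : p.Prime) (hC : H67.Stmt_CoordMod p) :
    Fermat.Agent.BAD.Stmt_B1 p p :=
  Fermat.Agent.BAD.H91.b1_of_core p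
    (Fermat.Agent.BAD.H91.b1core_of_ABS p Fermat.Agent.BAD.stmt_ABS hp
      (H67.stmt_ModSSD_of_coordMod hC))

/-- **(VT) from the modular coordinates and (GLUE-dim).** -/
theorem stmt_VT_of_coordMod {r : ℕ} (hp : p.Prime) (hr : r.Prime) (hpr : p ≠ r)
    (hFIN : Stmt_FIN p) (hGAL : Stmt_GALfin p) (hGH : Stmt_GH p)
    (hC : H67.Stmt_CoordMod p) (hGLUE : Stmt_GLUEdim p r) :
    haveI : NeZero r := ⟨hr.ne_zero⟩; Stmt_VT p r :=
  stmt_VT_of_count hp hr hpr hFIN hGAL hGH (stmt_B1_of_coordMod hp hC) hGLUE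
    (stmt_FIX_of_coordMod hp hr hFIN hC)

end Fermat.Agent.S15.Desc.H63
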