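import Fermat.Agent.S15.Desc.H66_FlatKummerMod
import Fermat.Agent.S15.Desc.H40_LocFTwo
import Fermat.Agent.FL.H36_Final

/-!
# S15 / DESC, ROUTE-F: FL-x and (LOC-U), unconditional (helper66)

* `stmt_FlatKummer : H40.Stmt_FlatKummer` (**FL-x**): for `r ∤ p` and `y ∈ J₀(p)` with `r y`
  rational, the Kummer extension `J₀(p)[r] × ℤ/r` of `y` is flat at `r`.
  (`H66.stmt_FlatKummer_of_tameC` applied to the main theorem of G-FL, `FL.H36.stmt_FLTameC`.)
* `stmt_GALfin p : Stmt_GALfin p` (from helper8's `S17.H8.stmt_open_stab` and the primitive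
  element theorem); `stmt_FIN p : Stmt_FIN p` (from `S17.H8.stmt_torsion_finite`).
* `stmt_LOCU p r : Stmt_LOCU p r` for `r` odd, `r ∤ p`; `stmt_LOCUTwo p : Stmt_LOCUTwo p` for
  `p` odd  (helper40's `H40.stmt_LOCU_of_flatKummer`, `H40.stmt_LOCUTwo_of_flatKummer`).
-/

set_option autoImplicit false
set_option linter.style.haveILetI false

noncomputable section

namespace Fermat.Agent.S15.Desc.H66

open ModularCurve Fermat.Agent.S15 Fermat.Agent.S15.Desc IntermediateField

local notation "Qbar" => AlgebraicClosure ℚ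

/-- **FL-x**, unconditional. -/
theorem stmt_FlatKummer : H40.Stmt_FlatKummer :=
  stmt_FlatKummer_of_tameC Fermat.Agent.FL.H36.stmt_FLTameC

/-- (GAL): every point of `J₀(p)` is fixed by the Galois group of a finitely generated field. -/
theorem stmt_GALfin (p : ℕ) [NeZero p] : Stmt_GALfin p := by
  intro y
  obtain ⟨F, hF, hfix⟩ := Fermat.Agent.S17.H8.stmt_open_stab p y
  haveI := hF
  obtain ⟨α, hα⟩ := Field.exists_primitive_element ℚ F
  refine ⟨{(α : Qbar)}, fun σ hσ => hfix σ ?_⟩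
  have hσα : σ (α : Qbar) = α := hσ _ (Finset.mem_singleton_self _)
  rw [IntermediateField.mem_fixingSubgroup_iff]
  intro x hx
  obtain ⟨g, hg⟩ := exists_aeval_eq_of_primitive F α hα x hx
  show σ x = x
  rw [← hg]
  have h1 : σ (Polynomial.aeval (α : Qbar) g) = Polynomial.aeval (σ (α : Qbar)) g :=
    (Polynomial.aeval_algHom_apply (σ : Qbar →ₐ[ℚ] Qbar) (α : Qbar) g).symm
  rw [h1, hσα]

/-- (FIN): the torsion of `J₀(p)` is finite. -/
theorem stmt_FIN (p : ℕ) [NeZero p] : Stmt_FIN p := by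
  intro n hn
  have hfin : {t : JZero p | n • t = 0}.Finite :=
    Fermat.Agent.S17.H8.stmt_torsion_finite p n hn.ne'
  exact hfin.to_subtype

/-- **(LOC-U)** for odd `r ∤ p`, unconditional. -/
theorem stmt_LOCU (p : ℕ) [NeZero p] (r : ℕ) [Fact r.Prime] (hr2 : r ≠ 2) (hrp : ¬ r ∣ p) :
    Stmt_LOCU p r :=
  H40.stmt_LOCU_of_flatKummer stmt_FlatKummer hr2 (stmt_GALfin p) hrp

/-- **(LOC-U) at `2`** for odd `p`, unconditional. -/
theorem stmt_LOCUTwo (p : ℕ) [NeZero p] (h2p : ¬ 2 ∣ p) : Stmt_LOCUTwo p :=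
  H40.stmt_LOCUTwo_of_flatKummer stmt_FlatKummer (stmt_GALfin p) h2p

end Fermat.Agent.S15.Desc.H66
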