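import Fermat.Agent.S15.Desc.H66_FlatKummer
import Fermat.Agent.FL.Defs6
import Fermat.Agent.FL.H2_Level
import Fermat.Agent.S17.H8_W14

/-!
# S15 / DESC, ROUTE-F: FL-x for `J₀(p)` from the concrete main theorem of G-FL (helper66)

* `Stmt_PtsGen` : every finite `G_ℚ`-stable set of points of `J₀(p)` has integral coordinates
  (`H66.HasPtCoords`) at some place over `r ∤ p`.
* `stmt_PtsGen_of_tameC : FL.Stmt_FLTameC → Stmt_PtsGen` (change of level `p → c p`,
  `c ∈ {1, 2, 3}`, by `FL.H2.stmt_Level`, and `HasPtCoords.comap`).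
* `stmt_FlatKummer_of_ptsGen : Stmt_PtsGen → H40.Stmt_FlatKummer` (`flat_kummer_abs`; finiteness
  of the torsion and open stabilisers from helper8's `S17.H8.stmt_torsion_finite`,
  `S17.H8.stmt_open_stab`).
* `stmt_FlatKummer_of_tameC : FL.Stmt_FLTameC → H40.Stmt_FlatKummer`  (**FL-x**).
-/

set_option autoImplicit false
set_option linter.unusedSectionVars false
set_option linter.style.haveILetI false

noncomputable section

namespace Fermat.Agent.S15.Desc.H66

open ModularCurve Fermat.Agent.S15 Fermat.Agent.S15.Desc Fermat.Agent.Lib.HopfOrder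
  Fermat.Agent.Lib.HopfOrderLoc

local notation "Qbar" => AlgebraicClosure ℚ

/-- **Points form of G-FL at level `p`**: every finite `G_ℚ`-stable set of points of `J₀(p)` has
integral coordinates at some place over `r ∤ p`. -/
def Stmt_PtsGen : Prop :=
  ∀ (p : ℕ) [NeZero p] (r : ℕ) [Fact r.Prime], ¬ r ∣ p →
    ∀ 𝒯 : Set (JZero p), 𝒯.Finite → (∀ (σ : GalQ), ∀ x ∈ 𝒯, σ • x ∈ 𝒯) →
      ∃ A : ValuationSubring Qbar, A.LiesOverPrime r ∧ HasPtCoords A 𝒯

/-- Every level has a tame multiple. -/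
theorem exists_tame_level (p r : ℕ) (hr : r.Prime) (hrp : ¬ r ∣ p) :
    ∃ c : ℕ, 0 < c ∧ c ∣ 36 ∧ ¬ r ∣ c * p ∧ Fermat.Agent.FL.IsTame (c * p) r := by
  by_cases h5 : 5 ≤ r
  · exact ⟨1, one_pos, one_dvd _, by simpa using hrp, Or.inl h5⟩
  · have h23 : r = 2 ∨ r = 3 := by
      have h2 := hr.two_le
      have h4 : r ≠ 4 := by
        rintro rfl
        exact absurd hr (by decide)
      omega
    rcases h23 with rfl | rfl
    · refine ⟨3, by norm_num, by norm_num, ?_, Or.inr (Or.inr ⟨rfl, dvd_mul_right 3 p⟩)⟩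
      intro h
      rcases (Nat.Prime.dvd_mul Nat.prime_two).mp h with h | h
      · omega
      · exact hrp h
    · refine ⟨2, by norm_num, by norm_num, ?_, Or.inr (Or.inl ⟨rfl, dvd_mul_right 2 p⟩)⟩
      intro h
      rcases (Nat.Prime.dvd_mul Nat.prime_three).mp h with h | h
      · omega
      · exact hrp h

/-- The points form of G-FL at level `p` from the concrete main theorem at tame levels. -/
theorem stmt_PtsGen_of_tameC (hT : Fermat.Agent.FL.Stmt_FLTameC) : Stmt_PtsGen := by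
  intro p _ r _ hrp 𝒯 hfin hstab
  have hr : r.Prime := Fact.out
  obtain ⟨c, hc0, hc36, hrM, htame⟩ := exists_tame_level p r hr hrp
  haveI : NeZero (c * p) := ⟨Nat.mul_ne_zero hc0.ne' (NeZero.ne p)⟩
  obtain ⟨π, hπ, hinj⟩ := Fermat.Agent.FL.H2.stmt_Level p (c * p) (dvd_mul_left p c)
    (Nat.mul_dvd_mul_right hc36 p)
  refine ⟨padicPlace r, padicPlace_liesOver r, HasPtCoords.comap _ π hπ hinj 𝒯 ?_⟩
  obtain ⟨ι, hι, h, h1, h2, h3, h4, h5⟩ := hT (c * p) r hr hrM htame (padicPlace r)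
    (padicPlace_liesOver r) (π '' 𝒯) (hfin.image π) (by
      rintro σ - _ ⟨x, hx, rfl⟩
      rw [← hπ]
      exact Set.mem_image_of_mem π (hstab σ x hx))
  exact ⟨ι, hι, h, h1, h2, h3, fun x y _ hne => h4 x y hne, h5⟩

/-- **FL-x** from the points form of G-FL. -/
theorem stmt_FlatKummer_of_ptsGen (hP : Stmt_PtsGen) : H40.Stmt_FlatKummer := by
  intro p _ r _ hrp y hy
  have hr : r.Prime := Fact.out
  have hy' : ∀ σ : GalQ, σ • (r • y) = r • y := mem_ratPts.mp hy
  have hfin : {t : JZero p | r • t = 0}.Finite :=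
    Fermat.Agent.S17.H8.stmt_torsion_finite p r hr.ne_zero
  haveI : Finite (TorsR (JZero p) r) := hfin.to_subtype
  obtain ⟨A, hA, hC⟩ := hP p r hrp (kumSet r y) (finite_kumSet r y)
    (fun σ x hx => gal_smul_mem_kumSet hy' σ hx)
  refine flat_kummer_abs r y hy' ?_ A hA hC
  have hos := Fermat.Agent.S17.H8.stmt_open_stab p
  choose F hF1 hF2 using hos
  letI := Fintype.ofFinite (TorsR (JZero p) r)
  refine ⟨(⨆ v : TorsR (JZero p) r, F (v : JZero p)) ⊔ F y, ?_, ?_⟩
  · haveI : ∀ v : TorsR (JZero p) r, FiniteDimensional ℚ (F (v : JZero p)) := fun v => hF1 _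
    haveI := hF1 y
    haveI : FiniteDimensional ℚ ↥(⨆ v : TorsR (JZero p) r, F (v : JZero p)) :=
      IntermediateField.finiteDimensional_iSup_of_finite
    exact IntermediateField.finiteDimensional_sup _ _
  · intro σ hσ
    refine ⟨fun v hv => hF2 v σ (IntermediateField.fixingSubgroup_antitone ?_ hσ),
      hF2 y σ (IntermediateField.fixingSubgroup_antitone le_sup_right hσ)⟩
    exact le_sup_of_le_left
      (le_iSup (fun v : TorsR (JZero p) r => F (v : JZero p)) ⟨v, hv⟩)

/-- **FL-x** from the concrete main theorem of G-FL. -/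
theorem stmt_FlatKummer_of_tameC (hT : Fermat.Agent.FL.Stmt_FLTameC) : H40.Stmt_FlatKummer :=
  stmt_FlatKummer_of_ptsGen (stmt_PtsGen_of_tameC hT)

end Fermat.Agent.S15.Desc.H66
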