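import Fermat.Agent.RED.H17_FF
import Fermat.Agent.RED.H17_Place
import Fermat.Agent.S24.H59_FF1d

/-!
# S15 DESC, leaf COORD (helper67): places of a rational function field `F = k(x)`

`F / k` a function field generated by one transcendental element `x` (`k⟮x⟯ = ⊤`), with the zeros
theorem `H59.ZerosStmt k F`.

* `rat_exists_zero`, `rat_zero_unique` : `x - β` has exactly one zero, of order one;
* `rat_ord_sub_value` : at a place `z` where `x` is regular with value `β`, `ord_z (x - β) = 1`;
* `rat_ord_aeval` : `ord_z P(x) = rootMultiplicity β P`;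
* `rat_exists_fraction` : a function regular at `z` is `N(x) / D(x)` with `D(β) ≠ 0`;
* `rat_genus_eq_zero` : the Riemann genus of `F` is `0`.
-/

set_option autoImplicit false

noncomputable section

open AlgebraicCurve IntermediateField Polynomial

namespace Fermat.Agent.S15.Desc.H67

open Fermat.Agent.RED.H17 Fermat.Agent.S24

variable {k F : Type} [Field k] [Field F] [Algebra k F]

theorem rat_transcendental_sub {x : F} (hx : Transcendental k x) (β : k) :
    Transcendental k (x - algebraMap k F β) := by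
  intro h
  apply hx
  have := h.add (isAlgebraic_algebraMap (R := k) (A := F) β)
  rwa [sub_add_cancel] at this

theorem rat_adjoin_sub {x : F} (htop : k⟮x⟯ = ⊤) (β : k) :
    k⟮x - algebraMap k F β⟯ = ⊤ := by
  rw [eq_top_iff, ← htop, adjoin_simple_le_iff]
  have h1 : x - algebraMap k F β ∈ k⟮x - algebraMap k F β⟯ := mem_adjoin_simple_self _ _
  have := add_mem h1 ((k⟮x - algebraMap k F β⟯).algebraMap_mem β)
  rwa [sub_add_cancel] at this

/-- A generator `y` of `F / k` has exactly one zero, and it is simple. -/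
theorem rat_gen_zero (hz : H59.ZerosStmt k F) {y : F} (hy : Transcendental k y)
    (htop : k⟮y⟯ = ⊤) :
    ∃ z : Place k F, z.ord y = 1 ∧ ∀ z' : Place k F, 0 < z'.ord y → z' = z := by
  classical
  have hfd : FiniteDimensional k⟮y⟯ F := by
    apply FiniteDimensional.of_finrank_pos
    rw [htop, IntermediateField.finrank_top]
    exact one_pos
  obtain ⟨hfin, hsum⟩ := hz y hy
  have h1 : Module.finrank k⟮y⟯ F = 1 := by rw [htop, IntermediateField.finrank_top]
  rw [h1, finsum_mem_eq_finite_toFinset_sum _ hfin, Nat.cast_one] at hsum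
  have hne : hfin.toFinset.Nonempty := by
    rw [Finset.nonempty_iff_ne_empty]
    intro h
    rw [h, Finset.sum_empty] at hsum
    exact zero_ne_one hsum
  obtain ⟨z, hzmem⟩ := hne
  have hpos : ∀ v ∈ hfin.toFinset, 0 < v.ord y := fun v hv => by simpa using hv
  have hsplit := Finset.add_sum_erase hfin.toFinset (fun v => v.ord y) hzmem
  have hrest : 0 ≤ ∑ v ∈ hfin.toFinset.erase z, v.ord y :=
    Finset.sum_nonneg fun v hv => (hpos v (Finset.mem_of_mem_erase hv)).le
  have hz1 := hpos z hzmem
  have hzord : z.ord y = 1 := by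
    have : z.ord y + ∑ v ∈ hfin.toFinset.erase z, v.ord y = 1 := hsplit.trans hsum
    omega
  have hrest0 : ∑ v ∈ hfin.toFinset.erase z, v.ord y = 0 := by
    have : z.ord y + ∑ v ∈ hfin.toFinset.erase z, v.ord y = 1 := hsplit.trans hsum
    omega
  refine ⟨z, hzord, fun z' hz' => ?_⟩
  by_contra hne'
  have hmem' : z' ∈ hfin.toFinset.erase z := by
    rw [Finset.mem_erase]
    exact ⟨hne', by simpa using hz'⟩
  have := Finset.single_le_sum (f := fun v : Place k F => v.ord y)
    (fun v hv => (hpos v (Finset.mem_of_mem_erase hv)).le) hmem'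
  have h3 : 0 < z'.ord y := hz'
  have h4 : z'.ord y ≤ ∑ v ∈ hfin.toFinset.erase z, v.ord y := this
  omega

/-- `x - β` has exactly one zero, and it is simple. -/
theorem rat_exists_zero (hz : H59.ZerosStmt k F) {x : F} (hx : Transcendental k x)
    (htop : k⟮x⟯ = ⊤) (β : k) :
    ∃ z : Place k F, z.ord (x - algebraMap k F β) = 1 ∧
      ∀ z' : Place k F, 0 < z'.ord (x - algebraMap k F β) → z' = z :=
  rat_gen_zero hz (rat_transcendental_sub hx β) (rat_adjoin_sub htop β)

/-- `x` has exactly one pole, and it is simple. -/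
theorem rat_exists_pole (hz : H59.ZerosStmt k F) {x : F} (hx : Transcendental k x)
    (htop : k⟮x⟯ = ⊤) :
    ∃ z : Place k F, z.ord x = -1 ∧ ∀ z' : Place k F, z'.ord x < 0 → z' = z := by
  have htr : Transcendental k x⁻¹ := fun h => hx (IsAlgebraic.inv_iff.mp h)
  have htop' : k⟮x⁻¹⟯ = ⊤ := by rw [H59.adjoin_inv_eq, htop]
  obtain ⟨z, h1, h2⟩ := rat_gen_zero hz htr htop'
  refine ⟨z, ?_, fun z' hz' => h2 z' ?_⟩
  · rw [Place.ord_inv] at h1
    omega
  · rw [Place.ord_inv]
    omega

/-- At a place where `x` has the value `β`, `x - β` is a uniformizer. -/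
theorem rat_ord_sub_value (hz : H59.ZerosStmt k F) {x : F} (hx : Transcendental k x)
    (htop : k⟮x⟯ = ⊤) {z : Place k F} {β : k} (h : VanAt z (x - algebraMap k F β)) :
    z.ord (x - algebraMap k F β) = 1 := by
  obtain ⟨z₀, h1, h2⟩ := rat_exists_zero hz hx htop β
  have hne : x - algebraMap k F β ≠ 0 := fun h0 =>
    rat_transcendental_sub hx β (h0 ▸ isAlgebraic_zero)
  rw [h2 z (h.ord_pos hne)]
  exact h1

/-- Two places where `x` has the same value are equal. -/
theorem rat_place_ext (hz : H59.ZerosStmt k F) {x : F} (hx : Transcendental k x)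
    (htop : k⟮x⟯ = ⊤) {z z' : Place k F} {β : k} (h : VanAt z (x - algebraMap k F β))
    (h' : VanAt z' (x - algebraMap k F β)) : z = z' := by
  obtain ⟨z₀, h1, h2⟩ := rat_exists_zero hz hx htop β
  have hne : x - algebraMap k F β ≠ 0 := fun h0 =>
    rat_transcendental_sub hx β (h0 ▸ isAlgebraic_zero)
  rw [h2 z (h.ord_pos hne), h2 z' (h'.ord_pos hne)]

theorem rat_aeval_ne_zero {x : F} (hx : Transcendental k x) {P : k[X]} (hP : P ≠ 0) :
    aeval x P ≠ 0 := fun h => hx ⟨P, hP, h⟩

/-- `P(x)` is regular where `x` is regular. -/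
theorem rat_regAt_aeval {x : F} {z : Place k F} (hreg : RegAt z x) (Q : k[X]) :
    RegAt z (aeval x Q) := by
  induction Q using Polynomial.induction_on' with
  | add p q hp hq => rw [map_add]; exact hp.add hq
  | monomial n a =>
    rw [aeval_monomial]
    exact (regAt_algebraMap z a).mul (hreg.pow n)

/-- `P(x) - P(β)` vanishes where `x - β` vanishes. -/
theorem rat_vanAt_aeval_sub {x : F} {z : Place k F} {β : k}
    (h : VanAt z (x - algebraMap k F β)) (P : k[X]) :
    VanAt z (aeval x P - algebraMap k F (P.eval β)) := by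
  have hreg : RegAt z x := RegAt.of_vanAt_sub h
  obtain ⟨Q, hQ⟩ : (X - C β) ∣ P - C (P.eval β) := by
    rw [dvd_iff_isRoot]
    simp
  have e : aeval x P - algebraMap k F (P.eval β) = (x - algebraMap k F β) * aeval x Q := by
    have := congrArg (aeval x) hQ
    simpa using this
  rw [e]
  exact h.mul_regAt (rat_regAt_aeval hreg Q)

/-- `P(x)` has order `0` where `x` has a value `β` with `P(β) ≠ 0`. -/
theorem rat_ord_aeval_eq_zero {x : F} {z : Place k F} {β : k}
    (h : VanAt z (x - algebraMap k F β)) {P : k[X]} (hP : P.eval β ≠ 0) :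
    z.ord (aeval x P) = 0 := by
  have h1 := rat_vanAt_aeval_sub h P
  have hc : z.ord (algebraMap k F (P.eval β)) = 0 := ord_algebraMap z _
  have hcne : algebraMap k F (P.eval β) ≠ 0 :=
    (map_ne_zero_iff _ (algebraMap k F).injective).mpr hP
  have e : aeval x P = algebraMap k F (P.eval β) + (aeval x P - algebraMap k F (P.eval β)) := by
    ring
  rw [e, ord_add_of_lt z hcne, hc]
  rcases (vanAt_iff_ord z _).mp h1 with h0 | h0
  · exact Or.inl h0
  · right
    rw [hc]
    exact h0

/-- **The order of `P(x)`** at the place where `x = β` is the multiplicity of the root `β`. -/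
theorem rat_ord_aeval (hz : H59.ZerosStmt k F) {x : F} (hx : Transcendental k x)
    (htop : k⟮x⟯ = ⊤) {z : Place k F} {β : k} (h : VanAt z (x - algebraMap k F β))
    {P : k[X]} (hP : P ≠ 0) : z.ord (aeval x P) = (P.rootMultiplicity β : ℤ) := by
  obtain ⟨Q, hQ, hQβ⟩ := exists_eq_pow_rootMultiplicity_mul_and_not_dvd P hP β
  have hQ0 : Q.eval β ≠ 0 := fun h0 => hQβ (dvd_iff_isRoot.mpr h0)
  have hne : x - algebraMap k F β ≠ 0 := fun h0 =>
    rat_transcendental_sub hx β (h0 ▸ isAlgebraic_zero)
  have hQne : Q ≠ 0 := fun h0 => hQ0 (by rw [h0, eval_zero])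
  have e : aeval x P = (x - algebraMap k F β) ^ P.rootMultiplicity β * aeval x Q := by
    conv_lhs => rw [hQ]
    simp
  rw [e, z.ord_mul (pow_ne_zero _ hne) (rat_aeval_ne_zero hx hQne), ord_pow,
    rat_ord_sub_value hz hx htop h, rat_ord_aeval_eq_zero h hQ0]
  ring

/-- **A function regular at the place `x = β` is `N(x) / D(x)` with `D(β) ≠ 0`.** -/
theorem rat_exists_fraction (hz : H59.ZerosStmt k F) {x : F} (hx : Transcendental k x)
    (htop : k⟮x⟯ = ⊤) {z : Place k F} {β : k} (h : VanAt z (x - algebraMap k F β))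
    (ψ : F) (hψ : 0 ≤ z.ord ψ) :
    ∃ N D : k[X], D.eval β ≠ 0 ∧ ψ * aeval x D = aeval x N := by
  by_cases hψ0 : ψ = 0
  · exact ⟨0, 1, by simp, by simp [hψ0]⟩
  have hmem : ψ ∈ k⟮x⟯ := by rw [htop]; exact IntermediateField.mem_top
  obtain ⟨N₀, D₀, hfrac⟩ := (IntermediateField.mem_adjoin_simple_iff k ψ).mp hmem
  have hD₀ : D₀ ≠ 0 := by
    rintro rfl
    rw [map_zero, div_zero] at hfrac
    exact hψ0 hfrac
  have hN₀ : N₀ ≠ 0 := by
    rintro rfl
    rw [map_zero, zero_div] at hfrac
    exact hψ0 hfrac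
  obtain ⟨N₁, hN₁, hN₁β⟩ := exists_eq_pow_rootMultiplicity_mul_and_not_dvd N₀ hN₀ β
  obtain ⟨D₁, hD₁, hD₁β⟩ := exists_eq_pow_rootMultiplicity_mul_and_not_dvd D₀ hD₀ β
  have hD₁0 : D₁.eval β ≠ 0 := fun h0 => hD₁β (dvd_iff_isRoot.mpr h0)
  have hD₁ne : D₁ ≠ 0 := fun h0 => hD₁0 (by rw [h0, eval_zero])
  have hne : x - algebraMap k F β ≠ 0 := fun h0 =>
    rat_transcendental_sub hx β (h0 ▸ isAlgebraic_zero)
  have hoN := rat_ord_aeval hz hx htop h hN₀
  have hoD := rat_ord_aeval hz hx htop h hD₀
  have hDx : aeval x D₀ ≠ 0 := rat_aeval_ne_zero hx hD₀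
  have hNx : aeval x N₀ ≠ 0 := rat_aeval_ne_zero hx hN₀
  have hord : z.ord ψ = (N₀.rootMultiplicity β : ℤ) - (D₀.rootMultiplicity β : ℤ) := by
    rw [hfrac, ord_div z hNx hDx, hoN, hoD]
  have hle : D₀.rootMultiplicity β ≤ N₀.rootMultiplicity β := by omega
  obtain ⟨m, hm⟩ := Nat.exists_eq_add_of_le hle
  refine ⟨(X - C β) ^ m * N₁, D₁, hD₁0, ?_⟩
  have eN : aeval x N₀ = (x - algebraMap k F β) ^ N₀.rootMultiplicity β * aeval x N₁ := by
    conv_lhs => rw [hN₁]
    simp
  have eD : aeval x D₀ = (x - algebraMap k F β) ^ D₀.rootMultiplicity β * aeval x D₁ := by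
    conv_lhs => rw [hD₁]
    simp
  have hD₁x : aeval x D₁ ≠ 0 := rat_aeval_ne_zero hx hD₁ne
  have hpow : (x - algebraMap k F β) ^ D₀.rootMultiplicity β ≠ 0 := pow_ne_zero _ hne
  rw [hfrac, eN, eD, hm, pow_add]
  simp only [map_mul, map_pow, map_sub, aeval_X, aeval_C]
  field_simp

/-- **The Riemann genus of a rational function field is `0`.** -/
theorem rat_genus_eq_zero (H : FFHyp k F) (hz : H59.ZerosStmt k F) {x : F}
    (hx : Transcendental k x) (htop : k⟮x⟯ = ⊤) {g : ℕ} {c : ℤ} (hg : IsGenus k F g c) :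
    g = 0 := by
  classical
  obtain ⟨z, hzord, hzuniq⟩ := rat_exists_pole hz hx htop
  set n : ℕ := c.toNat with hn
  set D : Divisor k F := Finsupp.single z (n : ℤ) with hD
  have hdeg : Divisor.degree D = n := by
    rw [hD, Divisor.degree_single, H.deg_one, Nat.cast_one, mul_one]
  have hc : c ≤ Divisor.degree D := by
    rw [hdeg, hn]
    exact Int.self_le_toNat c
  have hfin := (hg D).2 hc
  rw [hdeg] at hfin
  have hfinD : Module.Finite k ↥(riemannRochSpace D) := H.finite D
  -- the powers of `x` are in `L(D)`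
  have hmem : ∀ i : Fin (n + 1), x ^ (i : ℕ) ∈ riemannRochSpace D := by
    intro i
    rw [mem_L_iff_ord]
    intro v
    right
    rw [ord_pow]
    by_cases hv : v = z
    · subst hv
      rw [hD, Finsupp.single_eq_same, hzord]
      have : ((i : ℕ) : ℤ) ≤ n := by exact_mod_cast Nat.lt_succ_iff.mp i.2
      linarith
    · rw [hD, Finsupp.single_eq_of_ne hv, neg_zero]
      have : 0 ≤ v.ord x := by
        by_contra hneg
        exact hv (hzuniq v (not_le.mp hneg))
      positivity
  have hli : LinearIndependent k (fun i : Fin (n + 1) => (⟨x ^ (i : ℕ), hmem i⟩ : ↥(riemannRochSpace D))) := by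
    have h1 : LinearIndependent k (fun i : Fin (n + 1) => x ^ (i : ℕ)) := by
      have hinj := (transcendental_iff_injective.mp hx)
      have hpow : LinearIndependent k (fun i : ℕ => x ^ i) := by
        have h0 := (Polynomial.basisMonomials k).linearIndependent.map' (aeval x).toLinearMap
          (LinearMap.ker_eq_bot.mpr hinj)
        have e : (fun i : ℕ => x ^ i) = ⇑(aeval x).toLinearMap ∘ ⇑(basisMonomials k) := by
          funext i
          rw [Function.comp_apply, Polynomial.coe_basisMonomials, AlgHom.toLinearMap_apply,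
            aeval_monomial, map_one, one_mul]
        rw [e]
        exact h0
      exact hpow.comp _ Fin.val_injective
    exact LinearIndependent.of_comp (riemannRochSpace D).subtype (by simpa [Function.comp_def] using h1)
  have hcard := hli.fintype_card_le_finrank
  rw [Fintype.card_fin] at hcard
  have : ((n + 1 : ℕ) : ℤ) ≤ (n : ℤ) + 1 - g := by
    rw [← hfin]
    exact_mod_cast hcard
  push_cast at this
  omega

end Fermat.Agent.S15.Desc.H67
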