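import Fermat.Agent.S15.Desc.H67_Coord
import Fermat.Agent.S15.Desc.H67_CoordRat
import Fermat.Agent.RED.H51_Ord

/-!
# S15 DESC, leaf COORD (helper67): START and LIFT from two charts

Abstract form of the modular situation at level `p`: `S` an `SSD` whose two residue fields are
rational function fields `k(j₁)`, `k(j₂)` in characteristic `p`, with two functions `x₁` (`= j`),
`x₂` (`= j_p`) integral for both valuations and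

  `red₁ x₁ = j₁`, `red₁ x₂ = j₁ ^ p`, `red₂ x₁ = j₂ ^ p`, `red₂ x₂ = j₂`.

* `exists_polyLift` : lifts of polynomials over `k` to polynomials with coefficients in a ring
  `R0` of constants which surjects onto `k`;
* `exists_start` : START, `x₀ = (x₁ - b₀) - (x₂ - b₁) ^ p`;
* `exists_lift` : LIFT, `g = N(x₂) / D(x₂)`;
* `exists_isAnnCoord_of_charts` : the coordinate.
-/

set_option autoImplicit false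
set_option linter.style.haveILetI false
set_option linter.unusedSectionVars false

noncomputable section

open AlgebraicCurve IntermediateField Polynomial

attribute [local instance] Classical.propDecidable

namespace Fermat.Agent.S15.Desc.H67

open Fermat.Agent.RED.H17 Fermat.Agent.RED Fermat.Agent.BAD Fermat.Agent.S24

variable {K F k F₁ F₂ : Type} [Field K] [Field F] [Algebra K F] [Field k] [Field F₁]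
  [Algebra k F₁] [Field F₂] [Algebra k F₂] {S : SSD K F k F₁ F₂}

section PolyLift

variable (F0 : Subfield F) (R0 : Subring K) (hR0F : ∀ c ∈ R0, algebraMap K F c ∈ F0)
  (hR0V : ∀ c ∈ R0, algebraMap K F c ∈ S.c₁.V)
  (hR0lift : ∀ c' : k, ∃ c ∈ R0, S.c₁.rd (algebraMap K F c) = algebraMap k F₁ c')

include hR0V in
theorem rd₂_const_of_rd₁ {c : K} (hc : c ∈ R0) {c' : k}
    (h : S.c₁.rd (algebraMap K F c) = algebraMap k F₁ c') :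
    algebraMap K F c ∈ S.c₂.V ∧ S.c₂.rd (algebraMap K F c) = algebraMap k F₂ c' := by
  have h₁ := hR0V c hc
  have h₂ : algebraMap K F c ∈ S.c₂.V := (S.const_mem c).mp h₁
  refine ⟨h₂, ?_⟩
  rw [S.c₂.rd_of_mem h₂]
  apply S.const_red c h₁ h₂ c'
  rw [← S.c₁.rd_of_mem h₁]
  exact h

include hR0F hR0V hR0lift in
/-- Lifts of polynomials. -/
theorem exists_polyLift (P : k[X]) :
    ∃ Q : K[X], (∀ x ∈ F0, aeval x Q ∈ F0) ∧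
      (∀ x ∈ S.c₁.V, aeval x Q ∈ S.c₁.V ∧ S.c₁.rd (aeval x Q) = aeval (S.c₁.rd x) P) ∧
      (∀ x ∈ S.c₂.V, aeval x Q ∈ S.c₂.V ∧ S.c₂.rd (aeval x Q) = aeval (S.c₂.rd x) P) := by
  induction P using Polynomial.induction_on' with
  | add p q hp hq =>
    obtain ⟨Qp, hp0, hp1, hp2⟩ := hp
    obtain ⟨Qq, hq0, hq1, hq2⟩ := hq
    refine ⟨Qp + Qq, fun x hx => ?_, fun x hx => ?_, fun x hx => ?_⟩
    · rw [map_add]; exact F0.add_mem (hp0 x hx) (hq0 x hx)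
    · rw [map_add, map_add, S.c₁.rd_add (hp1 x hx).1 (hq1 x hx).1, (hp1 x hx).2, (hq1 x hx).2]
      exact ⟨S.c₁.V.add_mem _ _ (hp1 x hx).1 (hq1 x hx).1, rfl⟩
    · rw [map_add, map_add, S.c₂.rd_add (hp2 x hx).1 (hq2 x hx).1, (hp2 x hx).2, (hq2 x hx).2]
      exact ⟨S.c₂.V.add_mem _ _ (hp2 x hx).1 (hq2 x hx).1, rfl⟩
  | monomial n c' =>
    obtain ⟨c, hc, hcr⟩ := hR0lift c'
    obtain ⟨hc₂, hcr₂⟩ := rd₂_const_of_rd₁ R0 hR0V hc hcr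
    have hc₁ := hR0V c hc
    refine ⟨monomial n c, fun x hx => ?_, fun x hx => ?_, fun x hx => ?_⟩
    · rw [aeval_monomial]
      exact F0.mul_mem (hR0F c hc) (F0.pow_mem hx n)
    · rw [aeval_monomial, aeval_monomial]
      have hxn : x ^ n ∈ S.c₁.V := S.c₁.V.pow_mem hx n
      refine ⟨S.c₁.V.mul_mem _ _ hc₁ hxn, ?_⟩
      rw [S.c₁.rd_mul hc₁ hxn, S.c₁.rd_pow hx, hcr]
    · rw [aeval_monomial, aeval_monomial]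
      have hxn : x ^ n ∈ S.c₂.V := S.c₂.V.pow_mem hx n
      refine ⟨S.c₂.V.mul_mem _ _ hc₂ hxn, ?_⟩
      rw [S.c₂.rd_mul hc₂ hxn, S.c₂.rd_pow hx, hcr₂]

end PolyLift

section Charts

variable {s : Place k F₁ × Place k F₂} (hs : s ∈ S.nodes) (hP : HasPrincipalDivisors K F)
  (F0 : Subfield F) (R0 : Subring K) (hR0F : ∀ c ∈ R0, algebraMap K F c ∈ F0)
  (hR0V : ∀ c ∈ R0, algebraMap K F c ∈ S.c₁.V)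
  (hR0lift : ∀ c' : k, ∃ c ∈ R0, S.c₁.rd (algebraMap K F c) = algebraMap k F₁ c')
  {x₁ x₂ : F} (hx₁F : x₁ ∈ F0) (hx₂F : x₂ ∈ F0)
  (h₁₁ : x₁ ∈ S.c₁.V) (h₁₂ : x₁ ∈ S.c₂.V) (h₂₁ : x₂ ∈ S.c₁.V) (h₂₂ : x₂ ∈ S.c₂.V)
  (hpf₁ : PoleFree S s x₁) (hpf₂ : PoleFree S s x₂)
  {j₁ : F₁} {j₂ : F₂} (p : ℕ) [Fact p.Prime] [CharP k p]
  (hr₁₁ : S.c₁.rd x₁ = j₁) (hr₁₂ : S.c₁.rd x₂ = j₁ ^ p) (hr₂₁ : S.c₂.rd x₁ = j₂ ^ p)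
  (hr₂₂ : S.c₂.rd x₂ = j₂)
  (hz₁ : H59.ZerosStmt k F₁) (hj₁ : Transcendental k j₁) (htop₁ : k⟮j₁⟯ = ⊤)
  (hz₂ : H59.ZerosStmt k F₂) (hj₂ : Transcendental k j₂) (htop₂ : k⟮j₂⟯ = ⊤)

omit [Fact p.Prime] [CharP k p] in
include hs h₁₁ h₁₂ hpf₁ hr₁₁ hr₂₁ in
/-- The value of `j` at the node. -/
theorem exists_value₁ :
    ∃ β₀ : k, VanAt s.1 (j₁ - algebraMap k F₁ β₀) ∧ VanAt s.2 (j₂ ^ p - algebraMap k F₂ β₀) := by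
  obtain ⟨β₀, h1, h2⟩ := S.glue s hs x₁ h₁₁ h₁₂ hpf₁
  rw [← S.c₁.rd_of_mem h₁₁, hr₁₁] at h1
  rw [← S.c₂.rd_of_mem h₁₂, hr₂₁] at h2
  exact ⟨β₀, h1, h2⟩

omit [Fact p.Prime] [CharP k p] in
include hs h₂₁ h₂₂ hpf₂ hr₁₂ hr₂₂ in
/-- The value of `j_p` at the node. -/
theorem exists_value₂ :
    ∃ β₁ : k, VanAt s.1 (j₁ ^ p - algebraMap k F₁ β₁) ∧ VanAt s.2 (j₂ - algebraMap k F₂ β₁) := by
  obtain ⟨β₁, h1, h2⟩ := S.glue s hs x₂ h₂₁ h₂₂ hpf₂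
  rw [← S.c₁.rd_of_mem h₂₁, hr₁₂] at h1
  rw [← S.c₂.rd_of_mem h₂₂, hr₂₂] at h2
  exact ⟨β₁, h1, h2⟩

omit [Fact p.Prime] [CharP k p] in
/-- `y ↦ y ^ p` on values. -/
theorem vanAt_pow_sub {E : Type} [Field E] [Algebra k E] (z : Place k E) {y : E} {β : k}
    (h : VanAt z (y - algebraMap k E β)) :
    VanAt z (y ^ p - algebraMap k E (β ^ p)) := by
  have := rat_vanAt_aeval_sub h (X ^ p : k[X])
  simpa using this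

include hs h₁₁ h₁₂ hpf₁ hr₁₁ hr₂₁ h₂₁ h₂₂ hpf₂ hr₁₂ hr₂₂ in
/-- The values of `j` and `j_p` at a node: `β₁ = β₀ ^ p` and `β₀ = β₁ ^ p`. -/
theorem exists_values :
    ∃ β₀ β₁ : k, VanAt s.1 (j₁ - algebraMap k F₁ β₀) ∧ VanAt s.2 (j₂ - algebraMap k F₂ β₁) ∧
      β₁ = β₀ ^ p ∧ β₀ = β₁ ^ p := by
  obtain ⟨β₀, h1, h2⟩ := exists_value₁ hs h₁₁ h₁₂ hpf₁ p hr₁₁ hr₂₁
  obtain ⟨β₁, h3, h4⟩ := exists_value₂ hs h₂₁ h₂₂ hpf₂ p hr₁₂ hr₂₂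
  refine ⟨β₀, β₁, h1, h4, ?_, ?_⟩
  · exact value_unique s.1 h3 (vanAt_pow_sub p s.1 h1)
  · exact value_unique s.2 h2 (vanAt_pow_sub p s.2 h4)

include hs hR0F hR0V hR0lift hx₁F hx₂F h₁₁ h₁₂ hpf₁ hr₁₁ hr₂₁ h₂₁ h₂₂ hpf₂ hr₁₂ hr₂₂ hz₁ hj₁
  htop₁ in
/-- **START**. -/
theorem exists_start :
    ∃ x₀ ∈ F0, x₀ ∈ S.c₁.V ∧ s.1.ord (S.c₁.rd x₀) = 1 ∧ x₀ ∈ S.c₂.V ∧ S.c₂.rd x₀ = 0 ∧
      PoleFree S s x₀ := by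
  have hp : p.Prime := Fact.out
  obtain ⟨β₀, β₁, hv₁, hv₂, e₁, e₀⟩ :=
    exists_values hs h₁₁ h₁₂ h₂₁ h₂₂ hpf₁ hpf₂ p hr₁₁ hr₁₂ hr₂₁ hr₂₂
  obtain ⟨b₀, hb₀, hb₀r⟩ := hR0lift β₀
  obtain ⟨b₁, hb₁, hb₁r⟩ := hR0lift β₁
  obtain ⟨hb₀₂, hb₀r₂⟩ := rd₂_const_of_rd₁ R0 hR0V hb₀ hb₀r
  obtain ⟨hb₁₂, hb₁r₂⟩ := rd₂_const_of_rd₁ R0 hR0V hb₁ hb₁r
  have hb₀₁ := hR0V b₀ hb₀
  have hb₁₁ := hR0V b₁ hb₁
  haveI : CharP F₁ p := (Algebra.charP_iff k F₁ p).mp inferInstance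
  haveI : CharP F₂ p := (Algebra.charP_iff k F₂ p).mp inferInstance
  refine ⟨(x₁ - algebraMap K F b₀) - (x₂ - algebraMap K F b₁) ^ p, ?_, ?_, ?_, ?_, ?_, ?_⟩
  · exact F0.sub_mem (F0.sub_mem hx₁F (hR0F b₀ hb₀))
      (F0.pow_mem (F0.sub_mem hx₂F (hR0F b₁ hb₁)) p)
  · exact sub_mem (sub_mem h₁₁ hb₀₁)
      (pow_mem (sub_mem h₂₁ hb₁₁) p)
  · have hm1 : x₁ - algebraMap K F b₀ ∈ S.c₁.V := sub_mem h₁₁ hb₀₁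
    have hm2 : x₂ - algebraMap K F b₁ ∈ S.c₁.V := sub_mem h₂₁ hb₁₁
    rw [S.c₁.rd_sub hm1 (S.c₁.V.pow_mem hm2 p), S.c₁.rd_sub h₁₁ hb₀₁, S.c₁.rd_pow hm2,
      S.c₁.rd_sub h₂₁ hb₁₁, hr₁₁, hr₁₂, hb₀r, hb₁r]
    -- `(j₁ - β₀) - (j₁ ^ p - β₁) ^ p = y - y ^ (p ^ 2)`, `y = j₁ - β₀`
    have hy1 : s.1.ord (j₁ - algebraMap k F₁ β₀) = 1 := rat_ord_sub_value hz₁ hj₁ htop₁ hv₁
    have hyne : j₁ - algebraMap k F₁ β₀ ≠ 0 := fun h0 =>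
      rat_transcendental_sub hj₁ β₀ (h0 ▸ isAlgebraic_zero)
    have e : (j₁ - algebraMap k F₁ β₀) - (j₁ ^ p - algebraMap k F₁ β₁) ^ p
        = (j₁ - algebraMap k F₁ β₀) + -((j₁ - algebraMap k F₁ β₀) ^ (p * p)) := by
      have h1 : (j₁ ^ p - algebraMap k F₁ β₁) ^ p = (j₁ - algebraMap k F₁ β₀) ^ (p * p) := by
        rw [pow_mul, sub_pow_char j₁ (algebraMap k F₁ β₀), ← map_pow, ← e₁]
      rw [h1]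
      ring
    rw [e, ord_add_of_lt s.1 hyne, hy1]
    right
    rw [Fermat.Agent.RED.H51.ord_neg, ord_pow, hy1, mul_one]
    have h2 : 2 ≤ p := hp.two_le
    have : (2 : ℤ) * 2 ≤ ((p * p : ℕ) : ℤ) := by
      have := Nat.mul_le_mul h2 h2
      exact_mod_cast this
    omega
  · exact sub_mem (sub_mem h₁₂ hb₀₂)
      (pow_mem (sub_mem h₂₂ hb₁₂) p)
  · have hm1 : x₁ - algebraMap K F b₀ ∈ S.c₂.V := sub_mem h₁₂ hb₀₂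
    have hm2 : x₂ - algebraMap K F b₁ ∈ S.c₂.V := sub_mem h₂₂ hb₁₂
    rw [S.c₂.rd_sub hm1 (S.c₂.V.pow_mem hm2 p), S.c₂.rd_sub h₁₂ hb₀₂, S.c₂.rd_pow hm2,
      S.c₂.rd_sub h₂₂ hb₁₂, hr₂₁, hr₂₂, hb₀r₂, hb₁r₂, sub_pow_char j₂ (algebraMap k F₂ β₁),
      ← map_pow, ← e₀, sub_self]
  · exact (hpf₁.sub (poleFree_const s b₀)).sub ((hpf₂.sub (poleFree_const s b₁)).pow p)

include hs hP hR0F hR0V hR0lift hx₂F h₂₁ h₂₂ hpf₂ hr₁₂ hr₂₂ hz₂ hj₂ htop₂ hj₁ in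
/-- **LIFT**. -/
theorem exists_lift (ψ : F₂) (hψ : 0 ≤ s.2.ord ψ) :
    ∃ g ∈ F0, g ∈ S.c₁.V ∧ g ∈ S.c₂.V ∧ S.c₂.rd g = ψ ∧ PoleFree S s g := by
  obtain ⟨β₁, -, hv₂⟩ := exists_value₂ hs h₂₁ h₂₂ hpf₂ p hr₁₂ hr₂₂
  obtain ⟨N, D, hDβ, hfrac⟩ := rat_exists_fraction hz₂ hj₂ htop₂ hv₂ ψ hψ
  have hD0 : D ≠ 0 := fun h0 => hDβ (by rw [h0, eval_zero])
  obtain ⟨Nt, hN0, hN1, hN2⟩ := exists_polyLift (S := S) F0 R0 hR0F hR0V hR0lift N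
  obtain ⟨Dt, hD0', hD1, hD2⟩ := exists_polyLift (S := S) F0 R0 hR0F hR0V hR0lift D
  have hp : p.Prime := Fact.out
  have hj₁p : Transcendental k (j₁ ^ p) := hj₁.pow hp.pos
  -- the denominator is a unit for both valuations
  have hDG₁ : S.c₁.IsGU (aeval x₂ Dt) := by
    refine ⟨(hD1 x₂ h₂₁).1, ?_⟩
    rw [(hD1 x₂ h₂₁).2, hr₁₂]
    exact rat_aeval_ne_zero hj₁p hD0
  have hDG₂ : S.c₂.IsGU (aeval x₂ Dt) := by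
    refine ⟨(hD2 x₂ h₂₂).1, ?_⟩
    rw [(hD2 x₂ h₂₂).2, hr₂₂]
    exact rat_aeval_ne_zero hj₂ hD0
  have hregx₂ : ∀ P : Place K F, S.c₁.r P = some s.1 → RegAt P x₂ := fun P hPs =>
    regAt_of_ord_nonneg (hpf₂ P hPs)
  have hDreg : ∀ P, S.c₁.r P = some s.1 → 0 ≤ P.ord (aeval x₂ Dt) := fun P hPs =>
    (rat_regAt_aeval (hregx₂ P hPs) Dt).ord_nonneg
  have hDzero : ∀ P, S.c₁.r P = some s.1 → P.ord (aeval x₂ Dt) = 0 := by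
    have hv : VanAt s.2 (S.c₂.rd (aeval x₂ Dt) - algebraMap k F₂ (D.eval β₁)) := by
      rw [(hD2 x₂ h₂₂).2, hr₂₂]
      exact rat_vanAt_aeval_sub hv₂ D
    exact (S.ord_eq_zero_of_value₂ hP hs hDG₁.mem hDG₂.mem hDreg hDβ hv).2.2
  refine ⟨aeval x₂ Nt / aeval x₂ Dt, F0.div_mem (hN0 x₂ hx₂F) (hD0' x₂ hx₂F), ?_, ?_, ?_, ?_⟩
  · rw [div_eq_mul_inv]
    exact S.c₁.V.mul_mem _ _ (hN1 x₂ h₂₁).1 hDG₁.inv_mem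
  · rw [div_eq_mul_inv]
    exact S.c₂.V.mul_mem _ _ (hN2 x₂ h₂₂).1 hDG₂.inv_mem
  · rw [div_eq_mul_inv, S.c₂.rd_mul (hN2 x₂ h₂₂).1 hDG₂.inv_mem, hDG₂.rd_inv, (hN2 x₂ h₂₂).2,
      (hD2 x₂ h₂₂).2, hr₂₂, ← hfrac, mul_assoc,
      mul_inv_cancel₀ (rat_aeval_ne_zero hj₂ hD0), mul_one]
  · intro P hPs
    by_cases hN : aeval x₂ Nt = 0
    · rw [hN, zero_div]
      simp
    · rw [ord_div P hN hDG₁.ne_zero, hDzero P hPs, sub_zero]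
      exact (rat_regAt_aeval (hregx₂ P hPs) Nt).ord_nonneg

end Charts

section Main

variable {s : Place k F₁ × Place k F₂} {c₀ : K}

/-- **COORD from two charts.** -/
theorem exists_isAnnCoord_of_charts (hs : s ∈ S.nodes) (hP : HasPrincipalDivisors K F)
    (hc₀ : c₀ ≠ 0) (hϖ₁ : algebraMap K F c₀ ∈ S.c₁.V) (hϖ0 : S.c₁.rd (algebraMap K F c₀) = 0)
    (F0 : Subfield F) (hϖF : algebraMap K F c₀ ∈ F0)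
    (R0 : Subring K) (hR0F : ∀ c ∈ R0, algebraMap K F c ∈ F0)
    (hR0V : ∀ c ∈ R0, algebraMap K F c ∈ S.c₁.V)
    (hR0lift : ∀ c' : k, ∃ c ∈ R0, S.c₁.rd (algebraMap K F c) = algebraMap k F₁ c')
    (hdisc : ∀ f ∈ F0, f ∈ S.c₂.V → S.c₂.rd f = 0 → f / algebraMap K F c₀ ∈ S.c₂.V)
    {x₁ x₂ : F} (hx₁F : x₁ ∈ F0) (hx₂F : x₂ ∈ F0)
    (h₁₁ : x₁ ∈ S.c₁.V) (h₁₂ : x₁ ∈ S.c₂.V) (h₂₁ : x₂ ∈ S.c₁.V) (h₂₂ : x₂ ∈ S.c₂.V)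
    (hpf₁ : PoleFree S s x₁) (hpf₂ : PoleFree S s x₂)
    {j₁ : F₁} {j₂ : F₂} (p : ℕ) [Fact p.Prime] [CharP k p]
    (hr₁₁ : S.c₁.rd x₁ = j₁) (hr₁₂ : S.c₁.rd x₂ = j₁ ^ p) (hr₂₁ : S.c₂.rd x₁ = j₂ ^ p)
    (hr₂₂ : S.c₂.rd x₂ = j₂)
    (hz₁ : H59.ZerosStmt k F₁) (hj₁ : Transcendental k j₁) (htop₁ : k⟮j₁⟯ = ⊤)
    (hz₂ : H59.ZerosStmt k F₂) (hj₂ : Transcendental k j₂) (htop₂ : k⟮j₂⟯ = ⊤)
    {U : F} (hU : S.c₁.IsGU U) (hUzf : ZeroFree S s U) {w : ℕ}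
    (hU₂ : S.c₂.IsGU (U / algebraMap K F c₀ ^ w)) {a : ℕ} (ha0 : 0 < a)
    (ha : s.1.ord (S.c₁.rd U) = a) :
    ∃ t ∈ F0, ∃ n : ℕ, 0 < n ∧ S.IsAnnCoord s t (c₀ ^ n) ∧ n * a = w := by
  obtain ⟨x₀, hx₀F, hx₀₁, hx₀o, hx₀₂, hx₀r, hx₀pf⟩ :=
    exists_start hs F0 R0 hR0F hR0V hR0lift hx₁F hx₂F h₁₁ h₁₂ h₂₁ h₂₂ hpf₁ hpf₂ p hr₁₁ hr₁₂ hr₂₁
      hr₂₂ hz₁ hj₁ htop₁
  exact exists_isAnnCoord hs hP hc₀ hϖ₁ hϖ0 F0 hϖF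
    (fun ψ hψ => exists_lift hs hP F0 R0 hR0F hR0V hR0lift hx₂F h₂₁ h₂₂ hpf₂ p hr₁₂ hr₂₂ hj₁
      hz₂ hj₂ htop₂ ψ hψ)
    hdisc hU hUzf hU₂ ha0 ha hx₀F hx₀₁ hx₀o hx₀₂ hx₀r hx₀pf

end Main

end Fermat.Agent.S15.Desc.H67
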