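import Fermat.Agent.BAD.H91_ModSSD
import Fermat.Agent.BAD.H21_SSPoly

/-!
# S15 DESC, leaf COORD (helper67): the sub-leaves of the modular instantiation at level `p`

Level `N = 1 * p` (`M = 1`, `q = p ≥ 5`), `A` over `p`, `T = H91.modT` the modular total
conservation datum (helper91), `S = T.toSSD`.

* `inertiaRing A` : the ring `A₀ = A ∩ ℚ̄^I` of inertia-fixed integers;
* `IsFrac0 A N f` : `f ∈ F_N · ℚ̄` is a quotient `G / H` of two functions whose `q`-expansions have
  coefficients in `A₀`;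
* `Stmt_CoordCusp p` **(CUSP)** : a pole of `j~` is not a node of `T`;
* `Stmt_CoordDisc` **(DISC)** : a non-zero `f` with `IsFrac0 A N f`, `A` over `p`, is
  `p ^ m · u` with `u` a unit of the Gauss valuation ring;
* `Stmt_CoordMult` **(MULT)** : the multiplicities of the roots of the supersingular polynomial
  `H = X^{4a} (X - 1728)^{6b} g^{12}` are `12`, `4` (only at `0`), `6` (only at `1728`).

This file contains definitions only.
-/

set_option autoImplicit false
set_option linter.style.haveILetI false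
set_option synthInstance.maxHeartbeats 400000
set_option maxHeartbeats 400000

noncomputable section

open HahnSeries IntermediateField AlgebraicCurve ModularCurve
open Fermat.Agent.S28.H73 Fermat.Agent.RED.H73 Fermat.Agent.RED Fermat.Agent.S24
open Fermat.Agent.BAD.H88

namespace Fermat.Agent.S15.Desc.H67

open Fermat.Agent.BAD Fermat.Agent.BAD.H91

/-- The ring `A₀ = A ∩ ℚ̄^I` of integers fixed by the inertia group of `A`. -/
def inertiaRing (A : ValuationSubring Kbar) : Subring Kbar where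
  carrier := {c | c ∈ A ∧ ∀ σ ∈ A.inertiaSubgroupIn ℚ, σ c = c}
  mul_mem' := fun ha hb => ⟨A.mul_mem _ _ ha.1 hb.1, fun σ hσ => by
    rw [map_mul, ha.2 σ hσ, hb.2 σ hσ]⟩
  one_mem' := ⟨A.one_mem, fun σ _ => map_one σ⟩
  add_mem' := fun ha hb => ⟨A.add_mem _ _ ha.1 hb.1, fun σ hσ => by
    rw [map_add, ha.2 σ hσ, hb.2 σ hσ]⟩
  zero_mem' := ⟨A.zero_mem, fun σ _ => map_zero σ⟩
  neg_mem' := fun ha => ⟨A.neg_mem _ ha.1, fun σ hσ => by rw [map_neg, ha.2 σ hσ]⟩

theorem mem_inertiaRing_iff (A : ValuationSubring Kbar) (c : Kbar) :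
    c ∈ inertiaRing A ↔ c ∈ A ∧ ∀ σ ∈ A.inertiaSubgroupIn ℚ, σ c = c := Iff.rfl

/-- `f` is a quotient of two functions with `q`-expansion coefficients in `A₀`. -/
def IsFrac0 (A : ValuationSubring Kbar) (N : ℕ) (f : FN N) : Prop :=
  ∃ G H : FN N, H ≠ 0 ∧ f * H = G ∧
    (∀ n : ℤ, (G : LaurentSeries Kbar).coeff n ∈ inertiaRing A) ∧
    (∀ n : ℤ, (H : LaurentSeries Kbar).coeff n ∈ inertiaRing A)

/-- **(CUSP)** at level `p`: a place of the reduced field of level `1` at which `j~` has a pole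
is not a node of the modular total conservation datum. -/
def Stmt_CoordCusp (p : ℕ) : Prop :=
  ∀ (A : ValuationSubring Kbar) (a b : ℤ) (hab : a * p + b * (1 : ℕ) = 1) (hp : p.Prime)
    [NeZero (1 * p)] [NeZero p] (hA : A.LiesOverPrime p) (hqM : ¬ p ∣ 1) (ht : TameAt 1 p)
    (htot : ∀ (u₁ : ↥(V1 A p 1)) (u₂ : ↥(V2 A p 1 a b hab hp)), red1 A p 1 u₁ ≠ 0 →
      red2 A p 1 a b hab hp u₂ ≠ 0 →
      (∃ c : Kbar, (u₂ : FN (1 * p)) = algebraMap Kbar (FN (1 * p)) c * (u₁ : FN (1 * p))) →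
      ∀ D : Divisor Kbar (FN (1 * p)), (∀ P, D P = P.ord (u₁ : FN (1 * p))) →
        ∀ z : Place (kV A) (F1 A p 1),
          Finsupp.mapDomain (rhoF1 a b hab hp hA hqM ht) D z
            = z.ord (red1 A p 1 u₁)
              + (H73.betaF1 A p 1 hp hA 1 (H82.redField_eq_fullC p 1 a b hab hp A hA) z).ord
                  (red2 A p 1 a b hab hp u₂))
    (z₀ : Place (kV A) ↥(H91.redM A 1)), z₀.ord (jRed A 1) < 0 →
      ¬ (modT a b hab hp hA hqM ht
          (H73.betaF1 A p 1 hp hA 1 (H82.redField_eq_fullC p 1 a b hab hp A hA)) htot).IsNode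
        ((kappa A p 1 a b hab hp hA).symm z₀)

/-- **(DISC)**: the Gauss valuation is discrete on the functions with inertia-fixed
`q`-expansion: a non-zero quotient of two series with coefficients in `A₀` is `p ^ m · u`, `u` a
unit of the Gauss valuation ring. -/
def Stmt_CoordDisc : Prop :=
  ∀ (p : ℕ), p.Prime → ∀ (A : ValuationSubring Kbar), A.LiesOverPrime p →
    ∀ (N : ℕ) [NeZero N] (f : FN N), IsFrac0 A N f → f ≠ 0 →
      ∃ (m : ℤ) (u : ↥(gaussV A N)), gaussRes A N u ≠ 0 ∧
        f = algebraMap Kbar (FN N) ((p : Kbar) ^ m) * (u : FN N)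

/-- **(MULT)**: the multiplicities of the roots of the supersingular polynomial. -/
def Stmt_CoordMult : Prop :=
  ∀ (F : Type) [Field F] (m a b : ℕ) (d : Fermat.Agent.BAD.H21.H21_SSData F m a b) (β : F),
    d.H.rootMultiplicity β = 0 ∨ d.H.rootMultiplicity β = 12 ∨
      (β = 0 ∧ d.H.rootMultiplicity β = 4) ∨ (β = 1728 ∧ d.H.rootMultiplicity β = 6)

end Fermat.Agent.S15.Desc.H67
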