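import Fermat.Agent.S15.Desc.H67_CoordLeaves

/-!
# S15 DESC, leaf COORD (helper67): the sub-leaf F0 (the field of inertia-fixed functions)

* `Stmt_CoordF0 p` **(F0)** : at level `1 * p` there is a subfield `F0` of `F_p · ℚ̄` which
  contains `j`, `j_p = j(q^p)` and the constants of `inertiaRing A`, is fixed pointwise by the
  inertia group of `A`, and on which the second valuation is discrete with uniformizer `p`
  (`f ∈ F0 ∩ V₂`, `red₂ f = 0` implies `f / p ∈ V₂`).

Intended proof: `F0 = {f | IsFrac0 A N f ∧ IsFrac0 A N (w_p f)}` (a subfield: quotients `G / H` of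
series with coefficients in `inertiaRing A`), `Stmt_CoordDisc` applied to `w_p f`.
-/

set_option autoImplicit false
set_option linter.style.haveILetI false
set_option synthInstance.maxHeartbeats 400000
set_option maxHeartbeats 400000

noncomputable section

open HahnSeries IntermediateField AlgebraicCurve ModularCurve
open Fermat.Agent.S28.H73 Fermat.Agent.RED.H73 Fermat.Agent.RED Fermat.Agent.S24
open Fermat.Agent.BAD.H88

namespace Fermat.Agent.S15.Desc.H67

open Fermat.Agent.BAD Fermat.Agent.BAD.H91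

/-- **(F0)**: the field of inertia-fixed functions at level `1 * p`. -/
def Stmt_CoordF0 (p : ℕ) : Prop :=
  ∀ (A : ValuationSubring Kbar) (a b : ℤ) (hab : a * p + b * (1 : ℕ) = 1) (hp : p.Prime)
    [NeZero (1 * p)] [NeZero p], A.LiesOverPrime p →
    ∃ F0 : Subfield (FN (1 * p)),
      jdF (1 * p) 1 (one_dvd _) ∈ F0 ∧ jdF (1 * p) (1 * p) dvd_rfl ∈ F0 ∧
      (∀ c ∈ inertiaRing A, algebraMap Kbar (FN (1 * p)) c ∈ F0) ∧
      (∀ f ∈ F0, ∀ σ ∈ A.inertiaSubgroupIn ℚ, galF (1 * p) σ • f = f) ∧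
      (∀ f ∈ F0, ∀ h : f ∈ V2 A p 1 a b hab hp, red2 A p 1 a b hab hp ⟨f, h⟩ = 0 →
        f / algebraMap Kbar (FN (1 * p)) (p : Kbar) ∈ V2 A p 1 a b hab hp)

end Fermat.Agent.S15.Desc.H67
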