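import Fermat.Agent.S15.Desc.H67_CoordCharts
import Fermat.Agent.S15.Desc.H67_CoordLeavesTwo
import Fermat.Agent.S15.Desc.H67_CoordModDefs
import Fermat.Agent.S15.H26_CuspEisGood
import Fermat.Agent.BAD.H21_UnitW
import Fermat.Agent.FL.H38_UnrConst
import Fermat.Agent.S24.Asm.One

/-!
# S15 DESC, leaf COORD (helper67): the modular verification at level `1 * p`, part A

The two charts `x₁ = j`, `x₂ = j(q^p)` of `X₀(p)`: Gauss integrality, the four reductions
(`red₁ x₁ = j~`, `red₁ x₂ = j~^p`, `red₂ x₁ = j~^p`, `red₂ x₂ = j~`), the rationality of the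
residue field (`k(j~) = F₁`, `j~` transcendental).
-/

set_option autoImplicit false
set_option linter.unusedSectionVars false
set_option linter.style.haveILetI false
set_option synthInstance.maxHeartbeats 400000
set_option maxHeartbeats 400000

noncomputable section

open HahnSeries IntermediateField AlgebraicCurve ModularCurve
open Fermat.Agent.S28.H73 Fermat.Agent.RED.H73 Fermat.Agent.RED Fermat.Agent.S24
open Fermat.Agent.BAD.H88

namespace Fermat.Agent.S15.Desc.H67

open Fermat.Agent.BAD Fermat.Agent.BAD.H91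

section Abs

variable {k X : Type*} [Field k] [Field X] [Algebra k X]

/-- A field generated by `y` inside `X` is generated by `y` as an abstract field. -/
theorem adjoin_eq_top_of_eq {E : IntermediateField k X} {y : X} (hE : E = k⟮y⟯) (y' : ↥E)
    (hy : (y' : X) = y) : k⟮y'⟯ = ⊤ := by
  rw [eq_top_iff]
  intro z _
  have hz : (z : X) ∈ k⟮y⟯ := hE ▸ z.2
  have hmap : (k⟮y'⟯).map E.val = k⟮y⟯ := by
    rw [adjoin_map, Set.image_singleton]
    congr 2
  rw [← hmap] at hz
  obtain ⟨w, hw, hwz⟩ := hz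
  have e : w = z := Subtype.ext hwz
  rwa [← e]

end Abs

section Series

variable (A : ValuationSubring Kbar) (p : ℕ) [NeZero (1 * p)]

/-- `j(q^d)` is Gauss integral. -/
theorem jdF_mem_V1 (d : ℕ) [NeZero d] (hd : d ∣ 1 * p) : jdF (1 * p) d hd ∈ V1 A p 1 := by
  rw [mem_gaussValSub_iff, H82.coe_jdF]
  exact qExpand_jqModC_mem_gaussRingV A d

/-- The reduction of `j(q^d)` is `j~(q^d)`. -/
theorem coe_red1_jdF (d : ℕ) [NeZero d] (hd : d ∣ 1 * p) (h : jdF (1 * p) d hd ∈ V1 A p 1) :
    ((red1 A p 1 ⟨jdF (1 * p) d hd, h⟩ : F1 A p 1) : LaurentSeries (kV A))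
      = qExpand (kV A) d (jqModC (kV A)) := by
  rw [coe_gaussResF'_eq]
  have e : (⟨((jdF (1 * p) d hd : FN (1 * p)) : LaurentSeries Kbar), h⟩ : gaussRingV A)
      = ⟨qExpand Kbar d (jqModC Kbar), qExpand_jqModC_mem_gaussRingV A d⟩ :=
    Subtype.ext (H82.coe_jdF (1 * p) d hd)
  rw [e]
  exact gaussRedV_qExpand_jqModC A d _

end Series

section Charts

variable (A : ValuationSubring Kbar) (p : ℕ) [NeZero (1 * p)]

/-- The first chart `x₁ = j`. -/
def chartOne : FN (1 * p) := jdF (1 * p) 1 (one_dvd _)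

/-- The second chart `x₂ = j(q^p)`. -/
def chartTwo : FN (1 * p) := jdF (1 * p) (1 * p) dvd_rfl

theorem chartOne_mem_V1 : chartOne p ∈ V1 A p 1 := jdF_mem_V1 A p 1 _

theorem chartTwo_mem_V1 : chartTwo p ∈ V1 A p 1 := jdF_mem_V1 A p (1 * p) _

/-- The reduction `j~` of `j`, as an element of `F₁`. -/
def jTil : F1 A p 1 := red1 A p 1 ⟨chartOne p, chartOne_mem_V1 A p⟩

theorem coe_jTil : ((jTil A p : F1 A p 1) : LaurentSeries (kV A)) = jqModC (kV A) := by
  rw [jTil]
  have h := coe_red1_jdF A p 1 (one_dvd _) (chartOne_mem_V1 A p)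
  rw [qExpand_one_apply] at h
  exact h

variable (a b : ℤ) (hab : a * p + b * (1 : ℕ) = 1) (hp : p.Prime)

theorem wq_chartOne : wq p 1 a b hab hp (chartOne p) = chartTwo p := by
  rw [wq_apply]
  exact wqHom_jdF p 1 a b hab hp 1 (one_dvd 1)

theorem wq_chartTwo : wq p 1 a b hab hp (chartTwo p) = chartOne p := by
  rw [wq_apply]
  exact wqHom_jdF_mul p 1 a b hab hp 1 (one_dvd 1)

theorem chartOne_mem_V2 : chartOne p ∈ V2 A p 1 a b hab hp := by
  rw [mem_V2_iff, wq_chartOne]
  exact chartTwo_mem_V1 A p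

theorem chartTwo_mem_V2 : chartTwo p ∈ V2 A p 1 a b hab hp := by
  rw [mem_V2_iff, wq_chartTwo]
  exact chartOne_mem_V1 A p

include hp in
/-- `red₁ x₂ = j~ ^ p` (Kronecker). -/
theorem red1_chartTwo (hA : A.LiesOverPrime p) :
    red1 A p 1 ⟨chartTwo p, chartTwo_mem_V1 A p⟩ = jTil A p ^ p := by
  haveI : Fact p.Prime := ⟨hp⟩
  haveI : CharP (kV A) p := H82.charP_kV A hp hA
  apply Subtype.ext
  refine (coe_red1_jdF A p (1 * p) dvd_rfl (chartTwo_mem_V1 A p)).trans ?_
  show _ = ((jTil A p : F1 A p 1) : LaurentSeries (kV A)) ^ p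
  rw [coe_jTil]
  have h := H82.kronX_eq_zero p (kV A)
  rw [H82.kronX, sub_eq_zero] at h
  rw [← h]
  exact qExpand_congr (one_mul p) _

theorem red2_chartOne (hA : A.LiesOverPrime p) :
    red2 A p 1 a b hab hp ⟨chartOne p, chartOne_mem_V2 A p a b hab hp⟩ = jTil A p ^ p := by
  rw [red2_mk, ← red1_chartTwo A p hp hA]
  congr 1
  exact Subtype.ext (wq_chartOne p a b hab hp)

theorem red2_chartTwo :
    red2 A p 1 a b hab hp ⟨chartTwo p, chartTwo_mem_V2 A p a b hab hp⟩ = jTil A p := by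
  rw [red2_mk, jTil]
  congr 1
  exact Subtype.ext (wq_chartTwo p a b hab hp)

end Charts

section Rational

variable (A : ValuationSubring Kbar) (p : ℕ) [NeZero (1 * p)]

/-- The function field of level `1` in characteristic `p` is `k(j~)`. -/
theorem fullC_one (K : Type) [Field K] : modularFunctionFieldFullC K 1 = K⟮jqModC K⟯ := by
  rw [modularFunctionFieldFullC]
  congr 1
  ext x
  constructor
  · rintro ⟨d, hd, hdvd, rfl⟩
    have : d = 1 := Nat.dvd_one.mp hdvd
    subst this
    rw [qExpand_one_apply]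
    exact Set.mem_singleton _
  · intro hx
    rw [Set.mem_singleton_iff.mp hx]
    exact ⟨1, inferInstance, dvd_rfl, (qExpand_one_apply (jqModC K)).symm⟩

theorem transcendental_jTil : Transcendental (kV A) (jTil A p) := by
  apply transcendental_subtype
  rw [coe_jTil]
  exact transcendental_jqModC (kV A)

variable (a b : ℤ) (hab : a * p + b * (1 : ℕ) = 1) (hp : p.Prime)

include hab hp in
/-- **`F₁ = k(j~)`.** -/
theorem adjoin_jTil (hA : A.LiesOverPrime p) : (kV A)⟮jTil A p⟯ = ⊤ :=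
  adjoin_eq_top_of_eq ((H82.redField_eq_fullC p 1 a b hab hp A hA).trans (fullC_one (kV A)))
    (jTil A p) (coe_jTil A p)

end Rational

end Fermat.Agent.S15.Desc.H67
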