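import Fermat.Agent.S15.Desc.H67_CoordModA

/-!
# S15 DESC, leaf COORD (helper67): the modular verification at level `1 * p`, part B

`T = H91.modT` the modular total conservation datum of level `1 * p`.  From **(CUSP)**:
on the fibre of a node `z` the functions `j`, `j(q^p)` have no pole and the modular unit
`U = Δ(τ)/Δ(p τ)` has neither zero nor pole.  The constants: `p` is in the maximal ideal, the
inertia-fixed integers lift the residue field.  The unit: `U` is a Gauss unit of `V₁`,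
`U / p ^ 12` is a Gauss unit of `V₂` (UNIT-W).
-/

set_option autoImplicit false
set_option linter.unusedSectionVars false
set_option linter.style.haveILetI false
set_option synthInstance.maxHeartbeats 400000
set_option maxHeartbeats 400000

noncomputable section

open HahnSeries IntermediateField AlgebraicCurve ModularCurve
open Fermat.Agent.S28.H73 Fermat.Agent.RED.H73 Fermat.Agent.RED Fermat.Agent.S24
open Fermat.Agent.BAD.H88

namespace Fermat.Agent.S15.Desc.H67

open Fermat.Agent.BAD Fermat.Agent.BAD.H91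

section Fibre

variable {A : ValuationSubring Kbar} {p : ℕ} (a b : ℤ) (hab : a * p + b * (1 : ℕ) = 1)
  (hp : p.Prime) [NeZero (1 * p)] [NeZero p] (hA : A.LiesOverPrime p) (hqM : ¬ p ∣ 1)
  (ht : TameAt 1 p) (hTot : Stmt_TotMod) (hCusp : Stmt_CoordCusp p)

/-- The modular total conservation datum of level `1 * p`. -/
def modTp : H79.TotData Kbar (FN (1 * p)) (kV A) (F1 A p 1) (F1 A p 1) :=
  modT a b hab hp hA hqM ht
    (H73.betaF1 A p 1 hp hA 1 (H82.redField_eq_fullC p 1 a b hab hp A hA))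
    (hTot A p 1 a b hab hp hA hqM ht)

include hCusp in
/-- **(CUSP)**, used: `j~` is regular at (the image of) a node. -/
theorem ord_jRed_nonneg_of_isNode {z : Place (kV A) (F1 A p 1)}
    (hz : (modTp a b hab hp hA hqM ht hTot).IsNode z) :
    0 ≤ (kappa A p 1 a b hab hp hA z).ord (jRed A 1) := by
  by_contra h
  have h := not_le.mp h
  have h1 := hCusp A a b hab hp hA hqM ht (hTot A p 1 a b hab hp hA hqM ht) (kappa A p 1 a b hab hp hA z) h
  rw [Equiv.symm_apply_apply] at h1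
  exact h1 hz

include hCusp in
theorem ord_jRed_nonneg_of_fibre {z : Place (kV A) (F1 A p 1)}
    (hz : (modTp a b hab hp hA hqM ht hTot).IsNode z)
    {P : Place Kbar (FN (1 * p))} (hP : rhoF1 a b hab hp hA hqM ht P = z) :
    0 ≤ (rhoM hp hqM ht hA P).ord (jRed A 1) := by
  have h := ord_jRed_nonneg_of_isNode a b hab hp hA hqM ht hTot hCusp hz
  rw [← hP, kappa_rhoF1] at h
  exact h

include hCusp in
/-- `j` has no pole on the fibre of a node. -/
theorem ord_jF_nonneg_of_fibre {z : Place (kV A) (F1 A p 1)}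
    (hz : (modTp a b hab hp hA hqM ht hTot).IsNode z)
    {P : Place Kbar (FN (1 * p))} (hP : rhoF1 a b hab hp hA hqM ht P = z) :
    0 ≤ P.ord (Fermat.Agent.S24.jF (1 * p)) := by
  have h := ord_jRed_nonneg_of_fibre a b hab hp hA hqM ht hTot hCusp hz hP
  have h1 := ord_jF_nonneg_of_rM hp hqM ht hA _ h
  have h2 : 0 ≤ P.ord (incl 1 p (RED.H73.jF (L := AlgebraicClosure ℚ) 1)) := by
    rw [Place.ord_restrictAlong (incl 1 p) (incl_isIntegral 1 p) P]
    exact mul_nonneg (Int.natCast_nonneg _) h1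
  rw [incl_jF] at h2
  exact h2

include hCusp in
/-- `x₁ = j` has no pole on the fibre of a node. -/
theorem ord_chartOne_nonneg {z : Place (kV A) (F1 A p 1)}
    (hz : (modTp a b hab hp hA hqM ht hTot).IsNode z)
    {P : Place Kbar (FN (1 * p))} (hP : rhoF1 a b hab hp hA hqM ht P = z) :
    0 ≤ P.ord (chartOne p) := by
  have h := ord_jF_nonneg_of_fibre a b hab hp hA hqM ht hTot hCusp hz hP
  rw [Fermat.Agent.S24.jF_eq_jdF] at h
  exact h

include hCusp in
/-- `x₂ = j(q^p)` has no pole on the fibre of a node. -/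
theorem ord_chartTwo_nonneg {z : Place (kV A) (F1 A p 1)}
    (hz : (modTp a b hab hp hA hqM ht hTot).IsNode z)
    {P : Place Kbar (FN (1 * p))} (hP : rhoF1 a b hab hp hA hqM ht P = z) :
    0 ≤ P.ord (chartTwo p) :=
  Fermat.Agent.S15.H26.ord_jdF_nonneg (1 * p) (1 * p) dvd_rfl P
    (ord_jF_nonneg_of_fibre a b hab hp hA hqM ht hTot hCusp hz hP)

include hCusp in
/-- The modular unit has neither zero nor pole on the fibre of a node. -/
theorem ord_unitF_eq_zero_of_fibre (hd : p ∣ 1 * p) {z : Place (kV A) (F1 A p 1)}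
    (hz : (modTp a b hab hp hA hqM ht hTot).IsNode z)
    {P : Place Kbar (FN (1 * p))} (hP : rhoF1 a b hab hp hA hqM ht P = z) :
    P.ord (Fermat.Agent.BAD.H30.unitF (1 * p) p hd) = 0 :=
  ord_unitF_eq_zero_of_rhoM hp hqM ht hA hd P
    (ord_jRed_nonneg_of_fibre a b hab hp hA hqM ht hTot hCusp hz hP)

end Fibre

section Consts

variable (A : ValuationSubring Kbar) (p : ℕ) [NeZero (1 * p)]

theorem natCast_mem_inertiaRing : (p : Kbar) ∈ inertiaRing A :=
  ⟨natCast_mem A p, fun σ _ => map_natCast σ p⟩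

/-- `p` is in the maximal ideal of the Gauss valuation. -/
theorem red1_natCast (hA : A.LiesOverPrime p)
    (h : algebraMap Kbar (FN (1 * p)) (p : Kbar) ∈ V1 A p 1) : red1 A p 1 ⟨_, h⟩ = 0 := by
  have hpA : (p : Kbar) ∈ A := natCast_mem A p
  rw [red1_const A p 1 ⟨(p : Kbar), hpA⟩ h]
  have h0 : resV A ⟨(p : Kbar), hpA⟩ = 0 := by
    have e : (⟨(p : Kbar), hpA⟩ : ↥A) = ((p : ℕ) : ↥A) := Subtype.ext (by simp)
    rw [e, map_natCast]
    exact Fermat.Agent.FL.H38.residue_prime_eq_zero A hA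
  rw [h0, map_zero]

/-- Every constant of the residue field lifts to an inertia-fixed integer. -/
theorem exists_inertiaRing_lift (hp : p.Prime) (hA : A.LiesOverPrime p) (c' : kV A) :
    ∃ c ∈ inertiaRing A, ∃ h : algebraMap Kbar (FN (1 * p)) c ∈ V1 A p 1,
      red1 A p 1 ⟨_, h⟩ = algebraMap (kV A) (F1 A p 1) c' := by
  obtain ⟨c, hc, hfix, hres⟩ := Fermat.Agent.FL.H38.exists_inertia_fixed_lift A hp hA c'
  refine ⟨c, ⟨hc, hfix⟩, (const_mem1 A p 1 c).2 hc, ?_⟩
  rw [red1_const A p 1 ⟨c, hc⟩]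
  congr 1

end Consts

section Unit

variable (A : ValuationSubring Kbar) (p : ℕ) [NeZero (1 * p)] [NeZero p]
  (a b : ℤ) (hab : a * p + b * (1 : ℕ) = 1) (hp : p.Prime) (hd : p ∣ 1 * p)

/-- **UNIT-W**, used: `w_p (U / p ^ 12) = U⁻¹`. -/
theorem wq_unit_div :
    wq p 1 a b hab hp (Fermat.Agent.BAD.H30.unitF (1 * p) p hd
        / algebraMap Kbar (FN (1 * p)) (p : Kbar) ^ 12)
      = (Fermat.Agent.BAD.H30.unitF (1 * p) p hd)⁻¹ := by
  have hp0 : algebraMap Kbar (FN (1 * p)) (p : Kbar) ≠ 0 := by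
    rw [Ne, map_eq_zero_iff _ (algebraMap Kbar (FN (1 * p))).injective]
    exact_mod_cast hp.ne_zero
  rw [map_div₀, map_pow, AlgEquiv.commutes, Fermat.Agent.BAD.H21.wq_unitF p 1 a b hab hp hd,
    map_pow]
  field_simp

/-- `U⁻¹` is Gauss integral with non-zero reduction. -/
theorem unit_inv_mem :
    ∃ h : (Fermat.Agent.BAD.H30.unitF (1 * p) p hd)⁻¹ ∈ V1 A p 1, red1 A p 1 ⟨_, h⟩ ≠ 0 := by
  obtain ⟨h, hr⟩ := H82.inv_mem_gaussV (1 * p) A
    ⟨Fermat.Agent.BAD.H30.unitF (1 * p) p hd,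
      Fermat.Agent.BAD.H30.unitF_mem_gaussV A (1 * p) p hd⟩
    (Fermat.Agent.BAD.H30.gaussRes_unitF_ne_zero A (1 * p) p hd)
  refine ⟨h, ?_⟩
  have h1 : red1 A p 1 ⟨_, h⟩ = (gaussRes A (1 * p) ⟨Fermat.Agent.BAD.H30.unitF (1 * p) p hd,
      Fermat.Agent.BAD.H30.unitF_mem_gaussV A (1 * p) p hd⟩)⁻¹ := hr
  rw [h1]
  exact inv_ne_zero (Fermat.Agent.BAD.H30.gaussRes_unitF_ne_zero A (1 * p) p hd)

/-- `U / p ^ 12` is a unit of the second valuation. -/
theorem unit_div_mem_V2 :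
    ∃ h : Fermat.Agent.BAD.H30.unitF (1 * p) p hd
        / algebraMap Kbar (FN (1 * p)) (p : Kbar) ^ 12 ∈ V2 A p 1 a b hab hp,
      red2 A p 1 a b hab hp ⟨_, h⟩ ≠ 0 := by
  obtain ⟨h, hr⟩ := unit_inv_mem A p hd
  have e := wq_unit_div p a b hab hp hd
  have hm : Fermat.Agent.BAD.H30.unitF (1 * p) p hd
      / algebraMap Kbar (FN (1 * p)) (p : Kbar) ^ 12 ∈ V2 A p 1 a b hab hp := by
    rw [mem_V2_iff, e]
    exact h
  refine ⟨hm, ?_⟩
  rw [red2_mk]
  have e2 : (⟨wq p 1 a b hab hp (Fermat.Agent.BAD.H30.unitF (1 * p) p hd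
      / algebraMap Kbar (FN (1 * p)) (p : Kbar) ^ 12), hm⟩ : ↥(V1 A p 1))
      = ⟨(Fermat.Agent.BAD.H30.unitF (1 * p) p hd)⁻¹, h⟩ := Subtype.ext e
  rw [e2]
  exact hr

end Unit

end Fermat.Agent.S15.Desc.H67
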