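import Fermat.Agent.S15.Desc.H67_CoordModB

/-!
# S15 DESC, leaf COORD (helper67): the modular verification at level `1 * p`, part C

The supersingular polynomial: `red₁ U = H(j~)` (helper21's (SS), helper30's UNIT), hence at a
node `z` with `j~(z) = β₀` the order of `red₁ U` is the multiplicity of the root `β₀` of `H`.
-/

set_option autoImplicit false
set_option linter.unusedSectionVars false
set_option linter.style.haveILetI false
set_option synthInstance.maxHeartbeats 400000
set_option maxHeartbeats 400000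

noncomputable section

open HahnSeries IntermediateField AlgebraicCurve ModularCurve
open Fermat.Agent.S28.H73 Fermat.Agent.RED.H73 Fermat.Agent.RED Fermat.Agent.S24
open Fermat.Agent.BAD.H88

namespace Fermat.Agent.S15.Desc.H67

open Fermat.Agent.BAD Fermat.Agent.BAD.H91 Fermat.Agent.BAD.H21 Fermat.Agent.RED.H17

section SS

variable (A : ValuationSubring Kbar) (p : ℕ) [NeZero (1 * p)] [NeZero p]
  (hp : p.Prime) (hA : A.LiesOverPrime p) (h5 : 5 ≤ p)

/-- The supersingular datum in characteristic `p ≥ 5`. -/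
def ssDat : H21_SSData (kV A) (H21_ssM p) (H21_ssA p) (H21_ssB p) :=
  haveI : Fact p.Prime := ⟨hp⟩
  haveI : CharP (kV A) p := H82.charP_kV A hp hA
  (H21_exists_ssData (F := kV A) (ℓ := p) h5).some

theorem ssDat_H_ne_zero : (ssDat A p hp hA h5).H ≠ 0 := by
  intro h
  have h1 := (ssDat A p hp hA h5).hev_H_series
  rw [h, Fermat.Agent.S16.H41.hev_zero] at h1
  exact zero_ne_one h1

/-- **UNIT + (SS)**: `red₁ U = H(j~)`. -/
theorem red1_unit_eq_aeval (hd : p ∣ 1 * p) :
    red1 A p 1 ⟨Fermat.Agent.BAD.H30.unitF (1 * p) p hd,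
        Fermat.Agent.BAD.H30.unitF_mem_gaussV A (1 * p) p hd⟩
      = Polynomial.aeval (jTil A p) (ssDat A p hp hA h5).H := by
  haveI : Fact p.Prime := ⟨hp⟩
  haveI : CharP (kV A) p := H82.charP_kV A hp hA
  apply Subtype.ext
  have h1 := Fermat.Agent.BAD.H30.gaussRes_unitF_char A (1 * p) p hA hd
  refine h1.trans ?_
  have hw := H21_ss_weight hp h5
  have h2 := H21_aeval_jqModC (F := kV A) (hw ▸ (ssDat A p hp hA h5).natDegree_H_le)
    (hw ▸ (ssDat A p hp hA h5).hev_H_series)
  rw [Fermat.Agent.BAD.H30.deltaR_eq_DL, ← h2, ← coe_jTil A p]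
  exact Polynomial.aeval_algHom_apply
    (redField A (modularFunctionFieldBar (1 * p)) (hSc A p 1)).val (jTil A p)
    (ssDat A p hp hA h5).H

end SS

section Node

variable {A : ValuationSubring Kbar} {p : ℕ} (a b : ℤ) (hab : a * p + b * (1 : ℕ) = 1)
  (hp : p.Prime) [NeZero (1 * p)] [NeZero p] (hA : A.LiesOverPrime p) (hqM : ¬ p ∣ 1)
  (ht : TameAt 1 p) (hTot : Stmt_TotMod) (hCusp : Stmt_CoordCusp p) (h5 : 5 ≤ p)

include hCusp in
/-- `j~` is regular at a node. -/
theorem ord_jTil_nonneg_of_isNode {z : Place (kV A) (F1 A p 1)}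
    (hz : (modTp a b hab hp hA hqM ht hTot).IsNode z) : 0 ≤ z.ord (jTil A p) := by
  have h := ord_jRed_nonneg_of_isNode a b hab hp hA hqM ht hTot hCusp hz
  rw [kappa_ord A p 1 a b hab hp hA z (jTil A p) (jRed A 1)
    ((coe_jTil A p).trans (red_jF A 1).symm)] at h
  exact h

include hCusp in
/-- The value `j~(z)` at a node. -/
theorem exists_jvalue {z : Place (kV A) (F1 A p 1)}
    (hz : (modTp a b hab hp hA hqM ht hTot).IsNode z) (hdeg : z.deg = 1) :
    ∃ β₀ : kV A, VanAt z (jTil A p - algebraMap (kV A) (F1 A p 1) β₀) :=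
  RED.H17.exists_value z hdeg
    (RED.H17.regAt_of_ord_nonneg (ord_jTil_nonneg_of_isNode a b hab hp hA hqM ht hTot hCusp hz))

include hab in
/-- The order of `red₁ U` at a place where `j~` has the value `β₀`. -/
theorem ord_red1_unit (hzeros : H59.ZerosStmt (kV A) (F1 A p 1)) (hd : p ∣ 1 * p)
    {z : Place (kV A) (F1 A p 1)} {β₀ : kV A}
    (h : VanAt z (jTil A p - algebraMap (kV A) (F1 A p 1) β₀)) :
    z.ord (red1 A p 1 ⟨Fermat.Agent.BAD.H30.unitF (1 * p) p hd,
        Fermat.Agent.BAD.H30.unitF_mem_gaussV A (1 * p) p hd⟩)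
      = (((ssDat A p hp hA h5).H.rootMultiplicity β₀ : ℕ) : ℤ) := by
  rw [red1_unit_eq_aeval A p hp hA h5 hd]
  exact rat_ord_aeval hzeros (transcendental_jTil A p) (adjoin_jTil A p a b hab hp hA) h
    (ssDat_H_ne_zero A p hp hA h5)

end Node

end Fermat.Agent.S15.Desc.H67
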