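import Fermat.Agent.S15.Desc.H67_CoordModC

/-!
# S15 DESC, leaf COORD (helper67): the modular verification at level `1 * p`, part D

`S = T.toSSD` the semistable Deuring datum of level `1 * p`; the hypotheses of
`exists_isAnnCoord_of_charts` at a node `s` of `S`.
-/

set_option autoImplicit false
set_option linter.unusedSectionVars false
set_option linter.style.haveILetI false
set_option synthInstance.maxHeartbeats 400000
set_option maxHeartbeats 400000

noncomputable section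

open HahnSeries IntermediateField AlgebraicCurve ModularCurve
open Fermat.Agent.S28.H73 Fermat.Agent.RED.H73 Fermat.Agent.RED Fermat.Agent.S24
open Fermat.Agent.BAD.H88

namespace Fermat.Agent.S15.Desc.H67

open Fermat.Agent.BAD Fermat.Agent.BAD.H91 Fermat.Agent.BAD.H21 Fermat.Agent.RED.H17

/-- Shortcut instance (the search for this instance is slow). -/
local instance algF1Shortcut (A : ValuationSubring Kbar) (p : ℕ) [NeZero (1 * p)] :
    Algebra (kV A) (F1 A p 1) := inferInstance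

section Datum

variable {A : ValuationSubring Kbar} {p : ℕ} (a b : ℤ) (hab : a * p + b * (1 : ℕ) = 1)
  (hp : p.Prime) [NeZero (1 * p)] [NeZero p] (hA : A.LiesOverPrime p) (hqM : ¬ p ∣ 1)
  (ht : TameAt 1 p) (hTot : Stmt_TotMod)
  (H : RED.H17.FFHyp Kbar (FN (1 * p))) (H₁ : RED.H17.FFHyp (kV A) (F1 A p 1))
  (hne : ∃ z, (modTp a b hab hp hA hqM ht hTot).IsNode z)

/-- The semistable Deuring datum of level `1 * p`. -/
def modSp : SSD Kbar (FN (1 * p)) (kV A) (F1 A p 1) (F1 A p 1) :=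
  haveI : IsAlgClosed (kV A) := isAlgClosed_kV A
  (modTp a b hab hp hA hqM ht hTot).toSSD H.principal H.deg_one H₁.principal H₁.deg_one
    H₁.deg_one hne

theorem modSp_V₁ : (modSp a b hab hp hA hqM ht hTot H H₁ hne).c₁.V = V1 A p 1 := rfl

theorem modSp_V₂ : (modSp a b hab hp hA hqM ht hTot H H₁ hne).c₂.V = V2 A p 1 a b hab hp := rfl

theorem modSp_rd₁ {f : FN (1 * p)} (h : f ∈ V1 A p 1) :
    (modSp a b hab hp hA hqM ht hTot H H₁ hne).c₁.rd f = red1 A p 1 ⟨f, h⟩ :=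
  PRed.rd_of_mem _ h

theorem modSp_rd₂ {f : FN (1 * p)} (h : f ∈ V2 A p 1 a b hab hp) :
    (modSp a b hab hp hA hqM ht hTot H H₁ hne).c₂.rd f = red2 A p 1 a b hab hp ⟨f, h⟩ :=
  PRed.rd_of_mem _ h

theorem modSp_mem_nodes {s : Place (kV A) (F1 A p 1) × Place (kV A) (F1 A p 1)}
    (hs : s ∈ (modSp a b hab hp hA hqM ht hTot H H₁ hne).nodes) :
    (modTp a b hab hp hA hqM ht hTot).IsNode s.1 := by
  haveI : IsAlgClosed (kV A) := isAlgClosed_kV A
  exact ((modTp a b hab hp hA hqM ht hTot).mem_nodes H.principal H₁.principal).mp hs |>.1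

theorem modSp_fibre {s : Place (kV A) (F1 A p 1) × Place (kV A) (F1 A p 1)}
    {P : Place Kbar (FN (1 * p))}
    (hP : (modSp a b hab hp hA hqM ht hTot H H₁ hne).c₁.r P = some s.1) :
    rhoF1 a b hab hp hA hqM ht P = s.1 :=
  ((modTp a b hab hp hA hqM ht hTot).r₁_eq_some_iff.mp hP).1

end Datum

section Node

variable {A : ValuationSubring Kbar} {p : ℕ} (a b : ℤ) (hab : a * p + b * (1 : ℕ) = 1)
  (hp : p.Prime) [NeZero (1 * p)] [NeZero p] (hA : A.LiesOverPrime p) (hqM : ¬ p ∣ 1)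
  (ht : TameAt 1 p) (hTot : Stmt_TotMod) (hCusp : Stmt_CoordCusp p) (h5 : 5 ≤ p)
  (H : RED.H17.FFHyp Kbar (FN (1 * p))) (H₁ : RED.H17.FFHyp (kV A) (F1 A p 1))
  (hne : ∃ z, (modTp a b hab hp hA hqM ht hTot).IsNode z)

include hCusp h5 in
/-- **The unit at a node**: `a = ord_{s.1} (red₁ U)` is the multiplicity of `j~(s.1)` as a root
of the supersingular polynomial, and it is positive. -/
theorem node_unit {s : Place (kV A) (F1 A p 1) × Place (kV A) (F1 A p 1)}
    (hs : s ∈ (modSp a b hab hp hA hqM ht hTot H H₁ hne).nodes) (hd : p ∣ 1 * p) :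
    ∃ β₀ : kV A, VanAt s.1 (jTil A p - algebraMap (kV A) (F1 A p 1) β₀) ∧
      (modSp a b hab hp hA hqM ht hTot H H₁ hne).c₁.IsGU
        (Fermat.Agent.BAD.H30.unitF (1 * p) p hd) ∧
      ZeroFree (modSp a b hab hp hA hqM ht hTot H H₁ hne) s
        (Fermat.Agent.BAD.H30.unitF (1 * p) p hd) ∧
      (modSp a b hab hp hA hqM ht hTot H H₁ hne).c₂.IsGU
        (Fermat.Agent.BAD.H30.unitF (1 * p) p hd
          / algebraMap Kbar (FN (1 * p)) (p : Kbar) ^ 12) ∧
      0 < (ssDat A p hp hA h5).H.rootMultiplicity β₀ ∧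
      s.1.ord ((modSp a b hab hp hA hqM ht hTot H H₁ hne).c₁.rd
          (Fermat.Agent.BAD.H30.unitF (1 * p) p hd))
        = (((ssDat A p hp hA h5).H.rootMultiplicity β₀ : ℕ) : ℤ) := by
  haveI : IsAlgClosed (kV A) := isAlgClosed_kV A
  have hnode := modSp_mem_nodes a b hab hp hA hqM ht hTot H H₁ hne hs
  have hzeros : H59.ZerosStmt (kV A) (F1 A p 1) :=
    RED.H42.zerosAll _ _ (isFF_F1 a b hab hp hA hqM ht)
  obtain ⟨β₀, hβ₀⟩ := exists_jvalue a b hab hp hA hqM ht hTot hCusp hnode (H₁.deg_one s.1)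
  have hU1 : Fermat.Agent.BAD.H30.unitF (1 * p) p hd ∈ V1 A p 1 :=
    Fermat.Agent.BAD.H30.unitF_mem_gaussV A (1 * p) p hd
  have hU : (modSp a b hab hp hA hqM ht hTot H H₁ hne).c₁.IsGU
      (Fermat.Agent.BAD.H30.unitF (1 * p) p hd) := by
    refine ⟨hU1, ?_⟩
    rw [modSp_rd₁ a b hab hp hA hqM ht hTot H H₁ hne hU1]
    exact Fermat.Agent.BAD.H30.gaussRes_unitF_ne_zero A (1 * p) p hd
  have hUzf : ZeroFree (modSp a b hab hp hA hqM ht hTot H H₁ hne) s
      (Fermat.Agent.BAD.H30.unitF (1 * p) p hd) := fun P hP =>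
    ord_unitF_eq_zero_of_fibre a b hab hp hA hqM ht hTot hCusp hd hnode
      (modSp_fibre a b hab hp hA hqM ht hTot H H₁ hne hP)
  obtain ⟨hU2m, hU2r⟩ := unit_div_mem_V2 A p a b hab hp hd
  have hU₂ : (modSp a b hab hp hA hqM ht hTot H H₁ hne).c₂.IsGU
      (Fermat.Agent.BAD.H30.unitF (1 * p) p hd
        / algebraMap Kbar (FN (1 * p)) (p : Kbar) ^ 12) := by
    refine ⟨hU2m, ?_⟩
    rw [modSp_rd₂ a b hab hp hA hqM ht hTot H H₁ hne hU2m]
    exact hU2r
  have hord : s.1.ord ((modSp a b hab hp hA hqM ht hTot H H₁ hne).c₁.rd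
        (Fermat.Agent.BAD.H30.unitF (1 * p) p hd))
      = (((ssDat A p hp hA h5).H.rootMultiplicity β₀ : ℕ) : ℤ) := by
    rw [modSp_rd₁ a b hab hp hA hqM ht hTot H H₁ hne hU1]
    exact ord_red1_unit a b hab hp hA h5 hzeros hd hβ₀
  have hpV : algebraMap Kbar (FN (1 * p)) (p : Kbar) ∈ V1 A p 1 :=
    (const_mem1 A p 1 _).2 (natCast_mem A p)
  have hp0 : (modSp a b hab hp hA hqM ht hTot H H₁ hne).c₁.rd
      (algebraMap Kbar (FN (1 * p)) (p : Kbar)) = 0 := by
    rw [modSp_rd₁ a b hab hp hA hqM ht hTot H H₁ hne hpV]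
    exact red1_natCast A p hA hpV
  refine ⟨β₀, hβ₀, hU, hUzf, hU₂, ?_, hord⟩
  rw [Nat.pos_iff_ne_zero]
  intro h0
  rw [h0, Nat.cast_zero] at hord
  have h₂' : (modSp a b hab hp hA hqM ht hTot H H₁ hne).c₂.IsGU
      (algebraMap Kbar (FN (1 * p)) (((p : Kbar) ^ 12)⁻¹)
        * Fermat.Agent.BAD.H30.unitF (1 * p) p hd) := by
    have e : algebraMap Kbar (FN (1 * p)) (((p : Kbar) ^ 12)⁻¹)
        * Fermat.Agent.BAD.H30.unitF (1 * p) p hd
        = Fermat.Agent.BAD.H30.unitF (1 * p) p hd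
          / algebraMap Kbar (FN (1 * p)) (p : Kbar) ^ 12 := by
      rw [map_inv₀, map_pow, div_eq_inv_mul]
    rw [e]
    exact hU₂
  have hcu := SSD.isCU_of_node _ H.principal hs hU h₂' hUzf hord
  have hcu' := hcu.inv
  rw [inv_inv] at hcu'
  apply hcu'.isGU₁.2
  rw [map_pow, PRed.rd_pow _ hpV, hp0, zero_pow (by norm_num)]

include hCusp h5 in
/-- **The annulus coordinate at a node** of the modular datum of level `1 * p`. -/
theorem node_coord (hF0 : Stmt_CoordF0 p) (hMult : Stmt_CoordMult)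
    {s : Place (kV A) (F1 A p 1) × Place (kV A) (F1 A p 1)}
    (hs : s ∈ (modSp a b hab hp hA hqM ht hTot H H₁ hne).nodes) :
    ∃ n : ℕ, 0 < n ∧
      (∃ t : FN (1 * p),
        (modSp a b hab hp hA hqM ht hTot H H₁ hne).IsAnnCoord s t ((p : Kbar) ^ n) ∧
          ∀ σ ∈ A.inertiaSubgroupIn ℚ, galF (1 * p) σ • t = t) ∧
      ∃ β₀ : kV A, VanAt s.1 (jTil A p - algebraMap (kV A) (F1 A p 1) β₀) ∧
        (n = 1 ∨ (n = 3 ∧ β₀ = 0) ∨ (n = 2 ∧ β₀ = 1728)) := by
  haveI : IsAlgClosed (kV A) := isAlgClosed_kV A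
  haveI : Fact p.Prime := ⟨hp⟩
  haveI : CharP (kV A) p := H82.charP_kV A hp hA
  have hd : p ∣ 1 * p := Dvd.intro_left 1 rfl
  obtain ⟨β₀, hβ₀, hU, hUzf, hU₂, ha0, hord⟩ :=
    node_unit a b hab hp hA hqM ht hTot hCusp h5 H H₁ hne hs hd
  have hnode := modSp_mem_nodes a b hab hp hA hqM ht hTot H H₁ hne hs
  have hzeros : H59.ZerosStmt (kV A) (F1 A p 1) :=
    RED.H42.zerosAll _ _ (isFF_F1 a b hab hp hA hqM ht)
  obtain ⟨F0, hj1, hj2, hR0, hfix, hdisc⟩ := hF0 A a b hab hp hA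
  have hpV : algebraMap Kbar (FN (1 * p)) (p : Kbar) ∈ V1 A p 1 :=
    (const_mem1 A p 1 _).2 (natCast_mem A p)
  have hp0 : (modSp a b hab hp hA hqM ht hTot H H₁ hne).c₁.rd
      (algebraMap Kbar (FN (1 * p)) (p : Kbar)) = 0 := by
    rw [modSp_rd₁ a b hab hp hA hqM ht hTot H H₁ hne hpV]
    exact red1_natCast A p hA hpV
  have hc₀ : (p : Kbar) ≠ 0 := by exact_mod_cast hp.ne_zero
  obtain ⟨t, htF0, n, hn0, hcoord, hna⟩ :=
    exists_isAnnCoord_of_charts (S := modSp a b hab hp hA hqM ht hTot H H₁ hne) hs H.principal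
      hc₀ hpV hp0 F0 (hR0 _ (natCast_mem_inertiaRing A p)) (inertiaRing A) hR0
      (fun c hc => (const_mem1 A p 1 c).2 hc.1)
      (fun c' => by
        obtain ⟨c, hc, h, hr⟩ := exists_inertiaRing_lift A p hp hA c'
        exact ⟨c, hc, (modSp_rd₁ a b hab hp hA hqM ht hTot H H₁ hne h).trans hr⟩)
      (fun f hf hf2 hr => hdisc f hf hf2 (by
        rw [← modSp_rd₂ a b hab hp hA hqM ht hTot H H₁ hne hf2]
        exact hr))
      hj1 hj2 (chartOne_mem_V1 A p) (chartOne_mem_V2 A p a b hab hp) (chartTwo_mem_V1 A p)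
      (chartTwo_mem_V2 A p a b hab hp)
      (fun P hP => ord_chartOne_nonneg a b hab hp hA hqM ht hTot hCusp hnode
        (modSp_fibre a b hab hp hA hqM ht hTot H H₁ hne hP))
      (fun P hP => ord_chartTwo_nonneg a b hab hp hA hqM ht hTot hCusp hnode
        (modSp_fibre a b hab hp hA hqM ht hTot H H₁ hne hP))
      p
      (modSp_rd₁ a b hab hp hA hqM ht hTot H H₁ hne (chartOne_mem_V1 A p))
      ((modSp_rd₁ a b hab hp hA hqM ht hTot H H₁ hne (chartTwo_mem_V1 A p)).trans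
        (red1_chartTwo A p hp hA))
      ((modSp_rd₂ a b hab hp hA hqM ht hTot H H₁ hne (chartOne_mem_V2 A p a b hab hp)).trans
        (red2_chartOne A p a b hab hp hA))
      ((modSp_rd₂ a b hab hp hA hqM ht hTot H H₁ hne (chartTwo_mem_V2 A p a b hab hp)).trans
        (red2_chartTwo A p a b hab hp))
      hzeros (transcendental_jTil A p) (adjoin_jTil A p a b hab hp hA)
      hzeros (transcendental_jTil A p) (adjoin_jTil A p a b hab hp hA)
      hU hUzf hU₂ ha0 hord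
  refine ⟨n, hn0, ⟨t, hcoord, fun σ hσ => hfix t htF0 σ hσ⟩, β₀, hβ₀, ?_⟩
  rcases hMult (kV A) _ _ _ (ssDat A p hp hA h5) β₀ with h | h | ⟨hb, h⟩ | ⟨hb, h⟩
  · omega
  · left
    rw [h] at hna
    omega
  · right; left
    rw [h] at hna
    exact ⟨by omega, hb⟩
  · right; right
    rw [h] at hna
    exact ⟨by omega, hb⟩

end Node

end Fermat.Agent.S15.Desc.H67
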