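import Fermat.Agent.S15.Desc.H67_CoordModD

/-!
# S15 DESC, leaf COORD (helper67): `Stmt_CoordMod p` from its leaves

* `coordMod_level` : the body of `Stmt_CoordMod p` at `A`, at any level `N = 1 * p`;
* `stmt_CoordMod_of` : `Stmt_CoordMod p` for a prime `p ≥ 5` from TOT-MOD (helper23), CUSP
  (helper69), F0 (helper63) and MULT (helper87).
-/

set_option autoImplicit false
set_option linter.unusedSectionVars false
set_option linter.style.haveILetI false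
set_option synthInstance.maxHeartbeats 400000
set_option maxHeartbeats 800000

noncomputable section

open HahnSeries IntermediateField AlgebraicCurve ModularCurve
open Fermat.Agent.S28.H73 Fermat.Agent.RED.H73 Fermat.Agent.RED Fermat.Agent.S24
open Fermat.Agent.BAD.H88

namespace Fermat.Agent.S15.Desc.H67

open Fermat.Agent.BAD Fermat.Agent.BAD.H91 Fermat.Agent.BAD.H21 Fermat.Agent.RED.H17

/-- **The body of `Stmt_CoordMod p`** at `A`, at the level `N = 1 * p`. -/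
theorem coordMod_level (hTot : Stmt_TotMod) {p : ℕ} (hCusp : Stmt_CoordCusp p)
    (hF0 : Stmt_CoordF0 p) (hMult : Stmt_CoordMult) (hp : p.Prime) (h5 : 5 ≤ p)
    (A : ValuationSubring (AlgebraicClosure ℚ)) (hA : A.LiesOverPrime p) (N : ℕ)
    (hN : N = 1 * p) :
    ∃ (F₁ F₂ : Type) (_ : Field F₁) (_ : Algebra (kV A) F₁) (_ : Field F₂)
      (_ : Algebra (kV A) F₂)
      (S : SSD (AlgebraicClosure ℚ) ↥(FNbar N) (kV A) F₁ F₂)
      (_ : RED.H17.FFHyp (AlgebraicClosure ℚ) ↥(FNbar N)) (_ : RED.H17.FFHyp (kV A) F₁)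
      (_ : RED.H17.FFHyp (kV A) F₂) (g g₁ g₂ : ℕ) (c c₁ c₂ : ℤ),
      RED.H17.IsGenus (AlgebraicClosure ℚ) ↥(FNbar N) g c ∧
      RED.H17.IsGenus (kV A) F₁ g₁ c₁ ∧ RED.H17.IsGenus (kV A) F₂ g₂ c₂ ∧
      g + 1 ≤ g₁ + g₂ + S.nodes.card ∧
      (∀ f : ↥(FNbar N), f ∈ gaussV A N → f ∈ S.c₁.V) ∧
      (∀ (f : ↥(gaussV A N)) (hf : (f : ↥(FNbar N)) ∈ S.c₁.V), gaussRes A N f = 1 →
        S.c₁.red ⟨(f : ↥(FNbar N)), hf⟩ = 1) ∧
      (∀ σ ∈ A.inertiaSubgroupIn ℚ, S.IsInertial (galF N σ)) ∧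
      g₁ = 0 ∧
      ∃ e : Place (kV A) F₁ × Place (kV A) F₂ → ℕ,
        (∀ s ∈ S.nodes, 0 < e s ∧
          ∃ t : ↥(FNbar N), S.IsAnnCoord s t ((p : AlgebraicClosure ℚ) ^ e s) ∧
            ∀ σ ∈ A.inertiaSubgroupIn ℚ, galF N σ • t = t) ∧
        (∀ r : ℕ, r.Prime → ∀ s ∈ S.nodes, ∀ s' ∈ S.nodes, r ∣ e s → r ∣ e s' → s = s') := by
  subst hN
  haveI : NeZero p := ⟨hp.ne_zero⟩
  haveI : NeZero (1 * p) := ⟨by rw [one_mul]; exact hp.ne_zero⟩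
  haveI : IsAlgClosed (kV A) := isAlgClosed_kV A
  have hqM : ¬ p ∣ 1 := fun h => hp.one_lt.ne' (Nat.dvd_one.mp h)
  have ht : TameAt 1 p := Or.inl h5
  have hab : (0 : ℤ) * p + 1 * ((1 : ℕ) : ℤ) = 1 := by simp
  -- function fields, Riemann's theorem
  have hFFL : IsFF Kbar ↥(FNbar (1 * p)) := H95.stmt_HKA_isFF (1 * p)
  have hFF1 : IsFF (kV A) (F1 A p 1) := isFF_F1 0 1 hab hp hA hqM ht
  have H := RED.H17.ffHyp_of_isFF _ _ hFFL
  have H₁ := RED.H17.ffHyp_of_isFF _ _ hFF1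
  obtain ⟨g, c, hg⟩ := RED.H17.exists_isGenus _ _ hFFL
  obtain ⟨g₁, c₁, hg₁⟩ := RED.H17.exists_isGenus _ _ hFF1
  have hg₁' : RED.H17.IsGenus (kV A) ↥(H91.redM A 1) g₁ c₁ :=
    isGenus_congr (H82.redField_eq_redField p 1 0 1 hab hp A hA) hg₁
  -- NUM
  obtain ⟨Z, hZne, hZc, hZo, hnum⟩ :=
    Fermat.Agent.BAD.H30.num_final_tame 1 p hp ht hqM A hA (Dvd.intro_left 1 rfl)
  have hZ' : ∀ z ∈ Z.map (kappa A p 1 0 1 hab hp hA).symm.toEmbedding,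
      (modTp 0 1 hab hp hA hqM ht hTot).IsNode z := by
    intro z hz
    obtain ⟨z₀, hz₀, rfl⟩ := Finset.mem_map.mp hz
    exact isNode_modT 0 1 hab hp hA hqM ht _ _ _ z₀ (hZc z₀ hz₀) (hZo z₀ hz₀)
  have hnum' : g + 1 ≤ g₁ + g₁ + (Z.map (kappa A p 1 0 1 hab hp hA).symm.toEmbedding).card := by
    rw [Finset.card_map]
    exact Fermat.Agent.BAD.H17.genus_ineq hp hqM ht hA hg hg₁' Z.card hnum
  have hne : ∃ z, (modTp 0 1 hab hp hA hqM ht hTot).IsNode z := by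
    obtain ⟨z, hz⟩ := hZne.map (f := (kappa A p 1 0 1 hab hp hA).symm.toEmbedding)
    exact ⟨z, hZ' z hz⟩
  have hzeros : H59.ZerosStmt (kV A) (F1 A p 1) := RED.H42.zerosAll _ _ hFF1
  have hg₁0 : g₁ = 0 :=
    rat_genus_eq_zero H₁ hzeros (transcendental_jTil A p) (adjoin_jTil A p 0 1 hab hp hA) hg₁
  have key : ∀ s : Place (kV A) (F1 A p 1) × Place (kV A) (F1 A p 1),
      s ∈ (modSp 0 1 hab hp hA hqM ht hTot H H₁ hne).nodes →
      ∃ n : ℕ, 0 < n ∧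
        (∃ t : FN (1 * p),
          (modSp 0 1 hab hp hA hqM ht hTot H H₁ hne).IsAnnCoord s t ((p : Kbar) ^ n) ∧
            ∀ σ ∈ A.inertiaSubgroupIn ℚ, galF (1 * p) σ • t = t) ∧
        ∃ β₀ : kV A, VanAt s.1 (jTil A p - algebraMap (kV A) (F1 A p 1) β₀) ∧
          (n = 1 ∨ (n = 3 ∧ β₀ = 0) ∨ (n = 2 ∧ β₀ = 1728)) :=
    fun s hs => node_coord 0 1 hab hp hA hqM ht hTot hCusp h5 H H₁ hne hF0 hMult hs
  choose! e he using key
  refine ⟨F1 A p 1, F1 A p 1, inferInstance, inferInstance, inferInstance, inferInstance,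
    modSp 0 1 hab hp hA hqM ht hTot H H₁ hne, H, H₁, H₁, g, g₁, g₁, c, c₁, c₁, hg, hg₁, hg₁,
    ?_, ?_, ?_, ?_, hg₁0, e, ?_, ?_⟩
  · have h1 := (modTp 0 1 hab hp hA hqM ht hTot).card_le_toSSD_nodes H.principal H.deg_one
      H₁.principal H₁.deg_one H₁.deg_one hne _ hZ'
    have h2 : (Z.map (kappa A p 1 0 1 hab hp hA).symm.toEmbedding).card
        ≤ (modSp 0 1 hab hp hA hqM ht hTot H H₁ hne).nodes.card := h1
    omega
  · intro f hf
    exact hf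
  · intro f hf h1
    exact h1
  · intro s hs
    exact (inert_totDataOf A p 1 0 1 hab hp hA _ _ _ _ hs
      (fun P => rhoF1_inertia 0 1 hab hp hA hqM ht hs P)).isInertial
      H.principal H.deg_one H₁.principal H₁.deg_one H₁.deg_one hne
  · intro s hs
    obtain ⟨hn0, ⟨t, ht1, ht2⟩, -⟩ := he s hs
    exact ⟨hn0, t, ht1, ht2⟩
  · intro r hr s hs s' hs' hrs hrs'
    obtain ⟨-, -, β₀, hβ₀, hcase⟩ := he s hs
    obtain ⟨-, -, β₀', hβ₀', hcase'⟩ := he s' hs'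
    have hr1 : ¬ r ∣ 1 := fun h => hr.one_lt.ne' (Nat.dvd_one.mp h)
    have h23 : ¬ (r ∣ 3 ∧ r ∣ 2) := fun h => hr1 (by
      have := Nat.dvd_sub h.1 h.2
      simpa using this)
    have hβ : β₀ = β₀' := by
      rcases hcase with h | ⟨h, hb⟩ | ⟨h, hb⟩ <;> rcases hcase' with h' | ⟨h', hb'⟩ | ⟨h', hb'⟩
      · exact absurd (h ▸ hrs) hr1
      · exact absurd (h ▸ hrs) hr1
      · exact absurd (h ▸ hrs) hr1
      · exact absurd (h' ▸ hrs') hr1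
      · rw [hb, hb']
      · exact absurd ⟨h ▸ hrs, h' ▸ hrs'⟩ h23
      · exact absurd (h' ▸ hrs') hr1
      · exact absurd ⟨h' ▸ hrs', h ▸ hrs⟩ h23
      · rw [hb, hb']
    rw [← hβ] at hβ₀'
    have h1 : s.1 = s'.1 :=
      rat_place_ext hzeros (transcendental_jTil A p) (adjoin_jTil A p 0 1 hab hp hA) hβ₀ hβ₀'
    exact (modSp 0 1 hab hp hA hqM ht hTot H H₁ hne).inj₁ s hs s' hs' h1

/-- **COORD, modular form, from its leaves.** -/
theorem stmt_CoordMod_of (hTot : Stmt_TotMod) {p : ℕ} (hCusp : Stmt_CoordCusp p)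
    (hF0 : Stmt_CoordF0 p) (hMult : Stmt_CoordMult) (hp : p.Prime) (h5 : 5 ≤ p) :
    Stmt_CoordMod p :=
  fun A hA => coordMod_level hTot hCusp hF0 hMult hp h5 A hA p (one_mul p).symm

end Fermat.Agent.S15.Desc.H67
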