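import Fermat.Agent.S15.Desc.H67_CoordLeaves
import Fermat.Agent.S15.H2_CuspEisP

/-!
# S15 DESC, leaf COORD, sub-leaf CUSP (helper69): the cusp of the special fibre is not a node

Level `N = 1 * p`, `A` over `p`, `T = H91.modT` the modular total conservation datum, `z` the
place of `F₁ = k(j~)` at which `j~` has its pole.  Then `z` is not a node of `T`:
`stmt_CoordCusp : H67.Stmt_CoordCusp p`.

Test function `f = j_p / j ^ p` (`j_p = j (q ^ p)`):
* `red₁ f = j~ (q^p) / j~ ^ p = 1`;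
* `red₂ f = red₁ (w_p f) = j~ / j~ (q^p) ^ p = j~ ^ (1 - p²)`, which vanishes at `β z`;
* `f` has no pole on the fibre of `z`: `j` has no zero there (zeros of `j` reduce to zeros of
  `j~`), and the poles of `j_p` are the two cusps, where `ord f = 0` resp. `p² - 1`.
-/

set_option autoImplicit false
set_option linter.style.haveILetI false
set_option linter.unusedSectionVars false
set_option linter.unusedVariables false
set_option synthInstance.maxHeartbeats 400000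
set_option maxHeartbeats 1000000

noncomputable section

open HahnSeries IntermediateField AlgebraicCurve ModularCurve
open Fermat.Agent.S28.H73 Fermat.Agent.RED.H73 Fermat.Agent.RED Fermat.Agent.S24
open Fermat.Agent.BAD.H88

namespace Fermat.Agent.S15.Desc.H69C

open Fermat.Agent.BAD Fermat.Agent.BAD.H91

/-! ## Abstract: zeros reduce to zeros -/

section Abs

variable {K F k F' : Type*} [Field K] [Field F] [Algebra K F] [Field k] [Field F']
  [Algebra k F'] (S : RED.H17.RedSetup K F k F')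

/-- If the degree of the Gauss unit `x` does not drop under reduction, zeros of `x` reduce to
zeros of `rd x`: if `rd x` has no zero at `r P` then `x` has no zero at `P`. -/
theorem ord_nonpos_of_ord_rd_nonpos (hP : HasPrincipalDivisors K F)
    (hP' : HasPrincipalDivisors k F') (hz : H59.ZerosStmt K F) (hz' : H59.ZerosStmt k F')
    {x : F} (hx : S.IsGU x) (hxt : Transcendental K x) (hxt' : Transcendental k (S.rd x))
    [FiniteDimensional K⟮x⟯ F] [FiniteDimensional k⟮S.rd x⟯ F']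
    (hdeg : Module.finrank K⟮x⟯ F ≤ Module.finrank k⟮S.rd x⟯ F')
    (P : Place K F) (hQ : (S.r P).ord (S.rd x) ≤ 0) : P.ord x ≤ 0 := by
  have hxt1 : Transcendental K x⁻¹ := fun h => hxt (IsAlgebraic.inv_iff.mp h)
  have e : S.rd x⁻¹ = (S.rd x)⁻¹ := hx.rd_inv
  have hxt1' : Transcendental k (S.rd x⁻¹) := by
    rw [e]
    exact fun h => hxt' (IsAlgebraic.inv_iff.mp h)
  haveI : FiniteDimensional K⟮x⁻¹⟯ F := ff_finite_of_transcendental x hxt x⁻¹ hxt1
  haveI : FiniteDimensional k⟮S.rd x⁻¹⟯ F' :=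
    ff_finite_of_transcendental (S.rd x) hxt' _ hxt1'
  have e2 : Module.finrank k⟮S.rd x⁻¹⟯ F' = Module.finrank k⟮S.rd x⟯ F' := by
    rw [e]
    exact H59.finrank_adjoin_inv _
  have hdeg1 : Module.finrank K⟮x⁻¹⟯ F ≤ Module.finrank k⟮S.rd x⁻¹⟯ F' := by
    rw [H59.finrank_adjoin_inv, e2]
    exact hdeg
  have h := Fermat.Agent.BAD.H42.ord_nonneg_of_ord_rd_nonneg S hP hP' hz hz' hx.inv hxt1 hxt1'
    hdeg1 P (by rw [e, Place.ord_inv]; omega)
  rw [Place.ord_inv] at h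
  omega

end Abs

/-! ## Level `M`: zeros of `j` reduce to zeros of `j~` -/

section Level

variable {A : ValuationSubring (AlgebraicClosure ℚ)} {M q : ℕ} [NeZero M]

/-- The statement for a reduction datum whose `V`, `red` are those of the Gauss valuation. -/
theorem ord_jF_nonpos_aux (hq : q.Prime) (hqM : ¬ q ∣ M) (hA : A.LiesOverPrime q)
    (SE : RED.H17.RedSetup (AlgebraicClosure ℚ)
      ↥(laurentBaseChange (AlgebraicClosure ℚ) (modularFunctionFieldFull M)) (kV A)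
      ↥(redField A (laurentBaseChange (AlgebraicClosure ℚ) (modularFunctionFieldFull M))
        (hasScale_laurentBaseChange A M)))
    (hmem : RED.H73.jF (L := AlgebraicClosure ℚ) M ∈ SE.V)
    (hred : SE.red ⟨RED.H73.jF (L := AlgebraicClosure ℚ) M, hmem⟩ = jRed A M)
    (hFF' : IsFF (kV A)
      ↥(redField A (laurentBaseChange (AlgebraicClosure ℚ) (modularFunctionFieldFull M))
        (hasScale_laurentBaseChange A M)))
    (P : Place (AlgebraicClosure ℚ)
      ↥(laurentBaseChange (AlgebraicClosure ℚ) (modularFunctionFieldFull M)))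
    (h : (SE.r P).ord (jRed A M) ≤ 0) :
    P.ord (RED.H73.jF (L := AlgebraicClosure ℚ) M) ≤ 0 := by
  haveI : IsAlgClosed (kV A) := isAlgClosed_kV A
  have hFF : IsFF (AlgebraicClosure ℚ)
      ↥(laurentBaseChange (AlgebraicClosure ℚ) (modularFunctionFieldFull M)) :=
    H95.stmt_HKA_isFF M
  obtain ⟨hxt', hfd, -, hdeg, -⟩ := goodChart_pre M q hq hqM A hA
  haveI := hfd
  have H := RED.H17.ffHyp_of_isFF _ _ hFF
  have H' := RED.H17.ffHyp_of_isFF _ _ hFF'
  have hrd : SE.rd (RED.H73.jF (L := AlgebraicClosure ℚ) M) = jRed A M :=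
    (SE.rd_of_mem hmem).trans hred
  have hxt : Transcendental (AlgebraicClosure ℚ) (RED.H73.jF (L := AlgebraicClosure ℚ) M) :=
    RED.H34.RedSetting.transcendental_x (S := redSetting A (hasScale_laurentBaseChange A M))
      (jF_mem A M) hxt'
  have hz := RED.H42.zerosAll _ _ hFF
  have hz' := RED.H42.zerosAll _ _ hFF'
  have key : ∀ y : ↥(redField A (laurentBaseChange (AlgebraicClosure ℚ)
      (modularFunctionFieldFull M)) (hasScale_laurentBaseChange A M)),
      SE.rd (RED.H73.jF (L := AlgebraicClosure ℚ) M) = y → Transcendental (kV A) y →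
      Module.finrank ↥((kV A)⟮y⟯)
        ↥(redField A (laurentBaseChange (AlgebraicClosure ℚ) (modularFunctionFieldFull M))
          (hasScale_laurentBaseChange A M))
        = Module.finrank ↥((AlgebraicClosure ℚ)⟮RED.H73.jF (L := AlgebraicClosure ℚ) M⟯)
          ↥(laurentBaseChange (AlgebraicClosure ℚ) (modularFunctionFieldFull M)) →
      (SE.r P).ord y ≤ 0 → P.ord (RED.H73.jF (L := AlgebraicClosure ℚ) M) ≤ 0 := by
    intro y hy hyt hyd hy0
    subst hy
    have hx : SE.IsGU (RED.H73.jF (L := AlgebraicClosure ℚ) M) :=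
      ⟨hmem, fun h0 => hyt (h0 ▸ isAlgebraic_zero)⟩
    haveI hfd' : FiniteDimensional
        ↥((kV A)⟮SE.rd (RED.H73.jF (L := AlgebraicClosure ℚ) M)⟯)
        ↥(redField A (laurentBaseChange (AlgebraicClosure ℚ) (modularFunctionFieldFull M))
          (hasScale_laurentBaseChange A M)) := by
      apply Module.finite_of_finrank_pos
      rw [hyd]
      exact Module.finrank_pos
    exact ord_nonpos_of_ord_rd_nonpos SE H.principal H'.principal hz hz' hx hxt hyt hyd.ge P hy0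
  exact key _ hrd hxt' hdeg h

/-- **Zeros of `j` reduce to zeros of `j~`**, level `M`. -/
theorem ord_jF_nonpos_of_rM (hq : q.Prime) (hqM : ¬ q ∣ M) (ht : TameAt M q)
    (hA : A.LiesOverPrime q) (P : Place (AlgebraicClosure ℚ) ↥(FNbar M))
    (h : (rM hq hqM ht hA P).ord (jRed A M) ≤ 0) :
    P.ord (RED.H73.jF (L := AlgebraicClosure ℚ) M) ≤ 0 :=
  ord_jF_nonpos_aux hq hqM hA (seM hq hqM ht hA) (jF_mem A M) rfl (isFF_redM hq hqM ht hA) P h

/-- **`j` has no zero over a point where `j~` has no zero**, level `M q`. -/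
theorem ord_jF_nonpos_of_rhoM [NeZero (M * q)] (hq : q.Prime) (hqM : ¬ q ∣ M)
    (ht : TameAt M q) (hA : A.LiesOverPrime q)
    (P : Place (AlgebraicClosure ℚ) ↥(FNbar (M * q)))
    (h : (rhoM hq hqM ht hA P).ord (jRed A M) ≤ 0) :
    P.ord (Fermat.Agent.S24.jF (M * q)) ≤ 0 := by
  have h1 := ord_jF_nonpos_of_rM hq hqM ht hA _ h
  have h2 : P.ord (incl M q (RED.H73.jF (L := AlgebraicClosure ℚ) M)) ≤ 0 := by
    rw [Place.ord_restrictAlong (incl M q) (incl_isIntegral M q) P]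
    exact mul_nonpos_of_nonneg_of_nonpos (Int.natCast_nonneg _) h1
  rwa [incl_jF] at h2

end Level

/-! ## The cusp is not a node -/

section Main

open Fermat.Agent.RED.H17

/-- `j` of level `1` is `j (q ^ 1)`. -/
theorem jF_one_eq_jdF : (RED.H73.jF (L := Kbar) 1 : FN 1) = jdF 1 1 (one_dvd 1) := by
  apply Subtype.ext
  show jqModC Kbar = coeffEmb Kbar (qExpand ℚ 1 jq)
  have h := RED.H73.coeffEmb_qExpand_jq (L := Kbar) 1
  rw [h, qExpand_one_apply]

/-- **(CUSP)**: the pole of `j~` is not a node of the modular total conservation datum of level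
`p`. -/
theorem stmt_CoordCusp (p : ℕ) : H67.Stmt_CoordCusp p := by
  intro A a b hab hp _ _ hA hqM ht htot z₀ hz₀ hnode
  haveI : IsAlgClosed (kV A) := isAlgClosed_kV A
  haveI hpF : Fact p.Prime := ⟨hp⟩
  haveI hchar : CharP (kV A) p := H82.charP_kV A hp hA
  have hp2 : (2 : ℤ) ≤ (p : ℤ) := by exact_mod_cast hp.two_le
  -- the datum
  set T := modT a b hab hp hA hqM ht
    (H73.betaF1 A p 1 hp hA 1 (H82.redField_eq_fullC p 1 a b hab hp A hA)) htot with hT
  set z := (kappa A p 1 a b hab hp hA).symm z₀ with hz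
  -- the functions
  set x₁ : FN 1 := RED.H73.jF (L := Kbar) 1 with hx₁
  have hxV : x₁ ∈ VM A 1 := jF_mem A 1
  set jα : FN (1 * p) := heckeAlphaBar Kbar 1 p x₁ with hjα
  set jβ : FN (1 * p) := heckeBetaBar Kbar 1 p x₁ with hjβ
  have hα1 : jα ∈ V1 A p 1 := (alpha_mem_V1_iff A p 1 x₁).2 hxV
  have hβ1 : jβ ∈ V1 A p 1 := (beta_mem_V1_iff A p 1 x₁).2 hxV
  have hα2 : jα ∈ V2 A p 1 a b hab hp := (alpha_mem_V2_iff A p 1 a b hab hp x₁).2 hxV
  have hβ2 : jβ ∈ V2 A p 1 a b hab hp := (beta_mem_V2_iff A p 1 a b hab hp x₁).2 hxV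
  -- the reductions, as series
  have hJ : ((H88.redM A 1 ⟨x₁, hxV⟩ : FM A 1) : LaurentSeries (kV A)) = jqModC (kV A) :=
    red_jF A 1
  have hpow : qExpand (kV A) p (jqModC (kV A)) = jqModC (kV A) ^ p := by
    rw [Fermat.Agent.RED.H10.pow_char_eq p (jqModC (kV A)), coeffMap_jqModC]
  have sα1 : ((red1 A p 1 ⟨jα, hα1⟩ : F1 A p 1) : LaurentSeries (kV A)) = jqModC (kV A) :=
    (red1_alpha A p 1 x₁ hxV hα1).trans hJ
  have sβ1 : ((red1 A p 1 ⟨jβ, hβ1⟩ : F1 A p 1) : LaurentSeries (kV A))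
      = jqModC (kV A) ^ p := by
    rw [red1_beta A p 1 x₁ hxV hβ1, hJ, hpow]
  have sα2 : ((red2 A p 1 a b hab hp ⟨jα, hα2⟩ : F1 A p 1) : LaurentSeries (kV A))
      = jqModC (kV A) ^ p := by
    rw [red2_alpha A p 1 a b hab hp x₁ hxV hα2, hJ, hpow]
  have sβ2 : ((red2 A p 1 a b hab hp ⟨jβ, hβ2⟩ : F1 A p 1) : LaurentSeries (kV A))
      = jqModC (kV A) :=
    (red2_beta A p 1 a b hab hp x₁ hxV hβ2).trans hJ
  set J : F1 A p 1 := red1 A p 1 ⟨jα, hα1⟩ with hJdef
  have hJ0 : J ≠ 0 := by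
    intro h0
    have := congrArg (fun y : F1 A p 1 => (y : LaurentSeries (kV A))) h0
    simp only [sα1, ZeroMemClass.coe_zero] at this
    exact jqModC_ne_zero_of_nontrivial (kV A) this
  have eβ1 : red1 A p 1 ⟨jβ, hβ1⟩ = J ^ p :=
    Subtype.ext (by rw [sβ1, IntermediateField.coe_pow, sα1])
  have eα2 : red2 A p 1 a b hab hp ⟨jα, hα2⟩ = J ^ p :=
    Subtype.ext (by rw [sα2, IntermediateField.coe_pow, sα1])
  have eβ2 : red2 A p 1 a b hab hp ⟨jβ, hβ2⟩ = J :=
    Subtype.ext (by rw [sβ2, sα1])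
  -- Gauss units
  have gα1 : T.p₁.IsGU jα := ⟨hα1, by rw [T.p₁.rd_of_mem hα1]; exact hJ0⟩
  have gβ1 : T.p₁.IsGU jβ := ⟨hβ1, by
    rw [T.p₁.rd_of_mem hβ1]
    show red1 A p 1 ⟨jβ, hβ1⟩ ≠ 0
    rw [eβ1]
    exact pow_ne_zero _ hJ0⟩
  have gα2 : T.p₂.IsGU jα := ⟨hα2, by
    rw [T.p₂.rd_of_mem hα2]
    show red2 A p 1 a b hab hp ⟨jα, hα2⟩ ≠ 0
    rw [eα2]
    exact pow_ne_zero _ hJ0⟩
  have gβ2 : T.p₂.IsGU jβ := ⟨hβ2, by
    rw [T.p₂.rd_of_mem hβ2]
    show red2 A p 1 a b hab hp ⟨jβ, hβ2⟩ ≠ 0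
    rw [eβ2]
    exact hJ0⟩
  have gf1 : T.p₁.IsGU (jβ / jα ^ p) := gβ1.div (gα1.pow p)
  have gf2 : T.p₂.IsGU (jβ / jα ^ p) := gβ2.div (gα2.pow p)
  have rf1 : T.p₁.rd (jβ / jα ^ p) = 1 := by
    rw [gβ1.rd_div (gα1.pow p), T.p₁.rd_pow hα1, T.p₁.rd_of_mem hα1, T.p₁.rd_of_mem hβ1]
    show red1 A p 1 ⟨jβ, hβ1⟩ / (red1 A p 1 ⟨jα, hα1⟩) ^ p = 1
    rw [eβ1]
    exact div_self (pow_ne_zero _ hJ0)
  have rf2 : T.p₂.rd (jβ / jα ^ p) = J / (J ^ p) ^ p := by
    rw [gβ2.rd_div (gα2.pow p), T.p₂.rd_pow hα2, T.p₂.rd_of_mem hα2, T.p₂.rd_of_mem hβ2]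
    show red2 A p 1 a b hab hp ⟨jβ, hβ2⟩ / (red2 A p 1 a b hab hp ⟨jα, hα2⟩) ^ p = _
    rw [eβ2, eα2]
  -- orders of `J`
  have oz : z.ord J = z₀.ord (jRed A 1) :=
    kappa_symm_ord A p 1 a b hab hp hA z₀ J (jRed A 1) (by rw [sα1]; exact (red_jF A 1).symm)
  have hphi : H73.phiF1 A p 1 hp hA 1 (H82.redField_eq_fullC p 1 a b hab hp A hA) J = J :=
    H73.phiF1_of_int A p 1 hp hA 1 _ J (jqModC ℤ) (by
      rw [sα1]
      exact (coeffMap_jqModC (Int.castRingHom (kV A))).symm)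
  have oβ : (T.β z).ord J = z.ord J :=
    H73.betaF1_ord_of_fixed A p 1 hp hA 1 _ z J hphi
  -- `f ∈ R_z`
  have hjα : jα = Fermat.Agent.S24.jF (1 * p) := by
    rw [hjα, ← incl_eq_alpha]
    exact incl_jF
  have hjβ' : jβ = jdF (1 * p) (1 * p) dvd_rfl := by
    rw [hjβ, hx₁, jF_one_eq_jdF]
    exact beta_jdF p 1 1 (one_dvd 1)
  have hpN : (1 * p).Prime := by rwa [one_mul]
  have hα0 : jα ≠ 0 := gα1.ne_zero
  have hβ0 : jβ ≠ 0 := gβ1.ne_zero
  have hreg : ∀ P, T.ρ P = z → RegAt P (jβ / jα ^ p) := by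
    intro P hP
    apply regAt_of_ord_nonneg
    rw [ord_div P hβ0 (pow_ne_zero _ hα0), ord_pow]
    have hρ : rhoM hp hqM ht hA P = z₀ := by
      rw [← kappa_rhoF1 a b hab hp hA hqM ht P]
      have hP' : rhoF1 a b hab hp hA hqM ht P = (kappa A p 1 a b hab hp hA).symm z₀ := hP
      rw [hP']
      exact Equiv.apply_symm_apply _ _
    have h1 : P.ord jα ≤ 0 := by
      rw [hjα]
      apply ord_jF_nonpos_of_rhoM hp hqM ht hA P
      rw [hρ]
      exact hz₀.le
    by_cases hpole : P.ord jβ < 0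
    · rw [hjβ'] at hpole
      obtain ⟨c1, c2, c3, c4⟩ := Fermat.Agent.S15.H2.ord_cusp (1 * p) hpN
      rcases Fermat.Agent.S15.H2.eq_cusp_of_pole_jp (1 * p) hpN P hpole with e | e
      · rw [hjα, hjβ', e, c1, c2]
        push_cast
        omega
      · rw [hjα, hjβ', e, c3, c4]
        push_cast
        nlinarith
    · rw [not_lt] at hpole
      nlinarith
  have hInR : T.InR z (jβ / jα ^ p) := ⟨gf1.mem, gf2.mem, hreg⟩
  have h0 := hnode (jβ / jα ^ p) hInR 0
  rw [map_zero, sub_zero, sub_zero, rf1, rf2] at h0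
  have hv2 : VanAt (T.β z) (J / (J ^ p) ^ p) := by
    apply vanAt_of_ord_pos
    rw [ord_div _ hJ0 (pow_ne_zero _ (pow_ne_zero _ hJ0)), ord_pow, ord_pow, oβ, oz]
    have h3 : (1 : ℤ) < (p : ℤ) * (p : ℤ) := by nlinarith
    have h4 := mul_pos (neg_pos.2 hz₀) (sub_pos.2 h3)
    nlinarith
  have hv1 := h0.2 hv2
  rw [vanAt_iff_ord] at hv1
  rcases hv1 with h | h
  · exact one_ne_zero h
  · rw [Place.ord_one] at h
    exact lt_irrefl _ h

end Main

end Fermat.Agent.S15.Desc.H69C
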