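import Fermat.Agent.S15.Desc.H67_CoordLeaves

/-!
# S15 DESC, leaf COORD / MULT (helper87)

The multiplicities of the roots of the supersingular polynomial
`H = X^{4a} (X - 1728)^{6b} g^{12}` are `12`, `4` (only at `0`), `6` (only at `1728`).
-/

set_option autoImplicit false

noncomputable section

namespace Fermat.Agent.S15.Desc.H87

open Polynomial

/-- The root multiplicity of a squarefree polynomial is at most `1`. -/
theorem rootMultiplicity_le_one_of_squarefree {F : Type*} [Field F] {g : F[X]}
    (hg : Squarefree g) (β : F) : g.rootMultiplicity β ≤ 1 := by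
  by_contra h
  have h2 : 2 ≤ g.rootMultiplicity β := by omega
  have hdvd : (X - C β) ^ 2 ∣ g :=
    dvd_trans (pow_dvd_pow _ h2) (pow_rootMultiplicity_dvd g β)
  rw [pow_two] at hdvd
  have hu := hg _ hdvd
  exact (Polynomial.not_isUnit_X_sub_C β) hu

/-- The root multiplicity of a power. -/
theorem rootMultiplicity_pow_eq {F : Type*} [Field F] {g : F[X]} (hg : g ≠ 0) (β : F)
    (n : ℕ) : (g ^ n).rootMultiplicity β = n * g.rootMultiplicity β := by
  induction n with
  | zero =>
    rw [pow_zero, zero_mul, rootMultiplicity_eq_zero_iff]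
    intro h
    exfalso
    rw [IsRoot.def, eval_one] at h
    exact one_ne_zero h
  | succ n ih =>
    rw [pow_succ, rootMultiplicity_mul (mul_ne_zero (pow_ne_zero _ hg) hg), ih]
    ring

/-- **(MULT)**: the multiplicities of the roots of the supersingular polynomial. -/
theorem stmt_CoordMult : H67.Stmt_CoordMult := by
  intro F _ m a b d β
  classical
  have hg0 : d.g ≠ 0 := d.g_ne_zero
  have ha := d.a_le_one
  have hb := d.b_le_one
  have h1728 := d.h1728
  have hX : (X : F[X]) ^ (4 * a) ≠ 0 := pow_ne_zero _ X_ne_zero
  have hX1 : (X - C (1728 : F)) ^ (6 * b) ≠ 0 := pow_ne_zero _ (X_sub_C_ne_zero _)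
  have hg12 : d.g ^ 12 ≠ 0 := pow_ne_zero _ hg0
  have hH : d.H.rootMultiplicity β =
      4 * a * (X : F[X]).rootMultiplicity β + 6 * b * (X - C (1728 : F)).rootMultiplicity β
        + 12 * d.g.rootMultiplicity β := by
    rw [Fermat.Agent.BAD.H21.H21_SSData.H,
      rootMultiplicity_mul (mul_ne_zero (mul_ne_zero hX hX1) hg12),
      rootMultiplicity_mul (mul_ne_zero hX hX1)]
    rw [rootMultiplicity_pow_eq X_ne_zero, rootMultiplicity_pow_eq (X_sub_C_ne_zero _),
      rootMultiplicity_pow_eq hg0]
  have hgle := rootMultiplicity_le_one_of_squarefree d.squarefree_g β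
  have hXm : (X : F[X]).rootMultiplicity β = if β = 0 then 1 else 0 := by
    have h := rootMultiplicity_X_sub_C (x := β) (y := (0 : F))
    rw [map_zero, sub_zero] at h
    exact h
  have hX1m : (X - C (1728 : F)).rootMultiplicity β = if β = 1728 then 1 else 0 :=
    rootMultiplicity_X_sub_C
  by_cases hβ0 : β = 0
  · -- `β = 0`
    have hg : d.g.rootMultiplicity β = 0 := by
      rw [rootMultiplicity_eq_zero_iff]
      intro h
      rw [hβ0] at h
      exact absurd h d.not_isRoot_zero
    have hne : β ≠ 1728 := by
      rw [hβ0]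
      exact fun h => h1728 h.symm
    rw [hXm, hX1m, if_pos hβ0, if_neg hne, hg] at hH
    rcases Nat.eq_zero_or_pos a with h | h
    · left; rw [hH, h]; simp
    · right; right; left
      refine ⟨hβ0, ?_⟩
      have : a = 1 := by omega
      rw [hH, this]; simp
  · by_cases hβ1 : β = 1728
    · have hg : d.g.rootMultiplicity β = 0 := by
        rw [rootMultiplicity_eq_zero_iff]
        intro h
        rw [hβ1] at h
        exact absurd h d.not_isRoot_1728
      rw [hXm, hX1m, if_neg hβ0, if_pos hβ1, hg] at hH
      rcases Nat.eq_zero_or_pos b with h | h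
      · left; rw [hH, h]; simp
      · right; right; right
        refine ⟨hβ1, ?_⟩
        have : b = 1 := by omega
        rw [hH, this]; simp
    · rw [hXm, hX1m, if_neg hβ0, if_neg hβ1] at hH
      rcases Nat.eq_zero_or_pos (d.g.rootMultiplicity β) with h | h
      · left; rw [hH, h]; simp
      · right; left
        have : d.g.rootMultiplicity β = 1 := by omega
        rw [hH, this]; simp

end Fermat.Agent.S15.Desc.H87
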