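import Fermat.Agent.S15.Desc.H67_CoordModE
import Fermat.Agent.S15.Desc.H69_CoordCusp
import Fermat.Agent.S15.Desc.H87_CoordMult
import Fermat.Agent.BAD.H23_TotMod

/-!
# S15 DESC, leaf COORD (helper67): `Stmt_CoordMod p` for every prime `p ≥ 5`, from F0

Leaves discharged: TOT-MOD (helper23), CUSP (helper69), MULT (helper87), UNIT-W (helper21).
Remaining input: F0 (helper63, from DISC of helper87).
-/

set_option autoImplicit false

namespace Fermat.Agent.S15.Desc.H67

/-- The law of total conservation for the modular datum of level `M q` (helper23). -/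
theorem stmt_TotMod_h67 : Fermat.Agent.BAD.H91.Stmt_TotMod :=
  fun A q M a b hab hq _ _ hA hqM ht =>
    Fermat.Agent.BAD.H23.tot_mod A q M a b hab hq hA hqM ht
      (Fermat.Agent.BAD.H82.redField_eq_fullC q M a b hab hq A hA)

/-- **COORD, modular form**, from (F0). -/
theorem stmt_CoordMod_of_F0 {p : ℕ} (hF0 : Stmt_CoordF0 p) (hp : p.Prime) (h5 : 5 ≤ p) :
    Stmt_CoordMod p :=
  stmt_CoordMod_of stmt_TotMod_h67 (Fermat.Agent.S15.Desc.H69C.stmt_CoordCusp p) hF0
    Fermat.Agent.S15.Desc.H87.stmt_CoordMult hp h5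

end Fermat.Agent.S15.Desc.H67
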