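import Fermat.Agent.S15.Desc.H67_CoordModF0
import Fermat.Agent.S15.Desc.H63_CoordF0Final

/-!
# S15 DESC, leaf COORD (helper67): `Stmt_CoordMod p` for every prime `p ≥ 5`

All leaves discharged: TOT-MOD (helper23), CUSP (helper69), F0 (helper63) from DISC (helper87),
MULT (helper87), UNIT-W (helper21).
-/

set_option autoImplicit false

namespace Fermat.Agent.S15.Desc.H67

/-- **COORD, modular form**: the semistable Deuring datum of `X₀(p)` at `p ≥ 5` with
inertia-fixed annulus coordinates of thickness `p ^ e s`, `e s ∈ {1, 2, 3}`, at all nodes. -/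
theorem stmt_CoordMod {p : ℕ} (hp : p.Prime) (h5 : 5 ≤ p) : Stmt_CoordMod p :=
  stmt_CoordMod_of_F0 (Fermat.Agent.S15.Desc.H63F.stmt_CoordF0 p) hp h5

end Fermat.Agent.S15.Desc.H67
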