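import Fermat.Agent.S15.Desc.H69_LinAlg

/-!
# S15 / DESC: two counting lemmas for ASM (helper69)

* `finrank_sup_span_of_indep_mod` : if the family `u` is linearly independent modulo the
  finite-dimensional subspace `B`, then `dim (B + span u) = dim B + #u`.
* `exists_lifts_mod_r` : a finite abelian group `H` has elements `h_1, …, h_m`, where
  `r^m = #H[r]`, which are independent modulo `r H`.
-/

set_option autoImplicit false

namespace Fermat.Agent.S15.Desc

open Module

theorem finrank_sup_span_of_indep_mod {K E ι : Type*} [Field K] [AddCommGroup E] [Module K E]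
    [Fintype ι] (B : Submodule K E) [Module.Finite K B] (u : ι → E)
    (hu : ∀ c : ι → K, ∑ i, c i • u i ∈ B → ∀ i, c i = 0) :
    ∃ _ : Module.Finite K ↥(B ⊔ Submodule.span K (Set.range u)),
      finrank K ↥(B ⊔ Submodule.span K (Set.range u)) = finrank K B + Fintype.card ι := by
  haveI : Module.Finite K ↥(Submodule.span K (Set.range u)) :=
    FiniteDimensional.span_of_finite K (Set.finite_range u)
  haveI hfin : Module.Finite K ↥(B ⊔ Submodule.span K (Set.range u)) := inferInstance
  refine ⟨hfin, ?_⟩
  set T := B ⊔ Submodule.span K (Set.range u) with hT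
  have hrn := finrank_eq_map_add_inf_ker T B.mkQ
  have hmap : T.map B.mkQ = Submodule.span K (Set.range (fun i => B.mkQ (u i))) := by
    rw [hT, Submodule.map_sup, Submodule.map_span, ← Set.range_comp]
    have : B.map B.mkQ = ⊥ := by
      rw [eq_bot_iff]
      rintro _ ⟨b, hb, rfl⟩
      rw [Submodule.mem_bot, Submodule.mkQ_apply, Submodule.Quotient.mk_eq_zero]
      exact hb
    rw [this, bot_sup_eq]
    rfl
  have hli : LinearIndependent K (fun i => B.mkQ (u i)) := by
    rw [Fintype.linearIndependent_iff]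
    intro c hc
    refine hu c ?_
    have h1 : B.mkQ (∑ i, c i • u i) = 0 := by
      rw [map_sum]
      simpa only [map_smul] using hc
    rwa [Submodule.mkQ_apply, Submodule.Quotient.mk_eq_zero] at h1
  have hker : T ⊓ LinearMap.ker B.mkQ = B := by
    rw [Submodule.ker_mkQ]
    exact inf_eq_right.mpr le_sup_left
  rw [hmap, finrank_span_eq_card hli, hker] at hrn
  omega

/-- Auxiliary form of `exists_lifts_mod_r`, with the quotient `H / rH` given as a vector space. -/
theorem exists_lifts_mod_r_aux {H Q : Type*} [AddCommGroup H] [Finite H] (r : ℕ)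
    [hr : Fact r.Prime] [AddCommGroup Q] [Module (ZMod r) Q] [Finite Q] (q : H →+ Q)
    (hq : Function.Surjective q)
    (hcard : Nat.card Q = Nat.card {h : H // r • h = 0}) :
    ∃ (m : ℕ) (hs : Fin m → H), r ^ m = Nat.card {h : H // r • h = 0} ∧
      ∀ a : Fin m → ℕ, (∃ h' : H, ∑ i, a i • hs i = r • h') → ∀ i, r ∣ a i := by
  classical
  have : NeZero r := ⟨hr.out.ne_zero⟩
  have hfinQ : Module.Finite (ZMod r) Q := Module.Finite.of_finite
  have h7 : Nat.card Q = r ^ finrank (ZMod r) Q := by
    rw [Module.natCard_eq_pow_finrank (K := ZMod r), Nat.card_zmod]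
  let b := Module.finBasis (ZMod r) Q
  choose lift hlift using hq
  refine ⟨finrank (ZMod r) Q, fun i => lift (b i), ?_, ?_⟩
  · rw [← h7, hcard]
  · rintro a ⟨h', hh'⟩ i
    have h8 : q (∑ i, a i • lift (b i)) = 0 := by
      rw [hh', map_nsmul]
      have : (r : ZMod r) • q h' = 0 := by rw [ZMod.natCast_self, zero_smul]
      rwa [Nat.cast_smul_eq_nsmul] at this
    rw [map_sum] at h8
    have h9 : ∑ i, ((a i : ℕ) : ZMod r) • b i = 0 := by
      rw [← h8]
      refine Finset.sum_congr rfl fun i _ => ?_
      rw [map_nsmul, hlift, Nat.cast_smul_eq_nsmul]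
    have h10 := (Fintype.linearIndependent_iff.mp b.linearIndependent)
      (fun i => ((a i : ℕ) : ZMod r)) h9 i
    exact (ZMod.natCast_eq_zero_iff (a i) r).mp h10

/-- A finite abelian group has `m` elements independent modulo `r`, where `r^m = #H[r]`. -/
theorem exists_lifts_mod_r {H : Type*} [AddCommGroup H] [Finite H] (r : ℕ) [hr : Fact r.Prime] :
    ∃ (m : ℕ) (hs : Fin m → H), r ^ m = Nat.card {h : H // r • h = 0} ∧
      ∀ a : Fin m → ℕ, (∃ h' : H, ∑ i, a i • hs i = r • h') → ∀ i, r ∣ a i := by
  classical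
  have h1 : Nat.card H = Nat.card (H ⧸ (nsmulAddMonoidHom (α := H) r).range) *
      Nat.card (nsmulAddMonoidHom (α := H) r).range :=
    AddSubgroup.card_eq_card_quotient_mul_card_addSubgroup _
  have h2 : Nat.card H = Nat.card (H ⧸ (nsmulAddMonoidHom (α := H) r).ker) *
      Nat.card (nsmulAddMonoidHom (α := H) r).ker :=
    AddSubgroup.card_eq_card_quotient_mul_card_addSubgroup _
  have h3 : Nat.card (H ⧸ (nsmulAddMonoidHom (α := H) r).ker) =
      Nat.card (nsmulAddMonoidHom (α := H) r).range :=
    Nat.card_congr (QuotientAddGroup.quotientKerEquivRange _).toEquiv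
  have h4 : 0 < Nat.card (nsmulAddMonoidHom (α := H) r).range := Nat.card_pos
  have h5 : Nat.card (H ⧸ (nsmulAddMonoidHom (α := H) r).range) =
      Nat.card (nsmulAddMonoidHom (α := H) r).ker := by
    have : Nat.card (H ⧸ (nsmulAddMonoidHom (α := H) r).range) *
        Nat.card (nsmulAddMonoidHom (α := H) r).range =
        Nat.card (nsmulAddMonoidHom (α := H) r).ker *
        Nat.card (nsmulAddMonoidHom (α := H) r).range := by
      rw [← h1, h2, h3, mul_comm]
    exact Nat.eq_of_mul_eq_mul_right h4 this
  have h6 : Nat.card (nsmulAddMonoidHom (α := H) r).ker = Nat.card {h : H // r • h = 0} := rfl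
  letI : Module (ZMod r) (H ⧸ (nsmulAddMonoidHom (α := H) r).range) :=
    QuotientAddGroup.zmodModule (fun x => ⟨x, rfl⟩)
  exact exists_lifts_mod_r_aux r (QuotientAddGroup.mk' (nsmulAddMonoidHom (α := H) r).range)
    (QuotientAddGroup.mk'_surjective _) (h5.trans h6)

end Fermat.Agent.S15.Desc
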