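import Fermat.Agent.S15.Desc.H69_Tors
import Fermat.Agent.S15.Desc.H69_Count

/-!
# S15 / DESC: the assembly ASM (pure algebra; helper69)

`J` an abelian group with commuting actions of a group `G` and a commutative ring `R`, `M = J^G`,
`r` a prime, `e ∈ R` idempotent on `J[r^(k+1)]`, `W = {v ∈ J[r] | e v = v}`.

If the good cocycles with values in `W` have dimension `≤ dim W` (the Selmer bound) and the Kummer
cocycles `σ ↦ e (σ y - y)` (`r y ∈ M`) are good (LOC), then for every `z ∈ M`

  `e z = h + r w`   with `h, w ∈ M`, `r^k h = 0`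

(`selB_abstract`).  This is the input `Stmt_selB` of the core of S15 (`S15/H40_CoreSel.lean`).
-/

set_option autoImplicit false

namespace Fermat.Agent.S15.Desc

open Module

section Asm

variable {G J R : Type*} [Group G] [AddCommGroup J] [DistribMulAction G J] [CommRing R]
  [Module R J]

/-- `H = {h ∈ M | r^k h = 0, e h = h}`. -/
def torsH (G J : Type*) {R : Type*} [Group G] [AddCommGroup J] [DistribMulAction G J]
    [CommRing R] [Module R J] (r : ℕ) (e : R) (k : ℕ) : AddSubgroup J where
  carrier := {h | (∀ σ : G, σ • h = h) ∧ r ^ k • h = 0 ∧ e • h = h}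
  zero_mem' := ⟨fun σ => smul_zero σ, smul_zero _, smul_zero e⟩
  add_mem' := fun {a b} ha hb => ⟨fun σ => by rw [smul_add, ha.1 σ, hb.1 σ],
    by rw [smul_add, ha.2.1, hb.2.1, add_zero], by rw [smul_add, ha.2.2, hb.2.2]⟩
  neg_mem' := fun {a} ha => ⟨fun σ => by rw [smul_neg, ha.1 σ],
    by rw [smul_neg, ha.2.1, neg_zero], by rw [smul_neg, ha.2.2]⟩

/-- `S = H + {r y | e y ∈ M}`. -/
def goodSub (G J : Type*) {R : Type*} [Group G] [AddCommGroup J] [DistribMulAction G J]
    [CommRing R] [Module R J] (r : ℕ) (e : R) (k : ℕ) : AddSubgroup J where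
  carrier := {z | ∃ h ∈ torsH G J r e k, ∃ y : J, (∀ σ : G, σ • (e • y) = e • y) ∧ z = h + r • y}
  zero_mem' := ⟨0, (torsH G J r e k).zero_mem, 0, fun σ => by rw [smul_zero, smul_zero],
    by rw [smul_zero, add_zero]⟩
  add_mem' := by
    rintro _ _ ⟨h, hh, y, hy, rfl⟩ ⟨h', hh', y', hy', rfl⟩
    refine ⟨h + h', (torsH G J r e k).add_mem hh hh', y + y', fun σ => ?_, ?_⟩
    · rw [smul_add, smul_add, hy σ, hy' σ]
    · rw [smul_add]; abel
  neg_mem' := by
    rintro _ ⟨h, hh, y, hy, rfl⟩
    refine ⟨-h, (torsH G J r e k).neg_mem hh, -y, fun σ => ?_, ?_⟩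
    · rw [smul_neg, smul_neg, hy σ]
    · rw [smul_neg]; abel

variable (r : ℕ) [hr : Fact r.Prime] (e : R) (k : ℕ)

omit hr in
theorem torsH_le_goodSub : torsH G J r e k ≤ goodSub G J r e k := fun h hh =>
  ⟨h, hh, 0, fun σ => by rw [smul_zero, smul_zero], by rw [smul_zero, add_zero]⟩

variable (hGH : ∀ (σ : G) (t : R) (z : J), σ • (t • z) = t • (σ • z))

omit hr in
include hGH in
theorem nsmul_ratG_mem_goodSub {m : J} (hm : ∀ σ : G, σ • m = m) : r • m ∈ goodSub G J r e k :=
  ⟨0, (torsH G J r e k).zero_mem, m, fun σ => by rw [hGH, hm σ], by rw [zero_add]⟩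

/-- The fixed points of `G` in `W`, as the `r`-torsion of `H`. -/
noncomputable def torsHEquiv [NeZero r]
    (hexp : ∀ h : J, (∀ σ : G, σ • h = h) → (∃ j : ℕ, r ^ j • h = 0) → r ^ k • h = 0) :
    {h : ↥(torsH G J r e k) // r • h = 0} ≃
      ↥(eisW (J := J) r e ⊓ LinearMap.ker (cobMap G J r)) where
  toFun h := ⟨⟨(h.1 : J), mem_torsR.mpr (by
      have h1 : ((r • h.1 : ↥(torsH G J r e k)) : J) = ((0 : ↥(torsH G J r e k)) : J) :=
        congrArg (Subtype.val) h.2
      rw [AddSubgroup.coe_nsmul, AddSubgroup.coe_zero] at h1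
      exact h1)⟩,
    ⟨h.1.2.2.2, by
      rw [SetLike.mem_coe, LinearMap.mem_ker]
      funext σ
      apply Subtype.ext
      show σ • (h.1 : J) - (h.1 : J) = 0
      rw [h.1.2.1 σ, sub_self]⟩⟩
  invFun w := ⟨⟨((w.1 : TorsR J r) : J), by
      have hfix : ∀ σ : G, σ • ((w.1 : TorsR J r) : J) = ((w.1 : TorsR J r) : J) := by
        intro σ
        have h1 : cobMap G J r w.1 = 0 := LinearMap.mem_ker.mp w.2.2
        have h2 := congrFun h1 σ
        have h3 := congrArg Subtype.val h2
        rw [cobMap_apply] at h3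
        have h4 : σ • ((w.1 : TorsR J r) : J) - ((w.1 : TorsR J r) : J) = 0 := h3
        exact sub_eq_zero.mp h4
      exact ⟨hfix, hexp _ hfix ⟨1, by rw [pow_one]; exact mem_torsR.mp w.1.2⟩, w.2.1⟩⟩,
    Subtype.ext (by
      show r • ((w.1 : TorsR J r) : J) = 0
      exact mem_torsR.mp w.1.2)⟩
  left_inv h := rfl
  right_inv w := rfl

include hGH in
/-- **ASM.** -/
theorem selB_abstract
    (hdiv : ∀ x : J, (∀ σ : G, σ • x = x) → ∃ y : J, r • y = x)
    (hfin : Finite (TorsR J r)) (hfinH : Finite ↥(torsH G J r e k))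
    (hexp : ∀ h : J, (∀ σ : G, σ • h = h) → (∃ j : ℕ, r ^ j • h = 0) → r ^ k • h = 0)
    (hidem : ∀ y : J, r ^ (k + 1) • y = 0 → e • (e • y) = e • y)
    {ι : Type*} (I : ι → Subgroup G) (𝔅 : Set (Subgroup G))
    (Vloc : ι → Submodule (ZMod r) (TorsR J r))
    (hsel : haveI : NeZero r := ⟨hr.out.ne_zero⟩
      DimLE (ZMod r) (Zgood I 𝔅 Vloc (eisW r e)) (finrank (ZMod r) (eisW (J := J) r e)))
    (hloc : haveI : NeZero r := ⟨hr.out.ne_zero⟩
      ∀ y ∈ kumDom G J r, kumCoc r e y ∈ Zgood I 𝔅 Vloc (eisW r e)) :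
    ∀ z : J, (∀ σ : G, σ • z = z) →
      ∃ h : J, (∀ σ : G, σ • h = h) ∧ r ^ k • h = 0 ∧
        ∃ w : J, (∀ σ : G, σ • w = w) ∧ e • z = h + r • w := by
  classical
  haveI : NeZero r := ⟨hr.out.ne_zero⟩
  -- it suffices to show `M ⊆ S`
  suffices hS : ∀ z : J, (∀ σ : G, σ • z = z) → z ∈ goodSub G J r e k by
    intro z hz
    obtain ⟨h, hh, y, hy, rfl⟩ := hS z hz
    refine ⟨h, hh.1, hh.2.1, e • y, hy, ?_⟩
    rw [smul_add, hh.2.2, smul_comm]
  intro z hz
  by_contra hzS
  -- the lifts of a basis of `H / r H`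
  obtain ⟨m, hs, hcard, hindep⟩ := exists_lifts_mod_r (H := ↥(torsH G J r e k)) r
  choose ys hys using fun i : Fin m => hdiv ((hs i : ↥(torsH G J r e k)) : J) (hs i).2.1
  obtain ⟨yz, hyz⟩ := hdiv z hz
  let yfam : Option (Fin m) → J := fun i => Option.elim i yz ys
  let xfam : Option (Fin m) → J := fun i => Option.elim i z (fun j => ((hs j : ↥(torsH G J r e k)) : J))
  have hxy : ∀ i, r • yfam i = xfam i := by
    intro i
    cases i with
    | none => exact hyz
    | some j => exact hys j
  have hxfix : ∀ i, ∀ σ : G, σ • xfam i = xfam i := by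
    intro i
    cases i with
    | none => exact hz
    | some j => exact (hs j).2.1
  have hydom : ∀ i, yfam i ∈ kumDom G J r := fun i σ => by rw [hxy i, hxfix i σ]
  set W : Submodule (ZMod r) (TorsR J r) := eisW r e with hW
  set B : Submodule (ZMod r) (G → TorsR J r) := W.map (cobMap G J r) with hB
  let u : Option (Fin m) → (G → TorsR J r) := fun i => kumCoc r e (yfam i)
  -- linear combinations of Kummer cocycles
  have hcomb : ∀ c : Option (Fin m) → ZMod r,
      ∑ i, c i • u i = kumCoc r e (∑ i, (c i).val • yfam i) ∧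
        (∑ i, (c i).val • yfam i) ∈ kumDom G J r := by
    intro c
    have key : ∀ s : Finset (Option (Fin m)),
        ∑ i ∈ s, c i • u i = kumCoc r e (∑ i ∈ s, (c i).val • yfam i) ∧
          (∑ i ∈ s, (c i).val • yfam i) ∈ kumDom G J r := by
      intro s
      induction s using Finset.induction_on with
      | empty =>
        rw [Finset.sum_empty, Finset.sum_empty]
        exact ⟨(kumCoc_zero e).symm, (kumDom G J r).zero_mem⟩
      | insert a s ha ih =>
        rw [Finset.sum_insert ha, Finset.sum_insert ha]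
        have h1 : (c a).val • yfam a ∈ kumDom G J r := (kumDom G J r).nsmul_mem (hydom a) _
        refine ⟨?_, (kumDom G J r).add_mem h1 ih.2⟩
        rw [kumCoc_add e h1 ih.2, kumCoc_nsmul e _ (hydom a), ih.1, zmod_smul_eq_nsmul]
    exact key Finset.univ
  -- elements of `B` are Kummer cocycles of torsion points
  have hBk : ∀ b ∈ B, ∃ w : TorsR J r, w ∈ W ∧ b = kumCoc r e (w : J) := by
    rintro _ ⟨w, hw, rfl⟩
    exact ⟨w, hw, (kumCoc_coe_of_mem_eisW hGH hw).symm⟩
  -- independence modulo `B`
  have hu : ∀ c : Option (Fin m) → ZMod r, ∑ i, c i • u i ∈ B → ∀ i, c i = 0 := by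
    intro c hc
    obtain ⟨hsum, hdom⟩ := hcomb c
    obtain ⟨w, hwW, hw⟩ := hBk _ hc
    set ystar : J := ∑ i, (c i).val • yfam i with hystar
    set y' : J := ystar - (w : J) with hy'
    -- `e y'` is rational
    have hey' : ∀ σ : G, σ • (e • y') = e • y' := by
      intro σ
      have h1 : kumCoc r e ystar σ = kumCoc r e (w : J) σ := by rw [← hsum, hw]
      have h2 := congrArg Subtype.val h1
      rw [coe_kumCoc e hdom, coe_kumCoc e (torsR_le_kumDom r w.2)] at h2
      have h3 : e • (σ • y' - y') = 0 := by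
        have h4 : σ • y' - y' = (σ • ystar - ystar) - (σ • (w : J) - (w : J)) := by
          rw [hy', smul_sub]
          abel
        rw [h4, smul_sub, h2, sub_self]
      rw [hGH, ← sub_eq_zero, ← smul_sub]
      exact h3
    have hry' : r • y' = ∑ i, (c i).val • xfam i := by
      rw [hy', smul_sub, mem_torsR.mp w.2, sub_zero, hystar, Finset.smul_sum]
      refine Finset.sum_congr rfl fun i _ => ?_
      rw [smul_comm, hxy i]
    have hxS : (∑ i, (c i).val • xfam i) ∈ goodSub G J r e k :=
      ⟨0, (torsH G J r e k).zero_mem, y', hey', by rw [zero_add, hry']⟩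
    rw [Fintype.sum_option] at hxS
    have hHsum : (∑ j : Fin m, (c (some j)).val • xfam (some j)) ∈ torsH G J r e k := by
      refine (torsH G J r e k).sum_mem fun j _ => (torsH G J r e k).nsmul_mem ?_ _
      exact (hs j).2
    -- the coefficient of `z`
    have hc0 : c none = 0 := by
      by_contra hne
      apply hzS
      -- invert `c none`
      set b : ℕ := ((c none)⁻¹).val with hb
      have hb1 : ((b * (c none).val : ℕ) : ZMod r) = 1 := by
        rw [Nat.cast_mul, hb, ZMod.natCast_zmod_val, ZMod.natCast_zmod_val, inv_mul_cancel₀ hne]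
      have hb2 : ∃ t : ℕ, b * (c none).val = 1 + r * t := by
        have h1 : (b * (c none).val) % r = 1 % r := by
          have := (ZMod.natCast_eq_natCast_iff' (b * (c none).val) 1 r).mp (by
            rw [hb1, Nat.cast_one])
          exact this
        have h2 : 1 % r = 1 := Nat.mod_eq_of_lt hr.out.one_lt
        rw [h2] at h1
        refine ⟨(b * (c none).val) / r, ?_⟩
        have := Nat.mod_add_div (b * (c none).val) r
        omega
      obtain ⟨t, ht⟩ := hb2
      have h3 : b • ((c none).val • xfam none +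
          ∑ j : Fin m, (c (some j)).val • xfam (some j)) ∈ goodSub G J r e k :=
        (goodSub G J r e k).nsmul_mem hxS b
      have h4 : z = b • ((c none).val • xfam none +
          ∑ j : Fin m, (c (some j)).val • xfam (some j)) - r • (t • z) -
          b • ∑ j : Fin m, (c (some j)).val • xfam (some j) := by
        have h5 : b • (c none).val • xfam none = z + r • (t • z) := by
          rw [smul_smul, ht, add_smul, one_smul, mul_smul]
          rfl
        rw [smul_add, h5]
        abel
      rw [h4]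
      refine (goodSub G J r e k).sub_mem ((goodSub G J r e k).sub_mem h3 ?_) ?_
      · exact nsmul_ratG_mem_goodSub (J := J) r e k hGH (fun σ => by rw [← smul_comm, hz σ])
      · exact torsH_le_goodSub r e k ((torsH G J r e k).nsmul_mem hHsum b)
    -- the other coefficients
    have hrest : ∀ j : Fin m, c (some j) = 0 := by
      have h1 : r • y' = ∑ j : Fin m, (c (some j)).val • xfam (some j) := by
        rw [hry', Fintype.sum_option, hc0, ZMod.val_zero, zero_smul, zero_add]
      -- `e y'` lies in `H`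
      have hk1 : r ^ (k + 1) • y' = 0 := by
        rw [pow_succ, mul_smul, h1]
        exact hHsum.2.1
      have hey'H : e • y' ∈ torsH G J r e k := by
        refine ⟨hey', hexp _ hey' ⟨k + 1, ?_⟩, hidem y' hk1⟩
        rw [smul_comm, hk1, smul_zero]
      have h2 : (∑ j : Fin m, (c (some j)).val • hs j : ↥(torsH G J r e k)) =
          r • (⟨e • y', hey'H⟩ : ↥(torsH G J r e k)) := by
        apply Subtype.ext
        rw [AddSubgroup.coe_nsmul, AddSubmonoidClass.coe_finsetSum]
        show ∑ j : Fin m, ((c (some j)).val • hs j : ↥(torsH G J r e k)).1 = r • e • y'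
        have h3 : ∑ j : Fin m, ((c (some j)).val • hs j : ↥(torsH G J r e k)).1 =
            ∑ j : Fin m, (c (some j)).val • xfam (some j) := by
          refine Finset.sum_congr rfl fun j _ => ?_
          rw [AddSubgroup.coe_nsmul]
          rfl
        rw [h3, ← h1, smul_comm, h1]
        exact hHsum.2.2.symm
      have h4 := hindep (fun j => (c (some j)).val) ⟨_, h2⟩
      intro j
      have h5 := h4 j
      have h6 : (c (some j)).val = 0 :=
        Nat.eq_zero_of_dvd_of_lt h5 (ZMod.val_lt _)
      exact (ZMod.val_eq_zero _).mp h6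
    intro i
    cases i with
    | none => exact hc0
    | some j => exact hrest j
  -- the count
  haveI : Module.Finite (ZMod r) (TorsR J r) := Module.Finite.of_finite
  obtain ⟨hfinT, hrankT⟩ := finrank_sup_span_of_indep_mod B u hu
  have hTgood : ((B ⊔ Submodule.span (ZMod r) (Set.range u) : Submodule (ZMod r) _) : Set _) ⊆
      Zgood I 𝔅 Vloc W := by
    intro t ht
    obtain ⟨b, hb, s, hs', rfl⟩ := Submodule.mem_sup.mp ht
    obtain ⟨c, rfl⟩ := (Submodule.mem_span_range_iff_exists_fun (ZMod r)).mp hs'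
    obtain ⟨w, hwW, rfl⟩ := hBk b hb
    obtain ⟨hsum, hdom⟩ := hcomb c
    rw [hsum, ← kumCoc_add e (torsR_le_kumDom r w.2) hdom]
    exact hloc _ ((kumDom G J r).add_mem (torsR_le_kumDom r w.2) hdom)
  have h1 := hsel _ hTgood hfinT
  have h2 := finrank_eq_map_add_inf_ker W (cobMap G J r)
  have h3 : Nat.card ↥(W ⊓ LinearMap.ker (cobMap G J r)) = r ^ m := by
    rw [hcard]
    exact (Nat.card_congr (torsHEquiv r e k hexp)).symm
  have h4 : Nat.card ↥(W ⊓ LinearMap.ker (cobMap G J r)) =
      r ^ finrank (ZMod r) ↥(W ⊓ LinearMap.ker (cobMap G J r)) := by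
    rw [Module.natCard_eq_pow_finrank (K := ZMod r), Nat.card_zmod]
  have h5 : finrank (ZMod r) ↥(W ⊓ LinearMap.ker (cobMap G J r)) = m :=
    Nat.pow_right_injective hr.out.two_le (h4.symm.trans h3)
  rw [Fintype.card_option, Fintype.card_fin] at hrankT
  rw [hrankT] at h1
  have h6 : finrank (ZMod r) ↥B = finrank (ZMod r) ↥(Submodule.map (cobMap G J r) W) := rfl
  omega

end Asm

end Fermat.Agent.S15.Desc
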