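import Mathlib

/-!
# S15 / DESC: the abstract dévissage (package DEV of `NOTES/plan/S15_DESC.md`)

Pure algebra.  `G` is a group (the absolute Galois group of `ℚ`), `V` a vector space over a
field `K` (`= 𝔽_r`) with a `G`-action (the Eisenstein part of `J₀(p)[r]`), `I v` are subgroups of
`G` (inertia groups), `Vloc v ≤ V` are subspaces (toric part at `p`, connected part at `r`, `⊥`
at the other primes) and `𝔅` is a family of subgroups of `G` (those whose fixed field has
bounded ramification at `r`).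

A *good cocycle* with values in a subspace `W ≤ V` is a `1`-cocycle `z : G → V` with values in
`W`, with `z (I v) ⊆ Vloc v` for all `v`, vanishing on some member of `𝔅`.

* `DimLE S n` : every finite-dimensional subspace contained in the set `S` has dimension `≤ n`.
* `dimLE_Zgood_step` : one step of the dévissage: if `π : V → K` is a `ψ`-semi-invariant
  functional on `W₂` with `W₂ ∩ ker π ≤ W₁`, then
  `dim Zgood W₂ ≤ dim Zgood W₁ + dim ZgoodLine ψ (π (W₂ ∩ Vloc))`.
* `dimLE_Zgood_of_flag` : the dévissage along a flag.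
* `dimLE_Zgood_of_flag_sum` : the same with the count `∑_{v ∈ s} dim (W n ∩ Vloc v)`.

No quotient modules and no cohomology groups occur: everything is a count of cocycles.
-/

set_option autoImplicit false

namespace Fermat.Agent.S15.Desc

open Module

section DimLE

variable {K E : Type*} [Field K] [AddCommGroup E] [Module K E]

/-- Every finite-dimensional subspace contained in `S` has dimension at most `n`. -/
def DimLE (K : Type*) {E : Type*} [Field K] [AddCommGroup E] [Module K E]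
    (S : Set E) (n : ℕ) : Prop :=
  ∀ T : Submodule K E, (T : Set E) ⊆ S → Module.Finite K T → finrank K T ≤ n

theorem DimLE.mono {S S' : Set E} {n n' : ℕ} (h : DimLE K S' n') (hS : S ⊆ S')
    (hn : n' ≤ n) : DimLE K S n :=
  fun T hT hfin => (h T (hT.trans hS) hfin).trans hn

theorem dimLE_zero_of_subset_zero {S : Set E} (hS : S ⊆ {0}) (n : ℕ) : DimLE K S n := by
  intro T hT _
  have : T = ⊥ := by
    rw [eq_bot_iff]
    intro x hx
    have := hS (hT hx)
    simpa using this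
  subst this
  simp

end DimLE

section Cocycles

variable {G : Type*} [Group G] {K : Type*} [Field K]
variable {V : Type*} [AddCommGroup V] [Module K V] [DistribMulAction G V]
variable {ι : Type*}

/-- Good cocycles with values in `W`: cocycles `z : G → V` with values in `W`, with
`z (I v) ⊆ Vloc v` for all `v`, vanishing on some member of `𝔅`. -/
def Zgood (I : ι → Subgroup G) (𝔅 : Set (Subgroup G)) (Vloc : ι → Submodule K V)
    (W : Submodule K V) : Set (G → V) :=
  {z | (∀ σ τ, z (σ * τ) = z σ + σ • z τ) ∧ (∀ σ, z σ ∈ W) ∧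
      (∀ v, ∀ σ ∈ I v, z σ ∈ Vloc v) ∧ ∃ H ∈ 𝔅, ∀ σ ∈ H, z σ = 0}

/-- Good cocycles with values in the line `K(ψ)`. -/
def ZgoodLine (I : ι → Subgroup G) (𝔅 : Set (Subgroup G)) (ψ : G → K)
    (Lloc : ι → Submodule K K) : Set (G → K) :=
  {u | (∀ σ τ, u (σ * τ) = u σ + ψ σ * u τ) ∧
      (∀ v, ∀ σ ∈ I v, u σ ∈ Lloc v) ∧ ∃ H ∈ 𝔅, ∀ σ ∈ H, u σ = 0}

variable (I : ι → Subgroup G) (𝔅 : Set (Subgroup G)) (Vloc : ι → Submodule K V)

/-- **One step of the dévissage.** -/
theorem dimLE_Zgood_step (W₁ W₂ : Submodule K V) (π : V →ₗ[K] K) (ψ : G → K)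
    (hπ : ∀ σ : G, ∀ w ∈ W₂, π (σ • w) = ψ σ * π w)
    (hker : ∀ w ∈ W₂, π w = 0 → w ∈ W₁) {n₁ n₂ : ℕ}
    (h₁ : DimLE K (Zgood I 𝔅 Vloc W₁) n₁)
    (h₂ : DimLE K (ZgoodLine I 𝔅 ψ (fun v => (W₂ ⊓ Vloc v).map π)) n₂) :
    DimLE K (Zgood I 𝔅 Vloc W₂) (n₁ + n₂) := by
  intro T hT hfin
  set Φ : (G → V) →ₗ[K] (G → K) := π.compLeft G with hΦ
  have hΦapp : ∀ z : G → V, ∀ σ, Φ z σ = π (z σ) := fun z σ => rfl
  -- the image of `T`
  have hrange : finrank K (T.map Φ) ≤ n₂ := by
    refine h₂ (T.map Φ) ?_ inferInstance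
    rintro u ⟨z, hz, rfl⟩
    obtain ⟨hcoc, hW, hloc, H, hH, hvan⟩ := hT hz
    refine ⟨fun σ τ => ?_, fun v σ hσ => ?_, H, hH, fun σ hσ => ?_⟩
    · rw [hΦapp, hΦapp, hΦapp, hcoc, map_add, hπ σ _ (hW τ)]
    · rw [hΦapp]
      exact Submodule.mem_map_of_mem ⟨hW σ, hloc v σ hσ⟩
    · rw [hΦapp, hvan σ hσ, map_zero]
  -- the kernel of `Φ` on `T`
  have hkerle : finrank K ↥(T ⊓ LinearMap.ker Φ) ≤ n₁ := by
    refine h₁ (T ⊓ LinearMap.ker Φ) ?_ (Module.Finite.of_injective
      (Submodule.inclusion (inf_le_left : T ⊓ LinearMap.ker Φ ≤ T))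
      (Submodule.inclusion_injective _))
    rintro z ⟨hz, hzk⟩
    obtain ⟨hcoc, hW, hloc, H, hH, hvan⟩ := hT hz
    refine ⟨hcoc, fun σ => hker _ (hW σ) ?_, hloc, H, hH, hvan⟩
    have : Φ z = 0 := hzk
    rw [← hΦapp, this]
    rfl
  -- rank-nullity
  have hrn := LinearMap.finrank_range_add_finrank_ker (Φ.domRestrict T)
  have hr1 : LinearMap.range (Φ.domRestrict T) = T.map Φ := by
    ext u
    simp only [LinearMap.mem_range, Submodule.mem_map, LinearMap.domRestrict_apply,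
      Subtype.exists, exists_prop]
  have hk1 : finrank K ↥(LinearMap.ker (Φ.domRestrict T)) = finrank K ↥(T ⊓ LinearMap.ker Φ) := by
    have hmap : (LinearMap.ker (Φ.domRestrict T)).map T.subtype = T ⊓ LinearMap.ker Φ := by
      ext z
      simp only [Submodule.mem_map, LinearMap.mem_ker, LinearMap.domRestrict_apply,
        Submodule.subtype_apply, Subtype.exists, exists_and_right, exists_eq_right,
        Submodule.mem_inf]
      constructor
      · rintro ⟨hz, h0⟩
        exact ⟨hz, h0⟩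
      · rintro ⟨hz, h0⟩
        exact ⟨hz, h0⟩
    rw [← hmap]
    exact (LinearEquiv.finrank_eq
      (Submodule.equivMapOfInjective T.subtype T.injective_subtype _))
  rw [hr1] at hrn
  omega

/-- **Dévissage along a flag** `0 = W 0 ≤ W 1 ≤ … ≤ W n` with semi-invariant functionals `π i`
on `W (i+1)` whose kernel in `W (i+1)` is contained in `W i`. -/
theorem dimLE_Zgood_of_flag (W : ℕ → Submodule K V) (hW0 : W 0 = ⊥)
    (π : ℕ → V →ₗ[K] K) (ψ : ℕ → G → K) (n : ℕ)
    (hπ : ∀ i < n, ∀ σ : G, ∀ w ∈ W (i + 1), π i (σ • w) = ψ i σ * π i w)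
    (hker : ∀ i < n, ∀ w ∈ W (i + 1), π i w = 0 → w ∈ W i)
    (N : ℕ → ℕ)
    (hbase : ∀ i < n,
      DimLE K (ZgoodLine I 𝔅 (ψ i) (fun v => (W (i + 1) ⊓ Vloc v).map (π i))) (N i)) :
    DimLE K (Zgood I 𝔅 Vloc (W n)) (∑ i ∈ Finset.range n, N i) := by
  induction n with
  | zero =>
    refine dimLE_zero_of_subset_zero ?_ _
    rintro z ⟨-, hW, -, -⟩
    rw [Set.mem_singleton_iff]
    funext σ
    have := hW σ
    rw [hW0, Submodule.mem_bot] at this
    exact this
  | succ n ih =>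
    rw [Finset.sum_range_succ]
    exact dimLE_Zgood_step I 𝔅 Vloc (W n) (W (n + 1)) (π n) (ψ n) (hπ n (Nat.lt_succ_self n))
      (hker n (Nat.lt_succ_self n))
      (ih (fun i hi => hπ i (Nat.lt_succ_of_lt hi)) (fun i hi => hker i (Nat.lt_succ_of_lt hi))
        (fun i hi => hbase i (Nat.lt_succ_of_lt hi)))
      (hbase n (Nat.lt_succ_self n))

/-- The dimension count along a flag: `dim (W (i+1) ∩ U) = dim (W i ∩ U) + dim π (W (i+1) ∩ U)`. -/
theorem finrank_inf_succ [Module.Finite K V] (W₁ W₂ U : Submodule K V) (π : V →ₗ[K] K)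
    (hle : W₁ ≤ W₂) (hπ0 : ∀ w ∈ W₁, π w = 0) (hker : ∀ w ∈ W₂, π w = 0 → w ∈ W₁) :
    finrank K ↥(W₂ ⊓ U) = finrank K ↥(W₁ ⊓ U) + finrank K ↥((W₂ ⊓ U).map π) := by
  have hrn := LinearMap.finrank_range_add_finrank_ker (π.domRestrict (W₂ ⊓ U))
  have hr1 : LinearMap.range (π.domRestrict (W₂ ⊓ U)) = (W₂ ⊓ U).map π := by
    ext u
    simp only [LinearMap.mem_range, Submodule.mem_map, LinearMap.domRestrict_apply,
      Subtype.exists, exists_prop]
  have hk1 : finrank K ↥(LinearMap.ker (π.domRestrict (W₂ ⊓ U))) = finrank K ↥(W₁ ⊓ U) := by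
    have hmap : (LinearMap.ker (π.domRestrict (W₂ ⊓ U))).map (W₂ ⊓ U).subtype = W₁ ⊓ U := by
      ext z
      simp only [Submodule.mem_map, LinearMap.mem_ker, LinearMap.domRestrict_apply,
        Submodule.subtype_apply, Subtype.exists, exists_and_right, exists_eq_right,
        Submodule.mem_inf]
      constructor
      · rintro ⟨⟨hz, hzU⟩, h0⟩
        exact ⟨hker z hz h0, hzU⟩
      · rintro ⟨hz, hzU⟩
        exact ⟨⟨hle hz, hzU⟩, hπ0 z hz⟩
    rw [← hmap]
    exact (LinearEquiv.finrank_eq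
      (Submodule.equivMapOfInjective (W₂ ⊓ U).subtype (W₂ ⊓ U).injective_subtype _))
  rw [hr1] at hrn
  omega

/-- **Dévissage, final count.**  If for every step of the flag the good cocycles of the line
have dimension at most `∑_{v ∈ s} dim π (W (i+1) ∩ Vloc v)`, then the good cocycles with values in
`W n` have dimension at most `∑_{v ∈ s} dim (W n ∩ Vloc v)`. -/
theorem dimLE_Zgood_of_flag_sum [Module.Finite K V] (s : Finset ι)
    (W : ℕ → Submodule K V) (hW0 : W 0 = ⊥)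
    (π : ℕ → V →ₗ[K] K) (ψ : ℕ → G → K) (n : ℕ)
    (hmono : ∀ i < n, W i ≤ W (i + 1))
    (hπ0 : ∀ i < n, ∀ w ∈ W i, π i w = 0)
    (hπ : ∀ i < n, ∀ σ : G, ∀ w ∈ W (i + 1), π i (σ • w) = ψ i σ * π i w)
    (hker : ∀ i < n, ∀ w ∈ W (i + 1), π i w = 0 → w ∈ W i)
    (hbase : ∀ i < n,
      DimLE K (ZgoodLine I 𝔅 (ψ i) (fun v => (W (i + 1) ⊓ Vloc v).map (π i)))
        (∑ v ∈ s, finrank K ↥((W (i + 1) ⊓ Vloc v).map (π i)))) :
    DimLE K (Zgood I 𝔅 Vloc (W n)) (∑ v ∈ s, finrank K ↥(W n ⊓ Vloc v)) := by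
  have h := dimLE_Zgood_of_flag I 𝔅 Vloc W hW0 π ψ n hπ hker
    (fun i => ∑ v ∈ s, finrank K ↥((W (i + 1) ⊓ Vloc v).map (π i))) hbase
  refine h.mono subset_rfl (le_of_eq ?_)
  rw [Finset.sum_comm]
  refine Finset.sum_congr rfl fun v _ => ?_
  -- telescoping sum
  have key : ∀ k ≤ n, ∑ i ∈ Finset.range k, finrank K ↥((W (i + 1) ⊓ Vloc v).map (π i)) =
      finrank K ↥(W k ⊓ Vloc v) := by
    intro k hk
    induction k with
    | zero =>
      rw [Finset.sum_range_zero, hW0, bot_inf_eq]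
      simp
    | succ k ih =>
      rw [Finset.sum_range_succ, ih (Nat.le_of_succ_le hk),
        finrank_inf_succ (W k) (W (k + 1)) (Vloc v) (π k) (hmono k hk) (hπ0 k hk) (hker k hk)]
  exact key n le_rfl

end Cocycles

end Fermat.Agent.S15.Desc
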