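import Fermat.Agent.S17.W2.H75_GeoFinal

/-!
# S15 / DESC: `J₀(N)(ℚ̄)` is divisible (helper69)

`S17.Stmt_divisible N n` is stated for Galois-fixed points only, but its proof
(`S17.W2.stmt_divisible_of`) never uses that hypothesis.  Here is the statement for all points:

* `jzero_divisible_all : n ≠ 0 → ∀ x : JZero N, ∃ y, n • y = x`;
* `jzero_tors_divisible : m ≠ 0 → n • x = 0 → ∃ y, m • y = x ∧ (m * n) • y = 0`
  (`J[n] = m · J[m n]`).
-/

set_option autoImplicit false

noncomputable section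

namespace Fermat.Agent.S15.Desc

open AlgebraicCurve ModularCurve Fermat.Agent.GTor Fermat.Agent.S17.W2

/-- **`J₀(N)(ℚ̄)` is `n`-divisible** (all points, not only the rational ones). -/
theorem jzero_divisible_all (N n : ℕ) [NeZero N] (hn : n ≠ 0) (x : JZero N) :
    ∃ y : JZero N, n • y = x := by
  have : Algebra.IsAlgebraic ℚ (AlgebraicClosure ℚ) := AlgebraicClosure.isAlgebraic ℚ
  let inst : Algebra (AlgebraicClosure ℚ) ℂ :=
    (IsAlgClosed.lift : AlgebraicClosure ℚ →ₐ[ℚ] ℂ).toRingHom.toAlgebra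
  obtain ⟨S, hj, hstab, htrans⟩ := H75.stmt_GEO ℂ N
  have hcore := stmt_Core_of S n (H56.stmt_FT1 _ _) (H41.stmt_FT4 _ _) (H41.stmt_FT5 _ _)
    (H41.stmt_FT6 _ _)
    (isFF_complex N) hj big_complex hstab htrans (torsion_finite_complex N n hn)
  exact H75.stmt_A N n hn hcore x

/-- `J[n] = m · J[m n]`. -/
theorem jzero_tors_divisible (N m n : ℕ) [NeZero N] (hm : m ≠ 0) {x : JZero N}
    (hx : n • x = 0) : ∃ y : JZero N, m • y = x ∧ (m * n) • y = 0 := by
  obtain ⟨y, hy⟩ := jzero_divisible_all N m hm x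
  refine ⟨y, hy, ?_⟩
  rw [mul_comm, mul_smul, hy, hx]

end Fermat.Agent.S15.Desc
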