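/-
S15 / DESC (helper87): the small leaves L4 (LOC-l) and L8 (EXP) of helper69's list.

* `loc_l_of_redPackage` (L4): `ℓ ∤ p r`, `A` over `ℓ`, `τ` in the inertia group of `A`,
  `r • y` rational  ⟹  `τ • y = y`   (from the G-RED package `S37.RedPackage p r ℓ A`).
* `kummer_inertia_trivial` : the same, as vanishing of the Kummer cocycle `τ • y - y`.
* `exp_bound` (L8): `∃ k`, every rational point of `J₀(p)` of `r`-power order is killed by
  `r ^ k`   (from `Stmt_S18`, `Stmt_redInputs p`, `Stmt_redFG p`).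
-/
import Fermat.Agent.S15.Defs
import Fermat.Agent.S37.H36_Wiring
import Fermat.Agent.Lib.FrobExists

set_option autoImplicit false
set_option synthInstance.maxHeartbeats 400000
set_option linter.style.haveILetI false

noncomputable section

open ModularCurve

namespace Fermat.Agent.S15.Desc.H87

open Fermat.Agent.S15

/-- The Galois action commutes with multiplication by a natural number. -/
theorem gal_nsmul {N : ℕ} (σ : GalQ) (n : ℕ) (y : JZero N) : σ • (n • y) = n • (σ • y) :=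
  map_nsmul (DistribSMul.toAddMonoidHom (JZero N) σ) n y

/-- **L4 (LOC-l)**: inertia at a prime `ℓ ∤ p r` fixes every `r`-division point of a rational
point of `J₀(p)`. -/
theorem loc_l_of_redPackage {p r ℓ : ℕ} [NeZero p] [NeZero ℓ]
    (A : ValuationSubring (AlgebraicClosure ℚ))
    (hred : Fermat.Agent.S37.RedPackage p r ℓ A)
    {τ : GalQ} (hτ : τ ∈ A.inertiaSubgroupIn ℚ) {y : JZero p} (hy : r • y ∈ ratPts p) :
    τ • y = y := by
  obtain ⟨Y, _, red, σ₀, -, hin, -, hinj, -⟩ := hred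
  have h1 : r ^ 1 • (τ • y - y) = 0 := by
    rw [pow_one, nsmul_sub, ← gal_nsmul, hy τ, sub_self]
  have h2 : red (τ • y - y) = 0 := by
    rw [map_sub, hin τ hτ y, sub_self]
  exact sub_eq_zero.1 (hinj _ ⟨1, h1⟩ h2)

/-- L4 for all multiples: inertia at `ℓ ∤ p r` fixes every point `y` with `r ^ n • y` rational. -/
theorem loc_l_pow_of_redPackage {p r ℓ : ℕ} [NeZero p] [NeZero ℓ]
    (A : ValuationSubring (AlgebraicClosure ℚ))
    (hred : Fermat.Agent.S37.RedPackage p r ℓ A)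
    {τ : GalQ} (hτ : τ ∈ A.inertiaSubgroupIn ℚ) {y : JZero p} {n : ℕ}
    (hy : r ^ n • y ∈ ratPts p) :
    τ • y = y := by
  obtain ⟨Y, _, red, σ₀, -, hin, -, hinj, -⟩ := hred
  have h1 : r ^ n • (τ • y - y) = 0 := by
    rw [nsmul_sub, ← gal_nsmul, hy τ, sub_self]
  have h2 : red (τ • y - y) = 0 := by
    rw [map_sub, hin τ hτ y, sub_self]
  exact sub_eq_zero.1 (hinj _ ⟨n, h1⟩ h2)

/-- L4, cocycle form: the Kummer cocycle `σ ↦ σ • y - y` of an `r`-division point of a rational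
point vanishes on inertia at `ℓ ∤ p r`. -/
theorem kummer_inertia_trivial {p r ℓ : ℕ} [NeZero p] [NeZero ℓ]
    (A : ValuationSubring (AlgebraicClosure ℚ))
    (hred : Fermat.Agent.S37.RedPackage p r ℓ A)
    {τ : GalQ} (hτ : τ ∈ A.inertiaSubgroupIn ℚ) {y : JZero p} (hy : r • y ∈ ratPts p) :
    τ • y - y = 0 :=
  sub_eq_zero.2 (loc_l_of_redPackage A hred hτ hy)

/-- The torsion part of a finitely generated abelian group is finite. -/
theorem finite_torsion_of_fg (T : Type*) [AddCommGroup T] [AddGroup.FG T] :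
    Finite ↥(Submodule.torsion ℤ T) := by
  haveI : Module.Finite ℤ T := Module.Finite.iff_addGroup_fg.mpr inferInstance
  haveI : IsNoetherian ℤ T := isNoetherian_of_isNoetherianRing_of_finite ℤ T
  haveI : Module.Finite ℤ ↥(Submodule.torsion ℤ T) := Module.IsNoetherian.finite ℤ _
  exact Module.finite_of_fg_torsion _ (Submodule.torsion_isTorsion)

/-- In a finitely generated abelian group the `r`-power torsion has bounded exponent. -/
theorem exists_exp_of_fg (T : Type*) [AddCommGroup T] [AddGroup.FG T] (r : ℕ) (hr : r.Prime) :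
    ∃ k : ℕ, ∀ t : T, (∃ n : ℕ, r ^ n • t = 0) → r ^ k • t = 0 := by
  haveI := finite_torsion_of_fg T
  haveI : Fintype ↥(Submodule.torsion ℤ T) := Fintype.ofFinite _
  set e : ℕ := Fintype.card ↥(Submodule.torsion ℤ T) with he
  have he0 : e ≠ 0 := Fintype.card_ne_zero
  refine ⟨e.factorization r, fun t ⟨n, hn⟩ => ?_⟩
  have ht : t ∈ Submodule.torsion ℤ T := by
    rw [Submodule.mem_torsion_iff]
    refine ⟨⟨((r ^ n : ℕ) : ℤ), ?_⟩, ?_⟩
    · rw [mem_nonZeroDivisors_iff_ne_zero]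
      exact_mod_cast pow_ne_zero n hr.ne_zero
    · show ((r ^ n : ℕ) : ℤ) • t = 0
      rw [natCast_zsmul, hn]
  have h1 : e • (⟨t, ht⟩ : ↥(Submodule.torsion ℤ T)) = 0 := card_nsmul_eq_zero
  have h1' : e • t = 0 := by
    have := congrArg Subtype.val h1
    simpa using this
  -- `gcd (r ^ n) e` kills `t`
  have h2 : Nat.gcd (r ^ n) e • t = 0 := by
    have hd : addOrderOf t ∣ Nat.gcd (r ^ n) e :=
      Nat.dvd_gcd (addOrderOf_dvd_of_nsmul_eq_zero hn) (addOrderOf_dvd_of_nsmul_eq_zero h1')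
    exact addOrderOf_dvd_iff_nsmul_eq_zero.1 hd
  have h3 : Nat.gcd (r ^ n) e ∣ r ^ e.factorization r := by
    obtain ⟨j, hj, hje⟩ := (Nat.dvd_prime_pow hr).1 (Nat.gcd_dvd_left (r ^ n) e)
    rw [hje]
    refine pow_dvd_pow r ?_
    have : r ^ j ∣ e := hje ▸ Nat.gcd_dvd_right (r ^ n) e
    exact (hr.pow_dvd_iff_le_factorization he0).1 this
  obtain ⟨c, hc⟩ := h3
  rw [hc, mul_nsmul, h2, smul_zero]

/-- **L8 (EXP)**: the rational points of `J₀(p)` of `r`-power order have bounded exponent. -/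
theorem exp_bound (hS18 : Stmt_S18) {p : ℕ} [NeZero p]
    (hRI : Stmt_redInputs p) (hFG : Stmt_redFG p) (r : ℕ) (hr : r.Prime) :
    ∃ k : ℕ, ∀ z ∈ ratPts p, (∃ n : ℕ, r ^ n • z = 0) → r ^ k • z = 0 := by
  -- a prime `ℓ ∉ {p, r}`
  obtain ⟨ℓ, hℓge, hℓ⟩ := Nat.exists_infinite_primes (p + r + 1)
  have hℓp : ℓ ≠ p := by omega
  have hℓr : ℓ ≠ r := by omega
  have hp0 : p ≠ 0 := NeZero.ne p
  have hℓndvd : ¬ ℓ ∣ p := fun hd => by
    have := Nat.le_of_dvd (Nat.pos_of_ne_zero hp0) hd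
    omega
  obtain ⟨A, hA⟩ := Fermat.Agent.Lib.FrobExists.exists_liesOverPrime ℓ hℓ
  have h := hRI ℓ hℓ hℓp A hA
  haveI : Fact ℓ.Prime := ⟨hℓ⟩
  have hT := hFG ℓ hℓ hℓp A hA
  haveI : AddGroup.FG ↥(AddSubgroup.map (reductionModL A p) (ratPts p)) :=
    (AddGroup.fg_iff_addSubgroup_fg _).2 hT
  obtain ⟨k, hk⟩ := exists_exp_of_fg ↥(AddSubgroup.map (reductionModL A p) (ratPts p)) r hr
  refine ⟨k, fun z hz ⟨n, hn⟩ => ?_⟩
  have hmem : reductionModL A p z ∈ AddSubgroup.map (reductionModL A p) (ratPts p) :=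
    AddSubgroup.mem_map_of_mem _ hz
  have h1 := hk ⟨reductionModL A p z, hmem⟩ ⟨n, by
    apply Subtype.ext
    simp only [AddSubgroup.coe_nsmul, AddSubgroup.coe_zero]
    rw [← map_nsmul, hn, map_zero]⟩
  have h2 : reductionModL A p (r ^ k • z) = 0 := by
    have := congrArg Subtype.val h1
    simp only [AddSubgroup.coe_nsmul, AddSubgroup.coe_zero] at this
    rw [map_nsmul]
    exact this
  have hnd : ¬ ℓ ∣ r ^ n := fun hd =>
    hℓr ((Nat.prime_dvd_prime_iff_eq hℓ hr).1 (hℓ.dvd_of_dvd_pow hd))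
  refine hS18 p hℓndvd A hA h (r ^ n) hnd (r ^ k • z) ?_ h2
  rw [smul_comm, hn, smul_zero]

end Fermat.Agent.S15.Desc.H87
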