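/-
S15 / DESC (helper87): leaf PROJ of helper69's list — the Eisenstein projector.

`R` a commutative ring, `ε : R →+* ℤ`, `J` an `R`-module, `r, k : ℕ` with `J[r^(k+1)]` finite.
Then there is `e ∈ R` with

* `r ∣ ε e - 1`;
* `e` is idempotent on `J[r^(k+1)]`;
* every `t ∈ R` with `r ∣ ε t` is nilpotent on `{v ∈ J[r^(k+1)] | e v = v}` (in particular on
  `W = {v ∈ J[r] | e v = v}`, the Eisenstein part `eisW r e` of `H69_Tors.lean`).

Proof: the image `T` of `R` in the endomorphisms of the finite group `J[r^(k+1)]` is a finite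
commutative ring; for every `a` in the (finite) image of `𝔓 = {t | r ∣ ε t}` choose `t_a ∈ 𝔓`
above `a` and `N_a > 0` with `a^(2 N_a) = a^(N_a)`; put `e = ∏_a (1 - t_a ^ N_a)`.
-/
import Mathlib

set_option autoImplicit false
set_option linter.style.haveILetI false

noncomputable section

namespace Fermat.Agent.S15.Desc.H87

/-- In a finite monoid every element has an idempotent power with positive exponent. -/
theorem exists_pow_idem {M : Type*} [Monoid M] [Finite M] (a : M) :
    ∃ N : ℕ, 0 < N ∧ a ^ (2 * N) = a ^ N := by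
  obtain ⟨i, j, hij, h⟩ := Finite.exists_ne_map_eq_of_infinite (fun n : ℕ => a ^ (n + 1))
  wlog hlt : i < j generalizing i j
  · exact this j i hij.symm h.symm (lt_of_le_of_ne (not_lt.1 hlt) hij.symm)
  have h' : a ^ (i + 1) = a ^ (j + 1) := h
  have hd0 : 0 < j - i := by omega
  have hper : ∀ n, i + 1 ≤ n → a ^ (n + (j - i)) = a ^ n := by
    intro n hn
    obtain ⟨m, rfl⟩ := Nat.exists_eq_add_of_le hn
    have e1 : i + 1 + m + (j - i) = (j + 1) + m := by omega
    rw [e1, pow_add, ← h', ← pow_add]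
  have hper' : ∀ m n, i + 1 ≤ n → a ^ (n + m * (j - i)) = a ^ n := by
    intro m
    induction m with
    | zero => intro n _; simp
    | succ m ih =>
      intro n hn
      rw [Nat.succ_mul, ← add_assoc, hper _ (by omega), ih n hn]
  refine ⟨(i + 1) * (j - i), Nat.mul_pos (Nat.succ_pos i) hd0, ?_⟩
  have h1 : i + 1 ≤ (i + 1) * (j - i) := Nat.le_mul_of_pos_right _ hd0
  have := hper' (i + 1) ((i + 1) * (j - i)) h1
  rw [two_mul]
  exact this

section Proj

variable {R J : Type*} [CommRing R] [AddCommGroup J] [Module R J]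

/-- `J[n]` as an `R`-submodule. -/
def torsSub (R J : Type*) [CommRing R] [AddCommGroup J] [Module R J] (n : ℕ) :
    Submodule R J where
  carrier := {v | n • v = 0}
  add_mem' := fun {a b} ha hb => by
    show n • (a + b) = 0
    rw [smul_add, ha, hb, add_zero]
  zero_mem' := smul_zero n
  smul_mem' := fun c v hv => by
    show n • (c • v) = 0
    rw [smul_comm, hv, smul_zero]

theorem mem_torsSub {n : ℕ} {v : J} : v ∈ torsSub R J n ↔ n • v = 0 := Iff.rfl

/-- The action of `R` on `J[n]`. -/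
def actTors (R J : Type*) [CommRing R] [AddCommGroup J] [Module R J] (n : ℕ) :
    R →+* AddMonoid.End ↥(torsSub R J n) :=
  Module.toAddMonoidEnd R ↥(torsSub R J n)

theorem actTors_apply {n : ℕ} (t : R) (v : ↥(torsSub R J n)) :
    ((actTors R J n t v : ↥(torsSub R J n)) : J) = t • (v : J) := rfl

theorem smul_eq_of_actTors_eq {n : ℕ} {t t' : R} (h : actTors R J n t = actTors R J n t')
    {v : J} (hv : n • v = 0) : t • v = t' • v := by
  have := congrArg (fun f : AddMonoid.End ↥(torsSub R J n) =>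
    ((f ⟨v, hv⟩ : ↥(torsSub R J n)) : J)) h
  exact this

/-- The image of `R` in `End J[n]`, as a quotient of `R`. -/
abbrev ImgTors (R J : Type*) [CommRing R] [AddCommGroup J] [Module R J] (n : ℕ) : Type _ :=
  R ⧸ RingHom.ker (actTors R J n)

theorem finite_imgTors {n : ℕ} (hfin : {v : J | n • v = 0}.Finite) :
    Finite (ImgTors R J n) := by
  haveI : Finite ↥(torsSub R J n) := hfin.to_subtype
  haveI : Finite (AddMonoid.End ↥(torsSub R J n)) :=
    Finite.of_injective (fun f : AddMonoid.End ↥(torsSub R J n) =>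
      (f : ↥(torsSub R J n) → ↥(torsSub R J n))) DFunLike.coe_injective
  exact Finite.of_injective _ (RingHom.kerLift_injective (actTors R J n))

theorem smul_eq_of_mk_eq {n : ℕ} {t t' : R}
    (h : Ideal.Quotient.mk (RingHom.ker (actTors R J n)) t
      = Ideal.Quotient.mk (RingHom.ker (actTors R J n)) t')
    {v : J} (hv : n • v = 0) : t • v = t' • v := by
  refine smul_eq_of_actTors_eq (n := n) ?_ hv
  have h1 := congrArg (RingHom.kerLift (actTors R J n)) h
  rwa [RingHom.kerLift_mk, RingHom.kerLift_mk] at h1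

/-- **PROJ** (general form, on `J[n]`): the Eisenstein projector. -/
theorem exists_eis_projector_gen (ε : R →+* ℤ) (r n : ℕ)
    (hfin : {v : J | n • v = 0}.Finite) :
    ∃ e : R, (r : ℤ) ∣ ε e - 1 ∧
      (∀ y : J, n • y = 0 → e • (e • y) = e • y) ∧
      (∀ t : R, (r : ℤ) ∣ ε t → ∃ N : ℕ, ∀ v : J, n • v = 0 → e • v = v → t ^ N • v = 0) := by
  classical
  haveI : Finite (ImgTors R J n) := finite_imgTors hfin
  haveI : Fintype (ImgTors R J n) := Fintype.ofFinite _
  set mk := Ideal.Quotient.mk (RingHom.ker (actTors R J n)) with hmk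
  -- the image of `𝔓`
  set S : Finset (ImgTors R J n) :=
    Finset.univ.filter (fun a => ∃ t : R, (r : ℤ) ∣ ε t ∧ mk t = a) with hS
  -- representatives and exponents
  let pick : ImgTors R J n → R := fun a =>
    if h : ∃ t : R, (r : ℤ) ∣ ε t ∧ mk t = a then h.choose else 0
  have hpick_dvd : ∀ a, (r : ℤ) ∣ ε (pick a) := by
    intro a
    by_cases h : ∃ t : R, (r : ℤ) ∣ ε t ∧ mk t = a
    · simp only [pick, dif_pos h]
      exact h.choose_spec.1
    · simp only [pick, dif_neg h, map_zero, dvd_zero]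
  have hpick_mk : ∀ a ∈ S, mk (pick a) = a := by
    intro a ha
    have h : ∃ t : R, (r : ℤ) ∣ ε t ∧ mk t = a := (Finset.mem_filter.1 ha).2
    simp only [pick, dif_pos h]
    exact h.choose_spec.2
  let Nid : ImgTors R J n → ℕ := fun a => (exists_pow_idem a).choose
  have hNid_pos : ∀ a, 0 < Nid a := fun a => (exists_pow_idem a).choose_spec.1
  have hNid : ∀ a, a ^ (2 * Nid a) = a ^ Nid a := fun a => (exists_pow_idem a).choose_spec.2
  have hidem : ∀ a : ImgTors R J n, IsIdempotentElem (1 - a ^ Nid a) := by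
    intro a
    apply IsIdempotentElem.one_sub
    show a ^ Nid a * a ^ Nid a = a ^ Nid a
    rw [← pow_add, ← two_mul, hNid]
  set e : R := ∏ a ∈ S, (1 - pick a ^ Nid a) with he
  have hmke : mk e = ∏ a ∈ S, (1 - a ^ Nid a) := by
    rw [he, map_prod]
    refine Finset.prod_congr rfl fun a ha => ?_
    rw [map_sub, map_one, map_pow, hpick_mk a ha]
  have hmke_idem : IsIdempotentElem (mk e) := by
    rw [hmke]
    refine Finset.prod_induction _ IsIdempotentElem (fun a b ha hb => ha.mul hb)
      IsIdempotentElem.one fun a _ => hidem a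
  refine ⟨e, ?_, ?_, ?_⟩
  · -- `ε e ≡ 1 mod r`
    have h1 : ((ε e : ℤ) : ZMod r) = 1 := by
      rw [he, map_prod, Int.cast_prod]
      refine Finset.prod_eq_one fun a _ => ?_
      rw [map_sub, map_one, map_pow, Int.cast_sub, Int.cast_one, Int.cast_pow,
        (ZMod.intCast_zmod_eq_zero_iff_dvd _ _).2 (hpick_dvd a), zero_pow (hNid_pos a).ne',
        sub_zero]
    rw [← ZMod.intCast_zmod_eq_zero_iff_dvd, Int.cast_sub, h1, Int.cast_one, sub_self]
  · -- idempotent
    intro y hy
    rw [← mul_smul]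
    refine smul_eq_of_mk_eq (n := n) ?_ hy
    rw [map_mul]
    exact hmke_idem
  · -- nilpotency
    intro t ht
    have haS : mk t ∈ S := Finset.mem_filter.2 ⟨Finset.mem_univ _, t, ht, rfl⟩
    refine ⟨Nid (mk t), fun v hv hev => ?_⟩
    have hzero : mk (t ^ Nid (mk t) * e) = mk 0 := by
      rw [map_mul, map_pow, hmke, ← Finset.mul_prod_erase S _ haS, ← mul_assoc, map_zero]
      have : mk t ^ Nid (mk t) * (1 - mk t ^ Nid (mk t)) = 0 := by
        rw [mul_sub, mul_one, ← pow_add, ← two_mul, hNid, sub_self]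
      rw [this, zero_mul]
    have h1 := smul_eq_of_mk_eq (n := n) hzero hv
    rw [zero_smul, mul_smul, hev] at h1
    exact h1

/-- **PROJ**: the Eisenstein projector on `J[r^(k+1)]`, in the shape used by `selB_abstract`
(`hidem`) and `sel_bound` (`hEis` of `es_nilpotent`). -/
theorem exists_eis_projector (ε : R →+* ℤ) (r k : ℕ)
    (hfin : {v : J | r ^ (k + 1) • v = 0}.Finite) :
    ∃ e : R, (r : ℤ) ∣ ε e - 1 ∧
      (∀ y : J, r ^ (k + 1) • y = 0 → e • (e • y) = e • y) ∧
      (∀ t : R, (r : ℤ) ∣ ε t → ∃ N : ℕ, ∀ v : J, r • v = 0 → e • v = v → t ^ N • v = 0) := by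
  obtain ⟨e, h1, h2, h3⟩ := exists_eis_projector_gen (J := J) ε r (r ^ (k + 1)) hfin
  refine ⟨e, h1, h2, fun t ht => ?_⟩
  obtain ⟨N, hN⟩ := h3 t ht
  refine ⟨N, fun v hv hev => hN v ?_ hev⟩
  rw [pow_succ', mul_nsmul, hv, smul_zero]

/-- The projector is not in the Eisenstein prime: `r ∤ ε e` (for `r ≠ 1`). -/
theorem not_dvd_of_dvd_sub_one {r : ℕ} (hr : r ≠ 1) {a : ℤ} (h : (r : ℤ) ∣ a - 1) :
    ¬ (r : ℤ) ∣ a := by
  intro h2
  have h3 : (r : ℤ) ∣ 1 := by
    have := dvd_sub h2 h
    rwa [sub_sub_cancel] at this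
  have h4 : (r : ℤ) = 1 := Int.eq_one_of_dvd_one (Int.natCast_nonneg r) h3
  exact hr (by exact_mod_cast h4)

end Proj

end Fermat.Agent.S15.Desc.H87
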