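import Fermat.Agent.S15.Desc.H69_Main
import Fermat.Agent.S15.Desc.H87_Leaves
import Fermat.Agent.S15.Desc.H40_LocFTwo
import Fermat.Agent.S15.Desc.H66_FlatKummerMod
import Fermat.Agent.S15.Desc.H63_VtWire
import Fermat.Agent.FL.H36_Final
import Fermat.Agent.S15.H26_CuspNe
import Fermat.Agent.S15.H30_CuspTors
import Fermat.Agent.S15.H2_GH
import Fermat.Agent.BAD.ABS
import Fermat.Agent.BAD.H91_Assemble
import Fermat.Agent.BAD.H91_ModSSD
import Fermat.Agent.BAD.H23_TotMod

/-!
# S15 / DESC: `Stmt_selB p` from the leaves that are still open (helper69)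

Everything that is landed is plugged into `stmt_selB_of_leaves` (`H69_Main.lean`):

* (cuspNe), (cuspTors) : helper26, helper30;  (GH) : helper2;
* the bridges (FIN), (GAL), (DIV), (PROJ), (ES), (LOC-ℓ), (EXP) : helper87 (`H87_Leaves.lean`);
* (LOC-U), all `r` : G-FL (`FL.H36.stmt_FLTameC`), helper66 (FL-x), helper40 (Fontaine), here
  `stmt_LOCU`, `stmt_LOCUTwo`;
* (B1) at `(p, p)` : the BAD chain (helper91 and the BAD team), here `stmt_B1_level`;
* (VT) by helper63's count `H63.stmt_VT_of_count`.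

`stmt_selB_final` : what is left is, for the primes `r ∣ p - 1`, (GLUE-dim), (FIX) and (NUM-∞).
-/

set_option autoImplicit false
set_option linter.style.haveILetI false

noncomputable section

open ModularCurve Module

namespace Fermat.Agent.S15.Desc.H69F

open Fermat.Agent.S15 Fermat.Agent.S15.Desc

/-- **FL-x** (helper66, from the main theorem of G-FL). -/
theorem stmt_FlatKummer : H40.Stmt_FlatKummer :=
  H66.stmt_FlatKummer_of_tameC Fermat.Agent.FL.H36.stmt_FLTameC

/-- **(LOC-U)**, `r` odd. -/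
theorem stmt_LOCU {p r : ℕ} [NeZero p] (hr : r.Prime) (hr2 : r ≠ 2) (hrp : ¬ r ∣ p) :
    Stmt_LOCU p r :=
  haveI : Fact r.Prime := ⟨hr⟩
  H40.stmt_LOCU_of_flatKummer stmt_FlatKummer hr2 (H87.stmt_GALfin p) hrp

/-- **(LOC-U)** at `2`. -/
theorem stmt_LOCUTwo {p : ℕ} [NeZero p] (h2p : ¬ 2 ∣ p) : Stmt_LOCUTwo p :=
  H40.stmt_LOCUTwo_of_flatKummer stmt_FlatKummer (H87.stmt_GALfin p) h2p

/-- The law of total conservation for the modular datum of level `M q` (helper23's `tot_mod`
at helper82's identification (D)). -/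
theorem stmt_TotMod : Fermat.Agent.BAD.H91.Stmt_TotMod :=
  fun A q M a b hab hq _ _ hA hqM ht =>
    Fermat.Agent.BAD.H23.tot_mod A q M a b hab hq hA hqM ht
      (Fermat.Agent.BAD.H82.redField_eq_fullC q M a b hab hq A hA)

/-- The semistable Deuring datum of `X₀(p)` at `p ≥ 5`. -/
theorem stmt_ModSSD_level (p : ℕ) [NeZero p] (hp : p.Prime) (h5 : 5 ≤ p) :
    Fermat.Agent.BAD.Stmt_ModSSD p p := by
  refine Fermat.Agent.BAD.H91.modSSD_tame_of stmt_TotMod p p hp dvd_rfl ?_ (Or.inl h5)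
  intro h
  have h1 := Nat.le_of_dvd hp.pos h
  have h2 : p * 2 ≤ p ^ 2 := by
    rw [pow_two]
    exact Nat.mul_le_mul_left p hp.two_le
  omega

/-- **(B1)** at `(p, p)`, `p ≥ 5`: the inertia group at `p` acts trivially on the toric part
`K1(n)` of `J₀(p)[n]`. -/
theorem stmt_B1_level (p : ℕ) [NeZero p] (hp : p.Prime) (h5 : 5 ≤ p) :
    Fermat.Agent.BAD.Stmt_B1 p p :=
  Fermat.Agent.BAD.H91.b1_of_core p
    (Fermat.Agent.BAD.H91.b1core_of_ABS p Fermat.Agent.BAD.stmt_ABS hp
      (stmt_ModSSD_level p hp h5))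

/-- The geometry at `p` for the descent prime `r` (helper63's route 2). -/
structure VtLeaves (p r : ℕ) : Prop where
  glue : H63.Stmt_GLUEdim p r
  fix : H63.Stmt_FIX p r

/-- **DESC, final form**: `Stmt_selB p` from the leaves that are still open. -/
theorem stmt_selB_final (p : ℕ) [NeZero p] (hp : p.Prime)
    (hp' : p ∉ ({2, 3, 5, 7, 13} : Finset ℕ))
    (hvt : ∀ r : ℕ, r.Prime → r ∣ p - 1 → VtLeaves p r)
    (hnum : ∀ (r : ℕ) (hr : r.Prime), r ∣ p - 1 → r ≠ 2 →
      haveI : NeZero r := ⟨hr.ne_zero⟩; Stmt_NUMinfOdd p r)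
    (hnum2 : 2 ∣ p - 1 → Stmt_NUMinfTwo p) : Stmt_selB p := by
  have hFIN := H87.stmt_FIN p
  have hGAL := H87.stmt_GALfin p
  have hGH := Fermat.Agent.S15.H2.stmt_GH p
  have h5 : 5 ≤ p := by
    have hp2 := hp.two_le
    have h4 : p ≠ 4 := by
      rintro rfl
      exact absurd hp (by decide)
    have h2 : p ≠ 2 := fun h => hp' (by simp [h])
    have h3 : p ≠ 3 := fun h => hp' (by simp [h])
    omega
  have hB1 := stmt_B1_level p hp h5
  have hne_of : ∀ r : ℕ, r ∣ p - 1 → p ≠ r := by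
    intro r hrd h
    have hp2 := hp.two_le
    have := Nat.le_of_dvd (by omega) hrd
    omega
  have hndvd : ∀ r : ℕ, r.Prime → r ∣ p - 1 → ¬ r ∣ p := by
    intro r hr hrd hd
    exact hne_of r hrd ((Nat.prime_dvd_prime_iff_eq hr hp).1 hd).symm
  refine stmt_selB_of_leaves p hp (Fermat.Agent.S15.H26.stmt_cuspNe p hp hp')
    (Fermat.Agent.S15.H30.stmt_cuspTors p hp) hFIN hGAL hGH ?_ ?_
  · intro r hr hrd hr2
    haveI : NeZero r := ⟨hr.ne_zero⟩
    have V := hvt r hr hrd
    exact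
      { div := H87.stmt_DIV p r hr.ne_zero
        proj := H87.stmt_PROJ p r hr.pos
        es := H87.stmt_ESr hp hr
        locl := H87.stmt_LOCl hp hr
        exp := H87.stmt_EXP hp hr
        locu := stmt_LOCU hr hr2 (hndvd r hr hrd)
        vt := H63.stmt_VT_of_count hp hr (hne_of r hrd) hFIN hGAL hGH hB1 V.glue V.fix
        num := hnum r hr hrd hr2 }
  · intro h2 hp2
    have V := hvt 2 Nat.prime_two h2
    exact
      { div := H87.stmt_DIV p 2 two_ne_zero
        proj := H87.stmt_PROJ p 2 two_pos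
        es := H87.stmt_ESr hp Nat.prime_two
        locl := H87.stmt_LOCl hp Nat.prime_two
        exp := H87.stmt_EXP hp Nat.prime_two
        locu := stmt_LOCUTwo (hndvd 2 Nat.prime_two h2)
        vt := H63.stmt_VT_of_count hp Nat.prime_two (hne_of 2 h2) hFIN hGAL hGH hB1 V.glue V.fix
        num := hnum2 h2 }

end Fermat.Agent.S15.Desc.H69F
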