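import Fermat.Agent.S15.Desc.H83_GlueMod
import Fermat.Agent.S15.Desc.H26_TorsRank

/-!
# S15 / DESC, leaf GLUE-dim (helper83): the final statement

`stmt_GLUEdim p r : H63.Stmt_GLUEdim p r` for primes `p ≥ 5`, `r ≠ p`: the toric part
`T = span K1(r)` of `J₀(p)[r]` satisfies `2 dim T ≤ dim J₀(p)[r]`.

Inputs: the relation between `δ` Kummer classes (`H83_GlueCore`, `H83_GlueRel`), the abstract
genus formula (`H83_GlueNodes`), the modular semistable Deuring datum of level `p` (BAD, helper91
and team) and the rank of the torsion (TORS-RANK, helper26).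
-/

set_option autoImplicit false
set_option linter.style.haveILetI false

namespace Fermat.Agent.S15.Desc.H83

/-- **(GLUE-dim)**, unconditional. -/
theorem stmt_GLUEdim (p r : ℕ) (hp : p.Prime) (hp5 : 5 ≤ p) (hr : r.Prime) (hpr : p ≠ r) :
    H63.Stmt_GLUEdim p r :=
  haveI : NeZero p := ⟨hp.ne_zero⟩
  haveI : Fact r.Prime := ⟨hr⟩
  stmt_GLUEdim_of_rank p r hp hp5 hr hpr (H26.finrank_torsR_ge p r)

end Fermat.Agent.S15.Desc.H83
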