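import Fermat.Agent.S15.Desc.H69_Final
import Fermat.Agent.S15.Desc.H63_FixWire
import Fermat.Agent.S15.Desc.H83_GlueFinal
import Fermat.Agent.S15.Desc.H67_CoordModF0
import Fermat.Agent.S15.Desc.H26_NumInfOdd
import Fermat.Agent.S15.Desc.H99_NumTwoFinal

/-!
# S15 DESC: `Stmt_selB p` from the modular coordinates (helper69)

All leaves of the descent are plugged in, except (COORD) = `H67.Stmt_CoordMod p`, resp. its last
open sub-leaf (F0) = `H67.Stmt_CoordF0 p`:

* `stmt_selB_of_coordMod : H67.Stmt_CoordMod p → Stmt_selB p`;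
* `stmt_selB_of_F0 : H67.Stmt_CoordF0 p → Stmt_selB p`.

Inputs: (GLUE-dim) `H83.stmt_GLUEdim`, (FIX) `H63.stmt_FIX_of_coordMod`, (NUM-∞) odd
`H26.stmt_NUMinfOdd`, (NUM-∞) at `2` `H99.stmt_NUMinfTwo`, and `H69F.stmt_selB_final`.
-/

set_option autoImplicit false
set_option linter.style.haveILetI false
set_option linter.unusedSectionVars false
set_option linter.unusedVariables false
set_option synthInstance.maxHeartbeats 400000
set_option maxHeartbeats 1000000

namespace Fermat.Agent.S15.Desc.H69F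

/-- `5 ≤ p` for a prime `p ∉ {2, 3, 5, 7, 13}`. -/
theorem five_le_of_not_mem {p : ℕ} (hp : p.Prime) (hp' : p ∉ ({2, 3, 5, 7, 13} : Finset ℕ)) :
    5 ≤ p := by
  have hp2 := hp.two_le
  have h4 : p ≠ 4 := by
    rintro rfl
    exact absurd hp (by decide)
  have h2 : p ≠ 2 := fun h => hp' (by simp [h])
  have h3 : p ≠ 3 := fun h => hp' (by simp [h])
  omega

/-- **DESC from (COORD)**: `Stmt_selB p` from the modular coordinates at `p`. -/
theorem stmt_selB_of_coordMod (p : ℕ) [NeZero p] (hp : p.Prime)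
    (hp' : p ∉ ({2, 3, 5, 7, 13} : Finset ℕ)) (hC : H67.Stmt_CoordMod p) : Stmt_selB p := by
  have h5 : 5 ≤ p := five_le_of_not_mem hp hp'
  refine stmt_selB_final p hp hp' ?_ ?_ ?_
  · intro r hr hrd
    have hpr : p ≠ r := by
      intro h
      have hp2 := hp.two_le
      have := Nat.le_of_dvd (by omega) hrd
      omega
    exact ⟨H83.stmt_GLUEdim p r hp h5 hr hpr, H63.stmt_FIX_of_coordMod hp hr (H87.stmt_FIN p) hC⟩
  · intro r hr hrd hr2
    haveI : NeZero r := ⟨hr.ne_zero⟩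
    exact H26.stmt_NUMinfOdd p r hp hr hr2
  · intro _
    exact H99.stmt_NUMinfTwo p hp

/-- **DESC from (F0)**: `Stmt_selB p` from the last open sub-leaf of (COORD). -/
theorem stmt_selB_of_F0 (p : ℕ) [NeZero p] (hp : p.Prime)
    (hp' : p ∉ ({2, 3, 5, 7, 13} : Finset ℕ)) (hF0 : H67.Stmt_CoordF0 p) : Stmt_selB p :=
  stmt_selB_of_coordMod p hp hp' (H67.stmt_CoordMod_of_F0 hF0 hp (five_le_of_not_mem hp hp'))

end Fermat.Agent.S15.Desc.H69F
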