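import Mathlib

/-!
# S15 / DESC: Kolchin-type lemma (package CONST, algebra; helper69)

`r` a prime, `Q` a nonzero finite `𝔽_r`-vector space with a representation `ρ` of a group `G`,
`c : G →* 𝔽_rˣ` a character.  If every `σ ∈ G` satisfies `((σ - 1)(σ - c σ))^N = 0` on `Q`, then
there is a nonzero vector `q` on which `G` acts by the trivial character or by `c`
(`exists_eigenvector`).

* `exists_fixed_ne_zero` : a group whose elements act with `r`-power order on a nonzero finite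
  abelian group killed by `r` has a nonzero fixed vector.
-/

set_option autoImplicit false

namespace Fermat.Agent.S15.Desc

/-- A group all of whose elements act with `r`-power order on a nontrivial finite abelian group
killed by `r` has a nonzero fixed vector. -/
theorem exists_fixed_ne_zero {H Q : Type*} [Group H] [AddCommGroup Q] [Finite Q] [Nontrivial Q]
    [DistribMulAction H Q] (r : ℕ) [hr : Fact r.Prime] (hQ : ∀ q : Q, r • q = 0)
    (hun : ∀ h : H, ∃ k : ℕ, ∀ q : Q, (h ^ (r ^ k)) • q = q) :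
    ∃ q : Q, q ≠ 0 ∧ ∀ h : H, h • q = q := by
  classical
  let f : H →* Equiv.Perm Q := MulAction.toPermHom H Q
  have hP : IsPGroup r f.range := by
    rintro ⟨g, h, rfl⟩
    obtain ⟨k, hk⟩ := hun h
    refine ⟨k, Subtype.ext ?_⟩
    show (f h) ^ (r ^ k) = 1
    rw [← map_pow]
    ext q
    exact hk q
  have hcard : r ∣ Nat.card Q := by
    obtain ⟨q, hq⟩ := exists_ne (0 : Q)
    have h1 : addOrderOf q ∣ r := addOrderOf_dvd_of_nsmul_eq_zero (hQ q)
    have h2 : addOrderOf q = r := by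
      rcases (Nat.dvd_prime hr.out).mp h1 with h | h
      · exact absurd (AddMonoid.addOrderOf_eq_one_iff.mp h) hq
      · exact h
    rw [← h2]
    exact addOrderOf_dvd_natCard q
  have h0 : (0 : Q) ∈ MulAction.fixedPoints f.range Q := by
    rintro ⟨g, h, rfl⟩
    show f h 0 = 0
    exact smul_zero h
  obtain ⟨b, hb, hb0⟩ := hP.exists_fixed_point_of_prime_dvd_card_of_fixed_point Q hcard h0
  refine ⟨b, fun h => hb0 h.symm, fun h => ?_⟩
  exact hb ⟨f h, h, rfl⟩

section Eigen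

variable {r : ℕ} [hr : Fact r.Prime] {G Q : Type*} [Group G] [AddCommGroup Q]
  [Module (ZMod r) Q]

/-- If `(ρ h - 1)^M = 0` then `ρ (h ^ r^k) = 1` for `r^k ≥ M`. -/
theorem rep_pow_eq_one_of_unipotent [Nontrivial Q] (ρ : Representation (ZMod r) G Q) (h : G)
    (M : ℕ) (hM : (ρ h - 1) ^ M = 0) : ∃ k : ℕ, ρ (h ^ (r ^ k)) = 1 := by
  have : CharP (Module.End (ZMod r) Q) r :=
    charP_of_injective_algebraMap (algebraMap (ZMod r) (Module.End (ZMod r) Q)).injective r
  obtain ⟨k, hk⟩ : ∃ k : ℕ, M ≤ r ^ k := ⟨M, (Nat.lt_pow_self hr.out.one_lt).le⟩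
  refine ⟨k, ?_⟩
  have h1 : (ρ h - 1) ^ (r ^ k) = 0 := by
    rw [← Nat.sub_add_cancel hk, pow_add, hM, mul_zero]
  rw [sub_pow_char_pow_of_commute r k (Commute.one_right _), one_pow, sub_eq_zero] at h1
  rw [map_pow]
  exact h1

/-- **Kolchin-type lemma.** -/
theorem exists_eigenvector [Finite Q] [Nontrivial Q] (ρ : Representation (ZMod r) G Q)
    (c : G →* (ZMod r)ˣ)
    (hES : ∀ σ : G, ∃ N : ℕ, ((ρ σ - 1) * (ρ σ - ((c σ : (ZMod r)ˣ) : ZMod r) • 1)) ^ N = 0) :
    ∃ q : Q, q ≠ 0 ∧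
      ((∀ σ : G, ρ σ q = q) ∨ (∀ σ : G, ρ σ q = ((c σ : (ZMod r)ˣ) : ZMod r) • q)) := by
  classical
  -- Step 1: the kernel of `c` has a nonzero fixed vector
  let H : Subgroup G := c.ker
  let _iH : DistribMulAction H Q :=
    DistribMulAction.compHom Q ((ρ : G →* Module.End (ZMod r) Q).comp H.subtype)
  have hsm : ∀ (h : H) (q : Q), h • q = ρ (h : G) q := fun h q => rfl
  have hQ : ∀ q : Q, r • q = 0 := by
    intro q
    have : ((r : ZMod r)) • q = 0 := by rw [ZMod.natCast_self, zero_smul]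
    rwa [Nat.cast_smul_eq_nsmul] at this
  have hun : ∀ h : H, ∃ k : ℕ, ∀ q : Q, (h ^ (r ^ k)) • q = q := by
    intro h
    obtain ⟨N, hN⟩ := hES (h : G)
    have hc : c (h : G) = 1 := h.2
    rw [hc, Units.val_one, one_smul, ← pow_two, ← pow_mul] at hN
    obtain ⟨k, hk⟩ := rep_pow_eq_one_of_unipotent ρ (h : G) _ hN
    refine ⟨k, fun q => ?_⟩
    rw [hsm]
    show ρ ((h : G) ^ (r ^ k)) q = q
    rw [hk]
    rfl
  obtain ⟨q₀, hq₀, hfix₀⟩ := exists_fixed_ne_zero r hQ hun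
  -- the fixed space of `H`
  let F : Submodule (ZMod r) Q :=
    { carrier := {q | ∀ h : G, c h = 1 → ρ h q = q}
      add_mem' := fun {a b} ha hb h hh => by rw [map_add, ha h hh, hb h hh]
      zero_mem' := fun h _ => map_zero _
      smul_mem' := fun a q hq h hh => by rw [map_smul, hq h hh] }
  have hFmem : ∀ q : Q, q ∈ F ↔ ∀ h : G, c h = 1 → ρ h q = q := fun q => Iff.rfl
  have hq₀F : q₀ ∈ F := fun h hh => hfix₀ ⟨h, hh⟩
  have hFstab : ∀ (σ : G) (q : Q), q ∈ F → ρ σ q ∈ F := by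
    intro σ q hq h hh
    have h1 : c (σ⁻¹ * h * σ) = 1 := by
      rw [map_mul, map_mul, hh, mul_one, map_inv, inv_mul_cancel]
    have h2 := hq _ h1
    have h3 : ρ h (ρ σ q) = ρ σ (ρ (σ⁻¹ * h * σ) q) := by
      have h4 : ρ h * ρ σ = ρ σ * ρ (σ⁻¹ * h * σ) := by
        rw [← map_mul, ← map_mul]
        congr 1
        group
      exact LinearMap.congr_fun h4 q
    rw [h3, h2]
  -- Step 2: a generator of the image of `c`
  obtain ⟨⟨g₀, σ₁, hσ₁⟩, hgen⟩ := IsCyclic.exists_generator (α := c.range)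
  have hgen' : ∀ σ : G, ∃ k : ℤ, c σ = c σ₁ ^ k := by
    intro σ
    have := hgen ⟨c σ, σ, rfl⟩
    rw [Subgroup.mem_zpowers_iff] at this
    obtain ⟨k, hk⟩ := this
    refine ⟨k, ?_⟩
    have h1 := congrArg Subtype.val hk
    simp only [Subgroup.coe_zpow] at h1
    rw [← h1, hσ₁]
  -- Step 3: an eigenvector of `σ₁` in `F`
  set c₁ : ZMod r := ((c σ₁ : (ZMod r)ˣ) : ZMod r) with hc₁
  set E : Module.End (ZMod r) Q := (ρ σ₁ - 1) * (ρ σ₁ - c₁ • 1) with hE
  have hEF : ∀ q ∈ F, E q ∈ F := by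
    intro q hq
    have h1 : (ρ σ₁ - c₁ • 1) q ∈ F := by
      rw [LinearMap.sub_apply, LinearMap.smul_apply, Module.End.one_apply]
      exact F.sub_mem (hFstab σ₁ q hq) (F.smul_mem _ hq)
    rw [hE, Module.End.mul_apply, LinearMap.sub_apply, Module.End.one_apply]
    exact F.sub_mem (hFstab σ₁ _ h1) h1
  obtain ⟨N, hN⟩ := hES σ₁
  have hEpowF : ∀ n : ℕ, (E ^ n) q₀ ∈ F := by
    intro n
    induction n with
    | zero => rw [pow_zero]; exact hq₀F
    | succ n ih => rw [pow_succ', Module.End.mul_apply]; exact hEF _ ih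
  have hex : ∃ n : ℕ, (E ^ n) q₀ = 0 := ⟨N, by rw [hN]; rfl⟩
  let m := Nat.find hex
  have hm : (E ^ m) q₀ = 0 := Nat.find_spec hex
  have hm0 : m ≠ 0 := by
    intro h0
    rw [h0, pow_zero] at hm
    exact hq₀ hm
  obtain ⟨m', hm'⟩ := Nat.exists_eq_succ_of_ne_zero hm0
  set q₁ : Q := (E ^ m') q₀ with hq₁
  have hq₁0 : q₁ ≠ 0 := by
    intro h0
    have : m ≤ m' := Nat.find_min' hex h0
    omega
  have hq₁F : q₁ ∈ F := hEpowF m'
  have hEq₁ : E q₁ = 0 := by
    have h5 : E * E ^ m' = E ^ m := by rw [hm', pow_succ']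
    have h6 : E q₁ = (E * E ^ m') q₀ := rfl
    rw [h6, h5]
    exact hm
  -- the eigenvector
  have key : ∃ v : Q, v ≠ 0 ∧ v ∈ F ∧ (ρ σ₁ v = v ∨ ρ σ₁ v = c₁ • v) := by
    by_cases hg : ρ σ₁ q₁ - c₁ • q₁ = 0
    · exact ⟨q₁, hq₁0, hq₁F, Or.inr (sub_eq_zero.mp hg)⟩
    · refine ⟨ρ σ₁ q₁ - c₁ • q₁, hg, F.sub_mem (hFstab σ₁ _ hq₁F) (F.smul_mem _ hq₁F), Or.inl ?_⟩
      have h1 : E q₁ = ρ σ₁ (ρ σ₁ q₁ - c₁ • q₁) - (ρ σ₁ q₁ - c₁ • q₁) := by
        rw [hE, Module.End.mul_apply, LinearMap.sub_apply, LinearMap.sub_apply,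
          LinearMap.smul_apply, Module.End.one_apply, Module.End.one_apply]
      rw [hEq₁] at h1
      exact (sub_eq_zero.mp h1.symm)
  obtain ⟨v, hv0, hvF, hv⟩ := key
  refine ⟨v, hv0, ?_⟩
  rcases hv with hv | hv
  · -- trivial character
    left
    let S : Subgroup G :=
      { carrier := {σ | ρ σ v = v}
        mul_mem' := fun {a b} ha hb => by
          show ρ (a * b) v = v
          rw [map_mul, Module.End.mul_apply, hb, ha]
        one_mem' := by
          show ρ 1 v = v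
          rw [map_one]; rfl
        inv_mem' := fun {a} ha => by
          show ρ a⁻¹ v = v
          have h1 : ρ a⁻¹ (ρ a v) = v := by
            have h4 : ρ a⁻¹ * ρ a = 1 := by rw [← map_mul, inv_mul_cancel, map_one]
            exact LinearMap.congr_fun h4 v
          rw [ha] at h1
          exact h1 }
    intro σ
    obtain ⟨k, hk⟩ := hgen' σ
    have h1 : σ * (σ₁ ^ k)⁻¹ ∈ S := by
      show ρ (σ * (σ₁ ^ k)⁻¹) v = v
      refine hvF _ ?_
      rw [map_mul, map_inv, map_zpow, hk, mul_inv_cancel]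
    have h2 : σ₁ ^ k ∈ S := S.zpow_mem (show σ₁ ∈ S from hv) k
    have h3 : σ = σ * (σ₁ ^ k)⁻¹ * σ₁ ^ k := by group
    have h4 : σ ∈ S := by
      rw [h3]
      exact S.mul_mem h1 h2
    exact h4
  · -- the character `c`
    right
    let S : Subgroup G :=
      { carrier := {σ | ρ σ v = ((c σ : (ZMod r)ˣ) : ZMod r) • v}
        mul_mem' := fun {a b} ha hb => by
          show ρ (a * b) v = ((c (a * b) : (ZMod r)ˣ) : ZMod r) • v
          rw [map_mul, Module.End.mul_apply, hb, map_smul, ha, smul_smul, map_mul, Units.val_mul,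
            mul_comm]
        one_mem' := by
          show ρ 1 v = ((c 1 : (ZMod r)ˣ) : ZMod r) • v
          rw [map_one, map_one, Units.val_one, one_smul]; rfl
        inv_mem' := fun {a} ha => by
          show ρ a⁻¹ v = ((c a⁻¹ : (ZMod r)ˣ) : ZMod r) • v
          have h1 : ρ a⁻¹ (ρ a v) = v := by
            have h4 : ρ a⁻¹ * ρ a = 1 := by rw [← map_mul, inv_mul_cancel, map_one]
            exact LinearMap.congr_fun h4 v
          rw [ha, map_smul] at h1
          have h2 : ((c a⁻¹ : (ZMod r)ˣ) : ZMod r) * ((c a : (ZMod r)ˣ) : ZMod r) = 1 := by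
            rw [← Units.val_mul, ← map_mul, inv_mul_cancel, map_one, Units.val_one]
          calc ρ a⁻¹ v = (((c a⁻¹ : (ZMod r)ˣ) : ZMod r) * ((c a : (ZMod r)ˣ) : ZMod r)) • ρ a⁻¹ v := by
                rw [h2, one_smul]
            _ = ((c a⁻¹ : (ZMod r)ˣ) : ZMod r) • (((c a : (ZMod r)ˣ) : ZMod r) • ρ a⁻¹ v) := by
                rw [smul_smul]
            _ = ((c a⁻¹ : (ZMod r)ˣ) : ZMod r) • v := by rw [h1] }
    intro σ
    obtain ⟨k, hk⟩ := hgen' σ
    have h1 : σ * (σ₁ ^ k)⁻¹ ∈ S := by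
      show ρ (σ * (σ₁ ^ k)⁻¹) v = ((c (σ * (σ₁ ^ k)⁻¹) : (ZMod r)ˣ) : ZMod r) • v
      have hc1 : c (σ * (σ₁ ^ k)⁻¹) = 1 := by
        rw [map_mul, map_inv, map_zpow, hk, mul_inv_cancel]
      rw [hc1, Units.val_one, one_smul]
      exact hvF _ hc1
    have h2 : σ₁ ^ k ∈ S := S.zpow_mem (show σ₁ ∈ S from hv) k
    have h3 : σ = σ * (σ₁ ^ k)⁻¹ * σ₁ ^ k := by group
    have h4 : σ ∈ S := by
      rw [h3]
      exact S.mul_mem h1 h2
    exact h4

end Eigen

end Fermat.Agent.S15.Desc
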