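import Fermat.Agent.S15.Desc.H69_Dev

/-!
# S15 / DESC: small linear algebra used by BASE and ASM (helper69)

* `finrank_eq_map_add_inf_ker` : rank–nullity for a subspace and a linear map.
* `finrank_le_one_of_pairwise_dep` : a finite-dimensional subspace in which any two vectors are
  linearly dependent has dimension `≤ 1`.
* `finrank_le_two_of_pairwise_dep_mod` : the same modulo a line.
-/

set_option autoImplicit false

namespace Fermat.Agent.S15.Desc

open Module

section

variable {K E E' : Type*} [Field K] [AddCommGroup E] [Module K E] [AddCommGroup E'] [Module K E']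

theorem finrank_eq_map_add_inf_ker (T : Submodule K E) [Module.Finite K T] (f : E →ₗ[K] E') :
    finrank K T = finrank K ↥(T.map f) + finrank K ↥(T ⊓ LinearMap.ker f) := by
  have hrn := LinearMap.finrank_range_add_finrank_ker (f.domRestrict T)
  have hr1 : LinearMap.range (f.domRestrict T) = T.map f := by
    ext u
    simp only [LinearMap.mem_range, Submodule.mem_map, LinearMap.domRestrict_apply,
      Subtype.exists, exists_prop]
  have hk1 : finrank K ↥(LinearMap.ker (f.domRestrict T)) = finrank K ↥(T ⊓ LinearMap.ker f) := by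
    have hmap : (LinearMap.ker (f.domRestrict T)).map T.subtype = T ⊓ LinearMap.ker f := by
      ext z
      simp only [Submodule.mem_map, LinearMap.mem_ker, LinearMap.domRestrict_apply,
        Submodule.subtype_apply, Subtype.exists, exists_and_right, exists_eq_right,
        Submodule.mem_inf]
      constructor
      · rintro ⟨hz, h0⟩
        exact ⟨hz, h0⟩
      · rintro ⟨hz, h0⟩
        exact ⟨hz, h0⟩
    rw [← hmap]
    exact (LinearEquiv.finrank_eq
      (Submodule.equivMapOfInjective T.subtype T.injective_subtype _))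
  rw [hr1] at hrn
  omega

theorem finrank_le_one_of_pairwise_dep (T : Submodule K E) [Module.Finite K T]
    (h : ∀ u₁ ∈ T, ∀ u₂ ∈ T, ∃ c₁ c₂ : K, (c₁ ≠ 0 ∨ c₂ ≠ 0) ∧ c₁ • u₁ + c₂ • u₂ = 0) :
    finrank K T ≤ 1 := by
  by_cases hT : ∀ v ∈ T, v = 0
  · have : T = ⊥ := by
      rw [eq_bot_iff]
      intro x hx
      rw [Submodule.mem_bot]
      exact hT x hx
    subst this
    simp
  · simp only [not_forall] at hT
    obtain ⟨v, hvT, hv0⟩ := hT
    rw [finrank_le_one_iff]
    refine ⟨⟨v, hvT⟩, fun w => ?_⟩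
    obtain ⟨c₁, c₂, hc, hcomb⟩ := h v hvT w.1 w.2
    have hc₂ : c₂ ≠ 0 := by
      intro h0
      rw [h0, zero_smul, add_zero] at hcomb
      rcases hc with hc | hc
      · rcases smul_eq_zero.mp hcomb with h1 | h1
        · exact hc h1
        · exact hv0 h1
      · exact hc h0
    refine ⟨-(c₂⁻¹ * c₁), Subtype.ext ?_⟩
    show (-(c₂⁻¹ * c₁)) • v = w.1
    have h2 : c₂ • w.1 = -(c₁ • v) := by
      rw [eq_neg_iff_add_eq_zero, add_comm]
      exact hcomb
    have h3 : w.1 = c₂⁻¹ • (c₂ • w.1) := by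
      rw [smul_smul, inv_mul_cancel₀ hc₂, one_smul]
    rw [h3, h2, smul_neg, smul_smul, neg_smul]

theorem finrank_le_two_of_pairwise_dep_mod (T : Submodule K E) [Module.Finite K T] (u₀ : E)
    (h : ∀ u₁ ∈ T, ∀ u₂ ∈ T, ∃ c₁ c₂ j : K, (c₁ ≠ 0 ∨ c₂ ≠ 0) ∧ c₁ • u₁ + c₂ • u₂ = j • u₀) :
    finrank K T ≤ 2 := by
  set L : Submodule K E := Submodule.span K {u₀} with hL
  have hrn := finrank_eq_map_add_inf_ker T L.mkQ
  have h1 : finrank K ↥(T.map L.mkQ) ≤ 1 := by
    refine finrank_le_one_of_pairwise_dep _ ?_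
    rintro _ ⟨u₁, hu₁, rfl⟩ _ ⟨u₂, hu₂, rfl⟩
    obtain ⟨c₁, c₂, j, hc, hcomb⟩ := h u₁ hu₁ u₂ hu₂
    refine ⟨c₁, c₂, hc, ?_⟩
    rw [← map_smul, ← map_smul, ← map_add, hcomb]
    rw [Submodule.mkQ_apply, Submodule.Quotient.mk_eq_zero]
    exact Submodule.smul_mem _ _ (Submodule.mem_span_singleton_self u₀)
  have h2 : finrank K ↥(T ⊓ LinearMap.ker L.mkQ) ≤ 1 := by
    rw [Submodule.ker_mkQ]
    have hle : T ⊓ L ≤ L := inf_le_right
    have h3 : finrank K ↥(T ⊓ L) ≤ finrank K ↥L := Submodule.finrank_mono hle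
    have h4 : finrank K ↥L ≤ 1 := by
      rw [hL]
      have h5 := finrank_span_finset_le_card (R := K) ({u₀} : Finset E)
      rw [Finset.card_singleton, Set.finrank, Finset.coe_singleton] at h5
      exact h5
    exact h3.trans h4
  omega

end

end Fermat.Agent.S15.Desc
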