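import Fermat.Agent.S15.H40_CoreSel
import Fermat.Agent.S15.Desc.Defs

/-!
# S15 / DESC: `Stmt_selB p` from (SELB) at every prime `r ∣ p - 1` (helper69)

The cuspidal class `κ` is non-zero (`Stmt_cuspNe`) and killed by `p - 1` (`Stmt_cuspTors`), so its
order has a prime factor `r ∣ p - 1`; (SELB) at this `r` is `Stmt_selB p`, the input of
`S15/H40_CoreSel.lean`.
-/

set_option autoImplicit false

noncomputable section

open ModularCurve

namespace Fermat.Agent.S15.Desc

open Fermat.Agent.S15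

theorem stmt_selB_of_selBAt (p : ℕ) [NeZero p] (hp : p.Prime)
    (hne : Stmt_cuspNe p) (htors : Stmt_cuspTors p)
    (hsel : ∀ r : ℕ, r.Prime → r ∣ p - 1 → SelBAt p r) : Stmt_selB p := by
  intro Pinf P0 hc
  set κ := ptClass Pinf P0 hc.deg_inf hc.deg_zero with hκ
  have hκ0 : κ ≠ 0 := hne Pinf P0 hc
  have hκt : (p - 1) • κ = 0 := htors Pinf P0 hc
  have hp1 : p - 1 ≠ 0 := by
    have := hp.two_le
    omega
  have hord : addOrderOf κ ∣ p - 1 := addOrderOf_dvd_of_nsmul_eq_zero hκt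
  have hord1 : addOrderOf κ ≠ 1 := fun h => hκ0 (AddMonoid.addOrderOf_eq_one_iff.mp h)
  obtain ⟨r, hr, hrd⟩ := Nat.exists_prime_and_dvd hord1
  exact ⟨r, hr, hrd, hsel r hr (hrd.trans hord)⟩

end Fermat.Agent.S15.Desc
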