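import Fermat.Agent.S15.Desc.H69_Tors

/-!
# S15 / DESC: the ring `R` acting on `J[r]` (helper69)

`torsEnd J r : R →+* End_{𝔽_r}(J[r])`, and the finiteness of the subgroup `torsH`-type subgroups.
-/

set_option autoImplicit false

namespace Fermat.Agent.S15.Desc

open Module

section TorsEnd

variable (J : Type*) [AddCommGroup J] (r : ℕ) [NeZero r] {R : Type*} [CommRing R] [Module R J]

/-- The action of `t ∈ R` on `J[r]`. -/
def torsEndFun (t : R) : TorsR J r →ₗ[ZMod r] TorsR J r where
  toFun v := ⟨t • (v : J), by rw [mem_torsR, smul_comm, mem_torsR.mp v.2, smul_zero]⟩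
  map_add' a b := Subtype.ext (by
    show t • ((a + b : TorsR J r) : J) = t • (a : J) + t • (b : J)
    rw [AddSubgroup.coe_add, smul_add])
  map_smul' c v := Subtype.ext (by
    show t • ((c • v : TorsR J r) : J) = ((c • (⟨t • (v : J), _⟩ : TorsR J r) : TorsR J r) : J)
    rw [coe_zmod_smul, coe_zmod_smul, smul_comm])

theorem coe_torsEndFun (t : R) (v : TorsR J r) : ((torsEndFun J r t v : TorsR J r) : J) = t • (v : J) :=
  rfl

/-- The ring homomorphism `R → End_{𝔽_r}(J[r])`. -/
def torsEnd : R →+* Module.End (ZMod r) (TorsR J r) where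
  toFun := torsEndFun J r
  map_one' := by
    ext v
    rw [coe_torsEndFun, one_smul]
    rfl
  map_mul' a b := by
    ext v
    rw [coe_torsEndFun, mul_smul]
    rfl
  map_zero' := by
    ext v
    rw [coe_torsEndFun, zero_smul]
    rfl
  map_add' a b := by
    ext v
    rw [coe_torsEndFun, add_smul]
    rfl

theorem coe_torsEnd (t : R) (v : TorsR J r) : ((torsEnd J r t v : TorsR J r) : J) = t • (v : J) :=
  rfl

end TorsEnd

end Fermat.Agent.S15.Desc
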