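import Fermat.Agent.S15.Desc.H69_Wire
import Fermat.Agent.S15.Desc.H69_WireTwo
import Fermat.Agent.S15.Desc.H69_SelB

/-!
# S15 / DESC: `Stmt_selB p` from the leaves (helper69)

`stmt_selB_of_leaves` : the leaves of `S15/Desc/Defs.lean` and `S15/Desc/DefsTwo.lean`, for every
prime `r ∣ p - 1`, imply `Stmt_selB p`, the input of the core of S15 (`S15/H40_CoreSel.lean`).
-/

set_option autoImplicit false

noncomputable section

open ModularCurve Module

namespace Fermat.Agent.S15.Desc

open Fermat.Agent.S15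

/-- The leaves of the descent at an odd prime `r`. -/
structure LeavesOdd (p r : ℕ) [NeZero p] [NeZero r] : Prop where
  div : Stmt_DIV p r
  proj : Stmt_PROJ p r
  es : Stmt_ESr p r
  locl : Stmt_LOCl p r
  exp : Stmt_EXP p r
  locu : Stmt_LOCU p r
  vt : Stmt_VT p r
  num : Stmt_NUMinfOdd p r

/-- The leaves of the descent at the prime `2`. -/
structure LeavesTwo (p : ℕ) [NeZero p] : Prop where
  div : Stmt_DIV p 2
  proj : Stmt_PROJ p 2
  es : Stmt_ESr p 2
  locl : Stmt_LOCl p 2
  exp : Stmt_EXP p 2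
  locu : Stmt_LOCUTwo p
  vt : Stmt_VT p 2
  num : Stmt_NUMinfTwo p

/-- **DESC**: the Selmer form of the Eisenstein descent from the leaves. -/
theorem stmt_selB_of_leaves (p : ℕ) [NeZero p] (hp : p.Prime)
    (hne : Stmt_cuspNe p) (htors : Stmt_cuspTors p)
    (hFIN : Stmt_FIN p) (hGAL : Stmt_GALfin p) (hGH : Stmt_GH p)
    (hodd : ∀ (r : ℕ) (hr : r.Prime), r ∣ p - 1 → r ≠ 2 →
      haveI : NeZero r := ⟨hr.ne_zero⟩; LeavesOdd p r)
    (htwo : 2 ∣ p - 1 → p ≠ 2 → LeavesTwo p) : Stmt_selB p := by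
  refine stmt_selB_of_selBAt p hp hne htors fun r hr hrd => ?_
  have hp1 : 0 < p - 1 := by
    have := hp.two_le
    rcases Nat.eq_zero_or_pos (p - 1) with h | h
    · exfalso
      have h2 : p = 1 := by omega
      exact hp.one_lt.ne' h2
    · exact h
  have hpr : p ≠ r := by
    intro h
    have := Nat.le_of_dvd hp1 hrd
    omega
  by_cases hr2 : r = 2
  · subst hr2
    have L := htwo hrd hpr
    exact selBAt_of_leaves_two hp hpr hFIN L.div hGAL hGH L.proj L.es L.locl L.exp L.locu L.vt L.num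
  · haveI : NeZero r := ⟨hr.ne_zero⟩
    have L := hodd r hr hrd hr2
    exact selBAt_of_leaves_odd hp hr hpr hr2 hFIN L.div hGAL hGH L.proj L.es L.locl L.exp L.locu
      L.vt L.num

end Fermat.Agent.S15.Desc
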