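import Fermat.Agent.S15.Desc.H69_Final2
import Fermat.Agent.S15.Desc.H63_CoordF0Final

/-!
# S15 DESC: `Stmt_selB p`, unconditional (helper69)

`stmt_selB_uncond p hp hp' : Stmt_selB p` for every prime `p ∉ {2, 3, 5, 7, 13}`: all leaves of the
descent are plugged in (`H69F.stmt_selB_of_F0` and helper63's `H63F.stmt_CoordF0`).
-/

set_option autoImplicit false

namespace Fermat.Agent.S15.Desc.H69F

/-- **DESC, unconditional**: `Stmt_selB p` for every prime `p ∉ {2, 3, 5, 7, 13}`. -/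
theorem stmt_selB_uncond (p : ℕ) [NeZero p] (hp : p.Prime)
    (hp' : p ∉ ({2, 3, 5, 7, 13} : Finset ℕ)) : Stmt_selB p :=
  stmt_selB_of_F0 p hp hp' (Fermat.Agent.S15.Desc.H63F.stmt_CoordF0 p)

end Fermat.Agent.S15.Desc.H69F
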