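import Fermat.Agent.BAD.H28_GlueW

/-!
# S15 / DESC, leaf GLUE-dim (helper83), abstract part 1: the core

`S : BAD.SSD K F k F₁ F₂` a semistable Deuring datum (two components, nodes).

* `IsTor S n G ψ₁ ψ₂` : `G` is a unit for both valuations, without zero or pole on the fibres of
  the nodes, all its orders are divisible by `n`, and its two reductions are the `n`-th powers
  `ψ₁ ^ n`, `ψ₂ ^ n`.
* `IsTor.mul`, `IsTor.pow`, `isTor_one`, `IsTor.prod`.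
* `IsTor.ord_eq_zero` : `ψ₁`, `ψ₂` have order `0` at the branches of the nodes.
* `core` : if the values of `ψ₁` and `z ψ₂` (`z ^ n = 1`) at the two branches of every node agree,
  then `G` is an `n`-th power.  (Good lift + TI-ss-gp.)
-/

set_option autoImplicit false
set_option linter.style.haveILetI false
set_option maxHeartbeats 1000000

noncomputable section

open AlgebraicCurve

attribute [local instance] Classical.propDecidable

namespace Fermat.Agent.S15.Desc.H83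

open Fermat.Agent.RED.H17 Fermat.Agent.RED Fermat.Agent.BAD

section OneField

variable {k F : Type*} [Field k] [Field F] [Algebra k F]

/-- The value of the constant function `1`. -/
theorem vanAt_one_sub (v : Place k F) : VanAt v ((1 : F) - algebraMap k F 1) := by
  rw [map_one, sub_self]
  exact vanAt_zero v

/-- The value of a constant. -/
theorem vanAt_const_sub (v : Place k F) (a : k) :
    VanAt v (algebraMap k F a - algebraMap k F a) := by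
  rw [sub_self]
  exact vanAt_zero v

/-- The value of a finite product. -/
theorem vanAt_prod_sub {ι : Type*} (v : Place k F) (s : Finset ι) (y : ι → F) (a : ι → k)
    (h : ∀ i ∈ s, VanAt v (y i - algebraMap k F (a i))) :
    VanAt v (∏ i ∈ s, y i - algebraMap k F (∏ i ∈ s, a i)) := by
  induction s using Finset.induction_on with
  | empty =>
    rw [Finset.prod_empty, Finset.prod_empty]
    exact vanAt_one_sub v
  | insert i s hi ih =>
    rw [Finset.prod_insert hi, Finset.prod_insert hi]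
    exact Fermat.Agent.BAD.H28.vanAt_mul_sub (h i (Finset.mem_insert_self i s))
      (ih fun j hj => h j (Finset.mem_insert_of_mem hj))

end OneField

section Tor

variable {K F k F₁ F₂ : Type*} [Field K] [Field F] [Algebra K F] [Field k] [Field F₁]
  [Algebra k F₁] [Field F₂] [Algebra k F₂] (S : SSD K F k F₁ F₂)

/-- `G` is a unit for both valuations, without zero or pole on the fibres of the nodes, all its
orders are divisible by `n`, and its reductions are `ψ₁ ^ n` and `ψ₂ ^ n`. -/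
structure IsTor (n : ℕ) (G : F) (ψ₁ : F₁) (ψ₂ : F₂) : Prop where
  gu₁ : S.c₁.IsGU G
  gu₂ : S.c₂.IsGU G
  rd₁ : S.c₁.rd G = ψ₁ ^ n
  rd₂ : S.c₂.rd G = ψ₂ ^ n
  node : ∀ P : Place K F, S.IsNodeP P → P.ord G = 0
  dvd : ∀ P : Place K F, (n : ℤ) ∣ P.ord G

variable {S}

theorem isTor_one (n : ℕ) : IsTor S n (1 : F) (1 : F₁) (1 : F₂) where
  gu₁ := S.c₁.isGU_one
  gu₂ := S.c₂.isGU_one
  rd₁ := by rw [S.c₁.rd_one, one_pow]
  rd₂ := by rw [S.c₂.rd_one, one_pow]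
  node := fun P _ => Place.ord_one P
  dvd := fun P => by rw [Place.ord_one]; exact dvd_zero _

theorem IsTor.mul {n : ℕ} {G G' : F} {ψ₁ ψ₁' : F₁} {ψ₂ ψ₂' : F₂} (h : IsTor S n G ψ₁ ψ₂)
    (h' : IsTor S n G' ψ₁' ψ₂') : IsTor S n (G * G') (ψ₁ * ψ₁') (ψ₂ * ψ₂') where
  gu₁ := h.gu₁.mul h'.gu₁
  gu₂ := h.gu₂.mul h'.gu₂
  rd₁ := by rw [S.c₁.rd_mul h.gu₁.1 h'.gu₁.1, h.rd₁, h'.rd₁, mul_pow]
  rd₂ := by rw [S.c₂.rd_mul h.gu₂.1 h'.gu₂.1, h.rd₂, h'.rd₂, mul_pow]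
  node := fun P hP => by
    rw [P.ord_mul h.gu₁.ne_zero h'.gu₁.ne_zero, h.node P hP, h'.node P hP, add_zero]
  dvd := fun P => by
    rw [P.ord_mul h.gu₁.ne_zero h'.gu₁.ne_zero]
    exact dvd_add (h.dvd P) (h'.dvd P)

theorem IsTor.pow {n : ℕ} {G : F} {ψ₁ : F₁} {ψ₂ : F₂} (h : IsTor S n G ψ₁ ψ₂) (e : ℕ) :
    IsTor S n (G ^ e) (ψ₁ ^ e) (ψ₂ ^ e) := by
  induction e with
  | zero =>
    rw [pow_zero, pow_zero, pow_zero]
    exact isTor_one n
  | succ e ih =>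
    rw [pow_succ, pow_succ, pow_succ]
    exact ih.mul h

theorem IsTor.prod {n : ℕ} {ι : Type*} (s : Finset ι) (G : ι → F) (ψ₁ : ι → F₁) (ψ₂ : ι → F₂)
    (h : ∀ i ∈ s, IsTor S n (G i) (ψ₁ i) (ψ₂ i)) :
    IsTor S n (∏ i ∈ s, G i) (∏ i ∈ s, ψ₁ i) (∏ i ∈ s, ψ₂ i) := by
  induction s using Finset.induction_on with
  | empty =>
    rw [Finset.prod_empty, Finset.prod_empty, Finset.prod_empty]
    exact isTor_one n
  | insert i s hi ih =>
    rw [Finset.prod_insert hi, Finset.prod_insert hi, Finset.prod_insert hi]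
    exact (h i (Finset.mem_insert_self i s)).mul (ih fun j hj => h j (Finset.mem_insert_of_mem hj))

theorem IsTor.ne₁ {n : ℕ} {G : F} {ψ₁ : F₁} {ψ₂ : F₂} (h : IsTor S n G ψ₁ ψ₂) (hn : n ≠ 0) :
    ψ₁ ≠ 0 := by
  rintro rfl
  have := h.gu₁.2
  rw [h.rd₁, zero_pow hn] at this
  exact this rfl

theorem IsTor.ne₂ {n : ℕ} {G : F} {ψ₁ : F₁} {ψ₂ : F₂} (h : IsTor S n G ψ₁ ψ₂) (hn : n ≠ 0) :
    ψ₂ ≠ 0 := by
  rintro rfl
  have := h.gu₂.2
  rw [h.rd₂, zero_pow hn] at this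
  exact this rfl

/-- The roots `ψ₁`, `ψ₂` have order `0` at the branches of the nodes. -/
theorem IsTor.ord_eq_zero {n : ℕ} {G : F} {ψ₁ : F₁} {ψ₂ : F₂} (h : IsTor S n G ψ₁ ψ₂)
    (hn : n ≠ 0) (hP : HasPrincipalDivisors K F) {s : Place k F₁ × Place k F₂}
    (hs : s ∈ S.nodes) : s.1.ord ψ₁ = 0 ∧ s.2.ord ψ₂ = 0 := by
  obtain ⟨h1, h2⟩ := Fermat.Agent.BAD.H60.ord_rd_eq_zero_of_node S hP h.gu₁ h.gu₂ h.node hs
  rw [h.rd₁, ord_pow] at h1
  rw [h.rd₂, ord_pow] at h2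
  have hnZ : (n : ℤ) ≠ 0 := by exact_mod_cast hn
  exact ⟨(mul_eq_zero.mp h1).resolve_left hnZ, (mul_eq_zero.mp h2).resolve_left hnZ⟩

/-- Change of the root on the second component by an `n`-th root of unity. -/
theorem IsTor.scale₂ {n : ℕ} {G : F} {ψ₁ : F₁} {ψ₂ : F₂} (h : IsTor S n G ψ₁ ψ₂) {z : k}
    (hz : z ^ n = 1) : IsTor S n G ψ₁ (algebraMap k F₂ z * ψ₂) where
  gu₁ := h.gu₁
  gu₂ := h.gu₂
  rd₁ := h.rd₁
  rd₂ := by rw [h.rd₂, mul_pow, ← map_pow, hz, map_one, one_mul]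
  node := h.node
  dvd := h.dvd

end Tor

section Core

variable {K F k F₁ F₂ : Type} [Field K] [Field F] [Algebra K F] [Field k] [Field F₁]
  [Algebra k F₁] [Field F₂] [Algebra k F₂]

/-- **The core**: a function `G` as in `IsTor` such that the roots `ψ₁`, `ψ₂` of its reductions
have the same value at the two branches of every node is an `n`-th power. -/
theorem core (hGL : Stmt_GoodLift) (hTI : Stmt_TIss) [IsAlgClosed K] [Infinite k]
    (S : SSD K F k F₁ F₂) (H : FFHyp K F) (H₁ : FFHyp k F₁) (H₂ : FFHyp k F₂)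
    (g g₁ g₂ : ℕ) (c c₁ c₂ : ℤ) (hR : IsGenus K F g c) (hR₁ : IsGenus k F₁ g₁ c₁)
    (hR₂ : IsGenus k F₂ g₂ c₂) (hnum : g + 1 ≤ g₁ + g₂ + S.nodes.card)
    (n : ℕ) (hn : (n : k) ≠ 0) {G : F} {ψ₁ : F₁} {ψ₂ : F₂} (hG : IsTor S n G ψ₁ ψ₂)
    (hval : ∀ s ∈ S.nodes, ∃ a : k, VanAt s.1 (ψ₁ - algebraMap k F₁ a) ∧
      VanAt s.2 (ψ₂ - algebraMap k F₂ a)) :
    ∃ t : F, t ^ n = G := by
  have hn0 : n ≠ 0 := by
    rintro rfl
    exact hn Nat.cast_zero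
  have hψ₁0 := hG.ne₁ hn0
  have hψ₂0 := hG.ne₂ hn0
  obtain ⟨u, hu1, hu2, hrdu₁, hrdu₂, -, -, hureg⟩ := hGL K F k F₁ F₂ S H H₁ H₂ g g₁ g₂ c c₁ c₂
    hR hR₁ hR₂ hnum ψ₁ ψ₂ ∅ ∅ (fun Q hQ => absurd hQ (Finset.notMem_empty Q))
    (fun Q hQ => absurd hQ (Finset.notMem_empty Q)) hval
  have huGU₁ : S.c₁.IsGU u := ⟨hu1, by rw [hrdu₁]; exact hψ₁0⟩
  have huGU₂ : S.c₂.IsGU u := ⟨hu2, by rw [hrdu₂]; exact hψ₂0⟩
  have hu0 : u ≠ 0 := huGU₁.ne_zero
  have hunode : ∀ P, S.IsNodeP P → P.ord u = 0 :=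
    Fermat.Agent.BAD.H60.ord_eq_zero_of_isNodeP S H.principal huGU₁ huGU₂ hureg
      (fun s hs => by rw [hrdu₁]; exact (hG.ord_eq_zero hn0 H.principal hs).1)
      (fun s hs => by rw [hrdu₂]; exact (hG.ord_eq_zero hn0 H.principal hs).2)
  set gg : F := G / u ^ n with hgg
  have hgg₁ : S.c₁.IsGU gg := hG.gu₁.div (huGU₁.pow n)
  have hgg₂ : S.c₂.IsGU gg := hG.gu₂.div (huGU₂.pow n)
  have hggrd₁ : S.c₁.rd gg = 1 := by
    rw [hG.gu₁.rd_div (huGU₁.pow n), hG.rd₁, S.c₁.rd_pow hu1, hrdu₁,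
      div_self (pow_ne_zero _ hψ₁0)]
  have hggrd₂ : S.c₂.rd gg = 1 := by
    rw [hG.gu₂.rd_div (huGU₂.pow n), hG.rd₂, S.c₂.rd_pow hu2, hrdu₂,
      div_self (pow_ne_zero _ hψ₂0)]
  have hordg : ∀ P : Place K F, P.ord gg = P.ord G - n * P.ord u := by
    intro P
    rw [hgg, ord_div P hG.gu₁.ne_zero (pow_ne_zero _ hu0), ord_pow]
  have hdivg : ∀ P : Place K F, (n : ℤ) ∣ P.ord gg := by
    intro P
    rw [hordg]
    exact dvd_sub (hG.dvd P) (dvd_mul_right _ _)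
  have hnodeg : ∀ P : Place K F, S.IsNodeP P → P.ord gg = 0 := by
    intro P hP
    rw [hordg, hG.node P hP, hunode P hP]
    ring
  obtain ⟨t, ht⟩ := hTI K F k F₁ F₂ S H H₁ H₂ g g₁ g₂ c c₁ c₂ hR hR₁ hR₂ hnum n hn gg
    hgg₁.1 hgg₂.1 hggrd₁ hggrd₂ hdivg hnodeg
  refine ⟨t * u, ?_⟩
  rw [mul_pow, ht, hgg, div_mul_cancel₀ _ (pow_ne_zero _ hu0)]

end Core

end Fermat.Agent.S15.Desc.H83
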