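import Fermat.Agent.BAD.H60_GoodLift
import Fermat.Agent.BAD.H17_Pivot

/-!
# S15 / DESC, leaf GLUE-dim (helper83), abstract part 3: the number of nodes

For a semistable Deuring datum `S` (two components, `δ` nodes) with Riemann's theorem for the
three function fields (genera `g`, `g₁`, `g₂`):

* `nodes_card_le` : if `g + 1 ≤ g₁ + g₂ + δ` then `g₁ + g₂ + δ ≤ g + 1`, hence
  `g + 1 = g₁ + g₂ + δ` (`genus_formula`).

Proof: the trivial twist and `G = M (P₁ + P₂)` with `P_i` over a regular point of the `i`-th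
component, `M` large: `deg G + 1 - g ≤ l(G)` (Riemann), `l(G) ≤ dim Rsub(G)` (pivot),
`Rsub(G) = Λ` and `dim Λ = deg G + 2 - g₁ - g₂ - δ` (surjectivity of the reduction).
-/

set_option autoImplicit false
set_option linter.style.haveILetI false

noncomputable section

open AlgebraicCurve

attribute [local instance] Classical.propDecidable

namespace Fermat.Agent.S15.Desc.H83

open Fermat.Agent.RED.H17 Fermat.Agent.RED Fermat.Agent.BAD

local notation "L" => riemannRochSpace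

/-- **The number of nodes is at most `g + 1 - g₁ - g₂`.** -/
theorem nodes_card_le (hTS : Stmt_TwSurj) (hPiv : Stmt_Pivot)
    {K F k F₁ F₂ : Type} [Field K] [Field F] [Algebra K F] [Field k] [Field F₁]
    [Algebra k F₁] [Field F₂] [Algebra k F₂] [Infinite k]
    (S : SSD K F k F₁ F₂) (H : FFHyp K F) (H₁ : FFHyp k F₁) (H₂ : FFHyp k F₂)
    (g g₁ g₂ : ℕ) (c c₁ c₂ : ℤ) (hR : IsGenus K F g c) (hR₁ : IsGenus k F₁ g₁ c₁)
    (hR₂ : IsGenus k F₂ g₂ c₂) (hnum : g + 1 ≤ g₁ + g₂ + S.nodes.card) :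
    g₁ + g₂ + S.nodes.card ≤ g + 1 := by
  obtain ⟨Q₁, hQ₁⟩ := H₁.exists_notMem S.br₁
  obtain ⟨Q₂, hQ₂⟩ := H₂.exists_notMem S.br₂
  have hg₁ : Q₁ ∈ S.c₁.good := (H60.not_mem_br₁_iff S Q₁).mp hQ₁
  have hg₂ : Q₂ ∈ S.c₂.good := (H60.not_mem_br₂_iff S Q₂).mp hQ₂
  obtain ⟨P₁, hP₁⟩ := S.c₁.r_surjective H.principal Q₁ hg₁
  obtain ⟨P₂, hP₂⟩ := S.c₂.r_surjective H.principal Q₂ hg₂
  have hP₁₂ : S.c₂.r P₁ = none := H60.r₂_eq_none_of_r₁ S hg₁ hP₁
  have hP₂₁ : S.c₁.r P₂ = none := H60.r₁_eq_none_of_r₂ S hg₂ hP₂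
  set M : ℕ := (c₁ + S.nodes.card).toNat + (c₂ + S.nodes.card).toNat with hM
  set G : Divisor K F := M • (Finsupp.single P₁ 1 + Finsupp.single P₂ 1) with hGdef
  have hpush₁ : S.push₁ G = M • Finsupp.single Q₁ 1 := by
    rw [H60.push₁_eq, hGdef, H60.pushOpt_nsmul, H60.pushOpt_add,
      H60.pushOpt_single_some _ hP₁, H60.pushOpt_single_none _ hP₂₁, add_zero]
  have hpush₂ : S.push₂ G = M • Finsupp.single Q₂ 1 := by
    rw [H60.push₂_eq, hGdef, H60.pushOpt_nsmul, H60.pushOpt_add,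
      H60.pushOpt_single_none _ hP₁₂, H60.pushOpt_single_some _ hP₂, zero_add]
  have hG : S.GoodPos G := by
    intro P hP hnode
    obtain ⟨s, hs, hsP⟩ := hnode
    have hcase : P = P₁ ∨ P = P₂ := by
      by_contra hcon
      rw [not_or] at hcon
      apply hP
      rw [hGdef, Finsupp.smul_apply, Finsupp.add_apply, Finsupp.single_apply,
        Finsupp.single_apply, if_neg (Ne.symm hcon.1), if_neg (Ne.symm hcon.2), add_zero,
        smul_zero]
    rcases hcase with rfl | rfl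
    · rw [hP₁] at hsP
      exact (S.good₁ Q₁).mp hg₁ s hs (Option.some.inj hsP).symm
    · rw [hP₂₁] at hsP
      exact absurd hsP (by simp)
  have hMle₁ : c₁ + S.nodes.card ≤ (M : ℤ) := by
    have h1 := Int.self_le_toNat (c₁ + S.nodes.card)
    have h2 : ((c₁ + S.nodes.card).toNat : ℤ) ≤ (M : ℤ) := by
      exact_mod_cast (by omega : (c₁ + S.nodes.card).toNat ≤ M)
    omega
  have hMle₂ : c₂ + S.nodes.card ≤ (M : ℤ) := by
    have h1 := Int.self_le_toNat (c₂ + S.nodes.card)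
    have h2 : ((c₂ + S.nodes.card).toNat : ℤ) ≤ (M : ℤ) := by
      exact_mod_cast (by omega : (c₂ + S.nodes.card).toNat ≤ M)
    omega
  have hd₁ : c₁ + S.nodes.card ≤ Divisor.degree (S.push₁ G) := by
    rw [hpush₁, map_nsmul, Divisor.degree_single, H₁.deg_one, nsmul_eq_mul]
    simpa using hMle₁
  have hd₂ : c₂ + S.nodes.card ≤ Divisor.degree (S.push₂ G) := by
    rw [hpush₂, map_nsmul, Divisor.degree_single, H₂.deg_one, nsmul_eq_mul]
    simpa using hMle₂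
  obtain ⟨lam, -, hRL, hcount⟩ := hTS K F k F₁ F₂ S H H₁ H₂ g g₁ g₂ c c₁ c₂ hR hR₁ hR₂ hnum 1
    (by rw [Nat.cast_one]; exact one_ne_zero) (H60.trivTwist S) G hG hd₁ hd₂
  have hfin : Module.Finite k
      (S.Rsub (H60.trivTwist S).ϑ ((H60.trivTwist S).Dx H.principal + G)) := by
    rw [hRL]
    exact H60.finite_Lam S H₁ H₂ _ _ _
  have hpiv := hPiv K F k F₁ F₂ S H H₁ H₂ (H60.trivTwist S).ϑ (H60.trivTwist S).hϑ _ hfin
  rw [hRL] at hpiv
  have hri := (hR ((H60.trivTwist S).Dx H.principal + G)).1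
  rw [H60.trivTwist_Dx, zero_add] at hri hpiv
  have hpiv' : (Module.finrank K (L G) : ℤ) ≤
      (Module.finrank k (S.Lam lam (S.push₁ G)
        (S.push₂ G + (H60.trivTwist S).Δ H₂.principal)) : ℤ) := by
    exact_mod_cast hpiv
  rw [hcount] at hpiv'
  omega

/-- **The genus formula** of a semistable Deuring datum with enough nodes. -/
theorem genus_formula (hTS : Stmt_TwSurj) (hPiv : Stmt_Pivot)
    {K F k F₁ F₂ : Type} [Field K] [Field F] [Algebra K F] [Field k] [Field F₁]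
    [Algebra k F₁] [Field F₂] [Algebra k F₂] [Infinite k]
    (S : SSD K F k F₁ F₂) (H : FFHyp K F) (H₁ : FFHyp k F₁) (H₂ : FFHyp k F₂)
    (g g₁ g₂ : ℕ) (c c₁ c₂ : ℤ) (hR : IsGenus K F g c) (hR₁ : IsGenus k F₁ g₁ c₁)
    (hR₂ : IsGenus k F₂ g₂ c₂) (hnum : g + 1 ≤ g₁ + g₂ + S.nodes.card) :
    g + 1 = g₁ + g₂ + S.nodes.card :=
  le_antisymm hnum
    (nodes_card_le hTS hPiv S H H₁ H₂ g g₁ g₂ c c₁ c₂ hR hR₁ hR₂ hnum)

end Fermat.Agent.S15.Desc.H83
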