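import Fermat.Agent.S15.Desc.H83_GlueRel
import Fermat.Agent.S15.Desc.H83_GlueNodes
import Fermat.Agent.S15.Desc.H69_Tors
import Fermat.Agent.BAD.ABS
import Fermat.Agent.BAD.H28_ABS
import Fermat.Agent.BAD.H90_TwistExists

/-!
# S15 / DESC, leaf GLUE-dim (helper83), abstract part 4: the dimension of the toric part

* `nthPowMod_of_genus_zero` : `NthPowMod k F₂ n` if `F₂` has genus `0`.
* `finrank_span_lt` : linear algebra over `ZMod r`: if any `δ` elements of `X` satisfy a
  non-trivial relation, then `dim span X < δ`.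
* `pic0_relation` : a multiplicative relation `t ^ n = ∏ f i ^ e i` between Kummer functions
  gives the relation `∑ e i • [D i] = 0` in `Pic⁰`.
* `finrank_span_kummer_lt` : for a semistable Deuring datum with `g₂ = 0`, the span in
  `Pic⁰(F)[r]` of the classes with a Kummer function `≡ 1` on the first component has dimension
  `< δ` (the number of nodes).
-/

set_option autoImplicit false
set_option linter.style.haveILetI false
set_option maxHeartbeats 1000000

noncomputable section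

open AlgebraicCurve

attribute [local instance] Classical.propDecidable

namespace Fermat.Agent.S15.Desc.H83

open Fermat.Agent.RED.H17 Fermat.Agent.RED Fermat.Agent.BAD

local notation "L" => riemannRochSpace

/-! ### Genus zero -/

/-- In genus `0` every function whose divisor is divisible by `n` is a constant times an `n`-th
power. -/
theorem nthPowMod_of_genus_zero {k F₂ : Type} [Field k] [Field F₂] [Algebra k F₂]
    (H₂ : FFHyp k F₂) {c₂ : ℤ} (hR₂ : IsGenus k F₂ 0 c₂) (n : ℕ) (hn : n ≠ 0) :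
    NthPowMod k F₂ n := by
  intro γ hγ hdiv
  set E : Divisor k F₂ := dv H₂.principal γ with hE
  set D : Divisor k F₂ := E.mapRange (fun m : ℤ => m / (n : ℤ)) (by simp) with hD
  have hDv : ∀ v : Place k F₂, (n : ℤ) * D v = v.ord γ := by
    intro v
    rw [hD, H60.mapRange_div_apply, hE, dv_apply]
    exact Int.mul_ediv_cancel' (hdiv v)
  have hdeg : Divisor.degree D = 0 :=
    H60.degree_mapRange_div E n hn (fun v => by rw [hE, dv_apply]; exact hdiv v)
      (degree_dv _ _)
  have hl := (hR₂ D).1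
  rw [hdeg] at hl
  have hpos : 0 < Module.finrank k (L D) := by
    have : (1 : ℤ) ≤ (Module.finrank k (L D) : ℤ) := by
      simpa using hl
    exact_mod_cast this
  haveI := H₂.finite D
  obtain ⟨φ, hφ0⟩ : ∃ φ : L D, φ ≠ 0 := Module.finrank_pos_iff_exists_ne_zero.mp hpos
  have hφne : (φ : F₂) ≠ 0 := fun h => hφ0 (Subtype.ext h)
  have hord : ∀ v : Place k F₂, -D v ≤ v.ord (φ : F₂) := ord_ge_of_mem_L φ.2 hφne
  have hreg : ∀ v : Place k F₂, 0 ≤ v.ord (γ * (φ : F₂) ^ n) := by
    intro v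
    rw [v.ord_mul hγ (pow_ne_zero n hφne), Fermat.Agent.RED.H17.ord_pow, ← hDv v]
    have h1 := hord v
    have h2 : (0 : ℤ) ≤ (n : ℤ) * (D v + v.ord (φ : F₂)) :=
      mul_nonneg (Int.natCast_nonneg n) (by omega)
    rw [mul_add] at h2
    exact h2
  obtain ⟨a, ha⟩ := H₂.const_of_regular hreg
  refine ⟨a, (φ : F₂)⁻¹, ?_⟩
  rw [← ha, inv_pow, mul_assoc, mul_inv_cancel₀ (pow_ne_zero n hφne), mul_one]

/-! ### Linear algebra -/

/-- If any `δ` distinct elements of `X` satisfy a non-trivial linear relation over `ZMod r`, then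
the span of `X` has dimension `< δ`. -/
theorem finrank_span_lt {r : ℕ} [Fact r.Prime] {V : Type*} [AddCommGroup V]
    [Module (ZMod r) V] (X : Set V) (δ : ℕ)
    (hrel : ∀ x : Fin δ → V, (∀ i, x i ∈ X) →
      ∃ e : Fin δ → ℕ, (∃ i, ¬ r ∣ e i) ∧ ∑ i, e i • x i = 0) :
    Module.finrank (ZMod r) ↥(Submodule.span (ZMod r) X) < δ := by
  by_contra hcon
  rw [not_lt] at hcon
  obtain ⟨b, hbX, hspan, hli0⟩ := exists_linearIndependent (ZMod r) X
  have hli : LinearIndepOn (ZMod r) id b := hli0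
  -- a finite subset of `b` with `δ` elements
  have hex : ∃ t : Finset V, (↑t : Set V) ⊆ b ∧ t.card = δ := by
    by_cases hfin : b.Finite
    · haveI : Fintype ↥b := hfin.fintype
      have hcard : Module.finrank (ZMod r) ↥(Submodule.span (ZMod r) b) = b.toFinset.card :=
        finrank_span_set_eq_card hli
      rw [hspan] at hcard
      rw [hcard] at hcon
      obtain ⟨t, ht, htc⟩ := Finset.exists_subset_card_eq hcon
      refine ⟨t, ?_, htc⟩
      intro v hv
      exact Set.mem_toFinset.mp (ht hv)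
    · exact Set.Infinite.exists_subset_card_eq hfin δ
  obtain ⟨t, htb, htc⟩ := hex
  have hlit : LinearIndependent (ZMod r) (Subtype.val : (↑t : Set V) → V) :=
    LinearIndepOn.mono hli htb
  let ε : Fin δ ≃ ↥t := (Finset.equivFinOfCardEq htc).symm
  have hlif : LinearIndependent (ZMod r) (fun i : Fin δ => ((ε i : ↥t) : V)) :=
    hlit.comp (fun i => (⟨(ε i : V), (ε i).2⟩ : (↑t : Set V)))
      (fun i j hij => ε.injective (Subtype.ext (congrArg Subtype.val hij)))
  obtain ⟨e, ⟨i₀, hi₀⟩, hsum⟩ := hrel (fun i => ((ε i : ↥t) : V))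
    (fun i => hbX (htb (ε i).2))
  have hsum' : ∑ i, ((e i : ℕ) : ZMod r) • ((ε i : ↥t) : V) = 0 := by
    rw [← hsum]
    refine Finset.sum_congr rfl fun i _ => ?_
    rw [Nat.cast_smul_eq_nsmul]
  have h0 := Fintype.linearIndependent_iff.mp hlif (fun i => ((e i : ℕ) : ZMod r)) hsum' i₀
  exact hi₀ ((ZMod.natCast_eq_zero_iff _ _).mp h0)

/-! ### The relation in `Pic⁰` -/

section Pic

variable {K F : Type*} [Field K] [Field F] [Algebra K F]

/-- A multiplicative relation between Kummer functions gives a linear relation between their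
classes. -/
theorem pic0_relation {n : ℕ} (hn : n ≠ 0) {m : ℕ}
    (D : Fin m → Divisor.degZero (K := K) (F := F)) (f : Fin m → F) (hf0 : ∀ i, f i ≠ 0)
    (hD : ∀ i, ∀ P : Place K F, (n : ℤ) * (D i : Divisor K F) P = P.ord (f i))
    (e : Fin m → ℕ) (t : F) (ht : t ^ n = ∏ i, f i ^ e i) :
    ∑ i, e i • Pic0.mk (D i) = 0 := by
  have hprod0 : ∏ i, f i ^ e i ≠ 0 :=
    Finset.prod_ne_zero_iff.mpr fun i _ => pow_ne_zero _ (hf0 i)
  have ht0 : t ≠ 0 := by
    rintro rfl
    rw [zero_pow hn] at ht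
    exact hprod0 ht.symm
  have hmk : ∑ i, e i • Pic0.mk (D i) = Pic0.mk (∑ i, e i • D i) := by
    show _ = (QuotientAddGroup.mk' _) (∑ i, e i • D i)
    rw [map_sum]
    refine Finset.sum_congr rfl fun i _ => ?_
    rw [map_nsmul]
    rfl
  rw [hmk]
  show (QuotientAddGroup.mk (∑ i, e i • D i) : Pic0 K F) = 0
  rw [QuotientAddGroup.eq_zero_iff, AddSubgroup.mem_addSubgroupOf, Divisor.mem_principal]
  refine ⟨t, ht0, fun P => ?_⟩
  have hn' : (n : ℤ) ≠ 0 := by exact_mod_cast hn
  apply mul_left_cancel₀ hn'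
  have h1 : (n : ℤ) * P.ord t = ∑ i, (e i : ℤ) * P.ord (f i) := by
    rw [← Fermat.Agent.RED.H17.ord_pow, ht,
      Fermat.Agent.RED.H17.ord_prod P Finset.univ (fun i => f i ^ e i)
        (fun i _ => pow_ne_zero _ (hf0 i))]
    refine Finset.sum_congr rfl fun i _ => ?_
    rw [Fermat.Agent.RED.H17.ord_pow]
  rw [h1]
  have h2 : ((∑ i, e i • D i : Divisor.degZero (K := K) (F := F)) : Divisor K F) P =
      ∑ i, (e i : ℤ) * (D i : Divisor K F) P := by
    rw [AddSubmonoidClass.coe_finsetSum, Finsupp.finsetSum_apply]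
    refine Finset.sum_congr rfl fun i _ => ?_
    rw [AddSubgroup.coe_nsmul, Finsupp.smul_apply, nsmul_eq_mul]
  rw [h2, Finset.mul_sum]
  refine Finset.sum_congr rfl fun i _ => ?_
  rw [← hD i P]
  ring

end Pic

/-! ### The dimension of the toric part, abstract form -/

section Toric

variable {K F k F₁ F₂ : Type} [Field K] [Field F] [Algebra K F] [Field k] [Field F₁]
  [Algebra k F₁] [Field F₂] [Algebra k F₂]

/-- The classes of `Pic⁰(F)[r]` with a Kummer function `≡ 1` on the first component. -/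
def kummerSet (S : SSD K F k F₁ F₂) (r : ℕ) : Set (TorsR (Pic0 K F) r) :=
  {v | ∃ (D : Divisor.degZero (K := K) (F := F)) (f : F) (hf : f ∈ S.c₁.V),
    (v : Pic0 K F) = Pic0.mk D ∧ S.c₁.red ⟨f, hf⟩ = 1 ∧
    ∀ P : Place K F, (r : ℤ) * (D : Divisor K F) P = P.ord f}

/-- **The relation between `δ` Kummer classes**, for a semistable Deuring datum whose second
component has genus `0`. -/
theorem kummer_relation [IsAlgClosed K] [IsAlgClosed k]
    (S : SSD K F k F₁ F₂) (H : FFHyp K F) (H₁ : FFHyp k F₁) (H₂ : FFHyp k F₂)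
    (g g₁ : ℕ) (c c₁ c₂ : ℤ) (hR : IsGenus K F g c) (hR₁ : IsGenus k F₁ g₁ c₁)
    (hR₂ : IsGenus k F₂ 0 c₂) (hnum : g + 1 ≤ g₁ + 0 + S.nodes.card)
    (r : ℕ) (hrp : r.Prime) (hr : (r : k) ≠ 0)
    (x : Fin S.nodes.card → TorsR (Pic0 K F) r) (hx : ∀ i, x i ∈ kummerSet S r) :
    ∃ e : Fin S.nodes.card → ℕ, (∃ i, ¬ r ∣ e i) ∧ ∑ i, e i • x i = 0 := by
  choose D f hf hxD hf1 hDf using hx
  have hf0 : ∀ i, f i ≠ 0 := by
    intro i h0
    have h1 := hf1 i
    have h2 : S.c₁.red ⟨f i, hf i⟩ = 0 := by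
      have : (⟨f i, hf i⟩ : S.c₁.V) = 0 := Subtype.ext h0
      rw [this, map_zero]
    rw [h2] at h1
    exact zero_ne_one h1
  obtain ⟨e, hi, t, ht⟩ := exists_relation H90.stmt_TwistExists stmt_Moving H28.stmt_GoodLift
    H28.stmt_TIss S H H₁ H₂ g g₁ 0 c c₁ c₂ hR hR₁ hR₂ hnum r hrp.two_le hr
    (nthPowMod_of_genus_zero H₂ hR₂ r hrp.ne_zero) S.nodes.card le_rfl f hf hf1
    (fun i P => ⟨(D i : Divisor K F) P, (hDf i P).symm⟩)
  refine ⟨e, hi, ?_⟩
  apply Subtype.ext
  have hrel := pic0_relation hrp.ne_zero D f hf0 hDf e t ht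
  have hcoe : ((∑ i, e i • x i : TorsR (Pic0 K F) r) : Pic0 K F) =
      ∑ i, e i • Pic0.mk (D i) := by
    rw [AddSubmonoidClass.coe_finsetSum]
    refine Finset.sum_congr rfl fun i _ => ?_
    rw [AddSubgroup.coe_nsmul, hxD i]
  rw [hcoe, hrel]
  rfl

/-- **The toric part has dimension `< δ`**: for a semistable Deuring datum whose second
component has genus `0`, the span of any set of Kummer classes has dimension less than the
number of nodes. -/
theorem finrank_span_kummer_lt [IsAlgClosed K] [IsAlgClosed k]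
    (S : SSD K F k F₁ F₂) (H : FFHyp K F) (H₁ : FFHyp k F₁) (H₂ : FFHyp k F₂)
    (g g₁ : ℕ) (c c₁ c₂ : ℤ) (hR : IsGenus K F g c) (hR₁ : IsGenus k F₁ g₁ c₁)
    (hR₂ : IsGenus k F₂ 0 c₂) (hnum : g + 1 ≤ g₁ + 0 + S.nodes.card)
    (r : ℕ) [Fact r.Prime] (hr : (r : k) ≠ 0)
    (X : Set (TorsR (Pic0 K F) r)) (hX : X ⊆ kummerSet S r) :
    Module.finrank (ZMod r) ↥(Submodule.span (ZMod r) X) < S.nodes.card :=
  finrank_span_lt X S.nodes.card fun x hx =>
    kummer_relation S H H₁ H₂ g g₁ c c₁ c₂ hR hR₁ hR₂ hnum r Fact.out hr x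
      (fun i => hX (hx i))

end Toric

end Fermat.Agent.S15.Desc.H83
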