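import Fermat.Agent.S15.Desc.H83_GlueLin
import Fermat.Agent.S15.Desc.H63_VtWire
import Fermat.Agent.BAD.H91_ModSSD
import Fermat.Agent.BAD.H23_TotMod
import Fermat.Agent.S20

/-!
# S15 / DESC, leaf GLUE-dim (helper83): the modular instantiation

Level `N = 1 * q`, `q ≥ 5` prime, `A` a valuation ring of `ℚ̄` over `q`.

* `modSSD_open` : the modular semistable Deuring datum of level `M q` (helper91's `modSSD_body`)
  in TRANSPARENT form: the two residue fields are `F1 A q M`, and the number of nodes satisfies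
  `genusFormula (M q) + 1 ≤ 2 genusFormula M + δ`.
* `genus_F1_one` : at `M = 1` the genus of the components is `0` and `δ = g + 1`
  (abstract genus formula `H83.genus_formula` + NUM).
* `finrank_toricSub_le` : `dim T ≤ g = dim S₂(Γ₀(q))`.
* `stmt_GLUEdim_of_rank` : `Stmt_GLUEdim p r` from the lower bound `2 dim S₂ ≤ dim J₀(p)[r]`.
-/

set_option autoImplicit false
set_option linter.style.haveILetI false
set_option synthInstance.maxHeartbeats 400000
set_option maxHeartbeats 1000000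

noncomputable section

open HahnSeries IntermediateField AlgebraicCurve ModularCurve
open Fermat.Agent.S28.H73 Fermat.Agent.RED.H73 Fermat.Agent.RED Fermat.Agent.S24
open Fermat.Agent.BAD.H88

namespace Fermat.Agent.S15.Desc.H83

open Fermat.Agent.BAD

/-- **The modular semistable Deuring datum of level `M q`, transparent form.** -/
theorem modSSD_open (A : ValuationSubring Kbar) (q M : ℕ) (a b : ℤ)
    (hab : a * q + b * M = 1) (hq : q.Prime) [NeZero M] [NeZero (M * q)] [NeZero q]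
    (hA : A.LiesOverPrime q) (hqM : ¬ q ∣ M) (ht : H91.TameAt M q) :
    ∃ (S : SSD Kbar (FN (M * q)) (kV A) (F1 A q M) (F1 A q M))
      (_ : RED.H17.FFHyp Kbar (FN (M * q))) (_ : RED.H17.FFHyp (kV A) (F1 A q M))
      (g g₁ : ℕ) (c c₁ : ℤ),
      RED.H17.IsGenus Kbar (FN (M * q)) g c ∧ RED.H17.IsGenus (kV A) (F1 A q M) g₁ c₁ ∧
      g + 1 ≤ g₁ + g₁ + S.nodes.card ∧
      genusFormula (M * q) + 1 ≤ 2 * genusFormula M + (S.nodes.card : ℚ) ∧
      (∀ f : FN (M * q), f ∈ gaussV A (M * q) → f ∈ S.c₁.V) ∧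
      (∀ (f : ↥(gaussV A (M * q))) (hf : (f : FN (M * q)) ∈ S.c₁.V),
        gaussRes A (M * q) f = 1 → S.c₁.red ⟨(f : FN (M * q)), hf⟩ = 1) := by
  haveI : IsAlgClosed (kV A) := isAlgClosed_kV A
  have hFFL : IsFF Kbar ↥(FNbar (M * q)) := H95.stmt_HKA_isFF (M * q)
  have hFF1 : IsFF (kV A) (F1 A q M) := H91.isFF_F1 a b hab hq hA hqM ht
  have H := RED.H17.ffHyp_of_isFF _ _ hFFL
  have H₁ := RED.H17.ffHyp_of_isFF _ _ hFF1
  obtain ⟨g, c, hg⟩ := RED.H17.exists_isGenus _ _ hFFL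
  obtain ⟨g₁, c₁, hg₁⟩ := RED.H17.exists_isGenus _ _ hFF1
  have hg₁' : RED.H17.IsGenus (kV A) ↥(H91.redM A M) g₁ c₁ :=
    H91.isGenus_congr (H82.redField_eq_redField q M a b hab hq A hA) hg₁
  obtain ⟨Z, hZne, hZc, hZo, hnum⟩ :=
    Fermat.Agent.BAD.H30.num_final_tame M q hq ht hqM A hA (Dvd.intro_left M rfl)
  have htot := H23.tot_mod A q M a b hab hq hA hqM ht
    (H82.redField_eq_fullC q M a b hab hq A hA)
  have hZ' : ∀ z ∈ Z.map (H91.kappa A q M a b hab hq hA).symm.toEmbedding,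
      (H91.modT a b hab hq hA hqM ht
        (H73.betaF1 A q M hq hA M (H82.redField_eq_fullC q M a b hab hq A hA)) htot).IsNode z := by
    intro z hz
    obtain ⟨z₀, hz₀, rfl⟩ := Finset.mem_map.mp hz
    exact H91.isNode_modT a b hab hq hA hqM ht _ htot _ z₀ (hZc z₀ hz₀) (hZo z₀ hz₀)
  have hne : ∃ z, (H91.modT a b hab hq hA hqM ht
      (H73.betaF1 A q M hq hA M (H82.redField_eq_fullC q M a b hab hq A hA)) htot).IsNode z := by
    obtain ⟨z, hz⟩ := hZne.map (f := (H91.kappa A q M a b hab hq hA).symm.toEmbedding)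
    exact ⟨z, hZ' z hz⟩
  have hcard := (H91.modT a b hab hq hA hqM ht
      (H73.betaF1 A q M hq hA M (H82.redField_eq_fullC q M a b hab hq A hA))
      htot).card_le_toSSD_nodes H.principal H.deg_one H₁.principal H₁.deg_one H₁.deg_one hne _ hZ'
  rw [Finset.card_map] at hcard
  have hnum' : g + 1 ≤ g₁ + g₁ + Z.card :=
    Fermat.Agent.BAD.H17.genus_ineq hq hqM ht hA hg hg₁' Z.card hnum
  refine ⟨(H91.modT a b hab hq hA hqM ht
      (H73.betaF1 A q M hq hA M (H82.redField_eq_fullC q M a b hab hq A hA))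
      htot).toSSD H.principal H.deg_one H₁.principal H₁.deg_one H₁.deg_one hne,
    H, H₁, g, g₁, c, c₁, hg, hg₁, by omega, ?_, fun f hf => hf, fun f hf h1 => h1⟩
  have hcQ : (Z.card : ℚ) ≤ (((H91.modT a b hab hq hA hqM ht
      (H73.betaF1 A q M hq hA M (H82.redField_eq_fullC q M a b hab hq A hA))
      htot).toSSD H.principal H.deg_one H₁.principal H₁.deg_one H₁.deg_one hne).nodes.card : ℚ) := by
    exact_mod_cast hcard
  linarith

/-- **GLUE-dim at level `1 * q`**, from the lower bound for the rank of the torsion. -/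
theorem gluedim_level (q r : ℕ) (hq : q.Prime) (hq5 : 5 ≤ q) (hr : r.Prime) (hqr : q ≠ r)
    (A : ValuationSubring Kbar) (hA : A.LiesOverPrime q)
    (hrank : 2 * Module.finrank ℂ (CuspForm (CongruenceSubgroup.Gamma0 (1 * q)) 2) ≤
      Module.finrank (ZMod r) (TorsR (JZero (1 * q)) r)) :
    2 * Module.finrank (ZMod r) ↥(H63.toricSub A (1 * q) r) ≤
      Module.finrank (ZMod r) (TorsR (JZero (1 * q)) r) := by
  haveI : Fact r.Prime := ⟨hr⟩
  haveI : NeZero (1 : ℕ) := ⟨one_ne_zero⟩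
  haveI : NeZero q := ⟨hq.ne_zero⟩
  haveI : NeZero (1 * q) := ⟨by rw [one_mul]; exact hq.ne_zero⟩
  haveI : IsAlgClosed (kV A) := isAlgClosed_kV A
  haveI : Infinite (kV A) := IsAlgClosed.instInfinite
  have hqM : ¬ q ∣ 1 := fun h => hq.one_lt.ne' (Nat.dvd_one.mp h)
  have hab : (0 : ℤ) * (q : ℤ) + 1 * ((1 : ℕ) : ℤ) = 1 := by simp
  obtain ⟨S, H, H₁, g, g₁, c, c₁, hg, hg₁, hnum, hnumQ, hV, hred⟩ :=
    modSSD_open A q 1 0 1 hab hq hA hqM (Or.inl hq5)
  -- `g + 1 ≤ δ`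
  have h1q : 1 < 1 * q := by rw [one_mul]; exact hq.one_lt
  have hgQ : (g : ℚ) = genusFormula (1 * q) :=
    Fermat.Agent.BAD.H17.genus_FN_eq (1 * q) h1q hg
  rw [asm_genusFormula_one, mul_zero, zero_add, ← hgQ] at hnumQ
  have hδ : g + 1 ≤ S.nodes.card := by exact_mod_cast hnumQ
  -- the genus formula
  have hgf := genus_formula H28.stmt_TwSurj H17.stmt_Pivot S H H₁ H₁ g g₁ g₁ c c₁ c₁ hg hg₁ hg₁
    hnum
  have hg₁0 : g₁ = 0 := by omega
  subst hg₁0
  -- the toric part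
  have hrq : ¬ q ∣ r := fun hd => hqr ((Nat.prime_dvd_prime_iff_eq hq hr).1 hd)
  have hlt : Module.finrank (ZMod r) ↥(H63.toricSub A (1 * q) r) < S.nodes.card := by
    unfold H63.toricSub
    refine finrank_span_kummer_lt S H H₁ H₁ g 0 c c₁ c₁ hg hg₁ hg₁ hnum r
      (H91.natCast_kV_ne_zero A hq hA hrq) _ ?_
    rintro v ⟨D, f, hxD, hres, hDf⟩
    exact ⟨D, (f : FN (1 * q)), hV _ f.2, hxD, hred f _ hres, hDf⟩
  -- `g = dim S₂`
  have hS20 := Fermat.Agent.S20.result (1 * q)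
  have hdim : g = Module.finrank ℂ (CuspForm (CongruenceSubgroup.Gamma0 (1 * q)) 2) := by
    have : (g : ℚ) = (Module.finrank ℂ (CuspForm (CongruenceSubgroup.Gamma0 (1 * q)) 2) : ℚ) :=
      hgQ.trans hS20.symm
    exact_mod_cast this
  omega

/-- **GLUE-dim at the level `N = q`** (`q ≥ 5`). -/
theorem gluedim_of_eq (N q r : ℕ) (hN : N = 1 * q) (hq : q.Prime) (hq5 : 5 ≤ q) (hr : r.Prime)
    (hqr : q ≠ r) (A : ValuationSubring Kbar) (hA : A.LiesOverPrime q)
    (hrank : 2 * Module.finrank ℂ (CuspForm (CongruenceSubgroup.Gamma0 N) 2) ≤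
      Module.finrank (ZMod r) (TorsR (JZero N) r)) :
    2 * Module.finrank (ZMod r) ↥(H63.toricSub A N r) ≤
      Module.finrank (ZMod r) (TorsR (JZero N) r) := by
  subst hN
  exact gluedim_level q r hq hq5 hr hqr A hA hrank

/-- **(GLUE-dim)** from the lower bound `2 dim S₂(Γ₀(p)) ≤ dim J₀(p)[r]`. -/
theorem stmt_GLUEdim_of_rank (p r : ℕ) (hp : p.Prime) (hp5 : 5 ≤ p) (hr : r.Prime)
    (hpr : p ≠ r)
    (hrank : 2 * Module.finrank ℂ (CuspForm (CongruenceSubgroup.Gamma0 p) 2) ≤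
      Module.finrank (ZMod r) (TorsR (JZero p) r)) :
    H63.Stmt_GLUEdim p r := fun A hA =>
  gluedim_of_eq p p r (one_mul p).symm hp hp5 hr hpr A hA hrank

end Fermat.Agent.S15.Desc.H83
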