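import Fermat.Agent.S15.Desc.H83_GlueCore

/-!
# S15 / DESC, leaf GLUE-dim (helper83), abstract part 2: the relation

* `NthPowMod k F₂ n` : every function on the second component whose divisor is divisible by `n`
  is a constant times an `n`-th power (true if the genus of `F₂` is `0`).
* `exists_tor` : a Kummer function `f` (`f ∈ V₁`, `red₁ f = 1`, `n ∣ div f`) can be moved:
  `f h ^ n` is as in `IsTor`.
* `exists_relation_tor` : among `m ≥ δ` (`δ` = number of nodes) functions as in `IsTor` there is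
  a non-trivial multiplicative relation modulo `n`-th powers (pigeonhole on the glue invariants
  `ζ_s = ψ₁(s₁) / ψ₂(s₂) ∈ μ_n`, normalised at a fixed node).
* `exists_relation` : the same for Kummer functions.
-/

set_option autoImplicit false
set_option linter.style.haveILetI false
set_option maxHeartbeats 1000000

noncomputable section

open AlgebraicCurve

attribute [local instance] Classical.propDecidable

namespace Fermat.Agent.S15.Desc.H83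

open Fermat.Agent.RED.H17 Fermat.Agent.RED Fermat.Agent.BAD

/-- Every non-zero function of `F₂` whose orders are all divisible by `n` is a constant times an
`n`-th power. -/
def NthPowMod (k F₂ : Type*) [Field k] [Field F₂] [Algebra k F₂] (n : ℕ) : Prop :=
  ∀ γ : F₂, γ ≠ 0 → (∀ Q : Place k F₂, (n : ℤ) ∣ Q.ord γ) →
    ∃ (a : k) (φ : F₂), γ = algebraMap k F₂ a * φ ^ n

section Move

variable {K F k F₁ F₂ : Type} [Field K] [Field F] [Algebra K F] [Field k] [Field F₁]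
  [Algebra k F₁] [Field F₂] [Algebra k F₂]

/-- **Moving a Kummer function into good position.** -/
theorem exists_tor (hTE : Stmt_TwistExists) (hMv : Stmt_Moving) [IsAlgClosed K] [IsAlgClosed k]
    (S : SSD K F k F₁ F₂) (H : FFHyp K F) (H₁ : FFHyp k F₁) (H₂ : FFHyp k F₂)
    (g g₁ g₂ : ℕ) (c c₁ c₂ : ℤ) (hR : IsGenus K F g c) (hR₁ : IsGenus k F₁ g₁ c₁)
    (hR₂ : IsGenus k F₂ g₂ c₂) (hnum : g + 1 ≤ g₁ + g₂ + S.nodes.card)
    (n : ℕ) (hn : (n : k) ≠ 0) (hpow : NthPowMod k F₂ n)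
    (f : F) (hf : f ∈ S.c₁.V) (hf1 : S.c₁.red ⟨f, hf⟩ = 1)
    (hdiv : ∀ P : Place K F, (n : ℤ) ∣ P.ord f) :
    ∃ (h : F) (ψ₁ : F₁) (ψ₂ : F₂), h ≠ 0 ∧ IsTor S n (f * h ^ n) ψ₁ ψ₂ := by
  have hn0 : n ≠ 0 := by
    rintro rfl
    exact hn Nat.cast_zero
  obtain ⟨x, hxf⟩ := hTE K F k F₁ F₂ S H H₁ H₂ n hn0 f hf hf1 hdiv
  obtain ⟨h, hh₁, hh₂, hnode⟩ :=
    hMv K F k F₁ F₂ S H H₁ H₂ g g₁ g₂ c c₁ c₂ hR hR₁ hR₂ hnum n hn x
  rw [hxf] at hnode
  have hfGU₁ : S.c₁.IsGU f := ⟨hf, by rw [S.c₁.rd_of_mem hf, hf1]; exact one_ne_zero⟩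
  have hrd1 : S.c₁.rd f = 1 := by rw [S.c₁.rd_of_mem hf, hf1]
  have hfGU₂ : S.c₂.IsGU (f / x.ϑ ^ n) := by
    have := x.hf₂
    rwa [hxf] at this
  have hf0 : f ≠ 0 := hfGU₁.ne_zero
  have hh0 : h ≠ 0 := hh₁.ne_zero
  have hϑn : x.ϑ ^ n ≠ 0 := pow_ne_zero _ x.hϑ
  -- the reduction `γ` on the second component
  have hγ0 : x.γ ≠ 0 := x.hf₂.rd_ne_zero
  have hγeq : x.γ = S.c₂.rd (f / x.ϑ ^ n) := by
    unfold SSD.Twist.γ
    rw [hxf]
  obtain ⟨a, φ, haφ⟩ := hpow x.γ hγ0 (fun Q => Fermat.Agent.BAD.H60.twist_dvd_ord_γ x H.principal Q)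
  obtain ⟨α, hα⟩ := IsAlgClosed.exists_pow_nat_eq a (Nat.pos_of_ne_zero hn0)
  have eFh : f * h ^ n = (f / x.ϑ ^ n) * (x.ϑ * h) ^ n := by
    rw [mul_pow]
    field_simp
  refine ⟨h, S.c₁.rd h, algebraMap k F₂ α * φ * S.c₂.rd (x.ϑ * h), hh0, ?_⟩
  refine
    { gu₁ := hfGU₁.mul (hh₁.pow n)
      gu₂ := by
        rw [eFh]
        exact hfGU₂.mul (hh₂.pow n)
      rd₁ := by
        rw [S.c₁.rd_mul hf (hh₁.pow n).1, hrd1, one_mul, S.c₁.rd_pow hh₁.1]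
      rd₂ := by
        rw [eFh, S.c₂.rd_mul hfGU₂.1 (hh₂.pow n).1, ← hγeq, S.c₂.rd_pow hh₂.1, haφ, ← hα,
          map_pow]
        ring
      node := hnode
      dvd := fun P => by
        rw [P.ord_mul hf0 (pow_ne_zero _ hh0), ord_pow]
        exact dvd_add (hdiv P) (dvd_mul_right _ _) }

end Move

section Arith

/-- Elementary: `x + (n - 1) y` is not divisible by `n` if `x ≠ y` are `< n`. -/
theorem not_dvd_comb {n n1 x y : ℕ} (hn1 : n1 + 1 = n) (hx : x < n) (hy : y < n) (hxy : x ≠ y) :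
    ¬ n ∣ x + n1 * y := by
  intro hdvd
  have h2 : x + n1 * y + y = x + n * y := by
    rw [← hn1]
    ring
  have h3 : (x + n * y) % n = x := by
    rw [Nat.add_mul_mod_self_left, Nat.mod_eq_of_lt hx]
  have h4 : (x + n1 * y + y) % n = y := by
    rw [Nat.add_mod, Nat.mod_eq_zero_of_dvd hdvd, zero_add, Nat.mod_mod, Nat.mod_eq_of_lt hy]
  rw [h2, h3] at h4
  exact hxy h4

/-- The number of `n`-th roots of unity in a field is at most `n`. -/
theorem card_nthRootsFinset_le {k : Type*} [Field k] (n : ℕ) :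
    (Polynomial.nthRootsFinset n (1 : k)).card ≤ n := by
  unfold Polynomial.nthRootsFinset
  exact (Multiset.toFinset_card_le _).trans (Polynomial.card_nthRoots n 1)

end Arith

section Rel

variable {K F k F₁ F₂ : Type} [Field K] [Field F] [Algebra K F] [Field k] [Field F₁]
  [Algebra k F₁] [Field F₂] [Algebra k F₂]

/-- **The relation**: among `m ≥ δ` functions as in `IsTor` there is a non-trivial
multiplicative relation modulo `n`-th powers. -/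
theorem exists_relation_tor (hGL : Stmt_GoodLift) (hTI : Stmt_TIss) [IsAlgClosed K] [Infinite k]
    (S : SSD K F k F₁ F₂) (H : FFHyp K F) (H₁ : FFHyp k F₁) (H₂ : FFHyp k F₂)
    (g g₁ g₂ : ℕ) (c c₁ c₂ : ℤ) (hR : IsGenus K F g c) (hR₁ : IsGenus k F₁ g₁ c₁)
    (hR₂ : IsGenus k F₂ g₂ c₂) (hnum : g + 1 ≤ g₁ + g₂ + S.nodes.card)
    (n : ℕ) (hn2 : 2 ≤ n) (hn : (n : k) ≠ 0) (m : ℕ) (hm : S.nodes.card ≤ m)
    (G : Fin m → F) (ψ₁ : Fin m → F₁) (ψ₂ : Fin m → F₂)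
    (hG : ∀ i, IsTor S n (G i) (ψ₁ i) (ψ₂ i)) :
    ∃ e : Fin m → ℕ, (∃ i, ¬ n ∣ e i) ∧ ∃ t : F, t ^ n = ∏ i, G i ^ e i := by
  have hn0 : n ≠ 0 := by omega
  have hnpos : 0 < n := by omega
  obtain ⟨n1, hn1⟩ : ∃ n1 : ℕ, n1 + 1 = n := ⟨n - 1, by omega⟩
  haveI : NeZero n := ⟨hn0⟩
  -- the values at the branches
  have hv₁ : ∀ i, ∀ s ∈ S.nodes, ∃ a : k, a ≠ 0 ∧ VanAt s.1 (ψ₁ i - algebraMap k F₁ a) :=
    fun i s hs => Fermat.Agent.BAD.H60.exists_value_ne_zero (H₁.deg_one s.1) ((hG i).ne₁ hn0)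
      ((hG i).ord_eq_zero hn0 H.principal hs).1
  have hv₂ : ∀ i, ∀ s ∈ S.nodes, ∃ a : k, a ≠ 0 ∧ VanAt s.2 (ψ₂ i - algebraMap k F₂ a) :=
    fun i s hs => Fermat.Agent.BAD.H60.exists_value_ne_zero (H₂.deg_one s.2) ((hG i).ne₂ hn0)
      ((hG i).ord_eq_zero hn0 H.principal hs).2
  choose! a₁ ha₁0 ha₁ using hv₁
  choose! a₂ ha₂0 ha₂ using hv₂
  -- the glue invariants are roots of unity
  have hζ : ∀ i, ∀ s ∈ S.nodes, (a₁ i s / a₂ i s) ^ n = 1 := by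
    intro i s hs
    obtain ⟨a, h1, h2⟩ := S.glue s hs (G i) (hG i).gu₁.1 (hG i).gu₂.1 (fun P hPs => by
      rw [(hG i).node P ⟨s, hs, hPs⟩])
    rw [← S.c₁.rd_of_mem (hG i).gu₁.1, (hG i).rd₁] at h1
    rw [← S.c₂.rd_of_mem (hG i).gu₂.1, (hG i).rd₂] at h2
    have e1 := value_unique s.1 h1 (Fermat.Agent.BAD.H60.vanAt_pow_sub (ha₁ i s hs) n)
    have e2 := value_unique s.2 h2 (Fermat.Agent.BAD.H60.vanAt_pow_sub (ha₂ i s hs) n)
    rw [div_pow, ← e1, ← e2, div_self]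
    rw [e2]
    exact pow_ne_zero _ (ha₂0 i s hs)
  have hζ0 : ∀ i, ∀ s ∈ S.nodes, a₁ i s / a₂ i s ≠ 0 := fun i s hs =>
    div_ne_zero (ha₁0 i s hs) (ha₂0 i s hs)
  -- the invariant of an exponent vector
  set Z : (Fin m → ℕ) → Place k F₁ × Place k F₂ → k :=
    fun e s => ∏ i, (a₁ i s / a₂ i s) ^ e i with hZ
  have hZn : ∀ e, ∀ s ∈ S.nodes, Z e s ^ n = 1 := by
    intro e s hs
    rw [hZ]
    simp only
    rw [← Finset.prod_pow]
    apply Finset.prod_eq_one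
    intro i _
    rw [← pow_mul, mul_comm, pow_mul, hζ i s hs, one_pow]
  have hZ0 : ∀ e, ∀ s ∈ S.nodes, Z e s ≠ 0 := by
    intro e s hs
    rw [hZ]
    simp only
    exact Finset.prod_ne_zero_iff.mpr fun i _ => pow_ne_zero _ (hζ0 i s hs)
  obtain ⟨s₀, hs₀⟩ := S.nodes_nonempty
  -- pigeonhole
  set N' : Finset (Place k F₁ × Place k F₂) := S.nodes.erase s₀ with hN'
  have hN'card : N'.card + 1 = S.nodes.card := Finset.card_erase_add_one hs₀
  set Φ : (Fin m → Fin n) → ((s : ↥N') → k) :=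
    fun cc s => Z (fun i => (cc i : ℕ)) s.1 / Z (fun i => (cc i : ℕ)) s₀ with hΦ
  set tgt : Finset ((s : ↥N') → k) :=
    Fintype.piFinset (fun _ : ↥N' => Polynomial.nthRootsFinset n (1 : k)) with htgt
  have hcard : tgt.card < (Finset.univ : Finset (Fin m → Fin n)).card := by
    rw [Finset.card_univ, Fintype.card_fun, Fintype.card_fin, Fintype.card_fin, htgt,
      Fintype.card_piFinset, Finset.prod_const, Finset.card_univ, Fintype.card_coe]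
    calc (Polynomial.nthRootsFinset n (1 : k)).card ^ N'.card ≤ n ^ N'.card :=
          Nat.pow_le_pow_left (card_nthRootsFinset_le n) _
      _ < n ^ m := Nat.pow_lt_pow_right (by omega) (by omega)
  have hmaps : Set.MapsTo Φ ↑(Finset.univ : Finset (Fin m → Fin n)) ↑tgt := by
    intro cc _
    rw [Finset.mem_coe, htgt, Fintype.mem_piFinset]
    intro s
    rw [Polynomial.mem_nthRootsFinset hnpos]
    have hs : s.1 ∈ S.nodes := Finset.mem_of_mem_erase s.2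
    rw [hΦ]
    simp only
    rw [div_pow, hZn _ _ hs, hZn _ _ hs₀, div_one]
  obtain ⟨cc, -, cc', -, hne, heq⟩ := Finset.exists_ne_map_eq_of_card_lt_of_maps_to hcard hmaps
  -- the exponents
  set e : Fin m → ℕ := fun i => (cc i : ℕ) + n1 * (cc' i : ℕ) with he
  have hZe : ∀ s, Z e s = Z (fun i => (cc i : ℕ)) s * Z (fun i => (cc' i : ℕ)) s ^ n1 := by
    intro s
    rw [hZ]
    simp only
    rw [← Finset.prod_pow, ← Finset.prod_mul_distrib]
    apply Finset.prod_congr rfl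
    intro i _
    rw [he]
    simp only
    rw [pow_add, ← pow_mul, mul_comm n1]
  have hconst : ∀ s ∈ S.nodes, Z e s = Z e s₀ := by
    intro s hs
    by_cases hss : s = s₀
    · rw [hss]
    have hsN : s ∈ N' := Finset.mem_erase.mpr ⟨hss, hs⟩
    have h1 := congrFun heq ⟨s, hsN⟩
    rw [hΦ] at h1
    simp only at h1
    set w : k := Z (fun i => (cc i : ℕ)) s / Z (fun i => (cc i : ℕ)) s₀ with hw
    have hwn : w ^ n = 1 := by
      rw [hw, div_pow, hZn _ _ hs, hZn _ _ hs₀, div_one]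
    have e1 : Z (fun i => (cc i : ℕ)) s = w * Z (fun i => (cc i : ℕ)) s₀ := by
      rw [hw, div_mul_cancel₀ _ (hZ0 _ _ hs₀)]
    have e2 : Z (fun i => (cc' i : ℕ)) s = w * Z (fun i => (cc' i : ℕ)) s₀ := by
      rw [h1, div_mul_cancel₀ _ (hZ0 _ _ hs₀)]
    rw [hZe s, hZe s₀, e1, e2, mul_pow]
    have : w * w ^ n1 = 1 := by rw [← pow_succ', hn1, hwn]
    calc w * Z (fun i => (cc i : ℕ)) s₀ * (w ^ n1 * Z (fun i => (cc' i : ℕ)) s₀ ^ n1)
        = (w * w ^ n1) * (Z (fun i => (cc i : ℕ)) s₀ * Z (fun i => (cc' i : ℕ)) s₀ ^ n1) := by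
          ring
      _ = Z (fun i => (cc i : ℕ)) s₀ * Z (fun i => (cc' i : ℕ)) s₀ ^ n1 := by
          rw [this, one_mul]
  -- the product
  set z : k := Z e s₀ with hz
  have hzn : z ^ n = 1 := hZn e s₀ hs₀
  have hTor : IsTor S n (∏ i, G i ^ e i) (∏ i, ψ₁ i ^ e i) (∏ i, ψ₂ i ^ e i) :=
    IsTor.prod Finset.univ _ _ _ (fun i _ => (hG i).pow (e i))
  have hTor' := hTor.scale₂ hzn
  have hval : ∀ s ∈ S.nodes, ∃ a : k, VanAt s.1 (∏ i, ψ₁ i ^ e i - algebraMap k F₁ a) ∧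
      VanAt s.2 (algebraMap k F₂ z * ∏ i, ψ₂ i ^ e i - algebraMap k F₂ a) := by
    intro s hs
    have hA₁ : VanAt s.1 (∏ i, ψ₁ i ^ e i - algebraMap k F₁ (∏ i, a₁ i s ^ e i)) :=
      vanAt_prod_sub s.1 Finset.univ _ _
        (fun i _ => Fermat.Agent.BAD.H60.vanAt_pow_sub (ha₁ i s hs) (e i))
    have hA₂ : VanAt s.2 (∏ i, ψ₂ i ^ e i - algebraMap k F₂ (∏ i, a₂ i s ^ e i)) :=
      vanAt_prod_sub s.2 Finset.univ _ _
        (fun i _ => Fermat.Agent.BAD.H60.vanAt_pow_sub (ha₂ i s hs) (e i))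
    have hA₂0 : ∏ i, a₂ i s ^ e i ≠ 0 :=
      Finset.prod_ne_zero_iff.mpr fun i _ => pow_ne_zero _ (ha₂0 i s hs)
    have hrat : ∏ i, a₁ i s ^ e i = z * ∏ i, a₂ i s ^ e i := by
      have h1 : Z e s = (∏ i, a₁ i s ^ e i) / ∏ i, a₂ i s ^ e i := by
        rw [hZ]
        simp only
        rw [← Finset.prod_div_distrib]
        apply Finset.prod_congr rfl
        intro i _
        rw [div_pow]
      have hc : Z e s = Z e s₀ := hconst s hs
      show ∏ i, a₁ i s ^ e i = Z e s₀ * ∏ i, a₂ i s ^ e i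
      rw [← hc, h1, div_mul_cancel₀ _ hA₂0]
    refine ⟨∏ i, a₁ i s ^ e i, hA₁, ?_⟩
    rw [hrat]
    exact Fermat.Agent.BAD.H28.vanAt_mul_sub (vanAt_const_sub s.2 z) hA₂
  obtain ⟨t, ht⟩ := core hGL hTI S H H₁ H₂ g g₁ g₂ c c₁ c₂ hR hR₁ hR₂ hnum n hn hTor' hval
  refine ⟨e, ?_, t, ht⟩
  obtain ⟨i, hi⟩ := Function.ne_iff.mp hne
  refine ⟨i, ?_⟩
  rw [he]
  simp only
  exact not_dvd_comb hn1 (cc i).isLt (cc' i).isLt (fun h => hi (Fin.ext h))

/-- **The relation for Kummer functions**: among `m ≥ δ` functions `f i ∈ V₁` with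
`red₁ (f i) = 1` and `n ∣ div (f i)` there is a non-trivial multiplicative relation modulo `n`-th
powers. -/
theorem exists_relation (hTE : Stmt_TwistExists) (hMv : Stmt_Moving) (hGL : Stmt_GoodLift)
    (hTI : Stmt_TIss) [IsAlgClosed K] [IsAlgClosed k]
    (S : SSD K F k F₁ F₂) (H : FFHyp K F) (H₁ : FFHyp k F₁) (H₂ : FFHyp k F₂)
    (g g₁ g₂ : ℕ) (c c₁ c₂ : ℤ) (hR : IsGenus K F g c) (hR₁ : IsGenus k F₁ g₁ c₁)
    (hR₂ : IsGenus k F₂ g₂ c₂) (hnum : g + 1 ≤ g₁ + g₂ + S.nodes.card)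
    (n : ℕ) (hn2 : 2 ≤ n) (hn : (n : k) ≠ 0) (hpow : NthPowMod k F₂ n)
    (m : ℕ) (hm : S.nodes.card ≤ m) (f : Fin m → F) (hf : ∀ i, f i ∈ S.c₁.V)
    (hf1 : ∀ i, S.c₁.red ⟨f i, hf i⟩ = 1) (hdiv : ∀ i, ∀ P : Place K F, (n : ℤ) ∣ P.ord (f i)) :
    ∃ e : Fin m → ℕ, (∃ i, ¬ n ∣ e i) ∧ ∃ t : F, t ^ n = ∏ i, f i ^ e i := by
  haveI : Infinite k := IsAlgClosed.instInfinite
  have hex := fun i => exists_tor hTE hMv S H H₁ H₂ g g₁ g₂ c c₁ c₂ hR hR₁ hR₂ hnum n hn hpow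
    (f i) (hf i) (hf1 i) (hdiv i)
  choose h ψ₁ ψ₂ hh0 hTor using hex
  obtain ⟨e, hi, t, ht⟩ := exists_relation_tor hGL hTI S H H₁ H₂ g g₁ g₂ c c₁ c₂ hR hR₁ hR₂
    hnum n hn2 hn m hm _ ψ₁ ψ₂ hTor
  refine ⟨e, hi, t / ∏ i, h i ^ e i, ?_⟩
  have hprod0 : ∏ i, h i ^ e i ≠ 0 :=
    Finset.prod_ne_zero_iff.mpr fun i _ => pow_ne_zero _ (hh0 i)
  have e1 : ∏ i, (f i * h i ^ n) ^ e i = (∏ i, f i ^ e i) * (∏ i, h i ^ e i) ^ n := by
    rw [← Finset.prod_pow, ← Finset.prod_mul_distrib]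
    apply Finset.prod_congr rfl
    intro i _
    rw [mul_pow, ← pow_mul, ← pow_mul, mul_comm n]
  rw [div_pow, ht, e1, mul_div_assoc, div_self (pow_ne_zero _ hprod0), mul_one]

end Rel

end Fermat.Agent.S15.Desc.H83
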