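/-
S15 / DESC, leaf TAME-CYC (helper97).

`tame_cyc` : let `J` be a `G_ℚ`-module whose torsion is finite and whose points are fixed by open
subgroups, `p ≠ r` primes, `A` a valuation subring of `ℚ̄` over `p`, and assume that the inertia
group `I_A` acts unipotently of level two on the `r`-power torsion (`(σ - 1)(τ - 1) = 0`).
Then `I_A` acts on `J[r^m]` through a cyclic group: this is the hypothesis `hcyc` of
`Fermat.Agent.S15.Desc.exists_vt`.

Route: `tame_cyclic'` (= `tame_cyclic` with the exponent hypothesis on inertia only) for the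
permutation representation of `G_ℚ` on `J[r^m]`; `σ ^ (r^m) = 1` on `J[r^m]` for `σ ∈ I_A` by
unipotence (`pow_smul_sub_of_unip`).
-/
import Fermat.Agent.S15.Desc.H97_GlobTame
import Fermat.Agent.S15.Desc.H69_NumP

set_option autoImplicit false

open scoped Pointwise NumberField

namespace Fermat.Agent.S15.Desc.H97

open Fermat.Agent.S15.Desc

local notation "Qbar" => AlgebraicClosure ℚ
local notation "GQ" => (AlgebraicClosure ℚ ≃ₐ[ℚ] AlgebraicClosure ℚ)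

attribute [local instance] qbar_isAlgebraic qbar_isAlgClosure qbar_isGalois

/-- `tame_cyclic` with the exponent hypothesis on the inertia group only. -/
theorem tame_cyclic' (p : ℕ) (hp : p.Prime) (A : ValuationSubring Qbar) (hA : A.LiesOverPrime p)
    {T : Type*} [Group T] (Ψ : GQ →* T)
    (hopen : ∃ S : Finset Qbar, ∀ σ : GQ, (∀ x ∈ S, σ x = x) → Ψ σ = 1)
    (n : ℕ) (hn : n.Coprime p) (hT : ∀ σ ∈ A.inertiaSubgroupIn ℚ, Ψ σ ^ n = 1) :
    ∃ σ₀ ∈ A.inertiaSubgroupIn ℚ, ∀ σ ∈ A.inertiaSubgroupIn ℚ, ∃ k : ℕ, Ψ σ = Ψ σ₀ ^ k := by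
  classical
  obtain ⟨S, hS⟩ := hopen
  let F : IntermediateField ℚ Qbar := IntermediateField.adjoin ℚ (S : Set Qbar)
  have hFD : FiniteDimensional ℚ F :=
    IntermediateField.finiteDimensional_adjoin (fun x _ => Algebra.IsIntegral.isIntegral x)
  let L : IntermediateField ℚ Qbar := IntermediateField.normalClosure ℚ F Qbar
  have hLn : Normal ℚ L := normalClosure.normal ℚ F Qbar
  have hLfd : FiniteDimensional ℚ L := normalClosure.is_finiteDimensional ℚ F Qbar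
  have hFL : F ≤ L := IntermediateField.le_normalClosure F
  have hker : ∀ σ : GQ, AlgEquiv.restrictNormalHom L σ = 1 → Ψ σ = 1 := by
    intro σ hσ
    apply hS
    intro x hx
    have hxL : x ∈ L := hFL (IntermediateField.subset_adjoin ℚ _ hx)
    have h1 := AlgEquiv.restrictNormal_commutes σ L ⟨x, hxL⟩
    have h2 : AlgEquiv.restrictNormal σ L = 1 := hσ
    rw [h2] at h1
    exact h1.symm
  obtain ⟨τ₀, hτ₀, hgen⟩ := tame_cyclic_finite L p hp A hA
  obtain ⟨σ₀, hσ₀, hres₀⟩ := lift_inertia L p hp A hA τ₀ hτ₀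
  refine ⟨σ₀, hσ₀, fun σ hσ => ?_⟩
  obtain ⟨k, a, hka⟩ := hgen _ (res_mem_inertia L A σ hσ)
  refine ⟨k, ?_⟩
  set u : GQ := (σ₀ ^ k)⁻¹ * σ with hu
  have huI : u ∈ A.inertiaSubgroupIn ℚ :=
    Subgroup.mul_mem _ (Subgroup.inv_mem _ (Subgroup.pow_mem _ hσ₀ k)) hσ
  have hresu : AlgEquiv.restrictNormalHom L (u ^ (p ^ a)) = 1 := by
    rw [map_pow, hu, map_mul, map_inv, map_pow, hres₀]
    exact hka
  have h1 : Ψ u ^ (p ^ a) = 1 := by
    rw [← map_pow]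
    exact hker _ hresu
  have h2 : Ψ u ^ n = 1 := hT u huI
  have h3 : orderOf (Ψ u) ∣ Nat.gcd (p ^ a) n :=
    Nat.dvd_gcd (orderOf_dvd_of_pow_eq_one h1) (orderOf_dvd_of_pow_eq_one h2)
  have h4 : Nat.gcd (p ^ a) n = 1 := Nat.Coprime.pow_left a (Nat.Coprime.symm hn)
  rw [h4, Nat.dvd_one, orderOf_eq_one_iff] at h3
  have h5 : Ψ σ = Ψ (σ₀ ^ k) * Ψ u := by
    rw [← map_mul, hu, mul_inv_cancel_left]
  rw [h5, h3, mul_one, map_pow]

/-- **TAME-CYC**: the inertia group at `p` acts on `J[r^m]` through a cyclic group, if it acts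
unipotently of level two on the `r`-power torsion (`r ≠ p`). -/
theorem tame_cyc {J : Type*} [AddCommGroup J] [DistribMulAction GQ J]
    (p r : ℕ) (hp : p.Prime) (hr : r.Prime) (hpr : p ≠ r)
    (A : ValuationSubring Qbar) (hA : A.LiesOverPrime p)
    (hfin : ∀ n : ℕ, 0 < n → Finite (TorsR J n))
    (hgal : ∀ y : J, ∃ S : Finset Qbar, ∀ σ : GQ, (∀ x ∈ S, σ x = x) → σ • y = y)
    (htu : ∀ σ ∈ A.inertiaSubgroupIn ℚ, ∀ τ ∈ A.inertiaSubgroupIn ℚ,
      ∀ x : J, (∃ n : ℕ, r ^ n • x = 0) → σ • τ • x - σ • x - τ • x + x = 0) (m : ℕ) :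
    ∃ σ₀ ∈ A.inertiaSubgroupIn ℚ, ∀ σ ∈ A.inertiaSubgroupIn ℚ, ∃ k : ℕ,
      ∀ u : J, r ^ m • u = 0 → σ • u = σ₀ ^ k • u := by
  classical
  have hfinm : Finite (TorsR J (r ^ m)) := hfin _ (pow_pos hr.pos m)
  have : Fintype (TorsR J (r ^ m)) := Fintype.ofFinite _
  let Ψ : GQ →* Equiv.Perm (TorsR J (r ^ m)) := MulAction.toPermHom GQ (TorsR J (r ^ m))
  have hΨ : ∀ (σ : GQ) (u : TorsR J (r ^ m)), ((Ψ σ u : TorsR J (r ^ m)) : J) = σ • (u : J) :=
    fun σ u => rfl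
  -- open kernel
  have hopen : ∃ S : Finset Qbar, ∀ σ : GQ, (∀ x ∈ S, σ x = x) → Ψ σ = 1 := by
    choose Sy hSy using hgal
    refine ⟨Finset.univ.biUnion (fun u : TorsR J (r ^ m) => Sy (u : J)), fun σ hσ => ?_⟩
    ext u
    rw [hΨ]
    exact hSy (u : J) σ (fun x hx => hσ x (Finset.mem_biUnion.2 ⟨u, Finset.mem_univ u, hx⟩))
  -- exponent on inertia
  have hT : ∀ σ ∈ A.inertiaSubgroupIn ℚ, Ψ σ ^ (r ^ m) = 1 := by
    intro σ hσ
    rw [← map_pow]
    ext u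
    rw [hΨ]
    have hu : r ^ m • (u : J) = 0 := mem_torsR.mp u.2
    have h1 := pow_smul_sub_of_unip σ (u : J) (htu σ hσ σ hσ (u : J) ⟨m, hu⟩) (r ^ m)
    have h2 : r ^ m • (σ • (u : J) - (u : J)) = 0 := by
      rw [smul_sub, ← smul_comm, hu, smul_zero, sub_zero]
    rw [h2] at h1
    exact sub_eq_zero.mp h1
  have hcop : (r ^ m).Coprime p :=
    Nat.Coprime.pow_left m ((Nat.coprime_primes hr hp).2 (Ne.symm hpr))
  obtain ⟨σ₀, hσ₀, hcyc⟩ := tame_cyclic' p hp A hA Ψ hopen (r ^ m) hcop hT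
  refine ⟨σ₀, hσ₀, fun σ hσ => ?_⟩
  obtain ⟨k, hk⟩ := hcyc σ hσ
  refine ⟨k, fun u hu => ?_⟩
  have h1 := congrArg (fun f : Equiv.Perm (TorsR J (r ^ m)) => ((f ⟨u, hu⟩ : TorsR J (r ^ m)) : J)) hk
  simp only [hΨ] at h1
  rw [h1, ← map_pow, hΨ]

end Fermat.Agent.S15.Desc.H97
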