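/-
S15 / DESC, leaf TAME-CYC for `J₀(p)` (helper97): the hypothesis `hcyc` of `exists_vt` from
`Stmt_FIN`, `Stmt_GALfin`, `Stmt_TorsUnipAt`.
-/
import Fermat.Agent.S15.Desc.Defs
import Fermat.Agent.S15.Desc.H97_TameCyc

set_option autoImplicit false

namespace Fermat.Agent.S15.Desc.H97

open Fermat.Agent.S15.Desc Fermat.Agent.S15 ModularCurve

local notation "Qbar" => AlgebraicClosure ℚ

/-- **TAME-CYC** for `J₀(p)`. -/
theorem tameCyc_jzero (p r : ℕ) (hp : p.Prime) (hr : r.Prime) (hpr : p ≠ r)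
    (hFIN : Stmt_FIN p) (hGAL : Stmt_GALfin p) (hTU : Stmt_TorsUnipAt p r)
    (A : ValuationSubring Qbar) (hA : A.LiesOverPrime p) (m : ℕ) :
    ∃ σ₀ ∈ A.inertiaSubgroupIn ℚ, ∀ σ ∈ A.inertiaSubgroupIn ℚ, ∃ k : ℕ,
      ∀ u : JZero p, r ^ m • u = 0 → σ • u = σ₀ ^ k • u :=
  tame_cyc p r hp hr hpr A hA hFIN hGAL (hTU A hA) m

end Fermat.Agent.S15.Desc.H97
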