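import Mathlib

/-!
# S15 / DESC / NUM-∞ at `r = 2`: the lattice algebra (helper99)

`H = ℤ^n` with an involution `I` and an endomorphism `M` commuting with `I`, idempotent modulo
`2^m` (`2 n < 2^m`), with `tr (M I) = 0`.  In `H / 2 H = 𝔽₂^n` let `W = {v | M v = v}` and let `U`
be the image of `H⁺ = ker (I - 1)`.  Then `2 dim (W ∩ U) = dim W`.

Steps:
* `isLocalRing_zmod_two_pow` : `ℤ / 2^m` is local;
* `trace_eq_rank_of_idem` : over a local ring `Λ` with a homomorphism `φ` to a field, the trace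
  of an idempotent matrix `A` is the rank of `φ(A)`;
* `trace_eq_rank_mod` : for an integer matrix idempotent modulo `2^m`, `tr M ≡ rank (M mod 2)`
  modulo `2^m`;
* `two_mul_finrank_eq` : the result.
-/

set_option autoImplicit false
set_option linter.unusedSectionVars false
set_option linter.style.haveILetI false

namespace Fermat.Agent.S15.Desc.H99

open Module

section Local

/-- `ℤ / 2^m` is a local ring. -/
theorem isLocalRing_zmod_two_pow (m : ℕ) (hm : m ≠ 0) : IsLocalRing (ZMod (2 ^ m)) := by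
  haveI : Fact (Nat.Prime 2) := ⟨Nat.prime_two⟩
  haveI : Fact (1 < 2 ^ m) := ⟨Nat.one_lt_two_pow hm⟩
  exact IsLocalRing.of_surjective' (PadicInt.toZModPow m) (ZMod.ringHom_surjective _)

end Local

section Idem

variable {Λ : Type*} [CommRing Λ] [IsLocalRing Λ] {d : ℕ}

/-- The range of an idempotent matrix over a local ring is free. -/
theorem free_range_of_idem (A : Matrix (Fin d) (Fin d) Λ) (hA : A * A = A) :
    Module.Free Λ (LinearMap.range A.mulVecLin) := by
  have hproj : Module.Projective Λ (LinearMap.range A.mulVecLin) := by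
    refine Module.Projective.of_split (LinearMap.range A.mulVecLin).subtype
      (A.mulVecLin.codRestrict (LinearMap.range A.mulVecLin) fun x => LinearMap.mem_range_self _ x)
      ?_
    ext ⟨x, hx⟩ : 1
    obtain ⟨y, rfl⟩ := hx
    apply Subtype.ext
    simp only [LinearMap.comp_apply, Submodule.subtype_apply, LinearMap.codRestrict_apply,
      LinearMap.id_apply, Matrix.mulVecLin_apply, Matrix.mulVec_mulVec, hA]
  exact Module.free_of_flat_of_isLocalRing

/-- A vector in the range of an idempotent matrix is fixed by it. -/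
theorem mulVec_eq_of_mem_range (A : Matrix (Fin d) (Fin d) Λ) (hA : A * A = A)
    {x : Fin d → Λ} (hx : x ∈ LinearMap.range A.mulVecLin) : A.mulVec x = x := by
  obtain ⟨y, rfl⟩ := hx
  rw [Matrix.mulVecLin_apply, Matrix.mulVec_mulVec, hA]

theorem ker_eq_range_one_sub (A : Matrix (Fin d) (Fin d) Λ) (hA : A * A = A) :
    LinearMap.ker A.mulVecLin = LinearMap.range (1 - A).mulVecLin := by
  ext x
  rw [LinearMap.mem_ker, LinearMap.mem_range, Matrix.mulVecLin_apply]
  constructor
  · intro h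
    refine ⟨x, ?_⟩
    rw [Matrix.mulVecLin_apply, Matrix.sub_mulVec, Matrix.one_mulVec, h, sub_zero]
  · rintro ⟨y, rfl⟩
    rw [Matrix.mulVecLin_apply, Matrix.mulVec_mulVec, mul_sub, mul_one, hA, sub_self,
      Matrix.zero_mulVec]

theorem one_sub_idem (A : Matrix (Fin d) (Fin d) Λ) (hA : A * A = A) :
    (1 - A) * (1 - A) = 1 - A := by
  simp only [mul_sub, sub_mul, mul_one, one_mul, hA, sub_self, sub_zero]

/-- A matrix whose range lies in a submodule with a basis of `ρ` elements factors through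
`Λ^ρ`; hence the rank of its image under a homomorphism to a field is at most `ρ`. -/
theorem rank_map_le_of_basis {k : Type*} [Field k] (φ : Λ →+* k)
    (A : Matrix (Fin d) (Fin d) Λ) (p : Submodule Λ (Fin d → Λ))
    (hp : ∀ x, A.mulVec x ∈ p) {ρ : ℕ} (b : Basis (Fin ρ) Λ p) :
    (A.map φ).rank ≤ ρ := by
  classical
  set B : Matrix (Fin d) (Fin ρ) Λ := Matrix.of fun j i => (b i : Fin d → Λ) j with hB
  set C : Matrix (Fin ρ) (Fin d) Λ :=
    Matrix.of fun i l => b.repr ⟨A.mulVec (Pi.single l 1), hp _⟩ i with hC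
  have hBC : B * C = A := by
    ext j l
    have h1 := b.sum_repr ⟨A.mulVec (Pi.single l 1), hp _⟩
    have h2 := congrArg (fun x : p => (x : Fin d → Λ) j) h1
    simp only [Submodule.coe_sum, Submodule.coe_smul, Finset.sum_apply, Pi.smul_apply,
      smul_eq_mul] at h2
    have h4 : A.mulVec (Pi.single l 1) j = A j l := by
      simp
    rw [h4] at h2
    rw [Matrix.mul_apply]
    simp only [hB, hC, Matrix.of_apply]
    rw [← h2]
    exact Finset.sum_congr rfl fun i _ => mul_comm _ _
  have h3 : A.map φ = B.map φ * C.map φ := by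
    rw [← hBC, Matrix.map_mul]
  rw [h3]
  exact (Matrix.rank_mul_le_left _ _).trans (Matrix.rank_le_width _)

/-- Subadditivity of the rank of matrices over a field. -/
theorem matrix_rank_add_le {k : Type*} [Field k] (A B : Matrix (Fin d) (Fin d) k) :
    (A + B).rank ≤ A.rank + B.rank := by
  have hle : LinearMap.range (A + B).mulVecLin ≤
      LinearMap.range A.mulVecLin ⊔ LinearMap.range B.mulVecLin := by
    rintro _ ⟨x, rfl⟩
    rw [Matrix.mulVecLin_apply, Matrix.add_mulVec]
    exact Submodule.add_mem_sup (LinearMap.mem_range_self A.mulVecLin x)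
      (LinearMap.mem_range_self B.mulVecLin x)
  exact (Submodule.finrank_mono hle).trans (Submodule.finrank_add_le_finrank_add_finrank _ _)

/-- **Trace of an idempotent over a local ring**: it is the rank of its reduction. -/
theorem trace_eq_rank_of_idem {k : Type*} [Field k] (φ : Λ →+* k)
    (A : Matrix (Fin d) (Fin d) Λ) (hA : A * A = A) :
    A.trace = ((A.map φ).rank : Λ) := by
  classical
  haveI hfp : Module.Free Λ (LinearMap.range A.mulVecLin) := free_range_of_idem A hA
  haveI hfq : Module.Free Λ (LinearMap.ker A.mulVecLin) := by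
    rw [ker_eq_range_one_sub A hA]
    exact free_range_of_idem (1 - A) (one_sub_idem A hA)
  haveI hnq : Module.Finite Λ (LinearMap.ker A.mulVecLin) := by
    rw [ker_eq_range_one_sub A hA]
    infer_instance
  have hproj : LinearMap.IsProj (LinearMap.range A.mulVecLin) A.mulVecLin :=
    ⟨fun x => LinearMap.mem_range_self _ x, fun x hx => mulVec_eq_of_mem_range A hA hx⟩
  have htr : LinearMap.trace Λ (Fin d → Λ) A.mulVecLin =
      (finrank Λ (LinearMap.range A.mulVecLin) : Λ) := hproj.trace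
  have htr2 : LinearMap.trace Λ (Fin d → Λ) A.mulVecLin = A.trace := by
    rw [LinearMap.trace_eq_matrix_trace Λ (Pi.basisFun Λ (Fin d)),
      LinearMap.toMatrix_eq_toMatrix', ← Matrix.toLin'_apply', LinearMap.toMatrix'_toLin']
  -- dimensions
  set ρ := finrank Λ (LinearMap.range A.mulVecLin) with hρ
  set κ := finrank Λ (LinearMap.ker A.mulVecLin) with hκ
  have hsum : ρ + κ = d := by
    have e := Submodule.prodEquivOfIsCompl _ _ hproj.isCompl
    have h1 := e.finrank_eq
    rw [Module.finrank_prod, Module.finrank_fin_fun] at h1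
    exact h1
  have hle1 : (A.map φ).rank ≤ ρ :=
    rank_map_le_of_basis φ A _ (fun x => LinearMap.mem_range_self _ x)
      (Module.finBasis Λ (LinearMap.range A.mulVecLin))
  have hle2 : ((1 - A).map φ).rank ≤ κ := by
    refine rank_map_le_of_basis φ (1 - A) (LinearMap.ker A.mulVecLin) (fun x => ?_)
      (Module.finBasis Λ (LinearMap.ker A.mulVecLin))
    rw [ker_eq_range_one_sub A hA]
    exact LinearMap.mem_range_self _ x
  have hone : (1 : Matrix (Fin d) (Fin d) k) = A.map φ + (1 - A).map φ := by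
    ext i j
    simp only [Matrix.add_apply, Matrix.map_apply, Matrix.sub_apply, map_sub, add_sub_cancel]
    by_cases h : i = j <;> simp [h, Matrix.one_apply]
  have hd : d ≤ (A.map φ).rank + ((1 - A).map φ).rank := by
    have h1 : (1 : Matrix (Fin d) (Fin d) k).rank = d := by
      rw [Matrix.rank_one, Fintype.card_fin]
    calc d = (1 : Matrix (Fin d) (Fin d) k).rank := h1.symm
      _ = (A.map φ + (1 - A).map φ).rank := by rw [← hone]
      _ ≤ (A.map φ).rank + ((1 - A).map φ).rank := matrix_rank_add_le _ _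
  have hfin : (A.map φ).rank = ρ := by omega
  rw [← htr2, htr, hfin]

end Idem

section IntMat

variable {d : ℕ}

/-- **Trace of an integer matrix idempotent modulo `2^m`**. -/
theorem trace_eq_rank_mod (m : ℕ) (hm : m ≠ 0) (M N : Matrix (Fin d) (Fin d) ℤ)
    (hM : M * M = M + (2 : ℤ) ^ m • N) :
    ((M.trace : ℤ) : ZMod (2 ^ m)) =
      (((M.map (Int.cast : ℤ → ZMod 2)).rank : ℕ) : ZMod (2 ^ m)) := by
  haveI := isLocalRing_zmod_two_pow m hm
  have hdvd : 2 ∣ 2 ^ m := dvd_pow_self 2 hm
  set A : Matrix (Fin d) (Fin d) (ZMod (2 ^ m)) := M.map (Int.castRingHom (ZMod (2 ^ m))) with hAdef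
  have hA : A * A = A := by
    rw [hAdef, ← Matrix.map_mul, hM]
    ext i j
    simp only [Matrix.map_apply, Matrix.add_apply, Matrix.smul_apply, smul_eq_mul, map_add,
      map_mul, map_pow, eq_intCast, Int.cast_ofNat]
    have h0 : ((2 : ZMod (2 ^ m)) ^ m) = 0 := by
      have := ZMod.natCast_self (2 ^ m)
      push_cast at this
      exact this
    rw [h0, zero_mul, add_zero]
  have h1 := trace_eq_rank_of_idem (ZMod.castHom hdvd (ZMod 2)) A hA
  have h2 : A.map (ZMod.castHom hdvd (ZMod 2)) = M.map (Int.cast : ℤ → ZMod 2) := by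
    ext i j
    simp only [hAdef, Matrix.map_apply, eq_intCast, map_intCast]
  have h3 : A.trace = ((M.trace : ℤ) : ZMod (2 ^ m)) := by
    rw [hAdef, Matrix.trace, Matrix.trace, Int.cast_sum]
    rfl
  rw [← h3, h1, h2]

end IntMat

section Lattice

variable {n : ℕ}

/-- Reduction modulo `2` of integer vectors. -/
def red2 (n : ℕ) : (Fin n → ℤ) →+ (Fin n → ZMod 2) where
  toFun h := fun i => (h i : ZMod 2)
  map_zero' := by funext i; simp
  map_add' a b := by funext i; simp

@[simp] theorem red2_apply (h : Fin n → ℤ) (i : Fin n) : red2 n h i = (h i : ZMod 2) := rfl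

theorem red2_surjective : Function.Surjective (red2 n) := by
  intro w
  choose c hc using fun i => ZMod.intCast_surjective (w i)
  exact ⟨c, funext hc⟩

theorem red2_mulVec {a b : ℕ} (A : Matrix (Fin a) (Fin b) ℤ) (h : Fin b → ℤ) :
    red2 a (A.mulVec h) = (A.map (Int.cast : ℤ → ZMod 2)).mulVec (red2 b h) := by
  funext i
  exact RingHom.map_mulVec (Int.castRingHom (ZMod 2)) A h i

theorem red2_eq_zero_iff (h : Fin n → ℤ) :
    red2 n h = 0 ↔ ∃ g : Fin n → ℤ, h = (2 : ℤ) • g := by
  constructor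
  · intro h0
    have h1 : ∀ i, (2 : ℤ) ∣ h i := fun i => by
      have := congrFun h0 i
      simp only [red2_apply, Pi.zero_apply] at this
      exact_mod_cast (ZMod.intCast_zmod_eq_zero_iff_dvd (h i) 2).mp this
    choose g hg using h1
    exact ⟨g, funext fun i => by simp [hg i]⟩
  · rintro ⟨g, rfl⟩
    funext i
    simp only [red2_apply, Pi.smul_apply, smul_eq_mul, Int.cast_mul, Int.cast_ofNat,
      Pi.zero_apply]
    have : (2 : ZMod 2) = 0 := by decide
    rw [this, zero_mul]

/-- `W₀`: the fixed space of `M mod 2`. -/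
def latW (M : Matrix (Fin n) (Fin n) ℤ) : Submodule (ZMod 2) (Fin n → ZMod 2) where
  carrier := {v | (M.map (Int.cast : ℤ → ZMod 2)).mulVec v = v}
  add_mem' := fun {a b} ha hb => by
    show (M.map (Int.cast : ℤ → ZMod 2)).mulVec (a + b) = a + b
    rw [Matrix.mulVec_add, ha, hb]
  zero_mem' := Matrix.mulVec_zero _
  smul_mem' := fun c v hv => by
    show (M.map (Int.cast : ℤ → ZMod 2)).mulVec (c • v) = c • v
    rw [Matrix.mulVec_smul, hv]

theorem mem_latW {M : Matrix (Fin n) (Fin n) ℤ} {v : Fin n → ZMod 2} :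
    v ∈ latW M ↔ (M.map (Int.cast : ℤ → ZMod 2)).mulVec v = v := Iff.rfl

/-- `U₀`: the image in `𝔽₂^n` of `H⁺ = ker (I - 1)`. -/
def latU (I : Matrix (Fin n) (Fin n) ℤ) : Submodule (ZMod 2) (Fin n → ZMod 2) where
  carrier := {v | ∃ h : Fin n → ℤ, I.mulVec h = h ∧ red2 n h = v}
  add_mem' := by
    rintro _ _ ⟨a, ha, rfl⟩ ⟨b, hb, rfl⟩
    exact ⟨a + b, by rw [Matrix.mulVec_add, ha, hb], map_add _ _ _⟩
  zero_mem' := ⟨0, Matrix.mulVec_zero _, map_zero _⟩
  smul_mem' := by
    rintro c _ ⟨a, ha, rfl⟩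
    obtain ⟨z, rfl⟩ := ZMod.intCast_surjective c
    refine ⟨z • a, by rw [Matrix.mulVec_smul, ha], ?_⟩
    funext i
    simp [red2]

theorem mem_latU {I : Matrix (Fin n) (Fin n) ℤ} {v : Fin n → ZMod 2} :
    v ∈ latU I ↔ ∃ h : Fin n → ℤ, I.mulVec h = h ∧ red2 n h = v := Iff.rfl

/-- The reduction of `M` modulo `2` is idempotent. -/
theorem map_idem_two (m : ℕ) (hm : m ≠ 0) (M N : Matrix (Fin n) (Fin n) ℤ)
    (hM : M * M = M + (2 : ℤ) ^ m • N) :
    M.map (Int.cast : ℤ → ZMod 2) * M.map (Int.cast : ℤ → ZMod 2) =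
      M.map (Int.cast : ℤ → ZMod 2) := by
  have h1 : M.map (Int.castRingHom (ZMod 2)) * M.map (Int.castRingHom (ZMod 2)) =
      M.map (Int.castRingHom (ZMod 2)) := by
    rw [← Matrix.map_mul, hM]
    ext i j
    simp only [Matrix.map_apply, Matrix.add_apply, Matrix.smul_apply, smul_eq_mul, map_add,
      map_mul, map_pow, eq_intCast, Int.cast_ofNat]
    have h0 : ((2 : ZMod 2) ^ m) = 0 := by
      have : (2 : ZMod 2) = 0 := by decide
      rw [this, zero_pow hm]
    rw [h0, zero_mul, add_zero]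
  exact h1

/-- `dim W₀ = rank (M mod 2)`. -/
theorem finrank_latW (m : ℕ) (hm : m ≠ 0) (M N : Matrix (Fin n) (Fin n) ℤ)
    (hM : M * M = M + (2 : ℤ) ^ m • N) :
    finrank (ZMod 2) ↥(latW M) = (M.map (Int.cast : ℤ → ZMod 2)).rank := by
  have hid := map_idem_two m hm M N hM
  have : latW M = LinearMap.range (M.map (Int.cast : ℤ → ZMod 2)).mulVecLin := by
    ext v
    rw [mem_latW, LinearMap.mem_range]
    constructor
    · intro h
      exact ⟨v, h⟩
    · rintro ⟨w, rfl⟩
      rw [Matrix.mulVecLin_apply, Matrix.mulVec_mulVec, hid]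
  rw [this]
  rfl

end Lattice

section Plus

variable {n : ℕ} (I : Matrix (Fin n) (Fin n) ℤ)

/-- `H⁺ = ker (I - 1)`. -/
def latPlus : Submodule ℤ (Fin n → ℤ) where
  carrier := {h | I.mulVec h = h}
  add_mem' := fun {a b} ha hb => by
    show I.mulVec (a + b) = a + b
    rw [Matrix.mulVec_add, ha, hb]
  zero_mem' := Matrix.mulVec_zero _
  smul_mem' := fun c v hv => by
    show I.mulVec (c • v) = c • v
    rw [Matrix.mulVec_smul, hv]

variable {I}

theorem mem_latPlus {h : Fin n → ℤ} : h ∈ latPlus I ↔ I.mulVec h = h := Iff.rfl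

/-- `H⁺` is saturated in `H`. -/
theorem mem_latPlus_of_smul {a : ℤ} (ha : a ≠ 0) {g : Fin n → ℤ} (h : a • g ∈ latPlus I) :
    g ∈ latPlus I := by
  rw [mem_latPlus] at h ⊢
  rw [Matrix.mulVec_smul] at h
  funext i
  have := congrFun h i
  simp only [Pi.smul_apply, smul_eq_mul] at this
  exact mul_left_cancel₀ ha this

theorem mulVec_mem_latPlus {M : Matrix (Fin n) (Fin n) ℤ} (hMI : M * I = I * M)
    {h : Fin n → ℤ} (hh : h ∈ latPlus I) : M.mulVec h ∈ latPlus I := by
  rw [mem_latPlus] at hh ⊢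
  rw [Matrix.mulVec_mulVec, ← hMI, ← Matrix.mulVec_mulVec, hh]

/-- The error term of an approximate idempotent commuting with `I` preserves `H⁺`. -/
theorem mulVec_err_mem_latPlus {m : ℕ} {M N : Matrix (Fin n) (Fin n) ℤ} (hMI : M * I = I * M)
    (hM : M * M = M + (2 : ℤ) ^ m • N) {h : Fin n → ℤ} (hh : h ∈ latPlus I) :
    N.mulVec h ∈ latPlus I := by
  apply mem_latPlus_of_smul (a := (2 : ℤ) ^ m) (pow_ne_zero _ two_ne_zero)
  have h1 : (2 : ℤ) ^ m • N.mulVec h = M.mulVec (M.mulVec h) - M.mulVec h := by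
    rw [Matrix.mulVec_mulVec, hM, Matrix.add_mulVec, Matrix.smul_mulVec]
    abel
  rw [h1]
  exact Submodule.sub_mem _ (mulVec_mem_latPlus hMI (mulVec_mem_latPlus hMI hh))
    (mulVec_mem_latPlus hMI hh)

variable (I)

/-- The restriction to `H⁺` of a matrix commuting with `I`. -/
def restrPlus (M : Matrix (Fin n) (Fin n) ℤ) (hMI : M * I = I * M) :
    latPlus I →ₗ[ℤ] latPlus I :=
  M.mulVecLin.restrict (p := latPlus I) fun _ hh => mulVec_mem_latPlus hMI hh

@[simp] theorem coe_restrPlus (M : Matrix (Fin n) (Fin n) ℤ) (hMI : M * I = I * M)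
    (h : latPlus I) : ((restrPlus I M hMI h : latPlus I) : Fin n → ℤ) = M.mulVec h := rfl

variable {I}

/-- `2 tr (M | H⁺) = tr M + tr (M I)`. -/
theorem two_mul_trace_restrPlus (hI : I * I = 1) (M : Matrix (Fin n) (Fin n) ℤ)
    (hMI : M * I = I * M) :
    2 * LinearMap.trace ℤ (latPlus I) (restrPlus I M hMI) = M.trace + (M * I).trace := by
  have hf : ∀ x : Fin n → ℤ, (M * (1 + I)).mulVecLin x ∈ latPlus I := by
    intro x
    rw [mem_latPlus, Matrix.mulVecLin_apply, Matrix.mulVec_mulVec]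
    congr 1
    rw [← mul_assoc, ← hMI, mul_assoc, mul_add, mul_one, hI, add_comm]
  have h1 := LinearMap.trace_restrict_eq_of_forall_mem (latPlus I) (M * (1 + I)).mulVecLin hf
  have h2 : (M * (1 + I)).mulVecLin.restrict (p := latPlus I) (fun x _ => hf x) =
      (2 : ℤ) • restrPlus I M hMI := by
    ext ⟨x, hx⟩ : 1
    apply Subtype.ext
    rw [LinearMap.coe_restrict_apply, LinearMap.smul_apply, Submodule.coe_smul, coe_restrPlus,
      Matrix.mulVecLin_apply, ← Matrix.mulVec_mulVec, Matrix.add_mulVec, Matrix.one_mulVec,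
      mem_latPlus.mp hx, ← two_smul ℤ x, Matrix.mulVec_smul]
  have h3 : LinearMap.trace ℤ (Fin n → ℤ) (M * (1 + I)).mulVecLin = (M * (1 + I)).trace := by
    rw [LinearMap.trace_eq_matrix_trace ℤ (Pi.basisFun ℤ (Fin n)),
      LinearMap.toMatrix_eq_toMatrix', ← Matrix.toLin'_apply', LinearMap.toMatrix'_toLin']
  rw [h2, map_smul, h3, smul_eq_mul] at h1
  rw [h1, mul_add, mul_one, Matrix.trace_add]

end Plus

section Basis

variable {n d : ℕ} {I : Matrix (Fin n) (Fin n) ℤ} (β : Basis (Fin d) ℤ (latPlus I))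

/-- The matrix of the inclusion `H⁺ → H`. -/
noncomputable def matB : Matrix (Fin n) (Fin d) ℤ := Matrix.of fun k i => (β i : Fin n → ℤ) k

theorem matB_mulVec (c : Fin d → ℤ) :
    (matB β).mulVec c = ((β.equivFun.symm c : latPlus I) : Fin n → ℤ) := by
  funext k
  rw [Basis.equivFun_symm_apply]
  simp only [matB, Matrix.mulVec, dotProduct, Matrix.of_apply, Submodule.coe_sum,
    Submodule.coe_smul, Finset.sum_apply, Pi.smul_apply, smul_eq_mul]
  exact Finset.sum_congr rfl fun i _ => mul_comm _ _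

theorem matB_mulVec_mem (c : Fin d → ℤ) : (matB β).mulVec c ∈ latPlus I := by
  rw [matB_mulVec]
  exact Subtype.property _

theorem exists_matB_mulVec_eq {h : Fin n → ℤ} (hh : h ∈ latPlus I) :
    ∃ c : Fin d → ℤ, (matB β).mulVec c = h :=
  ⟨β.equivFun ⟨h, hh⟩, by rw [matB_mulVec, LinearEquiv.symm_apply_apply]⟩

theorem matB_mulVec_injective : Function.Injective (matB β).mulVec := by
  intro c c' h
  rw [matB_mulVec, matB_mulVec] at h
  exact β.equivFun.symm.injective (Subtype.ext h)

/-- `M B = B M⁺`. -/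
theorem mul_matB (M : Matrix (Fin n) (Fin n) ℤ) (hMI : M * I = I * M) :
    M * matB β = matB β * LinearMap.toMatrix β β (restrPlus I M hMI) := by
  apply Matrix.mulVec_injective
  funext c
  rw [← Matrix.mulVec_mulVec, ← Matrix.mulVec_mulVec, matB_mulVec, matB_mulVec]
  have hc : c = ⇑(β.repr (β.equivFun.symm c)) := by
    rw [← Basis.equivFun_apply, LinearEquiv.apply_symm_apply]
  conv_rhs => rw [hc, LinearMap.toMatrix_mulVec_repr]
  rw [← Basis.equivFun_apply, LinearEquiv.symm_apply_apply]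
  rfl

/-- The reduction modulo `2` of the inclusion `H⁺ → H` is injective (`H⁺` is saturated). -/
theorem red_matB_injective :
    Function.Injective ((matB β).map (Int.cast : ℤ → ZMod 2)).mulVecLin := by
  intro w w' hww
  have h0 : ((matB β).map (Int.cast : ℤ → ZMod 2)).mulVec (w - w') = 0 := by
    have := sub_eq_zero.mpr hww
    rw [← map_sub] at this
    exact this
  obtain ⟨c, hc⟩ := red2_surjective (w - w')
  rw [← hc, ← red2_mulVec, red2_eq_zero_iff] at h0
  obtain ⟨g, hg⟩ := h0
  have hgm : g ∈ latPlus I :=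
    mem_latPlus_of_smul (a := 2) two_ne_zero (hg ▸ matB_mulVec_mem β c)
  obtain ⟨c', hc'⟩ := exists_matB_mulVec_eq β hgm
  have h1 : (matB β).mulVec c = (matB β).mulVec ((2 : ℤ) • c') := by
    rw [Matrix.mulVec_smul, hc', hg]
  have hcc := matB_mulVec_injective β h1
  have h2 : w - w' = 0 := by
    rw [← hc, hcc]
    exact (red2_eq_zero_iff _).mpr ⟨c', rfl⟩
  exact sub_eq_zero.mp h2

/-- `W₀ ∩ U₀` is the image of the range of `M⁺ mod 2`. -/
theorem latW_inf_latU_eq (m : ℕ) (hm : m ≠ 0) (M N : Matrix (Fin n) (Fin n) ℤ)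
    (hMI : M * I = I * M) (hM : M * M = M + (2 : ℤ) ^ m • N) :
    latW M ⊓ latU I =
      (LinearMap.range ((LinearMap.toMatrix β β (restrPlus I M hMI)).map
        (Int.cast : ℤ → ZMod 2)).mulVecLin).map
        ((matB β).map (Int.cast : ℤ → ZMod 2)).mulVecLin := by
  have hid := map_idem_two m hm M N hM
  have hcomm : M.map (Int.cast : ℤ → ZMod 2) * (matB β).map (Int.cast : ℤ → ZMod 2) =
      (matB β).map (Int.cast : ℤ → ZMod 2) *
        (LinearMap.toMatrix β β (restrPlus I M hMI)).map (Int.cast : ℤ → ZMod 2) := by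
    have h1 := congrArg (fun X : Matrix (Fin n) (Fin d) ℤ => X.map (Int.castRingHom (ZMod 2)))
      (mul_matB β M hMI)
    simp only [Matrix.map_mul] at h1
    exact h1
  have key : ∀ c : Fin d → ℤ, ((matB β).map (Int.cast : ℤ → ZMod 2)).mulVec
      (((LinearMap.toMatrix β β (restrPlus I M hMI)).map (Int.cast : ℤ → ZMod 2)).mulVec
        (red2 d c)) =
      (M.map (Int.cast : ℤ → ZMod 2)).mulVec (red2 n ((matB β).mulVec c)) := by
    intro c
    rw [Matrix.mulVec_mulVec, ← hcomm, ← Matrix.mulVec_mulVec, ← red2_mulVec]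
  ext v
  rw [Submodule.mem_inf, mem_latW, mem_latU, Submodule.mem_map]
  constructor
  · rintro ⟨hv, h, hh, rfl⟩
    obtain ⟨c, hc⟩ := exists_matB_mulVec_eq β hh
    refine ⟨_, LinearMap.mem_range_self _ (red2 d c), ?_⟩
    rw [Matrix.mulVecLin_apply, Matrix.mulVecLin_apply, key, hc, hv]
  · rintro ⟨_, ⟨w, rfl⟩, rfl⟩
    obtain ⟨c, rfl⟩ := red2_surjective w
    rw [Matrix.mulVecLin_apply, Matrix.mulVecLin_apply, key]
    constructor
    · rw [Matrix.mulVec_mulVec, hid]
    · exact ⟨M.mulVec ((matB β).mulVec c),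
        mulVec_mem_latPlus hMI (matB_mulVec_mem β c), red2_mulVec _ _⟩

end Basis

section Main

variable {n : ℕ}

/-- **NUM-∞ at `2`, lattice form**: `2 dim (W₀ ∩ U₀) = dim W₀`. -/
theorem two_mul_finrank_inf_eq (m : ℕ) (hm : m ≠ 0) (hnm : 2 * n < 2 ^ m)
    (M I N : Matrix (Fin n) (Fin n) ℤ) (hI : I * I = 1) (hMI : M * I = I * M)
    (htr : (M * I).trace = 0) (hM : M * M = M + (2 : ℤ) ^ m • N) :
    2 * finrank (ZMod 2) ↥(latW M ⊓ latU I) = finrank (ZMod 2) ↥(latW M) := by
  classical
  set β := Module.finBasis ℤ (latPlus I) with hβ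
  set Mp := LinearMap.toMatrix β β (restrPlus I M hMI) with hMp
  set Np := LinearMap.toMatrix β β (restrPlus I N
    (by
      -- `N` commutes with `I` (torsion-freeness)
      have h1 : (2 : ℤ) ^ m • (N * I) = (2 : ℤ) ^ m • (I * N) := by
        have e1 : (2 : ℤ) ^ m • N = M * M - M := by rw [hM]; abel
        rw [← Matrix.smul_mul, ← Matrix.mul_smul, e1, sub_mul, mul_sub, mul_assoc, hMI,
          ← mul_assoc, hMI, mul_assoc]
      ext i j
      have := congrFun (congrFun h1 i) j
      simp only [Matrix.smul_apply, smul_eq_mul] at this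
      exact mul_left_cancel₀ (pow_ne_zero _ two_ne_zero) this)) with hNp
  -- `M⁺` is idempotent modulo `2^m`
  have hMpid : Mp * Mp = Mp + (2 : ℤ) ^ m • Np := by
    rw [hMp, hNp, ← LinearMap.toMatrix_mul, ← map_smul, ← map_add]
    congr 1
    ext ⟨x, hx⟩ : 1
    apply Subtype.ext
    simp only [Module.End.mul_apply, LinearMap.add_apply, LinearMap.smul_apply,
      Submodule.coe_add, Submodule.coe_smul, coe_restrPlus]
    rw [Matrix.mulVec_mulVec, hM, Matrix.add_mulVec, Matrix.smul_mulVec]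
  have hT := trace_eq_rank_mod m hm M N hM
  have hTp := trace_eq_rank_mod m hm Mp Np hMpid
  have htr2 : 2 * Mp.trace = M.trace := by
    have := two_mul_trace_restrPlus hI M hMI
    rw [htr, add_zero, LinearMap.trace_eq_matrix_trace ℤ β] at this
    exact this
  have hW := finrank_latW m hm M N hM
  have hWU : finrank (ZMod 2) ↥(latW M ⊓ latU I) =
      (Mp.map (Int.cast : ℤ → ZMod 2)).rank := by
    rw [latW_inf_latU_eq β m hm M N hMI hM]
    exact (Submodule.equivMapOfInjective _ (red_matB_injective β) _).finrank_eq.symm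
  -- numerics
  have hle1 : finrank (ZMod 2) ↥(latW M) ≤ n := by
    have := Submodule.finrank_le (latW M)
    rwa [Module.finrank_fin_fun] at this
  have hle2 : finrank (ZMod 2) ↥(latW M ⊓ latU I) ≤ finrank (ZMod 2) ↥(latW M) :=
    Submodule.finrank_mono inf_le_left
  have hcong : ((2 * finrank (ZMod 2) ↥(latW M ⊓ latU I) : ℕ) : ZMod (2 ^ m)) =
      ((finrank (ZMod 2) ↥(latW M) : ℕ) : ZMod (2 ^ m)) := by
    rw [hWU, hW, ← hT, ← htr2, Nat.cast_mul, ← hTp]
    push_cast
    rfl
  have h3 := (ZMod.natCast_eq_natCast_iff' _ _ _).mp hcong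
  rw [Nat.mod_eq_of_lt (by omega), Nat.mod_eq_of_lt (by omega)] at h3
  exact h3

end Main

end Fermat.Agent.S15.Desc.H99
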