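import Fermat.Agent.S15.Desc.H69_Tors
import Fermat.Agent.S15.Desc.H99_NumTwoAlg

/-!
# S15 / DESC / NUM-∞ at `r = 2`: the abstract statement (helper99)

`J` an abelian group with commuting actions of a group `G` and of a commutative ring `R`,
`2`-divisible; `c ∈ G` an involution, `e ∈ R`.  Coordinates `θ₂ : J[2] ≃ 𝔽₂^n`,
`θ₄ : J[4] ≃ (ℤ/4)^n` (compatible), in which `e` acts through an integer matrix `M` and `c` through
`-I`, `I` an integer involution commuting with `M` with `tr (M I) = 0`, and `M` idempotent modulo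
`2^m`, `2 n < 2^m`.  Then `Vinf := θ₂⁻¹ (image of ker (I - 1))` contains the values at `c` of the
Kummer cocycles, and `2 dim (W ∩ Vinf) ≤ dim W` for `W = e J[2]`.

(`Vinf = 2 · ker (c + 1 | J[4])`: for `y = 2 z` with `2 y` rational, `u = e (c z - z) ∈ J[4]`
satisfies `c u = -u` and `2 u = e (c y - y)`.)
-/

set_option autoImplicit false
set_option linter.unusedSectionVars false

namespace Fermat.Agent.S15.Desc.H99

open Module Fermat.Agent.S15.Desc

section Lift

variable {n : ℕ}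

/-- A vector of `(ℤ/4)^n` fixed by an integer involution `I` is congruent modulo `2` to an
integer vector fixed by `I`. -/
theorem exists_lift_fixed (I : Matrix (Fin n) (Fin n) ℤ) (hI : I * I = 1)
    (x : Fin n → ZMod 4) (hx : (I.map (Int.cast : ℤ → ZMod 4)).mulVec x = x) :
    ∃ h : Fin n → ℤ, I.mulVec h = h ∧
      ∀ i, (h i : ZMod 2) = ZMod.castHom (show 2 ∣ 4 by norm_num) (ZMod 2) (x i) := by
  choose h₀ hh₀ using fun i => ZMod.intCast_surjective (x i)
  have hx0 : x = fun i => ((h₀ i : ℤ) : ZMod 4) := funext fun i => (hh₀ i).symm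
  -- `I h₀ ≡ h₀` modulo `4`
  have h1 : ∀ i, (4 : ℤ) ∣ I.mulVec h₀ i - h₀ i := by
    intro i
    have e1 : (((I.mulVec h₀ i : ℤ)) : ZMod 4) = x i := by
      have := RingHom.map_mulVec (Int.castRingHom (ZMod 4)) I h₀ i
      have e2 : (I.map (Int.castRingHom (ZMod 4))).mulVec (Int.castRingHom (ZMod 4) ∘ h₀) =
          (I.map (Int.cast : ℤ → ZMod 4)).mulVec x := by
        rw [hx0]; rfl
      rw [e2, hx] at this
      exact this
    have e3 : ((I.mulVec h₀ i - h₀ i : ℤ) : ZMod 4) = 0 := by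
      rw [Int.cast_sub, e1, hh₀ i, sub_self]
    exact_mod_cast (ZMod.intCast_zmod_eq_zero_iff_dvd _ 4).mp e3
  choose g hg using h1
  have hIh : I.mulVec h₀ = h₀ + (4 : ℤ) • g := by
    funext i
    have := hg i
    simp only [Pi.add_apply, Pi.smul_apply, smul_eq_mul]
    linarith
  -- `I g = - g`
  have hIg : I.mulVec g = -g := by
    have e1 : I.mulVec (I.mulVec h₀) = h₀ := by
      rw [Matrix.mulVec_mulVec, hI, Matrix.one_mulVec]
    rw [hIh, Matrix.mulVec_add, Matrix.mulVec_smul, hIh] at e1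
    funext i
    have := congrFun e1 i
    simp only [Pi.add_apply, Pi.smul_apply, smul_eq_mul, Pi.neg_apply] at this ⊢
    linarith
  refine ⟨h₀ + (2 : ℤ) • g, ?_, fun i => ?_⟩
  · rw [Matrix.mulVec_add, Matrix.mulVec_smul, hIh, hIg]
    funext i
    simp only [Pi.add_apply, Pi.smul_apply, smul_eq_mul, Pi.neg_apply]
    ring
  · simp only [Pi.add_apply, Pi.smul_apply, smul_eq_mul, Int.cast_add, Int.cast_mul,
      Int.cast_ofNat]
    have h2 : (2 : ZMod 2) = 0 := by decide
    rw [h2, zero_mul, add_zero, ← hh₀ i, map_intCast]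

end Lift

section Abstract

variable {J : Type*} [AddCommGroup J] {G : Type*} [Group G] [DistribMulAction G J]
  {R : Type*} [CommRing R] [Module R J]

/-- An additive equivalence of `ZMod 2`-modules is linear. -/
noncomputable def linOfAdd {n : ℕ} (θ₂ : TorsR J 2 ≃+ (Fin n → ZMod 2)) :
    TorsR J 2 ≃ₗ[ZMod 2] (Fin n → ZMod 2) :=
  { θ₂ with map_smul' := fun c x => ZMod.map_smul θ₂.toAddMonoidHom c x }

@[simp] theorem linOfAdd_apply {n : ℕ} (θ₂ : TorsR J 2 ≃+ (Fin n → ZMod 2)) (v : TorsR J 2) :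
    linOfAdd θ₂ v = θ₂ v := rfl

theorem finrank_comap_linOfAdd {n : ℕ} (θ₂ : TorsR J 2 ≃+ (Fin n → ZMod 2))
    (S : Submodule (ZMod 2) (Fin n → ZMod 2)) :
    finrank (ZMod 2) ↥(S.comap (linOfAdd θ₂).toLinearMap) = finrank (ZMod 2) ↥S := by
  have h1 : S.comap (linOfAdd θ₂).toLinearMap = S.map (linOfAdd θ₂).symm.toLinearMap :=
    (Submodule.map_equiv_eq_comap_symm (linOfAdd θ₂).symm S).symm
  rw [h1]
  exact LinearEquiv.finrank_map_eq (linOfAdd θ₂).symm S

/-- **NUM-∞ at `2`, abstract form.** -/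
theorem numInfTwo_abstract
    (hdiv : ∀ y : J, ∃ z : J, 2 • z = y)
    (c : G) (hcc : ∀ z : J, c • c • z = z)
    (e : R) (hce : ∀ z : J, c • (e • z) = e • (c • z))
    {n : ℕ} (M I N : Matrix (Fin n) (Fin n) ℤ) (m : ℕ) (hm : m ≠ 0) (hnm : 2 * n < 2 ^ m)
    (hI : I * I = 1) (hMI : M * I = I * M) (htr : (M * I).trace = 0)
    (hM : M * M = M + (2 : ℤ) ^ m • N)
    (θ₂ : TorsR J 2 ≃+ (Fin n → ZMod 2)) (θ₄ : TorsR J 4 ≃+ (Fin n → ZMod 4))
    (h2e : ∀ v w : TorsR J 2, (w : J) = e • (v : J) →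
      θ₂ w = (M.map (Int.cast : ℤ → ZMod 2)).mulVec (θ₂ v))
    (h4c : ∀ u w : TorsR J 4, (w : J) = c • (u : J) →
      θ₄ w = -((I.map (Int.cast : ℤ → ZMod 4)).mulVec (θ₄ u)))
    (h42 : ∀ (u : TorsR J 4) (v : TorsR J 2), (v : J) = 2 • (u : J) →
      ∀ i, θ₂ v i = ZMod.castHom (show 2 ∣ 4 by norm_num) (ZMod 2) (θ₄ u i)) :
    ∃ Vinf : Submodule (ZMod 2) (TorsR J 2),
      (∀ y ∈ kumDom G J 2, kumCoc 2 e y c ∈ Vinf) ∧
      2 * finrank (ZMod 2) ↥(eisW (J := J) 2 e ⊓ Vinf) ≤
        finrank (ZMod 2) ↥(eisW (J := J) 2 e) := by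
  refine ⟨(latU I).comap (linOfAdd θ₂).toLinearMap, ?_, ?_⟩
  · intro y hy
    rw [Submodule.mem_comap, LinearEquiv.coe_coe, linOfAdd_apply, mem_latU]
    obtain ⟨z, hz⟩ := hdiv y
    have hv : ((kumCoc 2 e y c : TorsR J 2) : J) = e • (c • y - y) := coe_kumCoc e hy c
    -- the point `u = e (c z - z)` of `J[4]`
    have h4 : (4 : ℕ) • z = 2 • y := by
      rw [← hz, smul_smul]
      norm_num
    have hu4 : 4 • (e • (c • z - z)) = 0 := by
      calc 4 • (e • (c • z - z)) = e • (4 • (c • z - z)) := smul_comm _ _ _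
        _ = e • (4 • (c • z) - 4 • z) := by rw [smul_sub (4 : ℕ) (c • z) z]
        _ = e • (c • (4 • z) - 4 • z) := by rw [smul_comm (4 : ℕ) c z]
        _ = 0 := by rw [h4, hy c, sub_self, smul_zero]
    set u : TorsR J 4 := ⟨e • (c • z - z), hu4⟩ with hu
    have hcu : ((-u : TorsR J 4) : J) = c • (u : J) := by
      show -(e • (c • z - z)) = c • (e • (c • z - z))
      calc -(e • (c • z - z)) = e • (-(c • z - z)) := (smul_neg _ _).symm
        _ = e • (z - c • z) := by rw [neg_sub]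
        _ = e • (c • (c • z) - c • z) := by rw [hcc]
        _ = e • (c • (c • z - z)) := by rw [smul_sub c (c • z) z]
        _ = c • (e • (c • z - z)) := (hce _).symm
    have h2u : ((kumCoc 2 e y c : TorsR J 2) : J) = 2 • (u : J) := by
      rw [hv]
      show e • (c • y - y) = 2 • (e • (c • z - z))
      calc e • (c • y - y) = e • (c • (2 • z) - 2 • z) := by rw [hz]
        _ = e • (2 • (c • z) - 2 • z) := by rw [smul_comm (2 : ℕ) c z]
        _ = e • (2 • (c • z - z)) := by rw [smul_sub (2 : ℕ) (c • z) z]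
        _ = 2 • (e • (c • z - z)) := (smul_comm _ _ _).symm
    have hfix : (I.map (Int.cast : ℤ → ZMod 4)).mulVec (θ₄ u) = θ₄ u := by
      have := h4c u (-u) hcu
      rw [map_neg, neg_inj] at this
      exact this.symm
    obtain ⟨h, hh, hred⟩ := exists_lift_fixed I hI (θ₄ u) hfix
    refine ⟨h, hh, funext fun i => ?_⟩
    rw [red2_apply, hred i, h42 u _ h2u i]
  · have hW : eisW (J := J) 2 e = (latW M).comap (linOfAdd θ₂).toLinearMap := by
      ext v
      rw [Submodule.mem_comap, LinearEquiv.coe_coe, linOfAdd_apply, mem_latW, mem_eisW]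
      have hw2 : 2 • (e • (v : J)) = 0 := by
        rw [← smul_comm e, mem_torsR.mp v.2, smul_zero]
      have key := h2e v ⟨e • (v : J), hw2⟩ rfl
      rw [← key]
      constructor
      · intro h
        congr 1
        exact Subtype.ext h
      · intro h
        have := θ₂.injective h
        exact congrArg Subtype.val this
    rw [hW, ← Submodule.comap_inf, finrank_comap_linOfAdd, finrank_comap_linOfAdd]
    exact (two_mul_finrank_inf_eq m hm hnm M I N hI hMI htr hM).le

end Abstract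

end Fermat.Agent.S15.Desc.H99
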