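import Fermat.Agent.S15.Desc.DefsTwo
import Fermat.Agent.S15.Desc.H69_DivAll
import Fermat.Agent.S15.Desc.H97_Conj
import Fermat.Agent.S15.H2_GH
import Fermat.Agent.S15.Desc.H99_NumTwo

/-!
# S15 / DESC / NUM-∞ at `r = 2`: from the Betti coordinates to `Stmt_NUMinfTwo` (helper99)

* `BettiCoord p c` : the interface — coordinates `θ_m : J₀(p)[m] ≃ (ℤ/m)^n` for all `m ≠ 0`,
  compatible in `m`, in which the (anemic) Hecke ring acts through integer matrices `mat t`
  and `c` acts through `-I`, with `I² = 1`, `mat t` commuting with `I`, `tr (mat t · I) = 0`.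
* `stmt_NUMinfTwo_of_betti` : `BettiCoord p c` for a complex conjugation `c` ⟹ `Stmt_NUMinfTwo p`.
-/

set_option autoImplicit false
set_option linter.unusedSectionVars false
set_option linter.style.haveILetI false
set_option linter.unusedVariables false

noncomputable section

open ModularCurve Module

namespace Fermat.Agent.S15.Desc.H99

open Fermat.Agent.S15 Fermat.Agent.S15.Desc

local notation "Qbar" => AlgebraicClosure ℚ

attribute [local instance] heckeInst

section Err

variable {J : Type*} [AddCommGroup J] {R : Type*} [CommRing R] [Module R J]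

/-- If `e` is idempotent on `J[q]` and acts there through the integer matrix `M`, then `M` is
idempotent modulo `q`. -/
theorem exists_err_of_idem (e : R) {n q : ℕ} (hq : q ≠ 0) (M : Matrix (Fin n) (Fin n) ℤ)
    (θq : TorsR J q ≃+ (Fin n → ZMod q))
    (hqe : ∀ v w : TorsR J q, (w : J) = e • (v : J) →
      θq w = (M.map (Int.cast : ℤ → ZMod q)).mulVec (θq v))
    (hidem : ∀ y : J, q • y = 0 → e • (e • y) = e • y) :
    ∃ N : Matrix (Fin n) (Fin n) ℤ, M * M = M + (q : ℤ) • N := by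
  classical
  haveI : NeZero q := ⟨hq⟩
  have hmem : ∀ v : TorsR J q, q • (e • (v : J)) = 0 := fun v => by
    rw [← smul_comm e, mem_torsR.mp v.2, smul_zero]
  have h1 : ∀ x : Fin n → ZMod q, (M.map (Int.cast : ℤ → ZMod q)).mulVec
      ((M.map (Int.cast : ℤ → ZMod q)).mulVec x) = (M.map (Int.cast : ℤ → ZMod q)).mulVec x := by
    intro x
    obtain ⟨v, rfl⟩ := θq.surjective x
    set w : TorsR J q := ⟨e • (v : J), hmem v⟩ with hw
    have e1 := hqe v w rfl
    have e2 := hqe w w (hidem (v : J) (mem_torsR.mp v.2)).symm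
    rw [← e1, ← e2]
  have h2 : M.map (Int.cast : ℤ → ZMod q) * M.map (Int.cast : ℤ → ZMod q) =
      M.map (Int.cast : ℤ → ZMod q) := by
    apply Matrix.mulVec_injective
    funext x
    rw [← Matrix.mulVec_mulVec]
    exact h1 x
  have h3 : ∀ i j, (q : ℤ) ∣ (M * M - M) i j := by
    intro i j
    have e1 : (M * M).map (Int.castRingHom (ZMod q)) = M.map (Int.castRingHom (ZMod q)) := by
      rw [Matrix.map_mul]
      exact h2
    have e2 := congrFun (congrFun e1 i) j
    simp only [Matrix.map_apply, eq_intCast] at e2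
    rw [← ZMod.intCast_zmod_eq_zero_iff_dvd, Matrix.sub_apply, Int.cast_sub, e2, sub_self]
  choose N hN using h3
  refine ⟨Matrix.of N, ?_⟩
  ext i j
  have := hN i j
  simp only [Matrix.sub_apply] at this
  simp only [Matrix.add_apply, Matrix.smul_apply, Matrix.of_apply, smul_eq_mul]
  linarith

end Err

/-- **The interface**: Betti coordinates on the torsion of `J₀(p)`. -/
def BettiCoord (p : ℕ) [NeZero p] (c : GalQ) : Prop :=
  ∃ (n : ℕ) (I : Matrix (Fin n) (Fin n) ℤ) (mat : HeckeAlg → Matrix (Fin n) (Fin n) ℤ)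
    (θ : ∀ m : ℕ, m ≠ 0 → (TorsR (JZero p) m ≃+ (Fin n → ZMod m))),
    I * I = 1 ∧ (∀ t, mat t * I = I * mat t) ∧ (∀ t, (mat t * I).trace = 0) ∧
    (∀ (m : ℕ) (hm : m ≠ 0) (t : HeckeAlg) (v w : TorsR (JZero p) m),
      (w : JZero p) = t • (v : JZero p) →
        θ m hm w = ((mat t).map (Int.cast : ℤ → ZMod m)).mulVec (θ m hm v)) ∧
    (∀ (m : ℕ) (hm : m ≠ 0) (v w : TorsR (JZero p) m),
      (w : JZero p) = c • (v : JZero p) →
        θ m hm w = -((I.map (Int.cast : ℤ → ZMod m)).mulVec (θ m hm v))) ∧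
    (∀ (a b : ℕ) (ha : a ≠ 0) (hb : b ≠ 0) (hab : a ∣ b) (u : TorsR (JZero p) b)
      (v : TorsR (JZero p) a), (v : JZero p) = (b / a) • (u : JZero p) →
        ∀ i, θ a ha v i = ZMod.castHom hab (ZMod a) (θ b hb u i))

/-- **NUM-∞ at `2`** from the Betti coordinates. -/
theorem stmt_NUMinfTwo_of_betti (p : ℕ) [NeZero p]
    (h : ∃ (c : GalQ) (i : Qbar), i ^ 2 = -1 ∧ c i ≠ i ∧ c * c = 1 ∧ BettiCoord p c) :
    Stmt_NUMinfTwo p := by
  obtain ⟨c, i, hi, hci, hcc, n, I, mat, θ, hI, hcomm, htr, hθe, hθc, hcompat⟩ := h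
  refine ⟨c, i, hi, hci, hcc, n, fun k e hk he => ?_⟩
  obtain ⟨-, hidem, -⟩ := he
  have hq : (2 : ℕ) ^ (k + 1) ≠ 0 := pow_ne_zero _ two_ne_zero
  obtain ⟨N, hN⟩ := exists_err_of_idem (J := JZero p) e hq (mat e) (θ (2 ^ (k + 1)) hq)
    (hθe _ hq e) hidem
  have hN' : mat e * mat e = mat e + (2 : ℤ) ^ (k + 1) • N := by
    rw [hN]
    push_cast
    rfl
  have hnm : 2 * n < 2 ^ (k + 1) := by
    have h1 : n < 2 ^ n := Nat.lt_two_pow_self
    have h2 : 2 ^ (n + 1) ≤ 2 ^ (k + 1) := Nat.pow_le_pow_right (by norm_num) (by omega)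
    have h3 : 2 ^ (n + 1) = 2 * 2 ^ n := by ring
    omega
  exact numInfTwo_abstract (J := JZero p) (G := GalQ) (R := HeckeAlg)
    (fun y => jzero_divisible_all p 2 two_ne_zero y) c
    (fun z => by rw [← mul_smul, hcc, one_smul]) e
    (fun z => Fermat.Agent.S15.H2.stmt_GH p c (anemicSubst p e) z)
    (mat e) I N (k + 1) (Nat.succ_ne_zero k) hnm hI (hcomm e) (htr e) hN'
    (θ 2 two_ne_zero) (θ 4 four_ne_zero) (hθe 2 two_ne_zero e) (hθc 4 four_ne_zero)
    (fun u v huv i => hcompat 2 4 two_ne_zero four_ne_zero (by norm_num) u v huv i)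

end Fermat.Agent.S15.Desc.H99
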